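import Fermat.Agent.TW.Character
import Fermat.Agent.RootIrred.EigenvalueBound

/-!
# `U_q² = ⟨q⟩` forces newness at `q`

A character of the full Hecke ring of `Γ_H(L)`, `q ∥ L` with trivial nebentypus at `q`, satisfying
`U_q² = ⟨q⟩` has twisted newform of level divisible by `q`: an old twist would have `U_q` a root of
`X² - a X + q` equal to `±1`, so `|a| = q + 1`.
-/

set_option autoImplicit false

noncomputable section

namespace Fermat.Agent.IharaTW

open UpperHalfPlane CongruenceSubgroup Fermat.Agent.GammaH Fermat.Agent.Newform Fermat.Agent.TW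
open ModularFormClass (qCoeff)
open scoped MatrixGroups ModularForm

variable {L R q : ℕ} [NeZero L] [NeZero R] {H : Subgroup (ZMod L)ˣ}

/-- The three term relation on dilates of an unramified newform at a prime dividing the level
exactly once. -/
theorem dilate_rel {K M : ℕ} [NeZero K] [NeZero M] {G : CuspForm (Gamma0 M) 2} (hG : G.IsNewform)
    (hq : q.Prime) (hqM : ¬ q ∣ M) (hqK : ¬ q ^ 2 ∣ K) {F : CuspForm (Gamma0 K) 2}
    (hF : F ∈ dilateSpan K G) :
    qCoeff ⇑F (q ^ 2) - qCoeff ⇑G q * qCoeff ⇑F q + (q : ℂ) * qCoeff ⇑F 1 = 0 := by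
  induction hF using Submodule.span_induction with
  | mem F hF =>
    obtain ⟨d, hd, rfl⟩ := hF
    simp only [qCoeff_degen]
    by_cases hd2 : d ∣ q ^ 2
    · obtain ⟨i, hi, rfl⟩ := (Nat.dvd_prime_pow hq).mp hd2
      interval_cases i
      · have h := Hecke.eigenform_rec hG.1 hq q
        rw [if_neg hqM, if_pos dvd_rfl, Nat.div_self hq.pos, hG.1.qCoeff_one, mul_one] at h
        simp only [pow_zero, one_dvd, if_true, Nat.div_one, hG.1.qCoeff_one, mul_one, sq]
        linear_combination h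
      · have h1 : ¬ q ∣ 1 := fun h => hq.one_lt.ne' (Nat.dvd_one.mp h)
        simp only [pow_one, if_pos dvd_rfl, Nat.div_self hq.pos, hG.1.qCoeff_one, if_neg h1]
        rw [if_pos (dvd_pow_self q two_ne_zero), sq, Nat.mul_div_cancel _ hq.pos]
        ring
      · exact absurd ((dvd_mul_left (q ^ 2) M).trans hd) hqK
    · rw [if_neg hd2, if_neg fun h => hd2 (h.trans (dvd_pow_self q two_ne_zero)),
        if_neg fun h => hd2 (h.trans (one_dvd _))]
      ring
  | zero => simp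
  | add x y _ _ hx hy =>
    simp only [Hecke.qCoeff_add]
    linear_combination hx + hy
  | smul r x _ hx =>
    simp only [Hecke.qCoeff_smul]
    linear_combination r * hx

/-- **Newness at `q`.** -/
theorem dvd_level_of_heckeU_sq (hH : (-1 : (ZMod L)ˣ) ∈ H) (hR : R ∣ L)
    (hker : (ZMod.unitsMap hR).ker ≤ H) {h : ℕ} (hodd : ∀ a : (ZMod L)ˣ, a ^ (2 * h + 1) ∈ H)
    (hq : q.Prime) (hqL : q ∣ L) (hqLR : ¬ q ^ 2 ∣ L * R) {a : (ZMod L)ˣ}
    (ha : (ZMod.unitsMap hR a : ZMod R) = q) (lam : heckeRing L H ∅ →+* ℂ)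
    (hU : lam (heckeUR hq hqL (Set.notMem_empty q)) ^ 2 = lam (diamondR a))
    {M : ℕ} [NeZero M] {G : CuspForm (Gamma0 M) 2} (hG : G.IsNewform) (T : Finset ℕ)
    (hGl : ∀ (l : ℕ) (hl : l.Prime) (hlL : ¬ l ∣ L), l ∉ T →
      qCoeff ⇑G l = lam (twistedT h hl hlL (Set.notMem_empty l))) : q ∣ M := by
  classical
  by_contra hqM
  obtain ⟨f, hf1, hf, -, -⟩ := exists_eigenform hH lam
  let χ₀ : (ZMod L)ˣ →* ℂ :=
    { toFun := fun a => lam (diamondR a)
      map_one' := by rw [diamondR_one, map_one]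
      map_mul' := fun a b => by rw [diamondR_mul, map_mul] }
  have hχf : ∀ a, diamond a f = χ₀ a • f := fun a => by
    have := hf (diamondR a)
    rw [coe_diamondR] at this
    exact this
  have hχH : ∀ a ∈ H, χ₀ a = 1 := fun a ha => by
    show lam (diamondR a) = 1
    rw [diamondR_of_mem ha, map_one]
  let ψu : (ZMod R)ˣ →* ℂˣ :=
    (ZMod.unitsMap hR).liftOfSurjective (ZMod.unitsMap_surjective hR)
      ⟨χ₀.toHomUnits ^ h, fun a ha => MonoidHom.mem_ker.2 <| Units.ext (by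
        simp [hχH a (hker ha)])⟩
  have hψu : ∀ a : (ZMod L)ˣ, (ψu (ZMod.unitsMap hR a) : ℂ) = χ₀ a ^ h := fun a => by
    rw [show ψu (ZMod.unitsMap hR a) = (χ₀.toHomUnits ^ h) a from
      MonoidHom.liftOfRightInverse_comp_apply _ _ _ _ a]
    simp
  let ψR : DirichletCharacter ℂ R := MulChar.ofUnitHom ψu
  let ψ := ψR.primitiveCharacter
  have : NeZero ψR.conductor :=
    ⟨fun h0 => NeZero.ne R (Nat.eq_zero_of_zero_dvd (h0 ▸ ψR.conductor_dvd_level))⟩
  have hcL : ψR.conductor ∣ L := ψR.conductor_dvd_level.trans hR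
  have hψ : ∀ a : (ZMod L)ˣ,
      ψ (ZMod.unitsMap hcL a : ZMod ψR.conductor) = χ₀ a ^ h := by
    intro a
    have e : DirichletCharacter.changeLevel ψR.conductor_dvd_level ψ = ψR :=
      ψR.changeLevel_primitiveCharacter
    have e2 := congrArg (fun φ : DirichletCharacter ℂ R =>
      φ (ZMod.unitsMap hR a : ZMod R)) e
    beta_reduce at e2
    rw [DirichletCharacter.changeLevel_eq_cast_of_dvd] at e2
    rw [← hψu, ← MulChar.ofUnitHom_coe ψu]
    refine Eq.trans ?_ e2
    congr 1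
    rw [← ZMod.castHom_apply (h := ψR.conductor_dvd_level), ZMod.unitsMap_def, ZMod.unitsMap_def,
      Units.coe_map, Units.coe_map]
    exact (DFunLike.congr_fun (ZMod.castHom_comp ψR.conductor_dvd_level hR) (a : ZMod L)).symm
  have hχψ : ∀ a : (ZMod L)ˣ,
      χ₀ a * ψ (ZMod.unitsMap hcL a : ZMod ψR.conductor) ^ 2 = 1 := by
    intro a
    rw [hψ, ← pow_mul, ← pow_succ', ← map_pow, mul_comm h 2]
    exact hχH _ (hodd a)
  obtain ⟨g₀, hg₀⟩ := exists_twist hcL f χ₀ hχf ψ ψR.primitiveCharacter_isPrimitive hχψ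
  have hle : ∀ γ ∈ Gamma0 (L * R), (g₀ : ℍ → ℂ) ∣[(2 : ℤ)] γ = g₀ := fun γ hγ => by
    refine cuspForm_slash_SL g₀ ?_
    rw [mem_Gamma0_iff] at hγ ⊢
    exact (Int.natCast_dvd_natCast.2
      (Nat.mul_dvd_mul_left L ψR.conductor_dvd_level)).trans hγ
  let g : CuspForm (Gamma0 (L * R)) 2 := (IsCuspFun.of_cuspForm g₀).toCuspForm hle
  have hg : ∀ n : ℕ, qCoeff ⇑g n = ψ (n : ZMod ψR.conductor) * qCoeff ⇑f n := fun n => by
    rw [show (⇑g : ℍ → ℂ) = ⇑g₀ from rfl]
    exact hg₀ n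
  -- the value of the twist at `q`
  have hψq : ψ (q : ZMod ψR.conductor) = χ₀ a ^ h := by
    rw [← hψ a]
    congr 1
    have e := congrArg (ZMod.castHom ψR.conductor_dvd_level (ZMod ψR.conductor)) ha
    rw [map_natCast] at e
    rw [← e, ZMod.unitsMap_def, ZMod.unitsMap_def, Units.coe_map, Units.coe_map]
    exact DFunLike.congr_fun (ZMod.castHom_comp ψR.conductor_dvd_level hR) (a : ZMod L)
  set α := lam (heckeUR hq hqL (Set.notMem_empty q))
  have hUf : heckeU hqL f = α • f := by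
    have := hf (heckeUR hq hqL (Set.notMem_empty q))
    rwa [coe_heckeUR] at this
  have hfn : ∀ n, qCoeff ⇑f (n * q) = α * qCoeff ⇑f n := fun n => by
    rw [← GammaH.qCoeff_heckeU hqL, hUf, GammaH.qCoeff_smul]
  have hg1 : qCoeff ⇑g 1 = 1 := by rw [hg, Nat.cast_one, map_one, hf1, one_mul]
  have hgq : qCoeff ⇑g q = ψ (q : ZMod ψR.conductor) * α := by
    rw [hg, show qCoeff ⇑f q = qCoeff ⇑f (1 * q) by rw [one_mul], hfn, hf1, mul_one]
  have hgq2 : qCoeff ⇑g (q ^ 2) = 1 := by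
    rw [hg, sq, Nat.cast_mul, map_mul, hfn, show qCoeff ⇑f q = qCoeff ⇑f (1 * q) by rw [one_mul],
      hfn, hf1, mul_one, hψq]
    calc χ₀ a ^ h * χ₀ a ^ h * (α * α) = χ₀ a ^ (2 * h) * α ^ 2 := by ring
      _ = χ₀ a ^ (2 * h + 1) := by rw [hU]; rfl
      _ = 1 := by rw [← map_pow]; exact hχH _ (hodd a)
  -- membership in the old space
  have hmem : g ∈ dilateSpan (L * R) G := by
    refine mem_dilateSpan_of_eigen hG (T ∪ L.primeFactors) fun l hl hlM hlT => ?_
    rw [Finset.mem_union, not_or] at hlT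
    have hlL : ¬ l ∣ L := fun hd => hlM (dvd_mul_of_dvd_left hd R)
    have hμ : GammaH.heckeT hl hlL f = lam (heckeTR hl hlL (Set.notMem_empty l)) • f := by
      have := hf (heckeTR hl hlL (Set.notMem_empty l))
      rw [coe_heckeTR] at this
      exact this
    rw [heckeTLin_twist hl hlL hlM hcL f χ₀ hχf ψ hχψ hg hμ, hGl l hl hlL hlT.1]
    congr 1
    have hl' := hψ (primeUnit hl hlL)
    rw [show (ZMod.unitsMap hcL (primeUnit hl hlL) : ZMod ψR.conductor) =
        (l : ZMod ψR.conductor) by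
      rw [ZMod.unitsMap_def, Units.coe_map, primeUnit, ZMod.coe_unitOfCoprime]
      exact map_natCast (ZMod.castHom hcL (ZMod ψR.conductor)) l] at hl'
    rw [hl', twistedT, map_mul, map_pow]
    rfl
  have hrel := dilate_rel hG hq hqM hqLR hmem
  rw [hgq2, hgq, hg1, mul_one] at hrel
  set β := ψ (q : ZMod ψR.conductor) * α
  have hβ : β * β = 1 := by
    have := hgq2
    rw [hg, sq, Nat.cast_mul, map_mul, hfn, show qCoeff ⇑f q = qCoeff ⇑f (1 * q) by rw [one_mul],
      hfn, hf1, mul_one] at this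
    linear_combination this
  have hcon := EigenBound.qCoeff_sq_ne_succ_sq hG.1 hq hqM
  refine hcon ?_
  linear_combination (-(qCoeff ⇑G q * β) - (q + 1)) * hrel - (qCoeff ⇑G q) ^ 2 * hβ

end Fermat.Agent.IharaTW
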