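import Fermat.Agent.IharaTW.Maps

/-!
# `U_q` on the kernel of the trace maps

`res ∘ cor = 1 + U_q ∘ W` at `Γ_H(N q)`.  So a class killed by both `cor` and `cor ∘ W` satisfies
`U_q² = ⟨q⟩`: it is Steinberg at `q`.
-/

set_option autoImplicit false

noncomputable section

namespace Fermat.Agent.IharaTW

open Matrix CongruenceSubgroup Fermat.Agent.Ihara Fermat.Agent.GammaH
open Fermat.Agent.Periods (toGLR)
open scoped MatrixGroups

variable (N q : ℕ) [hq : Fact q.Prime] (hqN : ¬q ∣ N) (H : Subgroup (ZMod N)ˣ) [NeZero N]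

omit [NeZero N] in
include hqN in
theorem uSys_hasD (j : ZMod q) :
    ∃ v : (ZMod N)ˣ, HasD N ((uSys N q).α j) (v : ZMod N) :=
  ⟨unitOf hqN, by show HasD N (uRep q j) _; simp [HasD, uRep]⟩

/-- `U_q` at level `Γ_H(N q)`. -/
def uH : CosetSys (GammaHq N q H) (GammaHq N q H) (ZMod q) :=
  liftSys (isLevel_q N q H) (isLevel_q N q H) (uSys N q) (uSys_hasD N q hqN) (unitOf hqN)

theorem isLift_uH : IsLift N (uH N q hqN H) (uSys N q) (unitOf hqN) := isLift_liftSys _ _ _ _ _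

theorem uH_op_eq [NeZero (N * q)] {R A : Type*} [CommRing R] [AddCommGroup A] [Module R A]
    (φ : H1q N q H R A) :
    (uH N q hqN H).op R A (φ : Additive (GammaHq N q H) →+ A)
      = (heckeUH R A (dvd_mul_left q N) φ : Additive (GammaHq N q H) →+ A) := by
  have : NeZero q := ⟨hq.out.ne_zero⟩
  have hbr : (heckeUH R A (dvd_mul_left q N) φ : Additive (GammaHq N q H) →+ A)
      = (isCosetFamily_U (H := Hq N q H) (dvd_mul_left q N)).transfer R A φ.1 := rfl
  rw [hbr]
  refine op_eq_transfer _ _ (fun j => ?_) _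
  obtain ⟨⟨g, hg, e⟩, hd⟩ := isLift_uH N q hqN H j
  rw [show (uSys N q).α j = uRep q j from rfl] at e
  have hu : HasD N (uRep q j) (unitOf hqN : ZMod N) := by simp [HasD, uRep]
  have h1 := hd.unique (e ▸ ((isLevel_q N q H).hasD hg).mul hu)
  have hmem : g ∈ GammaHq N q H := (isLevel_q N q H).mem_of_one hg
    ⟨((isLevel_q N q H).hasD hg).1, (unitOf hqN).isUnit.mul_left_injective
      ((show _ * _ = _ from h1.symm).trans (one_mul _).symm)⟩
  refine ⟨⟨g, hmem⟩, ?_⟩
  have hne : (uRep q j).det ≠ 0 := by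
    simp [uRep]
    exact_mod_cast hq.out.ne_zero
  rw [e, rGL_mcoe_mul _ hne]
  exact congrArg (toGLR g * ·) (rGL_zRep hq.out.ne_zero (j : OnePoint (ZMod q)))

variable {A : Type*} [AddCommGroup A]

/-- **`res ∘ cor = 1 + U_q ∘ W`.** -/
theorem resH_corH (φ : Additive (GammaHq N q H) →+ A) :
    (resH N q H).op ℤ A ((corH N q hqN H).op ℤ A φ)
      = φ + (uH N q hqN H).op ℤ A ((wH N q hqN H 1).op ℤ A φ) := by
  classical
  have : NeZero q := ⟨hq.out.ne_zero⟩
  set S := corH N q hqN H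
  set W := wH N q hqN H 1
  set U := uH N q hqN H
  have hL := isLevel_q N q H
  have hq0 : (q : ℤ) ≠ 0 := by exact_mod_cast hq.out.ne_zero
  have hwu : ∀ j : ZMod q,
      wMat N q * uRep q j = (q : ℤ) • mcoe (corRep N q hqN (j : OnePoint (ZMod q))) := by
    intro j
    rw [corRep_coe, wMat, uRep]
    ext i k
    fin_cases i <;> fin_cases k <;>
      simp [Matrix.mul_apply, Fin.sum_univ_two, -ZMod.natCast_val] <;> ring
  -- the representative at infinity
  obtain ⟨⟨g₀, hg₀, e₀⟩, hd₀⟩ := isLift_corH N q hqN H OnePoint.infty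
  rw [corSys_α, corRep_infty, mcoe_one, mul_one] at e₀
  rw [e₀, Units.val_one] at hd₀
  set c₀ : GammaHq N q H := ⟨g₀, hL.mem_of_one hg₀ hd₀⟩
  -- the representatives at the finite points
  have hfin : ∀ j : ZMod q, ∃ c : GammaHq N q H,
      (q : ℤ) • S.α (j : OnePoint (ZMod q)) = mcoe (c : SL(2, ℤ)) * (W.α () * U.α j) := by
    intro j
    obtain ⟨⟨a, ha, ea⟩, hda⟩ := isLift_wH N q hqN H 1 ()
    obtain ⟨⟨b, hb, eb⟩, hdb⟩ := isLift_uH N q hqN H j
    obtain ⟨⟨d, hd, ed⟩, hdd⟩ := isLift_corH N q hqN H (j : OnePoint (ZMod q))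
    obtain ⟨b', hb'⟩ := wMat_conj_one N q hqN ⟨b, hb⟩
    rw [show (uSys N q).α j = uRep q j from rfl] at eb
    rw [show (wSys N q hqN).α () = wMat N q from rfl] at ea
    rw [corSys_α] at ed
    have hmul : W.α () * U.α j
        = (q : ℤ) • (mcoe (a * b' * d⁻¹) * S.α (j : OnePoint (ZMod q))) := by
      rw [ea, eb, ed, mul_assoc (mcoe a), ← mul_assoc (wMat N q), hb',
        mul_assoc (mcoe (b' : SL(2, ℤ))), hwu, Matrix.mul_smul, Matrix.mul_smul]
      simp only [← mcoe_mul]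
      congr 2
      group
    have hmem : a * b' * d⁻¹ ∈ Gamma0 (N * q) := mul_mem (mul_mem ha b'.2) (inv_mem hd)
    have hone : a * b' * d⁻¹ ∈ GammaHq N q H := by
      refine hL.mem_of_one hmem ⟨(hL.hasD hmem).1, ?_⟩
      have h1 := (hda.mul hdb).unique (hmul ▸ ((hL.hasD hmem).mul hdd).smul (q : ℤ))
      rw [Units.val_one, one_mul, Int.cast_natCast, ← GammaH.coe_primeUnit hq.out hqN] at h1
      rw [mul_one] at h1
      exact (unitOf hqN).isUnit.mul_right_injective
        ((show _ = _ * _ from h1).symm.trans (mul_one _).symm)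
    refine ⟨⟨_, hone⟩⁻¹, ?_⟩
    rw [hmul, Subgroup.coe_inv, Matrix.mul_smul, mcoe_inv_mul_cancel]
  choose c hc using hfin
  refine AddMonoidHom.ext fun γ => ?_
  obtain ⟨γ, rfl⟩ := Additive.ofMul.surjective γ
  obtain ⟨hγN, hres⟩ := resH_apply N q H (S.op ℤ A φ) γ
  set γ' : GammaH.GammaH N H := ⟨γ, hγN⟩
  let σ : OnePoint (ZMod q) → OnePoint (ZMod q) := fun x =>
    x.elim OnePoint.infty fun j : ZMod q => ((U.idx γ j : ZMod q) : OnePoint (ZMod q))
  let g : OnePoint (ZMod q) → GammaHq N q H := fun x =>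
    x.elim (c₀ * γ * c₀⁻¹) fun j : ZMod q => c j * W.cof (U.cof γ j) () * (c (U.idx γ j))⁻¹
  have hrel : ∀ x, S.α x * mcoe γ' = mcoe (g x) * S.α (σ x) := by
    intro x
    induction x using OnePoint.rec with
    | infty =>
      show S.α OnePoint.infty * mcoe (γ : SL(2, ℤ))
        = mcoe ((c₀ * γ * c₀⁻¹ : GammaHq N q H) : SL(2, ℤ)) * S.α OnePoint.infty
      rw [e₀, ← mcoe_mul, ← mcoe_mul, Subgroup.coe_mul, Subgroup.coe_mul, Subgroup.coe_inv,
        inv_mul_cancel_right]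
    | coe j =>
      show S.α (j : OnePoint (ZMod q)) * mcoe (γ : SL(2, ℤ))
        = mcoe ((c j * W.cof (U.cof γ j) () * (c (U.idx γ j))⁻¹ : GammaHq N q H) : SL(2, ℤ))
            * S.α ((U.idx γ j : ZMod q) : OnePoint (ZMod q))
      refine smul_right_injective Mat2 hq0 ?_
      show (q : ℤ) • _ = (q : ℤ) • _
      rw [← Matrix.smul_mul, ← Matrix.mul_smul, hc, hc, Subgroup.coe_mul, Subgroup.coe_mul,
        Subgroup.coe_inv, mcoe_mul, mcoe_mul]
      simp only [mul_assoc, mcoe_inv_mul_cancel]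
      rw [U.mul_eq γ j, ← mul_assoc (W.α ()), W.mul_eq (U.cof γ j) (), mul_assoc]
  rw [hres, S.op_apply_of_eq φ γ' σ g hrel, AddMonoidHom.add_apply, U.op_apply,
    ← Finset.add_sum_erase _ _ (Finset.mem_univ (OnePoint.infty : OnePoint (ZMod q)))]
  refine congrArg₂ (· + ·) ?_ ?_
  · show φ (Additive.ofMul (c₀ * γ * c₀⁻¹)) = _
    simp only [ofMul_mul, ofMul_inv, map_add, map_neg]
    abel
  have hW : ∀ δ, W.op ℤ A φ (Additive.ofMul δ) = φ (Additive.ofMul (W.cof δ ())) := fun δ => by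
    rw [W.op_apply, Fintype.sum_unique]
  have key : ∑ j, W.op ℤ A φ (Additive.ofMul (U.cof γ j))
      = ∑ j, φ (Additive.ofMul (g ((j : ZMod q) : OnePoint (ZMod q)))) := by
    show _ = ∑ j, φ (Additive.ofMul (c j * W.cof (U.cof γ j) () * (c (U.idx γ j))⁻¹))
    simp only [ofMul_mul, ofMul_inv, map_add, map_neg, Finset.sum_add_distrib,
      Finset.sum_neg_distrib, hW]
    rw [show (∑ j, φ (Additive.ofMul (c (U.idx γ j)))) = ∑ j, φ (Additive.ofMul (c j)) from
      Equiv.sum_comp (U.permE γ) fun j => φ (Additive.ofMul (c j))]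
    abel
  rw [key]
  symm
  refine Finset.sum_bij (fun j _ => (j : OnePoint (ZMod q))) (fun j _ => by simp)
    (fun a _ b _ h => OnePoint.coe_injective h) (fun x hx => ?_) (fun j _ => rfl)
  induction x using OnePoint.rec with
  | infty => simp at hx
  | coe j => exact ⟨j, Finset.mem_univ _, rfl⟩

variable {R : Type*} [CommRing R] [Module R A] [NeZero (N * q)]

/-- **On the kernel of both traces `U_q² = ⟨q⟩`.** -/
theorem heckeUH_sq_of_gMap_eq_zero {z : H1q N q H R A} (hz : gMap N q hqN H R A z = 0)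
    {a : (ZMod (N * q))ˣ} (ha : ZMod.unitsMap (dvd_mul_right N q) a = unitOf hqN) :
    heckeUH R A (dvd_mul_left q N) (heckeUH R A (dvd_mul_left q N) z) = diamondH R A a z := by
  set U := fun φ => (uH N q hqN H).op ℤ A φ
  set W := fun v φ => (wH N q hqN H v).op ℤ A φ
  set D := fun v φ => (diaSys (isLevel_q N q H) v).op ℤ A φ
  set u := unitOf hqN
  have hh : ∀ φ, (corH N q hqN H).op ℤ A φ = 0 → φ + U (W 1 φ) = 0 := fun φ h => by
    rw [← resH_corH, h, map_zero]
  have h0 : z.1 + U (W 1 z.1) = 0 := hh _ (congrArg Subtype.val (congrFun hz 0))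
  have h1 : W u z.1 + U (W 1 (W u z.1)) = 0 :=
    hh _ (congrArg Subtype.val (congrFun hz 1))
  have hw1 : W 1 (W u z.1) = z.1 := by
    show (wH N q hqN H 1).op ℤ A ((wH N q hqN H u).op ℤ A z.1) = z.1
    rw [wH_wH, mul_one, mul_inv_cancel, dia_one]
  rw [hw1] at h1
  have hdu : D u (W 1 z.1) = W u z.1 := by
    show (diaSys (isLevel_q N q H) u).op ℤ A ((wH N q hqN H 1).op ℤ A z.1)
      = (wH N q hqN H u).op ℤ A z.1
    refine op_comp_lift_single (isLevel_q N q H) (isLift_wH N q hqN H 1) (isLift_diaSys _ u)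
      (isLift_wH N q hqN H u) (fun _ _ _ _ _ _ => rfl) (by simp) one_ne_zero (by simp)
      (fun x => ⟨(), 1, one_mem _, ?_⟩) z.1
    simp [inclSys]
  have hUd : D u (U (W 1 z.1)) = U (D u (W 1 z.1)) :=
    op_dia_comm (isLevel_q N q H) (isLevel_q N q H) (isLift_uH N q hqN H) u _
  refine Subtype.ext ?_
  rw [← uH_op_eq N q hqN H, ← uH_op_eq N q hqN H, ← diaSys_q_op N q H a z, ha]
  show U (U z.1) = D u z.1
  have e1 : U z.1 = -W u z.1 := eq_neg_of_add_eq_zero_right h1
  have e2 : z.1 = -U (W 1 z.1) := eq_neg_of_add_eq_zero_left h0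
  rw [e1]
  conv_rhs => rw [e2]
  show U (-W u z.1) = D u (-U (W 1 z.1))
  rw [show U (-W u z.1) = -(U (W u z.1)) from map_neg _ _,
    show D u (-U (W 1 z.1)) = -(D u (U (W 1 z.1))) from map_neg _ _, hUd, hdu]

end Fermat.Agent.IharaTW
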