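import Fermat.Agent.IharaTW.Nilpotent
import Fermat.Agent.IharaTW.KerUq
import Fermat.Agent.IharaTW.NewAtQ
import Fermat.Agent.TW.Points

/-!
# Operators killing the new part

On the classes killed by both traces `U_q² = ⟨q⟩`; so an anemic operator kills them as soon as it
vanishes at all points of the full Hecke ring with `U_q² = ⟨q⟩`; those points have newforms of level
divisible by `q`.
-/

set_option autoImplicit false

noncomputable section

namespace Fermat.Agent.IharaTW

open IsLocalRing Fermat.Agent.GammaH Fermat.Agent.TW CongruenceSubgroup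
open ModularFormClass (qCoeff)
open scoped MatrixGroups TensorProduct

variable {L : ℕ} [NeZero L] {H : Subgroup (ZMod L)ˣ} {S : Set ℕ}
  {O : Type} [CommRing O] [IsDomain O] [IsDiscreteValuationRing O]
  [IsAdicComplete (maximalIdeal O) O] [CharZero O]

variable (O) in
/-- The anemic ring inside the full one. -/
def toFull : HeckeO L H S O →ₐ[O] HeckeO L H ∅ O :=
  liftO O ((HeckeO.ofT O).comp (heckeIncl (Set.empty_subset S)))

omit [IsDomain O] [IsDiscreteValuationRing O] [IsAdicComplete (maximalIdeal O) O] [CharZero O] in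
theorem toFull_mk (a : O) (t : heckeRing L H S) :
    toFull O (HeckeO.mk O a t) = a • HeckeO.ofT O (heckeIncl (Set.empty_subset S) t) :=
  liftO_tmul O _ a t

variable (hH : (-1 : (ZMod L)ˣ) ∈ H)

theorem matrixH_heckeIncl {S' : Set ℕ} (h : S ⊆ S') (t : heckeRing L H S') :
    matrixH hH (heckeIncl h t) = matrixH hH t := by
  refine latticeHom_eq _ ?_
  show HasMatrix _ (heckeIncl h t).1 _
  rw [coe_heckeIncl]
  exact hasMatrix_latticeHom (heckeAct_mem_lattice (S := S') hH) t

theorem homAction_heckeIncl (R A : Type) [Semiring R] [AddCommGroup A] [Module R A] {S' : Set ℕ}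
    (h : S ⊆ S') (t : heckeRing L H S') :
    homAction hH R A (heckeIncl h t) = homAction hH R A t := by
  simp only [homAction, RingHom.comp_apply, matrixH_heckeIncl]

omit [IsDomain O] [IsDiscreteValuationRing O] [IsAdicComplete (maximalIdeal O) O] [CharZero O] in
theorem actO_toFull (x : HeckeO L H S O) : actO hH O (toFull O x) = actO hH O x := by
  induction x using HeckeO.induction with
  | zero => simp
  | add a b ha hb => simp only [map_add, ha, hb]
  | mk a t =>
    rw [toFull_mk, map_smul, HeckeO.ofT_apply, actO_tmul, one_smul, homAction_heckeIncl, actO_tmul]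

/-- The action on a stable submodule. -/
def actSub (W : Submodule O (H1 L H O O))
    (hW : ∀ (x : HeckeO L H S O), ∀ v ∈ W, actO hH O x v ∈ W) :
    HeckeO L H S O →ₐ[O] Module.End O W where
  toFun x := (actO hH O x).restrict (hW x)
  map_one' := LinearMap.ext fun v => Subtype.ext (by simp)
  map_mul' x y := LinearMap.ext fun v => Subtype.ext (by simp)
  map_zero' := LinearMap.ext fun v => Subtype.ext (by simp)
  map_add' x y := LinearMap.ext fun v => Subtype.ext (by simp)
  commutes' a := LinearMap.ext fun v => Subtype.ext (by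
    rw [LinearMap.coe_restrict_apply, AlgHom.commutes, Module.algebraMap_end_apply,
      Module.algebraMap_end_apply]
    rfl)

variable [Finite (ResidueField O)]

include hH in
/-- **Points criterion.** An anemic operator vanishing at all points of the full ring killing the
annihilator of the kernel `W` of some operators kills `W`. -/
theorem actO_eq_zero_of_points (hLS : ∀ l : ℕ, l.Prime → l ∣ L → l ∈ S)
    (rel : Set (HeckeO L H ∅ O)) (k : HeckeO L H S O)
    (hk : ∀ (O' : Type) [CommRing O'] [IsDomain O'] [IsDiscreteValuationRing O']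
      [IsAdicComplete (maximalIdeal O') O'] [Finite (ResidueField O')] [CharZero O']
      [Algebra O O'] [Module.Finite O O'] [IsLocalHom (algebraMap O O')]
      (x : HeckeO L H ∅ O →ₐ[O] O'), (∀ r ∈ rel, x r = 0) → x (toFull O k) = 0)
    {z : H1 L H O O} (hz : ∀ r ∈ rel, actO hH O r z = 0) : actO hH O k z = 0 := by
  have := moduleFinite_heckeRing (S := S) hH
  have := moduleFree_heckeRing (S := S) hH
  have := moduleFinite_heckeRing (S := (∅ : Set ℕ)) hH
  have := isReduced_heckeRing (H := H) (S := S) hLS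
  have : IsReduced (HeckeO L H S O) := GalRep.isReduced_tensor_int O (heckeRing L H S)
  have : Module.Finite O (HeckeO L H S O) :=
    inferInstanceAs (Module.Finite O (O ⊗[ℤ] heckeRing L H S))
  have : Module.Finite O (HeckeO L H ∅ O) :=
    inferInstanceAs (Module.Finite O (O ⊗[ℤ] heckeRing L H ∅))
  have : Module.Finite O (H1 L H O O) := Module.Finite.equiv (coordH hH O O)
  have : Module.Free O (H1 L H O O) := Module.Free.of_equiv (coordH hH O O)
  let W : Submodule O (H1 L H O O) := ⨅ r ∈ rel, LinearMap.ker (actO hH O r)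
  have memW : ∀ v, v ∈ W ↔ ∀ r ∈ rel, actO hH O r v = 0 := fun v => by
    simp [W, Submodule.mem_iInf]
  have hW : ∀ (x : HeckeO L H ∅ O), ∀ v ∈ W, actO hH O x v ∈ W := fun x v hv => by
    rw [memW] at hv ⊢
    intro r hr
    rw [← Module.End.mul_apply, ← map_mul, mul_comm, map_mul, Module.End.mul_apply, hv r hr,
      map_zero]
  let φ := (actSub hH W hW).comp (toFull (S := S) O)
  have hnil : IsNilpotent (φ k) := by
    refine isNilpotent_apply_of_points (M := W) (actSub hH W hW) fun O' _ _ _ _ _ _ _ _ _ x hx => ?_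
    exact hk O' x fun r hr => hx r (LinearMap.ext fun v => Subtype.ext ((memW _).mp v.2 r hr))
  have h0 := LinearMap.congr_fun (eq_zero_of_isNilpotent_apply (M := W) φ hnil) ⟨z, (memW z).mpr hz⟩
  have h1 := congrArg Subtype.val h0
  rw [← actO_toFull]
  exact h1

omit [IsDomain O] [IsDiscreteValuationRing O] [IsAdicComplete (maximalIdeal O) O] [CharZero O]
  [Finite (ResidueField O)] in
include hH in
/-- The newform of a point of the full ring with `U_q² = ⟨q⟩` has level divisible by `q`. -/
theorem exists_newform_dvd_of_point {R q : ℕ} [NeZero R] (hR : R ∣ L)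
    (hker : (ZMod.unitsMap hR).ker ≤ H) {h : ℕ} (hodd : ∀ a : (ZMod L)ˣ, a ^ (2 * h + 1) ∈ H)
    {S : Finset ℕ} (hLS : ∀ l : ℕ, l.Prime → l ∣ L → l ∈ S) (hq : q.Prime) (hqL : q ∣ L)
    (hqLR : ¬ q ^ 2 ∣ L * R) {a : (ZMod L)ˣ} (ha : (ZMod.unitsMap hR a : ZMod R) = q)
    {C : Type} [CommRing C] [IsDomain C] [CharZero C] [Algebra O C]
    (x : HeckeO L H ∅ O →ₐ[O] C)
    (hU : x (HeckeO.ofT O (heckeUR hq hqL (Set.notMem_empty q))) ^ 2
      = x (HeckeO.ofT O (diamondR a))) :
    ∃ (M : ℕ) (_ : NeZero M) (G : CuspForm (Gamma0 M) 2) (lam : heckeRing L H ∅ →+* ℂ)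
      (ι : lam.range →+* C), G.IsNewform ∧ M ∣ L * R ∧ q ∣ M ∧
      (∀ t, ι (lam.rangeRestrict t) = x (HeckeO.ofT O t)) ∧
      ∀ (l : ℕ) (hl : l.Prime) (hlL : ¬ l ∣ L) (hlS : l ∉ (↑S : Set ℕ)),
        qCoeff ⇑G l = (lam.rangeRestrict (twistedT h hl hlL (Set.notMem_empty l)) : ℂ) ∧
        ι (lam.rangeRestrict (twistedT h hl hlL (Set.notMem_empty l)))
          = x (toFull O (HeckeO.ofT O (twistedT h hl hlL hlS))) := by
  obtain ⟨lam, ι, hι⟩ := exists_complex_lift hH ((x : HeckeO L H ∅ O →+* C).comp (HeckeO.ofT O))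
  have hι' : ∀ t, ι (lam.rangeRestrict t) = x (HeckeO.ofT O t) := fun t =>
    RingHom.congr_fun hι t
  have hinj : Function.Injective ι := by
    have := moduleFinite_heckeRing (S := (∅ : Set ℕ)) hH
    have : Module.Finite ℤ lam.range :=
      Module.Finite.of_surjective lam.rangeRestrict.toIntAlgHom.toLinearMap
        lam.rangeRestrict_surjective
    have : Algebra.IsIntegral ℤ lam.range := Algebra.IsIntegral.of_finite ℤ _
    have : (RingHom.ker ι).IsPrime := RingHom.ker_isPrime ι
    rw [RingHom.injective_iff_ker_eq_bot]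
    refine Ideal.eq_bot_of_comap_eq_bot (R := ℤ) (eq_bot_iff.2 fun n hn => ?_)
    rw [Ideal.mem_comap, RingHom.mem_ker, eq_intCast (algebraMap ℤ lam.range) n, map_intCast,
      Int.cast_eq_zero] at hn
    exact Ideal.mem_bot.2 hn
  have hlamU : lam (heckeUR hq hqL (Set.notMem_empty q)) ^ 2 = lam (diamondR a) := by
    have h1 : lam.rangeRestrict (heckeUR hq hqL (Set.notMem_empty q)) ^ 2
        = lam.rangeRestrict (diamondR a) := hinj (by rw [map_pow, hι', hι', hU])
    exact congrArg Subtype.val h1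
  obtain ⟨M, hM, G, hG, hML, hGl, -⟩ := exists_point_newform (S := S) hH hR hker hodd hLS
    (lam.comp (heckeIncl (Set.empty_subset _)))
  have hincl : ∀ (l : ℕ) (hl : l.Prime) (hlL : ¬ l ∣ L) (hlS : l ∉ (↑S : Set ℕ)),
      heckeIncl (Set.empty_subset _) (twistedT (H := H) h hl hlL hlS)
        = twistedT h hl hlL (Set.notMem_empty l) := fun l hl hlL hlS => by
    rw [twistedT, map_mul, map_pow]
    rfl
  have hGl' : ∀ (l : ℕ) (hl : l.Prime) (hlL : ¬ l ∣ L), l ∉ S →
      qCoeff ⇑G l = lam (twistedT h hl hlL (Set.notMem_empty l)) := fun l hl hlL hlS => by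
    rw [hGl l hl hlL (by simpa using hlS), RingHom.comp_apply, hincl]
  refine ⟨M, hM, G, lam, ι, hG, hML,
    dvd_level_of_heckeU_sq hH hR hker hodd hq hqL hqLR ha lam hlamU hG S hGl', hι',
    fun l hl hlL hlS => ⟨hGl' l hl hlL (by simpa using hlS), ?_⟩⟩
  rw [hι', HeckeO.ofT_apply (L := L) (S := (↑S : Set ℕ)), toFull_mk, one_smul, hincl]

section GMap

variable {N q : ℕ} [hqF : Fact q.Prime] (hqN : ¬q ∣ N) {H₀ : Subgroup (ZMod N)ˣ} [NeZero N]
  [NeZero (N * q)] {S₀ : Set ℕ} (hHq : (-1 : (ZMod (N * q))ˣ) ∈ Hq N q H₀)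

include hHq in
/-- **Anemic operators killing the new part.** `f` may be any idempotent, such as the one of the
residual eigensystem. -/
theorem actO_eq_zero_of_gMap (hLS : ∀ l : ℕ, l.Prime → l ∣ N * q → l ∈ S₀)
    {a : (ZMod (N * q))ˣ} (ha : ZMod.unitsMap (dvd_mul_right N q) a = unitOf hqN)
    (f k : HeckeO (N * q) (Hq N q H₀) S₀ O)
    (hk : ∀ (O' : Type) [CommRing O'] [IsDomain O'] [IsDiscreteValuationRing O']
      [IsAdicComplete (maximalIdeal O') O'] [Finite (ResidueField O')] [CharZero O']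
      [Algebra O O'] [Module.Finite O O'] [IsLocalHom (algebraMap O O')]
      (x : HeckeO (N * q) (Hq N q H₀) ∅ O →ₐ[O] O'),
      x (HeckeO.ofT O (heckeUR hqF.out (dvd_mul_left q N) (Set.notMem_empty q))) ^ 2
          = x (HeckeO.ofT O (diamondR a)) →
      x (toFull O f) = 1 → x (toFull O k) = 0)
    {z : H1q N q H₀ O O} (hz : gMap N q hqN H₀ O O z = 0) (hfz : actO hHq O f z = z) :
    actO hHq O k z = 0 := by
  refine actO_eq_zero_of_points hHq hLS
    {HeckeO.ofT O (heckeUR hqF.out (dvd_mul_left q N) (Set.notMem_empty q)) ^ 2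
      - HeckeO.ofT O (diamondR a), toFull O f - 1} k ?_ ?_
  · intro O' _ _ _ _ _ _ _ _ _ x hx
    have h1 := hx _ (Set.mem_insert _ _)
    have h2 := hx _ (Set.mem_insert_of_mem _ rfl)
    rw [map_sub, map_pow, sub_eq_zero] at h1
    rw [map_sub, map_one, sub_eq_zero] at h2
    exact hk O' x h1 h2
  · rintro r (rfl | rfl)
    · rw [map_sub, map_pow, LinearMap.sub_apply, sq, Module.End.mul_apply, HeckeO.ofT_apply,
        HeckeO.ofT_apply, actO_tmul, actO_tmul, one_smul, one_smul, homAction_heckeU,
        homAction_diamond, heckeUH_sq_of_gMap_eq_zero N q hqN H₀ hz ha, sub_self]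
    · rw [map_sub, map_one, LinearMap.sub_apply, actO_toFull, hfz, Module.End.one_apply, sub_self]

end GMap

end Fermat.Agent.IharaTW
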