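import Fermat.Agent.IharaTW.ChainFamily
import Fermat.Agent.IharaTW.KerKill

/-!
# Summands without a new part at the added prime

When nothing in the upper summand is killed by both traces, the upper summand has twice the rank of
the lower one.
-/

set_option autoImplicit false

noncomputable section

namespace Fermat.Agent.IharaTW

open IsLocalRing CongruenceSubgroup Fermat.Agent.GammaH Fermat.Agent.TW
open scoped MatrixGroups

variable {N q : ℕ} [hqF : Fact q.Prime] (hqN : ¬q ∣ N) {H : Subgroup (ZMod N)ˣ} [NeZero N]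
  [NeZero (N * q)] (hH : (-1 : (ZMod N)ˣ) ∈ H)

section Summands

variable {R : Type} [CommRing R] [IsDomain R] [IsPrincipalIdealRing R] [CharZero R]
  {e : Module.End R (H1 N H R R)} {eq : Module.End R (H1q N q H R R)}
  (he : Intertwined N q hqN H eq e)

omit [NeZero (N * q)] in
omit [IsPrincipalIdealRing R] in
include hH in
/-- In characteristic zero `fMap` is injective on summands. -/
theorem fE_injective : Function.Injective (fE N q hqN H he) := by
  rw [injective_iff_map_eq_zero]
  intro y hy
  have h := eq_zero_of_gMap_fMap_eq_zero hH hqN R (y := fun i => (y i : H1 N H R R))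
    (by rw [← coe_fE N q hqN H he, hy, ZeroMemClass.coe_zero, map_zero])
  exact funext fun i => Subtype.ext (congrFun h i)

variable (hidemq : IsIdempotentElem eq) (hg : ∀ z, eq z = z → gMap N q hqN H R R z = 0 → z = 0)

omit [NeZero (N * q)] in
omit [IsDomain R] [IsPrincipalIdealRing R] [CharZero R] in
include hg hidemq in
/-- Without a new part `gMap` is injective on the upper summand. -/
theorem gE_injective : Function.Injective (gE N q hqN H he) := by
  rw [injective_iff_map_eq_zero]
  intro z hz
  refine Subtype.ext (hg _ ?_ (funext fun i => ?_))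
  · obtain ⟨w, hw⟩ := z.2
    rw [← hw]
    exact LinearMap.congr_fun hidemq.eq w
  · rw [← coe_gE N q hqN H he, hz]
    rfl

omit [NeZero (N * q)] in
include hH hg hidemq he in
/-- **The rank doubles.** -/
theorem finrank_range_eq_two_mul [Module.Finite R (H1 N H R R)]
    [Module.Finite R (H1q N q H R R)] :
    Module.finrank R (LinearMap.range eq) = 2 * Module.finrank R (LinearMap.range e) := by
  have h0 : Module.finrank R (Fin 2 → LinearMap.range e)
      = 2 * Module.finrank R (LinearMap.range e) := by
    have : Module.IsTorsionFree R (H1 N H R R) :=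
      Function.Injective.moduleIsTorsionFree (coordH hH R R).symm
        (coordH hH R R).symm.injective fun a b => map_smul (coordH hH R R).symm a b
    have : Module.Finite R (LinearMap.range e) := Module.Finite.range e
    have : Module.Free R (LinearMap.range e) :=
      @Module.free_of_finite_type_torsion_free' R _ (LinearMap.range e) _ _ _ _ _ inferInstance
    rw [Module.finrank_pi_fintype, Fin.sum_univ_two, two_mul]
  rw [← h0]
  exact le_antisymm (LinearMap.finrank_le_finrank_of_injective (gE_injective hqN he hidemq hg))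
    (LinearMap.finrank_le_finrank_of_injective (fE_injective hqN hH he))

end Summands

section NoPoints

variable {O : Type} [CommRing O] [IsDomain O] [IsDiscreteValuationRing O]
  [IsAdicComplete (maximalIdeal O) O] [CharZero O] [Finite (ResidueField O)] {S₀ : Set ℕ}
  (hHq : (-1 : (ZMod (N * q))ˣ) ∈ Hq N q H)

include hHq in
/-- **No points with `U_q² = ⟨q⟩`, no new part.** -/
theorem eq_zero_of_gMap_of_no_points (hLS : ∀ l : ℕ, l.Prime → l ∣ N * q → l ∈ S₀)
    (f : HeckeO (N * q) (Hq N q H) S₀ O)
    (hnone : ∀ (a : (ZMod (N * q))ˣ),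
      ZMod.unitsMap (dvd_mul_right N q) a = unitOf hqN →
      ∀ (O' : Type) [CommRing O'] [IsDomain O'] [IsDiscreteValuationRing O']
      [IsAdicComplete (maximalIdeal O') O'] [Finite (ResidueField O')] [CharZero O']
      [Algebra O O'] [Module.Finite O O'] [IsLocalHom (algebraMap O O')]
      (x : HeckeO (N * q) (Hq N q H) ∅ O →ₐ[O] O'),
      x (HeckeO.ofT O (heckeUR hqF.out (dvd_mul_left q N) (Set.notMem_empty q))) ^ 2
          = x (HeckeO.ofT O (diamondR a)) →
      x (toFull O f) ≠ 1)
    {z : H1q N q H O O} (hz : gMap N q hqN H O O z = 0) (hfz : actO hHq O f z = z) : z = 0 := by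
  obtain ⟨a, ha⟩ := ZMod.unitsMap_surjective (dvd_mul_right N q) (unitOf hqN)
  rw [← hfz]
  refine actO_eq_zero_of_gMap hqN hHq hLS ha f f
    (fun O' _ _ _ _ _ _ _ _ _ x hU hx => absurd hx (hnone a ha O' x hU)) hz hfz

end NoPoints

/-! ## Along a chain -/

namespace Chain

variable {C : Chain} {O : Type} [CommRing O] [IsDomain O] [IsDiscreteValuationRing O]
  [IsAdicComplete (maximalIdeal O) O] [CharZero O]
  {θ₀ : heckeRing C.N₀ C.H₀ (↑C.S : Set ℕ) →+* ResidueField O} (F : C.Family O θ₀)

/-- A family without new parts below stage `j`. -/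
def Family.NoNew (j : ℕ) : Prop :=
  ∀ i (hi : i < C.s), i < j → ∀ z, F.E (i + 1) hi z = z →
    gMap (C.lvl i) (C.q i) (C.not_dvd i hi) (C.grp i) O O z = 0 → z = 0

/-- No points with `U² = ⟨q⟩` give no new part. -/
theorem Family.eq_zero_of_no_points [Finite (ResidueField O)] {i : ℕ} (hi : i < C.s)
    (hnone : ∀ (a : (ZMod (C.lvl i * C.q i))ˣ),
      ZMod.unitsMap (dvd_mul_right (C.lvl i) (C.q i)) a = unitOf (C.not_dvd i hi) →
      ∀ (O' : Type) [CommRing O'] [IsDomain O'] [IsDiscreteValuationRing O']
      [IsAdicComplete (maximalIdeal O') O'] [Finite (ResidueField O')] [CharZero O']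
      [Algebra O O'] [Module.Finite O O'] [IsLocalHom (algebraMap O O')]
      (x : HeckeO (C.lvl i * C.q i) (Hq (C.lvl i) (C.q i) (C.grp i)) ∅ O →ₐ[O] O'),
      x (HeckeO.ofT O (heckeUR (C.prime i) (dvd_mul_left (C.q i) (C.lvl i))
          (Set.notMem_empty (C.q i)))) ^ 2 = x (HeckeO.ofT O (diamondR a)) →
      x (toFull O (C.idem O θ₀ (i + 1) hi)) ≠ 1)
    (z : H1 (C.lvl (i + 1)) (C.grp (i + 1)) O O) (hz : F.E (i + 1) hi z = z)
    (hgz : gMap (C.lvl i) (C.q i) (C.not_dvd i hi) (C.grp i) O O z = 0) : z = 0 := by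
  refine eq_zero_of_gMap_of_no_points (C.not_dvd i hi) (C.neg_mem (i + 1)) (C.mem_S_step hi)
    (C.idem O θ₀ (i + 1) hi) hnone hgz ?_
  have h := LinearMap.congr_fun (F.piece (i + 1) hi).below z
  rw [Module.End.mul_apply, hz] at h
  exact h

/-- **Ranks along the chain.** -/
theorem Family.finrank_eq_two_pow_mul {j : ℕ} (hF : F.NoNew j) :
    ∀ i (hi : i ≤ C.s), i ≤ j → Module.finrank O (LinearMap.range (F.E i hi))
      = 2 ^ i * Module.finrank O (LinearMap.range (F.E 0 (Nat.zero_le _)))
  | 0, _, _ => by rw [pow_zero, one_mul]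
  | i + 1, hi, hij => by
    have := moduleFinite_H1 (C.neg_mem i) O
    have : Module.Finite O (H1q (C.lvl i) (C.q i) (C.grp i) O O) :=
      moduleFinite_H1 (C.neg_mem (i + 1)) O
    rw [pow_succ', mul_assoc,
      ← Family.finrank_eq_two_pow_mul hF i (Nat.le_of_succ_le hi) (Nat.le_of_succ_le hij)]
    exact finrank_range_eq_two_mul (C.not_dvd i hi) (C.neg_mem i) (F.step i hi)
      (F.piece (i + 1) hi).idem (hF i hi hij)

end Chain

end Fermat.Agent.IharaTW
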