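import Fermat.Agent.IharaTW.Twin
import Fermat.Agent.IharaTW.AuxDescent

/-!
# Descent to the base level

A chain of auxiliary primes at the top group without new residual parts links a level `(L, H)` to
the bottom of the chain: the invariants of a natural summand at `(L, H)` and the summand at the
bottom are killed by corresponding operators, and their ranks differ by `2 ^ s`.
-/

set_option autoImplicit false

noncomputable section

namespace Fermat.Agent.IharaTW

open IsLocalRing CongruenceSubgroup Fermat.Agent.GammaH Fermat.Agent.TW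
open scoped MatrixGroups

/-! ## Maps out of the anemic Hecke rings -/

section Ext

variable {L : ℕ} [NeZero L] {H : Subgroup (ZMod L)ˣ} {S : Set ℕ}

/-- A map out of the anemic Hecke ring is determined by diamond operators and the `T_l`. -/
theorem heckeRingHom_ext (hS : ∀ l : ℕ, l.Prime → l ∣ L → l ∈ S) {B : Type*} [Ring B]
    {f g : heckeRing L H S →+* B} (hd : ∀ a, f (diamondR a) = g (diamondR a))
    (hT : ∀ (l : ℕ) (hl : l.Prime) (hlL : ¬ l ∣ L) (hlS : l ∉ S),
      f (heckeTR hl hlL hlS) = g (heckeTR hl hlL hlS)) : f = g := by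
  refine RingHom.ext fun t => ?_
  suffices ∀ x ∈ Algebra.adjoin ℤ (heckeGens L H S), ∀ t : heckeRing L H S, t.1 = x → f t = g t from
    this t.1 t.2 t rfl
  intro x hx
  induction hx using Algebra.adjoin_induction with
  | mem x hx =>
    intro t ht
    rcases hx with (⟨a, rfl⟩ | ⟨l, hl, hlL, hlS, rfl⟩) | ⟨q, hqL, hq, hqS, rfl⟩
    · obtain rfl : t = diamondR a := Subtype.ext (ht.trans (coe_diamondR a).symm)
      exact hd a
    · obtain rfl : t = heckeTR hl hlL hlS := Subtype.ext (ht.trans (coe_heckeTR hl hlL hlS).symm)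
      exact hT l hl hlL hlS
    · exact absurd (hS q hq hqL) hqS
  | algebraMap n =>
    intro t ht
    obtain rfl : t = (n : heckeRing L H S) := Subtype.ext <| ht.trans <| by
      rw [← eq_intCast (algebraMap ℤ (heckeRing L H S)) n, Subalgebra.coe_algebraMap]
    rw [map_intCast, map_intCast]
  | add x y hx hy ihx ihy =>
    intro t ht
    obtain rfl : t = (⟨x, hx⟩ + ⟨y, hy⟩ : heckeRing L H S) := Subtype.ext ht
    rw [map_add, map_add, ihx ⟨x, hx⟩ rfl, ihy ⟨y, hy⟩ rfl]
  | mul x y hx hy ihx ihy =>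
    intro t ht
    obtain rfl : t = (⟨x, hx⟩ * ⟨y, hy⟩ : heckeRing L H S) := Subtype.ext ht
    rw [map_mul, map_mul, ihx ⟨x, hx⟩ rfl, ihy ⟨y, hy⟩ rfl]

variable {O : Type} [CommRing O] [IsDomain O] [IsDiscreteValuationRing O]
  [IsAdicComplete (maximalIdeal O) O] [CharZero O]

omit [IsDomain O] [IsDiscreteValuationRing O] [IsAdicComplete (maximalIdeal O) O] [CharZero O] in
/-- The same with coefficients. -/
theorem heckeOHom_ext (hS : ∀ l : ℕ, l.Prime → l ∣ L → l ∈ S) {B : Type} [Ring B] [Algebra O B]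
    {f g : HeckeO L H S O →ₐ[O] B}
    (hd : ∀ a, f (HeckeO.ofT O (diamondR a)) = g (HeckeO.ofT O (diamondR a)))
    (hT : ∀ (l : ℕ) (hl : l.Prime) (hlL : ¬ l ∣ L) (hlS : l ∉ S),
      f (HeckeO.ofT O (heckeTR hl hlL hlS)) = g (HeckeO.ofT O (heckeTR hl hlL hlS))) : f = g := by
  have h : f.toRingHom.comp (HeckeO.ofT O) = g.toRingHom.comp (HeckeO.ofT O) :=
    heckeRingHom_ext hS hd hT
  refine AlgHom.ext fun x => ?_
  induction x using HeckeO.induction with
  | zero => rw [map_zero, map_zero]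
  | add x y hx hy => rw [map_add, map_add, hx, hy]
  | mk a t =>
    have e : HeckeO.mk O a t = a • HeckeO.ofT O t := by
      rw [HeckeO.ofT_apply]
      show (a ⊗ₜ[ℤ] t : TensorProduct ℤ O (heckeRing L H S)) = a • ((1 : O) ⊗ₜ[ℤ] t)
      rw [TensorProduct.smul_tmul', smul_eq_mul, mul_one]
    rw [e, map_smul, map_smul]
    exact congrArg _ (RingHom.congr_fun h t)

end Ext

/-- Intertwined operators kill the kernel of a second intertwined operator in one summand iff they
kill it in the other. -/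
theorem forall_ker_iff_below {R : Type} [CommRing R] [IsDomain R] [CharZero R] {N q : ℕ}
    [Fact q.Prime] (hqN : ¬q ∣ N) {H : Subgroup (ZMod N)ˣ} [NeZero N] [NeZero (N * q)]
    (hH : (-1 : (ZMod N)ˣ) ∈ H) {e : Module.End R (H1 N H R R)}
    {eq : Module.End R (H1q N q H R R)} (he : Intertwined N q hqN H eq e)
    (hg : ∀ z, eq z = z → gMap N q hqN H R R z = 0 → z = 0) {t X : Module.End R (H1 N H R R)}
    {tq Xq : Module.End R (H1q N q H R R)} (ht : Intertwined N q hqN H tq t)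
    (hX : Intertwined N q hqN H Xq X) (hctq : Commute eq tq) :
    (∀ z, eq z = z → Xq z = 0 → tq z = 0) ↔ ∀ x, e x = x → X x = 0 → t x = 0 := by
  constructor
  · intro h x hx hXx
    have h1 : eq (fMap N q hqN H R R fun _ => x) = fMap N q hqN H R R fun _ => x := by
      rw [← he.1, hx]
    have h1' : Xq (fMap N q hqN H R R fun _ => x) = 0 := by
      rw [← hX.1, hXx]
      exact map_zero _
    have h2 : fMap N q hqN H R R (fun _ : Fin 2 => t x) = 0 := by
      rw [ht.1]
      exact h _ h1 h1'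
    exact congrFun (eq_zero_of_gMap_fMap_eq_zero hH hqN R (y := fun _ : Fin 2 => t x)
      (by rw [h2, map_zero])) 0
  · intro h z hz hXz
    refine hg _ (by rw [← Module.End.mul_apply, hctq.eq, Module.End.mul_apply, hz])
      (funext fun i => ?_)
    rw [ht.2, Pi.zero_apply]
    exact h _ (by rw [← he.2, hz]) (by rw [← hX.2, hXz, map_zero, Pi.zero_apply])

/-- An operator at every level. -/
abbrev LevelOp (O : Type) [CommRing O] : Type :=
  ∀ (M : ℕ) [NeZero M] (G : Subgroup (ZMod M)ˣ), Module.End O (H1 M G O O)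

section Unit

variable {O : Type} [CommRing O] [IsDomain O] [IsDiscreteValuationRing O]
  [IsAdicComplete (maximalIdeal O) O] [CharZero O] {L : ℕ} [NeZero L] {H : Subgroup (ZMod L)ˣ}
  (hH : (-1 : (ZMod L)ˣ) ∈ H)

/-- The unit part of an operator on cohomology. -/
def unitH1 (t : Module.End O (H1 L H O O)) : Module.End O (H1 L H O O) :=
  have : Module.Finite O (H1 L H O O) := moduleFinite_H1 hH O
  unitPart t

omit [CharZero O] in
theorem unitH1_eq [Module.Finite O (H1 L H O O)] (t : Module.End O (H1 L H O O)) :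
    unitH1 hH t = unitPart t := rfl

omit [CharZero O] in
theorem unitH1_one : unitH1 hH (1 : Module.End O (H1 L H O O)) = 1 := by
  have : Module.Finite O (H1 L H O O) := moduleFinite_H1 hH O
  rw [unitH1_eq]
  refine LinearMap.ext fun v => ?_
  obtain ⟨k, hk⟩ := exists_pow_nilPart_mem (1 : Module.End O (H1 L H O O))
  refine (sub_eq_zero.1 (eq_zero_of_mem_pow_smul (O := O) fun n => ?_)).symm
  have hpow : ∀ j, ((1 : Module.End O (H1 L H O O)) * (1 - unitPart 1)) ^ j * (1 - unitPart 1)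
      = 1 - unitPart 1 := fun j => by rw [nilPart_pow, one_pow, one_mul]
  rw [Module.End.one_apply,
    show v - unitPart (1 : Module.End O (H1 L H O O)) v
      = (1 - unitPart (1 : Module.End O (H1 L H O O))) v from rfl, ← hpow (k * n),
    Module.End.mul_apply]
  exact pow_mul_mem hk n _

end Unit

namespace Chain

variable {C : Chain} {O : Type} [CommRing O] [IsDomain O] [IsDiscreteValuationRing O]
  [IsAdicComplete (maximalIdeal O) O] [CharZero O]
  {θ₀ : heckeRing C.N₀ C.H₀ (↑C.S : Set ℕ) →+* ResidueField O}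

variable (C O θ₀) in
/-- No new residual parts along the chain. -/
def NoNew : Prop :=
  ∀ i (hi : i < C.s), ∀ z, C.idemOp O θ₀ (i + 1) hi z = z →
    gMap (C.lvl i) (C.q i) (C.not_dvd i hi) (C.grp i) O O z = 0 → z = 0

omit [CharZero O] in
theorem NoNew.family (h : C.NoNew O θ₀) (F : C.Family O θ₀) (j : ℕ) : F.NoNew j :=
  fun i hi _ z hz hg => h i hi z (by
    have e := LinearMap.congr_fun (F.piece (i + 1) hi).below z
    rw [Module.End.mul_apply, hz] at e
    exact e) hg

/-- Intertwined operators kill the kernel of a second intertwined operator in one summand iff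
they kill it in the other. -/
theorem Family.forall_ker_iff_bottom {F : C.Family O θ₀} (hF : F.NoNew C.s)
    {X : ∀ i, Module.End O (H1 (C.lvl i) (C.grp i) O O)}
    (hX : ∀ i (hi : i < C.s),
      Intertwined (C.lvl i) (C.q i) (C.not_dvd i hi) (C.grp i) (X (i + 1)) (X i))
    (hXc : ∀ i (_ : i ≤ C.s) (z : HeckeO (C.lvl i) (C.grp i) (↑C.S : Set ℕ) O),
      Commute (actO (C.neg_mem i) O z) (X i))
    (x : HeckeO (C.lvl C.s) (C.grp C.s) (↑C.S : Set ℕ) O) :
    ∀ i (hi : i ≤ C.s),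
      ((∀ v, F.E i hi v = v → X i v = 0 → actO (C.neg_mem i) O (C.toO O i hi x) v = 0) ↔
        ∀ v, F.E 0 (Nat.zero_le _) v = v → X 0 v = 0 →
          actO (C.neg_mem 0) O (C.toO O 0 (Nat.zero_le _) x) v = 0)
  | 0, _ => Iff.rfl
  | i + 1, hi =>
    (forall_ker_iff_below (C.not_dvd i hi) (C.neg_mem i) (F.step i hi) (hF i hi hi)
      (C.intertwined_toO O hi x) (hX i hi) ((F.piece (i + 1) hi).comm _)).trans
      (Family.forall_ker_iff_bottom hF hX hXc x i (Nat.le_of_succ_le hi))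

end Chain

/-! ## The link -/

/-- The level `(L, H)` and `H' ⊇ H` sit at the top of the chain; the residual eigensystems agree;
`l` is an auxiliary prime; `Γ_{H'}` has no more torsion than `Γ_H`. -/
structure Chain.Link (C : Chain) {O : Type} [CommRing O] [IsLocalRing O]
    (θ₀ : heckeRing C.N₀ C.H₀ (↑C.S : Set ℕ) →+* ResidueField O) {L : ℕ} [NeZero L]
    (H H' : Subgroup (ZMod L)ˣ) (θ : heckeRing L H (↑C.S : Set ℕ) →+* ResidueField O) (l : ℕ) :
    Prop where
  lvl : C.lvl C.s = L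
  dvd : C.N₀ ∣ L
  mem : ∀ a : (ZMod L)ˣ, a ∈ H' ↔ ZMod.unitsMap dvd a ∈ C.H₀
  le : H ≤ H'
  neg : (-1 : (ZMod L)ˣ) ∈ H
  diamond : ∀ a : (ZMod L)ˣ, θ (diamondR a) = θ₀ (diamondR (ZMod.unitsMap dvd a))
  heckeT : ∀ (m : ℕ) (hm : m.Prime) (hmL : ¬ m ∣ L) (hm0 : ¬ m ∣ C.N₀)
    (hmS : m ∉ (↑C.S : Set ℕ)), θ (heckeTR hm hmL hmS) = θ₀ (heckeTR hm hm0 hmS)
  prime : l.Prime
  notMem : l ∉ (↑C.S : Set ℕ)
  one : (l : ZMod L) = 1
  ne : ∀ (hl0 : ¬ l ∣ C.N₀),
    θ₀ (heckeTR prime hl0 notMem) ≠ ((l + 1 : ℕ) : ResidueField O)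
  free : ∀ g ∈ GammaH.GammaH L H', g ^ 12 = 1 → g ∈ GammaH.GammaH L H

/-- An operator at every level is compatible with a link. -/
structure Chain.IsNatural (C : Chain) {O : Type} [CommRing O] [IsDomain O]
    [IsDiscreteValuationRing O] [IsAdicComplete (maximalIdeal O) O] [CharZero O] (t : LevelOp O)
    {L : ℕ} [NeZero L] {H H' : Subgroup (ZMod L)ˣ} (hH : (-1 : (ZMod L)ˣ) ∈ H) (hle : H ≤ H') :
    Prop where
  step : ∀ i (hi : i < C.s), Intertwined (C.lvl i) (C.q i) (C.not_dvd i hi) (C.grp i)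
    (t (C.lvl (i + 1)) (C.grp (i + 1))) (t (C.lvl i) (C.grp i))
  comm : ∀ i, i ≤ C.s → ∀ z : HeckeO (C.lvl i) (C.grp i) (↑C.S : Set ℕ) O,
    Commute (actO (C.neg_mem i) O z) (t (C.lvl i) (C.grp i))
  res : ∀ ψ, resH1 O O hle (t L H' ψ) = t L H (resH1 O O hle ψ)
  commTop : ∀ z : HeckeO L H (↑C.S : Set ℕ) O, Commute (actO hH O z) (t L H)

namespace Chain

variable {C : Chain} {O : Type} [CommRing O] [IsDomain O] [IsDiscreteValuationRing O]
  [IsAdicComplete (maximalIdeal O) O] [CharZero O]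
  {θ₀ : heckeRing C.N₀ C.H₀ (↑C.S : Set ℕ) →+* ResidueField O} {L : ℕ} [NeZero L]
  {H H' : Subgroup (ZMod L)ˣ} {θ : heckeRing L H (↑C.S : Set ℕ) →+* ResidueField O} {l : ℕ}

omit [IsAdicComplete (maximalIdeal O) O] [CharZero O] in
theorem theta_eq_comp (hle : H ≤ H') (K : C.Link θ₀ H H' θ l)
    (θ' : heckeRing L H' (↑C.S : Set ℕ) →+* ResidueField O)
    (hd : ∀ a : (ZMod L)ˣ, θ' (diamondR a) = θ₀ (diamondR (ZMod.unitsMap K.dvd a)))
    (hT : ∀ (m : ℕ) (hm : m.Prime) (hmL : ¬ m ∣ L) (hm0 : ¬ m ∣ C.N₀)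
      (hmS : m ∉ (↑C.S : Set ℕ)), θ' (heckeTR hm hmL hmS) = θ₀ (heckeTR hm hm0 hmS)) :
    θ = θ'.comp (heckeRes hle) := by
  have hS : ∀ m : ℕ, m.Prime → m ∣ L → m ∈ (↑C.S : Set ℕ) := fun m hm hd' =>
    C.mem_S m hm (show m ∣ C.lvl C.s by rw [K.lvl]; exact hd')
  refine heckeRingHom_ext hS (fun a => ?_) fun m hm hmL hmS => ?_
  · rw [K.diamond, RingHom.comp_apply, heckeRes_diamond, hd]
  · rw [K.heckeT m hm hmL (fun h => hmL (h.trans K.dvd)) hmS, RingHom.comp_apply, heckeRes_heckeT,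
      hT m hm hmL (fun h => hmL (h.trans K.dvd)) hmS]

omit [CharZero O] in
/-- **The map to the base.** -/
theorem Link.exists_baseMap (K : C.Link θ₀ H H' θ l) :
    ∃ r : HeckeO L H (↑C.S : Set ℕ) O →ₐ[O] HeckeO C.N₀ C.H₀ (↑C.S : Set ℕ) O,
      Function.Surjective r ∧
      (∀ a, r (HeckeO.ofT O (diamondR a))
        = HeckeO.ofT O (diamondR (ZMod.unitsMap K.dvd a))) ∧
      (∀ (m : ℕ) (hm : m.Prime) (hmL : ¬ m ∣ L) (hm0 : ¬ m ∣ C.N₀)
        (hmS : m ∉ (↑C.S : Set ℕ)),
        r (HeckeO.ofT O (heckeTR hm hmL hmS)) = HeckeO.ofT O (heckeTR hm hm0 hmS)) ∧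
      r (twIdem K.neg O θ) = twIdem C.neg O θ₀ := by
  have K' := K
  obtain ⟨hlvl, hdvd, hmem, hle, hneg, -, -, -, -, -, -, -⟩ := K'
  subst hlvl
  obtain rfl : H' = C.grp C.s := Subgroup.ext fun a => (hmem a).trans C.mem_grp_iff.symm
  have hθ : θ = (C.theta θ₀ C.s le_rfl).comp (heckeRes hle) :=
    theta_eq_comp hle K _ (fun a => C.theta_diamondR θ₀ le_rfl a)
      fun m hm hmL hm0 hmS => C.theta_heckeTR θ₀ le_rfl hm hmS hmL hm0
  refine ⟨(C.toO O 0 (Nat.zero_le _)).comp (resO hle O),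
    (C.toO_surjective O (Nat.zero_le _)).comp (resO_surjective hle O),
    fun a => ?_, fun m hm hmL hm0 hmS => ?_, ?_⟩
  · exact (congrArg (C.toO O 0 (Nat.zero_le _)) (resO_diamondR hle O a)).trans
      (C.toO_diamondR O _ a)
  · exact ((congrArg (C.toO O 0 (Nat.zero_le _)) (resO_heckeTR hle O hm hmL hmS)).trans
      (C.toO_ofT O _ _)).trans
      (congrArg (HeckeO.ofT O) (C.toR_heckeTR (Nat.zero_le _) hm hmS hmL hm0))
  · subst hθ
    exact (congrArg (C.toO O 0 (Nat.zero_le _)) (resO_twIdem hneg hle O _)).trans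
      (C.toO_idem O θ₀ (Nat.zero_le _))

variable {t X : LevelOp O}
  (r : HeckeO L H (↑C.S : Set ℕ) O →ₐ[O] HeckeO C.N₀ C.H₀ (↑C.S : Set ℕ) O)

/-- **Kernels descend.** An operator kills the invariant vectors of the summand of `t` killed by
`X` iff its image kills the corresponding vectors at the base. -/
theorem Link.forall_ker_iff_base (K : C.Link θ₀ H H' θ l) (hnew : C.NoNew O θ₀)
    (ht : C.IsNatural t K.neg K.le) (hX : C.IsNatural X K.neg K.le)
    (htX : Commute (t L H') (X L H'))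
    (hrd : ∀ a, r (HeckeO.ofT O (diamondR a))
      = HeckeO.ofT O (diamondR (ZMod.unitsMap K.dvd a)))
    (hrT : ∀ (m : ℕ) (hm : m.Prime) (hmL : ¬ m ∣ L) (hm0 : ¬ m ∣ C.N₀)
      (hmS : m ∉ (↑C.S : Set ℕ)),
      r (HeckeO.ofT O (heckeTR hm hmL hmS)) = HeckeO.ofT O (heckeTR hm hm0 hmS))
    (x : HeckeO L H (↑C.S : Set ℕ) O) :
    (∀ v, (actO K.neg O (twIdem K.neg O θ) * unitH1 K.neg (t L H)) v = v → X L H v = 0 →
        (∀ b : Dl H H', actH1 H H' O O b v = v) → actO K.neg O x v = 0) ↔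
      ∀ w, (actO C.neg O (twIdem C.neg O θ₀) * unitH1 C.neg (t C.N₀ C.H₀)) w = w →
        X C.N₀ C.H₀ w = 0 → actO C.neg O (r x) w = 0 := by
  have K' := K
  obtain ⟨hlvl, hdvd, hmem, hle, hneg, -, -, hl, hlS, hl1, hlne, hfree⟩ := K'
  subst hlvl
  obtain rfl : H' = C.grp C.s := Subgroup.ext fun a => (hmem a).trans C.mem_grp_iff.symm
  obtain rfl : θ = (C.theta θ₀ C.s le_rfl).comp (heckeRes hle) :=
    theta_eq_comp hle K _ (fun a => C.theta_diamondR θ₀ le_rfl a)
      fun m hm hmL hm0 hmS => C.theta_heckeTR θ₀ le_rfl hm hmS hmL hm0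
  obtain rfl : r = (C.toO O 0 (Nat.zero_le _)).comp (resO hle O) :=
    heckeOHom_ext (fun m hm h => C.mem_S m hm h)
      (fun a => (hrd a).trans ((congrArg (C.toO O 0 (Nat.zero_le _))
        (resO_diamondR hle O a)).trans (C.toO_diamondR O _ a)).symm)
      fun m hm hmL hmS => by
        have hm0 : ¬ m ∣ C.N₀ := fun h => hmL (h.trans (C.dvd_lvl C.s))
        exact (hrT m hm hmL hm0 hmS).trans
          (((congrArg (C.toO O 0 (Nat.zero_le _)) (resO_heckeTR hle O hm hmL hmS)).trans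
            (C.toO_ofT O _ _)).trans
            (congrArg (HeckeO.ofT O) (C.toR_heckeTR (Nat.zero_le _) hm hmS hmL hm0))).symm
  obtain ⟨F, hF⟩ := C.exists_family_unitPart O θ₀ (fun i _ => t (C.lvl i) (C.grp i))
    (fun i hi => ht.comm i hi) ht.step
  have key := Family.forall_ker_iff_bottom (hnew.family F C.s)
    (X := fun i => X (C.lvl i) (C.grp i)) hX.step hX.comm (resO hle O x) C.s le_rfl
  simp only [hF] at key
  rw [toO_self] at key
  refine Iff.trans ?_ key
  have : NeZero l := ⟨hl.ne_zero⟩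
  have := moduleFinite_H1 hneg O
  have := moduleFinite_H1 (C.neg_mem C.s) O
  have hl0 : ¬ l ∣ C.N₀ := C.not_dvd_lvl (Nat.zero_le _) hl hlS
  have hlL : ¬ l ∣ C.lvl C.s := C.not_dvd_lvl le_rfl hl hlS
  have hθl : C.theta θ₀ C.s le_rfl (heckeTR hl hlL hlS) ≠ ((l + 1 : ℕ) : ResidueField O) := by
    rw [C.theta_heckeTR θ₀ le_rfl hl hlS hlL hl0]
    exact hlne hl0
  set θH := (C.theta θ₀ C.s le_rfl).comp (heckeRes hle)
  set E : Module.End O (H1 (C.lvl C.s) H O O) :=
    actO hneg O (twIdem hneg O θH) * unitH1 hneg (t (C.lvl C.s) H) with hE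
  set E' : Module.End O (H1 (C.lvl C.s) (C.grp C.s) O O) :=
    C.idemOp O θ₀ C.s le_rfl * C.stageUnit O C.s (t (C.lvl C.s) (C.grp C.s)) with hE'
  have piece' := C.isPiece_unitPart O θ₀ C.s le_rfl _ (ht.comm C.s le_rfl)
  have hcz : ∀ z : HeckeO (C.lvl C.s) H (↑C.S : Set ℕ) O, Commute E (actO hneg O z) := fun z =>
    ((Commute.all _ z).map (actO hneg O)).mul_left (commute_unitPart (ht.commTop z)).symm
  have hc : Commute (actO hneg O (twIdem hneg O θH)) (unitH1 hneg (t (C.lvl C.s) H)) :=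
    commute_unitPart (ht.commTop _)
  have hidem : IsIdempotentElem E := by
    show _ * _ * (_ * _) = _
    rw [hc.symm.mul_mul_mul_comm, ← map_mul, (isIdempotentElem_twIdem hneg O θH).eq, unitH1_eq,
      (isIdempotentElem_unitPart _).eq]
    exact hE.symm
  have hbelow : actO hneg O (twIdem hneg O θH) * E = E := by
    rw [hE, ← mul_assoc, ← map_mul, (isIdempotentElem_twIdem hneg O θH).eq]
  have hec : ∀ b : Dl H (C.grp C.s), Commute E (actH1 H (C.grp C.s) O O b) :=
    TW.commute_actH1 fun a _ => by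
      have := hcz (HeckeO.ofT O (diamondR a))
      rwa [HeckeO.ofT_apply, actO_tmul, homAction_diamond, one_smul] at this
  have hres : ∀ ψ, resH1 O O hle (E' ψ) = E (resH1 O O hle ψ) :=
    resH1_mul hle (fun ψ => resH1_twIdem hneg hle O (C.theta θ₀ C.s le_rfl) ψ)
      (fun ψ => resH1_unitPart hle ht.res ψ)
  have heη : Commute E (TW.etaH O O hl hlL) := by
    rw [← actO_heckeT_sub hneg O hl hlL hlS]
    exact hcz _
  have hθH : θH (heckeTR hl hlL hlS) ≠ ((l + 1 : ℕ) : ResidueField O) := by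
    rw [RingHom.comp_apply, heckeRes_heckeT]
    exact hθl
  have hbij := bijective_etaE_below hneg O θH hl hlL hlS hθH hcz hbelow hidem heη
  have hinj : ∀ ψ, E' ψ = ψ → TW.etaH O O hl hlL ψ = 0 → ψ = 0 := fun ψ h1 h2 =>
    eq_zero_of_etaH_eq_zero (C.neg_mem C.s) O _ hl hlL hlS hθl piece'.below h1 h2
  have hXE' : Commute E' (X (C.lvl C.s) (C.grp C.s)) :=
    (hX.comm C.s le_rfl _).mul_left (commute_unitPart htX.symm).symm
  constructor
  · intro h φ hφ hXφ
    refine eq_of_resH1_eq hl hlL hle hinj (y := 0) ?_ (map_zero _) ?_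
    · rw [AlgHom.id_apply, ← Module.End.mul_apply, (piece'.comm _).eq, Module.End.mul_apply, hφ]
    · rw [map_zero, AlgHom.id_apply, resH1_actO]
      exact h _ (by rw [← hres, hφ]) (by rw [← hX.res, hXφ, map_zero])
        fun b => actH1_resH1 hle φ b
  · intro h v hv hXv hinv
    obtain ⟨φ, hφ⟩ := exists_resH1_of_invariant (e := E) hec hidem hl hlL heη hl1 hneg hle hfree
      hbij ⟨v, v, hv⟩ hinv
    have hv' : v = resH1 O O hle (E' φ) := hφ.symm.trans (hres φ).symm
    have hfix : E' (E' φ) = E' φ := LinearMap.congr_fun piece'.idem.eq φ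
    have hX0 : X (C.lvl C.s) (C.grp C.s) (E' φ) = 0 := by
      refine eq_of_resH1_eq hl hlL hle hinj (y := 0) ?_ (map_zero _) ?_
      · rw [← Module.End.mul_apply, hXE'.eq, Module.End.mul_apply, hfix]
      · rw [map_zero, hX.res, ← hv', hXv]
    have h0 := h _ hfix hX0
    rw [AlgHom.id_apply] at h0
    rw [hv', ← resH1_actO, h0, map_zero]

/-- **Ranks.** The summand at `(L, H)` has rank `|H'/H| 2^s` times the one at the base. -/
theorem Link.finrank_eq (K : C.Link θ₀ H H' θ l) (hnew : C.NoNew O θ₀)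
    (ht : C.IsNatural t K.neg K.le) {p : ℕ} [Fact p.Prime] (hpG : IsPGroup p (Dl H H'))
    (hp : (p : O) ∈ maximalIdeal O) :
    Module.finrank O (LinearMap.range
        (actO K.neg O (twIdem K.neg O θ) * unitH1 K.neg (t L H)))
      = Nat.card (Dl H H') * (2 ^ C.s * Module.finrank O (LinearMap.range
        (actO C.neg O (twIdem C.neg O θ₀) * unitH1 C.neg (t C.N₀ C.H₀)))) := by
  have K' := K
  obtain ⟨hlvl, hdvd, hmem, hle, hneg, -, -, hl, hlS, hl1, hlne, hfree⟩ := K'
  subst hlvl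
  obtain rfl : H' = C.grp C.s := Subgroup.ext fun a => (hmem a).trans C.mem_grp_iff.symm
  obtain rfl : θ = (C.theta θ₀ C.s le_rfl).comp (heckeRes hle) :=
    theta_eq_comp hle K _ (fun a => C.theta_diamondR θ₀ le_rfl a)
      fun m hm hmL hm0 hmS => C.theta_heckeTR θ₀ le_rfl hm hmS hmL hm0
  obtain ⟨F, hF⟩ := C.exists_family_unitPart O θ₀ (fun i _ => t (C.lvl i) (C.grp i))
    (fun i hi => ht.comm i hi) ht.step
  have key := Family.finrank_eq_two_pow_mul F (hnew.family F C.s) C.s le_rfl le_rfl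
  rw [hF, hF] at key
  have : NeZero l := ⟨hl.ne_zero⟩
  have := moduleFinite_H1 hneg O
  have := moduleFinite_H1 (C.neg_mem C.s) O
  have hl0 : ¬ l ∣ C.N₀ := C.not_dvd_lvl (Nat.zero_le _) hl hlS
  have hlL : ¬ l ∣ C.lvl C.s := C.not_dvd_lvl le_rfl hl hlS
  have hθl : C.theta θ₀ C.s le_rfl (heckeTR hl hlL hlS) ≠ ((l + 1 : ℕ) : ResidueField O) := by
    rw [C.theta_heckeTR θ₀ le_rfl hl hlS hlL hl0]
    exact hlne hl0
  set θH := (C.theta θ₀ C.s le_rfl).comp (heckeRes hle)
  set E : Module.End O (H1 (C.lvl C.s) H O O) :=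
    actO hneg O (twIdem hneg O θH) * unitH1 hneg (t (C.lvl C.s) H) with hE
  set E' : Module.End O (H1 (C.lvl C.s) (C.grp C.s) O O) :=
    C.idemOp O θ₀ C.s le_rfl * C.stageUnit O C.s (t (C.lvl C.s) (C.grp C.s)) with hE'
  have piece' := C.isPiece_unitPart O θ₀ C.s le_rfl _ (ht.comm C.s le_rfl)
  have hcz : ∀ z : HeckeO (C.lvl C.s) H (↑C.S : Set ℕ) O, Commute E (actO hneg O z) := fun z =>
    ((Commute.all _ z).map (actO hneg O)).mul_left (commute_unitPart (ht.commTop z)).symm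
  have hc : Commute (actO hneg O (twIdem hneg O θH)) (unitH1 hneg (t (C.lvl C.s) H)) :=
    commute_unitPart (ht.commTop _)
  have hidem : IsIdempotentElem E := by
    show _ * _ * (_ * _) = _
    rw [hc.symm.mul_mul_mul_comm, ← map_mul, (isIdempotentElem_twIdem hneg O θH).eq, unitH1_eq,
      (isIdempotentElem_unitPart _).eq]
    exact hE.symm
  have hbelow : actO hneg O (twIdem hneg O θH) * E = E := by
    rw [hE, ← mul_assoc, ← map_mul, (isIdempotentElem_twIdem hneg O θH).eq]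
  have hec : ∀ b : Dl H (C.grp C.s), Commute E (actH1 H (C.grp C.s) O O b) :=
    TW.commute_actH1 fun a _ => by
      have := hcz (HeckeO.ofT O (diamondR a))
      rwa [HeckeO.ofT_apply, actO_tmul, homAction_diamond, one_smul] at this
  have hres : ∀ ψ, resH1 O O hle (E' ψ) = E (resH1 O O hle ψ) :=
    resH1_mul hle (fun ψ => resH1_twIdem hneg hle O (C.theta θ₀ C.s le_rfl) ψ)
      (fun ψ => resH1_unitPart hle ht.res ψ)
  have heη : Commute E (TW.etaH O O hl hlL) := by
    rw [← actO_heckeT_sub hneg O hl hlL hlS]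
    exact hcz _
  have hθH : θH (heckeTR hl hlL hlS) ≠ ((l + 1 : ℕ) : ResidueField O) := by
    rw [RingHom.comp_apply, heckeRes_heckeT]
    exact hθl
  have hbij := bijective_etaE_below hneg O θH hl hlL hlS hθH hcz hbelow hidem heη
  have hinj : ∀ ψ, E' ψ = ψ → TW.etaH O O hl hlL ψ = 0 → ψ = 0 := fun ψ h1 h2 =>
    eq_zero_of_etaH_eq_zero (C.neg_mem C.s) O _ hl hlL hlS hθl piece'.below h1 h2
  have : Fintype (Dl H (C.grp C.s)) := Fintype.ofFinite _
  obtain ⟨d, -, hd, hdd⟩ := exists_basis_and_finrank hec hidem hl hlL heη hl1 hneg hle hfree hbij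
    piece'.idem hres hinj hpG hp
  rw [hdd, Nat.card_eq_fintype_card, ← hd]
  exact congrArg (Fintype.card _ * ·) key

/-! ## Natural operators -/

variable (hH : (-1 : (ZMod L)ˣ) ∈ H) (hle : H ≤ H')

theorem isNatural_one : C.IsNatural (fun _ _ _ => (1 : Module.End O _)) hH hle :=
  ⟨fun _ _ => Intertwined.one, fun _ _ _ => Commute.one_right _, fun _ => rfl,
    fun _ => Commute.one_right _⟩

theorem isNatural_zero : C.IsNatural (fun _ _ _ => (0 : Module.End O _)) hH hle :=
  ⟨fun _ _ => Intertwined.zero, fun _ _ _ => Commute.zero_right _,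
    fun ψ => by simp only [LinearMap.zero_apply, map_zero], fun _ => Commute.zero_right _⟩

end Chain

end Fermat.Agent.IharaTW
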