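import Fermat.Agent.IharaTW.Families

/-!
# The lifted families and the operators of `GammaH/Hecke`

The correspondences on `Γ_H(N)` built from lifted families act as the Hecke and diamond operators
of `GammaH/Hecke`.
-/

set_option autoImplicit false

noncomputable section

namespace Fermat.Agent.IharaTW

open Matrix CongruenceSubgroup Fermat.Agent.Ihara Fermat.Agent.Periods
open P2MW.S_ModularForm_heckeT_slash_eq_self_of_mem_Gamma0.ModularForm.HeckeSlashInvariance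
  (heckeRep)
open scoped MatrixGroups OnePoint

/-- A family congruent to a coset family induces the same transfer. -/
theorem op_eq_transfer {Γ : Subgroup SL(2, ℤ)} {ι : Type*} [Fintype ι] (S : CosetSys Γ Γ ι)
    {β : ι → GL (Fin 2) ℝ} (h : IsCosetFamily Γ β)
    (hb : ∀ i, ∃ g : Γ, rGL (S.α i) = toGLR (g : SL(2, ℤ)) * β i) {R A : Type*} [Semiring R]
    [AddCommGroup A] [Module R A] (φ : Additive Γ →+ A) :
    S.op R A φ = h.transfer R A φ := by
  choose g hg using hb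
  refine AddMonoidHom.ext fun γ => ?_
  obtain ⟨γ, rfl⟩ := Additive.ofMul.surjective γ
  have key : ∀ i, β i * toGLR (γ : SL(2, ℤ))
      = toGLR (((g i)⁻¹ * S.cof γ i * g (S.idx γ i) : Γ) : SL(2, ℤ)) * β (S.idx γ i) := by
    intro i
    have e := congrArg rGL (S.mul_eq γ i)
    rw [rGL_mul (S.pos _).ne' (by simp), rGL_mul (by simp) (S.pos _).ne',
      rGL_mcoe, rGL_mcoe, hg, hg] at e
    simp only [toGLR, Subgroup.coe_mul, Subgroup.coe_inv, map_mul, map_inv, mul_assoc] at e ⊢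
    rw [← e, inv_mul_cancel_left]
  rw [S.op_apply, h.transfer_apply_of_eq φ γ (S.idx γ) _ key]
  simp only [ofMul_mul, ofMul_inv, map_add, map_neg, Finset.sum_add_distrib,
    Finset.sum_neg_distrib]
  rw [show (∑ i, φ (Additive.ofMul (g (S.idx γ i)))) = ∑ i, φ (Additive.ofMul (g i)) from
    Equiv.sum_comp (S.permE γ) fun i => φ (Additive.ofMul (g i))]
  abel

theorem rGL_mcoe_mul (g : SL(2, ℤ)) {X : Mat2} (hX : X.det ≠ 0) :
    rGL (mcoe g * X) = toGLR g * rGL X := by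
  rw [rGL_mul (by simp) hX, rGL_mcoe]

variable {N M : ℕ} [NeZero M] {H : Subgroup (ZMod N)ˣ} {H' : Subgroup (ZMod M)ˣ}
  (hL : IsLevel N H (Gamma0 M) (GammaH.GammaH M H')) (hNM : N ∣ M)
  {R A : Type*} [Semiring R] [AddCommGroup A] [Module R A]

omit [NeZero M] in
include hNM in
theorem mem_Gamma0_hasD {γ : Gamma0 M} :
    HasD N (mcoe γ) ((ZMod.castHom hNM (ZMod N)) (GammaH.unitD M γ : ZMod M)) := by
  refine ⟨Gamma0_mem.mp (Gamma0_le_of_dvd hNM γ.2), ?_⟩
  rw [GammaH.coe_unitD, map_intCast]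

include hNM in
/-- The family of class `ℓ` is `T_ℓ`. -/
theorem heckeH_op_eq {ℓ : ℕ} [hℓ : Fact ℓ.Prime] (hℓN : ¬ℓ ∣ N) (hℓM : ¬ℓ ∣ M)
    (φ : GammaH.H1 M H' R A) :
    (heckeH hL hℓN hℓM (unitOf hℓN)).op R A (φ : Additive (GammaH.GammaH M H') →+ A)
      = (GammaH.heckeTH R A hℓ.out hℓM φ : Additive (GammaH.GammaH M H') →+ A) := by
  have : NeZero ℓ := ⟨hℓ.out.ne_zero⟩
  have hbr : (GammaH.heckeTH R A hℓ.out hℓM φ : Additive (GammaH.GammaH M H') →+ A)
      = (GammaH.isCosetFamily_T hℓ.out hℓM).transfer R A φ.1 := rfl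
  rw [hbr]
  refine op_eq_transfer _ _ (fun i => ?_) _
  obtain ⟨⟨g, hg, e⟩, hd⟩ := isLift_heckeH hL hℓN hℓM (unitOf hℓN) i
  rw [heckeSys_α] at e
  set c : Gamma0 M := GammaH.corrT hℓ.out hℓM i with hc
  have hmem : g * (c : SL(2, ℤ))⁻¹ ∈ Gamma0 M := mul_mem hg (inv_mem c.2)
  have he : (heckeH hL hℓN hℓM (unitOf hℓN)).α i
      = mcoe (g * (c : SL(2, ℤ))⁻¹) * (mcoe c * zRep ℓ i) := by
    rw [e, mcoe_mul, mul_assoc, mcoe_inv_mul_cancel]
  have hcd : HasD N (mcoe c * zRep ℓ i) (unitOf hℓN : ZMod N) := by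
    rw [GammaH.coe_primeUnit]
    induction i using OnePoint.rec with
    | infty =>
      have h1 : HasD N (zRep ℓ ∞) 1 := by simp [HasD, zRep_infty]
      have h2 := (mem_Gamma0_hasD (γ := c) hNM).mul h1
      rwa [show GammaH.unitD M c = GammaH.primeUnit hℓ.out hℓM from GammaH.unitD_deltaOf _,
        GammaH.coe_primeUnit, map_natCast, mul_one] at h2
    | coe j =>
      rw [show c = 1 from rfl, Subgroup.coe_one, mcoe_one, one_mul]
      simp [HasD, zRep_coe]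
  have hone : g * (c : SL(2, ℤ))⁻¹ ∈ GammaH.GammaH M H' := by
    refine hL.mem_of_one hmem ⟨(hL.hasD hmem).1, ?_⟩
    have h1 := hd.unique (he ▸ (hL.hasD hmem).mul hcd)
    exact (unitOf hℓN).isUnit.mul_left_injective
      ((show _ * _ = _ from h1.symm).trans (one_mul _).symm)
  have hz : (zRep ℓ i).det ≠ 0 := by
    rw [det_zRep]
    exact_mod_cast hℓ.out.ne_zero
  refine ⟨⟨_, hone⟩, ?_⟩
  have hcz : (mcoe (c : SL(2, ℤ)) * zRep ℓ i).det ≠ 0 := by
    rw [Matrix.det_mul, mcoe_det, one_mul]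
    exact hz
  rw [he, rGL_mcoe_mul _ hcz, rGL_mcoe_mul _ hz, rGL_zRep hℓ.out.ne_zero]
  rfl

/-- The diamond families are the diamond operators. -/
theorem diaSys_op_eq (a : (ZMod M)ˣ) (φ : GammaH.H1 M H' R A) :
    (diaSys hL (ZMod.unitsMap hNM a)).op R A (φ : Additive (GammaH.GammaH M H') →+ A)
      = (GammaH.diamondH R A a φ : Additive (GammaH.GammaH M H') →+ A) := by
  have hbr : (GammaH.diamondH R A a φ : Additive (GammaH.GammaH M H') →+ A)
      = (GammaH.isCosetFamily_diamond a).transfer R A φ.1 := rfl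
  rw [hbr]
  refine op_eq_transfer _ _ (fun i => ?_) _
  obtain ⟨⟨g, hg, e⟩, hd⟩ := isLift_diaSys hL (ZMod.unitsMap hNM a) i
  rw [show (inclSys (le_refl (Gamma0 M))).α i = 1 from rfl, mul_one] at e
  have hmem : g * (GammaH.deltaOf M a : SL(2, ℤ))⁻¹ ∈ Gamma0 M :=
    mul_mem hg (inv_mem (GammaH.deltaOf M a).2)
  have hcd : HasD N (mcoe (GammaH.deltaOf M a)) (ZMod.unitsMap hNM a : ZMod N) := by
    have h := mem_Gamma0_hasD (γ := GammaH.deltaOf M a) hNM
    rw [GammaH.unitD_deltaOf] at h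
    rwa [ZMod.unitsMap_val]
  have he : (diaSys hL (ZMod.unitsMap hNM a)).α i
      = mcoe (g * (GammaH.deltaOf M a : SL(2, ℤ))⁻¹) * mcoe (GammaH.deltaOf M a) := by
    rw [e, ← mcoe_mul, inv_mul_cancel_right]
  have hone : g * (GammaH.deltaOf M a : SL(2, ℤ))⁻¹ ∈ GammaH.GammaH M H' := by
    refine hL.mem_of_one hmem ⟨(hL.hasD hmem).1, ?_⟩
    have h1 := hd.unique (he ▸ (hL.hasD hmem).mul hcd)
    exact (ZMod.unitsMap hNM a).isUnit.mul_left_injective
      ((show _ * _ = _ from h1.symm).trans (one_mul _).symm)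
  refine ⟨⟨_, hone⟩, ?_⟩
  have hd1 : (mcoe (GammaH.deltaOf M a : SL(2, ℤ))).det ≠ 0 := by simp
  rw [he, rGL_mcoe_mul _ hd1, rGL_mcoe]

end Fermat.Agent.IharaTW
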