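import Fermat.Agent.IharaTW.HeckeStage
import Fermat.Agent.TW.Free
import Fermat.Agent.TW.Character

/-!
# The chain of stages

The levels `N₀`, `N₀ q₀`, `N₀ q₀ q₁`, … up to `s` steps, with the subgroups over `H₀`: the maps from
the Hecke ring of the top stage, the residual eigensystem and its idempotents at every stage, one
group `Δ` at all stages, and transport of freeness along isomorphisms of groups.
-/

set_option autoImplicit false

noncomputable section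

namespace Fermat.Agent.IharaTW

open IsLocalRing CongruenceSubgroup Fermat.Agent.GammaH Fermat.Agent.TW
open scoped MatrixGroups

/-! ## Transport of freeness along an isomorphism of groups -/

/-- A representation pulled back along an isomorphism of groups keeps freeness. -/
theorem free_asModule_of_equiv {R G G' V : Type*} [CommRing R] [CommGroup G] [CommGroup G']
    [AddCommMonoid V] [Module R V] (ρ : Representation R G' V) (π : Representation R G V)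
    (φ : G ≃* G') (h : ∀ g, π g = ρ (φ g)) [Module.Free (MonoidAlgebra R G') ρ.asModule]
    [Module.Finite (MonoidAlgebra R G') ρ.asModule] :
    Module.Free (MonoidAlgebra R G) π.asModule ∧ Module.Finite (MonoidAlgebra R G) π.asModule := by
  let ψ : MonoidAlgebra R G' ≃+* MonoidAlgebra R G := MonoidAlgebra.mapDomainRingEquiv R φ.symm
  have := RingHomInvPair.of_ringEquiv ψ
  have := RingHomInvPair.symm (ψ : MonoidAlgebra R G' →+* MonoidAlgebra R G)
    (ψ.symm : MonoidAlgebra R G →+* MonoidAlgebra R G')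
  let f : ρ.asModule ≃ₛₗ[(ψ : MonoidAlgebra R G' →+* MonoidAlgebra R G)] π.asModule :=
    { ρ.asModuleEquiv.toAddEquiv.trans π.asModuleEquiv.symm.toAddEquiv with
      map_smul' := fun a v => by
        show π.asModuleEquiv.symm (ρ.asModuleEquiv (a • v))
          = ψ a • π.asModuleEquiv.symm (ρ.asModuleEquiv v)
        induction a using MonoidAlgebra.induction_linear with
        | zero => simp
        | add x y hx hy => rw [add_smul, map_add, map_add, hx, hy, map_add, add_smul]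
        | single g r =>
          rw [ρ.single_smul, show ψ (MonoidAlgebra.single g r) = MonoidAlgebra.single (φ.symm g) r
            from MonoidAlgebra.mapDomainRingEquiv_single _ _ _, π.single_smul,
            LinearEquiv.apply_symm_apply, h, φ.apply_symm_apply]
          rfl }
  exact ⟨Module.Free.of_equiv f, Module.Finite.of_surjective f.toLinearMap f.surjective⟩

/-! ## Levels and subgroups -/

/-- The levels. -/
def chainLvl (N₀ : ℕ) (q : ℕ → ℕ) : ℕ → ℕ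
  | 0 => N₀
  | i + 1 => chainLvl N₀ q i * q i

/-- The subgroups over `H`. -/
def chainGrp (N₀ : ℕ) (q : ℕ → ℕ) (H : Subgroup (ZMod N₀)ˣ) :
    ∀ i, Subgroup (ZMod (chainLvl N₀ q i))ˣ
  | 0 => H
  | i + 1 => Hq (chainLvl N₀ q i) (q i) (chainGrp N₀ q H i)

theorem chainLvl_dvd (N₀ : ℕ) (q : ℕ → ℕ) {i j : ℕ} (h : i ≤ j) :
    chainLvl N₀ q i ∣ chainLvl N₀ q j := by
  induction h with
  | refl => exact dvd_rfl
  | step _ ih => exact ih.trans (dvd_mul_right _ _)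

theorem unitsMap_unitsMap {a b c : ℕ} (h₁ : a ∣ b) (h₂ : b ∣ c) (u : (ZMod c)ˣ) :
    ZMod.unitsMap h₁ (ZMod.unitsMap h₂ u) = ZMod.unitsMap (h₁.trans h₂) u := by
  rw [← MonoidHom.comp_apply, ZMod.unitsMap_comp]

theorem mem_chainGrp {N₀ : ℕ} {q : ℕ → ℕ} {H : Subgroup (ZMod N₀)ˣ} (i : ℕ)
    (a : (ZMod (chainLvl N₀ q i))ˣ) :
    a ∈ chainGrp N₀ q H i
      ↔ ZMod.unitsMap (chainLvl_dvd N₀ q (Nat.zero_le i)) a ∈ H := by
  induction i with
  | zero =>
    show a ∈ H ↔ ZMod.unitsMap (dvd_refl N₀) a ∈ H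
    rw [ZMod.unitsMap_self]
    rfl
  | succ i ih =>
    exact (ih (ZMod.unitsMap (dvd_mul_right _ _) a)).trans
      (iff_of_eq (congrArg (· ∈ H) (unitsMap_unitsMap _ _ a)))

/-- A bottom level with `s` further primes, and a set containing all primes of the top level. -/
structure Chain where
  N₀ : ℕ
  ne : N₀ ≠ 0
  q : ℕ → ℕ
  s : ℕ
  prime : ∀ f, (q f).Prime
  not_dvd : ∀ f < s, ¬ q f ∣ chainLvl N₀ q f
  H₀ : Subgroup (ZMod N₀)ˣ
  neg : (-1 : (ZMod N₀)ˣ) ∈ H₀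
  S : Finset ℕ
  mem_S : ∀ l : ℕ, l.Prime → l ∣ chainLvl N₀ q s → l ∈ S

namespace Chain

variable (C : Chain)

/-- The level of a stage. -/
abbrev lvl (i : ℕ) : ℕ := chainLvl C.N₀ C.q i

/-- The subgroup of a stage. -/
abbrev grp (i : ℕ) : Subgroup (ZMod (C.lvl i))ˣ := chainGrp C.N₀ C.q C.H₀ i

instance neZero_N₀ : NeZero C.N₀ := ⟨C.ne⟩

instance fact_prime (i : ℕ) : Fact (C.q i).Prime := ⟨C.prime i⟩

instance neZero_lvl (i : ℕ) : NeZero (C.lvl i) := by
  induction i with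
  | zero => exact ⟨C.ne⟩
  | succ i ih => exact ⟨mul_ne_zero ih.out (C.prime i).ne_zero⟩

instance neZero_mul (i : ℕ) : NeZero (C.lvl i * C.q i) := C.neZero_lvl (i + 1)

theorem lvl_dvd {i j : ℕ} (h : i ≤ j) : C.lvl i ∣ C.lvl j := chainLvl_dvd C.N₀ C.q h

theorem dvd_lvl (i : ℕ) : C.N₀ ∣ C.lvl i := C.lvl_dvd (Nat.zero_le i)

theorem two_le_lvl (hN : 2 ≤ C.N₀) (i : ℕ) : 2 ≤ C.lvl i :=
  hN.trans (Nat.le_of_dvd (Nat.pos_of_ne_zero (NeZero.ne _)) (C.dvd_lvl i))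

theorem mem_grp_iff {i : ℕ} {a : (ZMod (C.lvl i))ˣ} :
    a ∈ C.grp i ↔ ZMod.unitsMap (C.dvd_lvl i) a ∈ C.H₀ :=
  mem_chainGrp i a

theorem neg_mem (i : ℕ) : (-1 : (ZMod (C.lvl i))ˣ) ∈ C.grp i := by
  rw [mem_grp_iff]
  convert C.neg using 1
  refine Units.ext ?_
  rw [ZMod.unitsMap_val, Units.val_neg, Units.val_neg, Units.val_one, Units.val_one]
  exact (map_neg (ZMod.castHom (C.dvd_lvl i) (ZMod C.N₀)) 1).trans (congrArg Neg.neg (map_one _))

theorem mem_S_of_dvd {i : ℕ} (hi : i ≤ C.s) (l : ℕ) (hl : l.Prime) (h : l ∣ C.lvl i) :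
    l ∈ (↑C.S : Set ℕ) :=
  C.mem_S l hl (h.trans (C.lvl_dvd hi))

theorem mem_S_step {i : ℕ} (hi : i < C.s) (l : ℕ) (hl : l.Prime) (h : l ∣ C.lvl i * C.q i) :
    l ∈ (↑C.S : Set ℕ) :=
  C.mem_S_of_dvd (i := i + 1) hi l hl h

theorem not_dvd_lvl {i : ℕ} (hi : i ≤ C.s) {l : ℕ} (hl : l.Prime) (hlS : l ∉ (↑C.S : Set ℕ)) :
    ¬ l ∣ C.lvl i :=
  fun h => hlS (C.mem_S_of_dvd hi l hl h)

/-- The index is a power of `p` at every stage once it is at the bottom. -/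
theorem exists_pow_mem {p : ℕ} (h : ∀ u : (ZMod C.N₀)ˣ, ∃ k : ℕ, u ^ p ^ k ∈ C.H₀) (i : ℕ)
    (u : (ZMod (C.lvl i))ˣ) : ∃ k : ℕ, u ^ p ^ k ∈ C.grp i := by
  obtain ⟨k, hk⟩ := h (ZMod.unitsMap (C.dvd_lvl i) u)
  exact ⟨k, C.mem_grp_iff.mpr (by rwa [map_pow])⟩

/-! ## The group `Δ` -/

variable (H₁ : Subgroup (ZMod C.N₀)ˣ)

/-- The larger subgroup at a stage. -/
abbrev grp₁ (i : ℕ) : Subgroup (ZMod (C.lvl i))ˣ := chainGrp C.N₀ C.q H₁ i

variable {H₁} in
theorem grp_le (hle : C.H₀ ≤ H₁) (i : ℕ) : C.grp i ≤ C.grp₁ H₁ i := fun a ha =>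
  (mem_chainGrp i a).mpr (hle (C.mem_grp_iff.mp ha))

/-- `Δ` is the same at every stage. -/
def deltaEquiv : ∀ i, Dl (C.grp i) (C.grp₁ H₁ i) ≃* Dl C.H₀ H₁
  | 0 => MulEquiv.refl _
  | i + 1 => (dlEquiv (C.lvl i) (C.q i) (C.grp i) (C.grp₁ H₁ i)).trans (deltaEquiv i)

theorem isPGroup_stage {p : ℕ} (hp : IsPGroup p (Dl C.H₀ H₁)) (i : ℕ) :
    IsPGroup p (Dl (C.grp i) (C.grp₁ H₁ i)) :=
  hp.of_equiv (C.deltaEquiv H₁ i).symm

/-- No extra torsion at the bottom gives none at any stage. -/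
theorem free_stage_of_free {H₁ : Subgroup (ZMod C.N₀)ˣ}
    (hfree : ∀ g ∈ GammaH.GammaH C.N₀ H₁, g ^ 12 = 1 → g ∈ GammaH.GammaH C.N₀ C.H₀) (i : ℕ) :
    ∀ g ∈ GammaH.GammaH (C.lvl i) (C.grp₁ H₁ i), g ^ 12 = 1 →
      g ∈ GammaH.GammaH (C.lvl i) (C.grp i) := by
  intro g hg h12
  obtain ⟨h0, hu⟩ := mem_GammaH.mp hg
  have h0' : g ∈ Gamma0 C.N₀ := by
    rw [Gamma0_mem] at h0 ⊢
    have := congrArg (ZMod.castHom (C.dvd_lvl i) (ZMod C.N₀)) h0
    rwa [map_intCast, map_zero] at this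
  have hd : unitD C.N₀ ⟨g, h0'⟩ = ZMod.unitsMap (C.dvd_lvl i) (unitD (C.lvl i) ⟨g, h0⟩) := by
    refine Units.ext ?_
    rw [ZMod.unitsMap_val, coe_unitD, coe_unitD]
    exact (map_intCast (ZMod.castHom (C.dvd_lvl i) (ZMod C.N₀)) _).symm
  have hg0 : g ∈ GammaH.GammaH C.N₀ H₁ :=
    mem_GammaH.mpr ⟨h0', hd ▸ (mem_chainGrp i _).mp hu⟩
  obtain ⟨h0'', hu0⟩ := mem_GammaH.mp (hfree g hg0 h12)
  exact mem_GammaH.mpr ⟨h0, C.mem_grp_iff.mpr (hd ▸ hu0)⟩

/-! ## The Hecke rings -/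

/-- The map of anemic Hecke rings of consecutive stages. -/
def stepR (i : ℕ) (hi : i < C.s) :
    heckeRing (C.lvl (i + 1)) (C.grp (i + 1)) (↑C.S : Set ℕ)
      →+* heckeRing (C.lvl i) (C.grp i) (↑C.S : Set ℕ) :=
  stageR (C.lvl i) (C.q i) (C.not_dvd i hi) (C.grp i) (C.neg_mem i) (C.neg_mem (i + 1))
    (C.mem_S_step hi)

theorem stepR_diamondR {i : ℕ} (hi : i < C.s) (a : (ZMod (C.lvl (i + 1)))ˣ) :
    C.stepR i hi (diamondR a) = diamondR (ZMod.unitsMap (C.lvl_dvd (Nat.le_succ i)) a) :=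
  stageR_diamondR (C.lvl i) (C.q i) (C.not_dvd i hi) (C.grp i) (C.neg_mem i) (C.neg_mem (i + 1))
    (C.mem_S_step hi) a

theorem stepR_heckeTR {i : ℕ} (hi : i < C.s) {l : ℕ} (hl : l.Prime) (hlS : l ∉ (↑C.S : Set ℕ))
    (hlq : ¬ l ∣ C.lvl (i + 1)) (hli : ¬ l ∣ C.lvl i) :
    C.stepR i hi (heckeTR hl hlq hlS) = heckeTR hl hli hlS :=
  stageR_heckeTR (C.lvl i) (C.q i) (C.not_dvd i hi) (C.grp i) (C.neg_mem i) (C.neg_mem (i + 1))
    (C.mem_S_step hi) hl hlq hli hlS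

/-- From the top stage. -/
def toR (i : ℕ) (hi : i ≤ C.s) :
    heckeRing (C.lvl C.s) (C.grp C.s) (↑C.S : Set ℕ)
      →+* heckeRing (C.lvl i) (C.grp i) (↑C.S : Set ℕ) :=
  Nat.decreasingInduction (motive := fun i _ => heckeRing (C.lvl C.s) (C.grp C.s) (↑C.S : Set ℕ)
      →+* heckeRing (C.lvl i) (C.grp i) (↑C.S : Set ℕ))
    (fun j hj f => (C.stepR j hj).comp f) (RingHom.id _) hi

theorem toR_self (h : C.s ≤ C.s) : C.toR C.s h = RingHom.id _ := Nat.decreasingInduction_self _ _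

theorem toR_step {i : ℕ} (hi : i < C.s) :
    C.toR i hi.le = (C.stepR i hi).comp (C.toR (i + 1) hi) :=
  Nat.decreasingInduction_succ_left _ _ hi hi.le

theorem toR_diamondR {i : ℕ} (hi : i ≤ C.s) (a : (ZMod (C.lvl C.s))ˣ) :
    C.toR i hi (diamondR a) = diamondR (ZMod.unitsMap (C.lvl_dvd hi) a) := by
  induction hi using Nat.decreasingInduction with
  | self =>
    rw [toR_self, RingHom.id_apply, ZMod.unitsMap_self]
    rfl
  | of_succ j hj ih =>
    rw [toR_step C hj, RingHom.comp_apply, ih, stepR_diamondR, unitsMap_unitsMap]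

theorem toR_heckeTR {i : ℕ} (hi : i ≤ C.s) {l : ℕ} (hl : l.Prime) (hlS : l ∉ (↑C.S : Set ℕ))
    (hls : ¬ l ∣ C.lvl C.s) (hli : ¬ l ∣ C.lvl i) :
    C.toR i hi (heckeTR hl hls hlS) = heckeTR hl hli hlS := by
  induction hi using Nat.decreasingInduction with
  | self => rw [toR_self, RingHom.id_apply]
  | of_succ j hj ih =>
    rw [toR_step C hj, RingHom.comp_apply, ih (C.not_dvd_lvl hj hl hlS),
      C.stepR_heckeTR hj hl hlS _ hli]

theorem toR_twistedT {i : ℕ} (hi : i ≤ C.s) (h : ℕ) {l : ℕ} (hl : l.Prime)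
    (hlS : l ∉ (↑C.S : Set ℕ)) (hls : ¬ l ∣ C.lvl C.s) (hli : ¬ l ∣ C.lvl i) :
    C.toR i hi (twistedT h hl hls hlS) = twistedT h hl hli hlS := by
  rw [twistedT, twistedT, map_mul, map_pow, toR_diamondR, C.toR_heckeTR hi hl hlS hls hli,
    show ZMod.unitsMap (C.lvl_dvd hi) (primeUnit hl hls) = primeUnit hl hli from Units.ext (by
      rw [ZMod.unitsMap_val, coe_primeUnit, coe_primeUnit, ZMod.cast_natCast (C.lvl_dvd hi)])]

section Theta

variable {k : Type} [CommRing k] (θ₀ : heckeRing C.N₀ C.H₀ (↑C.S : Set ℕ) →+* k)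

/-- The eigensystem at a stage. -/
def theta : ∀ i, i ≤ C.s → heckeRing (C.lvl i) (C.grp i) (↑C.S : Set ℕ) →+* k
  | 0, _ => θ₀
  | i + 1, h => (theta i (Nat.le_of_succ_le h)).comp (C.stepR i h)

theorem theta_succ {i : ℕ} (hi : i < C.s) :
    C.theta θ₀ (i + 1) hi = (C.theta θ₀ i hi.le).comp (C.stepR i hi) := rfl

theorem theta_heckeTR : ∀ {i : ℕ} (hi : i ≤ C.s) {l : ℕ} (hl : l.Prime)
    (hlS : l ∉ (↑C.S : Set ℕ)) (hli : ¬ l ∣ C.lvl i) (hl0 : ¬ l ∣ C.N₀),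
    C.theta θ₀ i hi (heckeTR hl hli hlS) = θ₀ (heckeTR hl hl0 hlS)
  | 0, _, _, _, _, _, _ => rfl
  | i + 1, hi, l, hl, hlS, hli, hl0 => by
    have hli' : ¬ l ∣ C.lvl i := C.not_dvd_lvl (Nat.le_of_succ_le hi) hl hlS
    rw [theta_succ C θ₀ hi, RingHom.comp_apply, C.stepR_heckeTR hi hl hlS hli hli']
    exact theta_heckeTR (Nat.le_of_succ_le hi) hl hlS hli' hl0

theorem theta_diamondR : ∀ {i : ℕ} (hi : i ≤ C.s) (a : (ZMod (C.lvl i))ˣ),
    C.theta θ₀ i hi (diamondR a) = θ₀ (diamondR (ZMod.unitsMap (C.dvd_lvl i) a))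
  | 0, _, a => congrArg (fun u => θ₀ (diamondR u))
      (congrArg (fun f : (ZMod C.N₀)ˣ →* (ZMod C.N₀)ˣ => f a) (ZMod.unitsMap_self C.N₀)).symm
  | i + 1, hi, a => by
    rw [theta_succ C θ₀ hi, RingHom.comp_apply, C.stepR_diamondR hi a,
      theta_diamondR (Nat.le_of_succ_le hi), unitsMap_unitsMap]

theorem theta_twistedT {i : ℕ} (hi : i ≤ C.s) (h : ℕ) {l : ℕ} (hl : l.Prime)
    (hlS : l ∉ (↑C.S : Set ℕ)) (hli : ¬ l ∣ C.lvl i) (hl0 : ¬ l ∣ C.N₀) :
    C.theta θ₀ i hi (twistedT h hl hli hlS) = θ₀ (twistedT h hl hl0 hlS) := by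
  rw [twistedT, twistedT, map_mul, map_pow, map_mul, map_pow, C.theta_diamondR θ₀ hi,
    C.theta_heckeTR θ₀ hi hl hlS hli hl0,
    show ZMod.unitsMap (C.dvd_lvl i) (primeUnit hl hli) = primeUnit hl hl0 from Units.ext (by
      rw [ZMod.unitsMap_val, coe_primeUnit, coe_primeUnit, ZMod.cast_natCast (C.dvd_lvl i)])]

end Theta

/-! ## With coefficients -/

section Coeff

variable (O : Type) [CommRing O]

/-- The map of consecutive stages, with coefficients. -/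
def stepO (i : ℕ) (hi : i < C.s) :
    HeckeO (C.lvl (i + 1)) (C.grp (i + 1)) (↑C.S : Set ℕ) O
      →ₐ[O] HeckeO (C.lvl i) (C.grp i) (↑C.S : Set ℕ) O :=
  stageO (C.lvl i) (C.q i) (C.not_dvd i hi) (C.grp i) (C.neg_mem i) (C.neg_mem (i + 1))
    (C.mem_S_step hi) O

/-- From the top stage, with coefficients. -/
def toO (i : ℕ) (hi : i ≤ C.s) :
    HeckeO (C.lvl C.s) (C.grp C.s) (↑C.S : Set ℕ) O
      →ₐ[O] HeckeO (C.lvl i) (C.grp i) (↑C.S : Set ℕ) O :=
  Nat.decreasingInduction (motive := fun i _ => HeckeO (C.lvl C.s) (C.grp C.s) (↑C.S : Set ℕ) O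
      →ₐ[O] HeckeO (C.lvl i) (C.grp i) (↑C.S : Set ℕ) O)
    (fun j hj f => (C.stepO O j hj).comp f) (AlgHom.id O _) hi

theorem toO_self (h : C.s ≤ C.s) : C.toO O C.s h = AlgHom.id O _ :=
  Nat.decreasingInduction_self _ _

theorem toO_step {i : ℕ} (hi : i < C.s) :
    C.toO O i hi.le = (C.stepO O i hi).comp (C.toO O (i + 1) hi) :=
  Nat.decreasingInduction_succ_left _ _ hi hi.le

theorem toO_surjective {i : ℕ} (hi : i ≤ C.s) : Function.Surjective (C.toO O i hi) := by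
  induction hi using Nat.decreasingInduction with
  | self => rw [toO_self]; exact Function.surjective_id
  | of_succ j hj ih =>
    rw [toO_step C O hj, AlgHom.coe_comp]
    exact (stageO_surjective _ _ _ _ _ _ _ O).comp ih

theorem stepO_ofT {i : ℕ} (hi : i < C.s)
    (t : heckeRing (C.lvl (i + 1)) (C.grp (i + 1)) (↑C.S : Set ℕ)) :
    C.stepO O i hi (HeckeO.ofT O t) = HeckeO.ofT O (C.stepR i hi t) := by
  rw [HeckeO.ofT_apply]
  exact (stageO_mk (C.lvl i) (C.q i) (C.not_dvd i hi) (C.grp i) (C.neg_mem i) (C.neg_mem (i + 1))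
    (C.mem_S_step hi) O 1 t).trans (one_smul O _)

theorem toO_ofT {i : ℕ} (hi : i ≤ C.s)
    (t : heckeRing (C.lvl C.s) (C.grp C.s) (↑C.S : Set ℕ)) :
    C.toO O i hi (HeckeO.ofT O t) = HeckeO.ofT O (C.toR i hi t) := by
  induction hi using Nat.decreasingInduction with
  | self => rw [toO_self, toR_self]; rfl
  | of_succ j hj ih =>
    rw [toO_step C O hj, toR_step C hj, AlgHom.comp_apply, RingHom.comp_apply, ih, stepO_ofT]

theorem toO_diamondR {i : ℕ} (hi : i ≤ C.s) (a : (ZMod (C.lvl C.s))ˣ) :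
    C.toO O i hi (HeckeO.ofT O (diamondR a))
      = HeckeO.ofT O (diamondR (ZMod.unitsMap (C.lvl_dvd hi) a)) := by
  rw [toO_ofT, toR_diamondR]

theorem toO_twistedT {i : ℕ} (hi : i ≤ C.s) (h : ℕ) {l : ℕ} (hl : l.Prime)
    (hlS : l ∉ (↑C.S : Set ℕ)) (hls : ¬ l ∣ C.lvl C.s) (hli : ¬ l ∣ C.lvl i) :
    C.toO O i hi (HeckeO.ofT O (twistedT h hl hls hlS))
      = HeckeO.ofT O (twistedT h hl hli hlS) := by
  rw [toO_ofT, C.toR_twistedT hi h hl hlS hls hli]

/-- The actions at consecutive stages are intertwined. -/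
theorem intertwined_toO {i : ℕ} (hi : i < C.s)
    (x : HeckeO (C.lvl C.s) (C.grp C.s) (↑C.S : Set ℕ) O) :
    Intertwined (C.lvl i) (C.q i) (C.not_dvd i hi) (C.grp i)
      (actO (C.neg_mem (i + 1)) O (C.toO O (i + 1) hi x))
      (actO (C.neg_mem i) O (C.toO O i hi.le x)) := by
  rw [toO_step C O hi]
  exact intertwined_stageO (C.lvl i) (C.q i) (C.not_dvd i hi) (C.grp i) (C.neg_mem i)
    (C.neg_mem (i + 1)) (C.mem_S_step hi) O (C.toO O (i + 1) hi x)

variable [IsDomain O] [IsDiscreteValuationRing O]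
  (θ₀ : heckeRing C.N₀ C.H₀ (↑C.S : Set ℕ) →+* ResidueField O)

theorem residO_stepO {i : ℕ} (hi : i < C.s)
    (x : HeckeO (C.lvl (i + 1)) (C.grp (i + 1)) (↑C.S : Set ℕ) O) :
    residO O (C.theta θ₀ i hi.le) (C.stepO O i hi x) = residO O (C.theta θ₀ (i + 1) hi) x :=
  residO_stageO (C.lvl i) (C.q i) (C.not_dvd i hi) (C.grp i) (C.neg_mem i) (C.neg_mem (i + 1))
    (C.mem_S_step hi) O (C.theta θ₀ i hi.le) x

theorem residO_toO {i : ℕ} (hi : i ≤ C.s)
    (x : HeckeO (C.lvl C.s) (C.grp C.s) (↑C.S : Set ℕ) O) :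
    residO O (C.theta θ₀ i hi) (C.toO O i hi x) = residO O (C.theta θ₀ C.s le_rfl) x := by
  induction hi using Nat.decreasingInduction with
  | self => rw [toO_self]; rfl
  | of_succ j hj ih =>
    rw [toO_step C O hj, AlgHom.comp_apply, residO_stepO, ih]

variable [IsAdicComplete (maximalIdeal O) O]

/-- The residual idempotent of a stage. -/
abbrev idem (i : ℕ) (hi : i ≤ C.s) : HeckeO (C.lvl i) (C.grp i) (↑C.S : Set ℕ) O :=
  twIdem (C.neg_mem i) O (C.theta θ₀ i hi)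

/-- **The idempotents of the stages correspond.** -/
theorem toO_idem {i : ℕ} (hi : i ≤ C.s) :
    C.toO O i hi (C.idem O θ₀ C.s le_rfl) = C.idem O θ₀ i hi := by
  induction hi using Nat.decreasingInduction with
  | self => rw [toO_self]; rfl
  | of_succ j hj ih =>
    rw [toO_step C O hj, AlgHom.comp_apply, ih]
    exact stageO_twIdem (C.lvl j) (C.q j) (C.not_dvd j hj) (C.grp j) (C.neg_mem j)
      (C.neg_mem (j + 1)) (C.mem_S_step hj) O (C.theta θ₀ j hj.le)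

/-- The idempotents of consecutive stages are intertwined. -/
theorem intertwined_idem {i : ℕ} (hi : i < C.s) :
    Intertwined (C.lvl i) (C.q i) (C.not_dvd i hi) (C.grp i)
      (actO (C.neg_mem (i + 1)) O (C.idem O θ₀ (i + 1) hi))
      (actO (C.neg_mem i) O (C.idem O θ₀ i hi.le)) := by
  rw [← C.toO_idem O θ₀ hi, ← C.toO_idem O θ₀ hi.le]
  exact C.intertwined_toO O hi _

/-! ## The auxiliary prime and freeness -/

variable {i : ℕ} (hi : i ≤ C.s) {l : ℕ} (hl : l.Prime) (hlS : l ∉ (↑C.S : Set ℕ))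
  {E : Module.End O (H1 (C.lvl i) (C.grp i) O O)}

omit [IsDomain O] [IsDiscreteValuationRing O] [IsAdicComplete (maximalIdeal O) O] in
theorem actO_eta (hli : ¬ l ∣ C.lvl i) :
    actO (C.neg_mem i) O
        (HeckeO.ofT O (heckeTR hl hli hlS) - ((l + 1 : ℕ) : HeckeO _ _ _ O))
      = TW.etaH O O hl hli := by
  rw [map_sub, map_natCast, HeckeO.ofT_apply, actO_tmul, homAction_heckeT, one_smul]
  refine LinearMap.ext fun v => ?_
  rw [LinearMap.sub_apply, Module.End.natCast_apply]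
  rfl

omit [IsDomain O] [IsDiscreteValuationRing O] [IsAdicComplete (maximalIdeal O) O] in
include hlS in
/-- An operator commuting with the Hecke action commutes with `η`. -/
theorem commute_eta
    (hE : ∀ z : HeckeO (C.lvl i) (C.grp i) (↑C.S : Set ℕ) O, Commute E (actO (C.neg_mem i) O z))
    (hli : ¬ l ∣ C.lvl i) : Commute E (TW.etaH O O hl hli) := by
  have h1 := hE (HeckeO.ofT O (heckeTR hl hli hlS) - ((l + 1 : ℕ) : HeckeO _ _ _ O))
  rwa [C.actO_eta O hl hlS hli] at h1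

variable (hl0 : ¬ l ∣ C.N₀) (hθ : θ₀ (heckeTR hl hl0 hlS) ≠ ((l + 1 : ℕ) : ResidueField O))
  (hE : ∀ z : HeckeO (C.lvl i) (C.grp i) (↑C.S : Set ℕ) O, Commute E (actO (C.neg_mem i) O z))
  (hbelow : actO (C.neg_mem i) O (C.idem O θ₀ i hi) * E = E)

include hθ hE hbelow in
/-- **`η` is bijective on a summand below the residual idempotent.** -/
theorem bijective_etaE (hli : ¬ l ∣ C.lvl i) (heη : Commute E (TW.etaH O O hl hli)) :
    Function.Bijective (TW.etaE hl hli heη) := by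
  set x := HeckeO.ofT O (heckeTR hl hli hlS) - ((l + 1 : ℕ) : HeckeO _ _ _ O)
  have hx : actO (C.neg_mem i) O x = TW.etaH O O hl hli := C.actO_eta O hl hlS hli
  have hr : residO O (C.theta θ₀ i hi) x ≠ 0 := by
    rw [map_sub, map_natCast, residO_ofT, C.theta_heckeTR θ₀ hi hl hlS hli hl0, sub_ne_zero]
    exact hθ
  obtain ⟨y, hy⟩ := exists_mul_eq_twIdem (C.neg_mem i) O (C.theta θ₀ i hi) hr
  set Y := actO (C.neg_mem i) O y
  have hYX : ∀ v ∈ LinearMap.range E, Y (TW.etaH O O hl hli v) = v := fun v hv => by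
    obtain ⟨w, rfl⟩ := hv
    rw [← hx, ← Module.End.mul_apply, ← map_mul, hy, ← Module.End.mul_apply]
    exact LinearMap.congr_fun hbelow w
  have hXY : ∀ v ∈ LinearMap.range E, TW.etaH O O hl hli (Y v) = v := fun v hv => by
    rw [← hx, ← Module.End.mul_apply, ← map_mul, mul_comm x y, map_mul, Module.End.mul_apply, hx]
    exact hYX v hv
  refine ⟨fun v w h => Subtype.ext ?_, fun v => ?_⟩
  · rw [← hYX v.1 v.2, ← hYX w.1 w.2]
    exact congrArg Y (congrArg Subtype.val h)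
  · obtain ⟨w, hw⟩ := v.2
    refine ⟨⟨Y v.1, Y w, ?_⟩, Subtype.ext (hXY v.1 v.2)⟩
    rw [← hw, ← Module.End.mul_apply, (hE y).eq]
    rfl

end Coeff

/-- `l ≡ 1` modulo the top level gives `l ≡ 1` at every stage. -/
theorem natCast_eq_one {i : ℕ} (hi : i ≤ C.s) {l : ℕ} (hl1 : (l : ZMod (C.lvl C.s)) = 1) :
    (l : ZMod (C.lvl i)) = 1 := by
  have := congrArg (ZMod.castHom (C.lvl_dvd hi) (ZMod (C.lvl i))) hl1
  rwa [map_natCast, map_one] at this

theorem natCast_mul_eq_one {i : ℕ} (hi : i < C.s) {l : ℕ} (hl1 : (l : ZMod (C.lvl C.s)) = 1) :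
    (l : ZMod (C.lvl i * C.q i)) = 1 :=
  C.natCast_eq_one (i := i + 1) hi hl1

end Chain

end Fermat.Agent.IharaTW
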