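import Fermat.Agent.IharaTW.Maps
import Fermat.Agent.RootIrred.EigenvalueBoundH
import Fermat.Agent.Newform.LinAlg

/-!
# `gMap ∘ fMap` is injective in characteristic zero

Its determinant `(q + 1)²⟨q⟩ - T_q²` has no kernel, by the strict bound on eigenvalues.
-/

set_option autoImplicit false

noncomputable section

namespace Fermat.Agent.IharaTW

open CongruenceSubgroup Fermat.Agent.GammaH
open scoped MatrixGroups

/-- Cramer's rule for `[[n, T], [T, n D]]`. -/
theorem det_smul_eq_zero {M : Type*} [AddCommGroup M] (T D : M →+ M)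
    (hTD : ∀ v, T (D v) = D (T v)) (n : ℕ) {a b : M} (h0 : n • a + T b = 0)
    (h1 : T a + n • D b = 0) :
    n ^ 2 • D a - T (T a) = 0 ∧ n ^ 2 • D b - T (T b) = 0 := by
  have hb : T b = -(n • a) := eq_neg_of_add_eq_zero_right h0
  have ha : T a = -(n • D b) := eq_neg_of_add_eq_zero_left h1
  constructor
  · rw [show T (T a) = -(n • D (T b)) by rw [ha, map_neg, map_nsmul, hTD], hb, map_neg, map_nsmul,
      smul_neg, neg_neg, sq, mul_smul, sub_self]
  · rw [hb, map_neg, map_nsmul, ha, smul_neg, neg_neg, sq, mul_smul, sub_self]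

variable {N q : ℕ} [NeZero N] {H : Subgroup (ZMod N)ˣ} (hH : (-1 : (ZMod N)ˣ) ∈ H)
  (hq : q.Prime) (hqN : ¬q ∣ N)

/-- `(q + 1)²⟨q⟩ - T_q²` in the Hecke ring. -/
def deltaR : heckeRing N H ∅ :=
  (((q + 1) ^ 2 : ℕ) : heckeRing N H ∅) * diamondR (primeUnit hq hqN)
    - heckeTR hq hqN (Set.notMem_empty q) ^ 2

include hH in
/-- The determinant has no kernel on forms. -/
theorem deltaR_ne_zero_on {f : S2 N H} (hf : f ≠ 0) : (deltaR (H := H) hq hqN).1 f ≠ 0 := by
  intro h0
  have : Module.Finite ℂ (S2 N H × S2 N H) := Module.Finite.equiv (periodCoord hH).symm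
  have : FiniteDimensional ℂ (S2 N H) :=
    Module.Finite.of_surjective (LinearMap.fst ℂ (S2 N H) (S2 N H)) Prod.fst_surjective
  let K : Submodule ℂ (S2 N H) := LinearMap.ker (deltaR (H := H) hq hqN).1
  let A : Bool → Module.End ℂ (S2 N H) := fun b =>
    bif b then (heckeTR (H := H) hq hqN (Set.notMem_empty q)).1
    else (diamondR (H := H) (S := ∅) (primeUnit hq hqN)).1
  have hcomm : ∀ s t : heckeRing N H ∅, Commute s.1 t.1 := fun s t =>
    congrArg Subtype.val (mul_comm s t)
  have hA : ∀ i j, Commute (A i) (A j) := fun i j => by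
    cases i <;> cases j <;> exact hcomm _ _
  have hstab : ∀ b, ∀ v ∈ K, A b v ∈ K := fun b v hv => by
    have hc : Commute (deltaR (H := H) hq hqN).1 (A b) := by cases b <;> exact hcomm _ _
    rw [LinearMap.mem_ker] at hv ⊢
    rw [← Module.End.mul_apply, hc.eq, Module.End.mul_apply, hv, map_zero]
  have hK : K ≠ ⊥ := fun h => hf ((Submodule.eq_bot_iff K).mp h f h0)
  obtain ⟨v, hvK, hv0', hv⟩ := Newform.exists_common_eigenvector A hA hK hstab
  choose μ hμ using hv
  have hT : heckeT hq hqN v = μ true • v := hμ true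
  have hD : diamond (primeUnit hq hqN) v = μ false • v := hμ false
  refine EigenBound.diamond_mul_succ_sq_sub_sq_ne_zero hq hqN hv0' hT hD ?_
  have h := LinearMap.mem_ker.mp hvK
  rw [deltaR, AddSubgroupClass.coe_sub, LinearMap.sub_apply, MulMemClass.coe_mul,
    Module.End.mul_apply, coe_diamondR, hD, map_smul, sq (heckeTR _ _ _), MulMemClass.coe_mul,
    Module.End.mul_apply, coe_heckeTR, hT, map_smul, hT,
    show ((((q + 1) ^ 2 : ℕ) : heckeRing N H ∅) : Module.End ℂ (S2 N H)) =
        (((q + 1) ^ 2 : ℕ) : Module.End ℂ (S2 N H))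
      from map_natCast (heckeRing N H ∅).val _,
    Module.End.natCast_apply, ← Nat.cast_smul_eq_nsmul ℂ, smul_smul, smul_smul, ← sub_smul,
    smul_eq_zero] at h
  have := h.resolve_right hv0'
  push_cast at this
  linear_combination this

variable (R : Type) [CommRing R] [IsDomain R] [CharZero R]

include hH in
/-- The determinant has no kernel on cohomology. -/
theorem homAction_deltaR_injective :
    Function.Injective (homAction hH R R (deltaR (H := H) hq hqN)) := by
  classical
  set t := deltaR (H := H) hq hqN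
  set M := matrixH hH t
  have hdet : M.det ≠ 0 := by
    intro hM
    have hC : (M.map (Int.castRingHom ℂ)).det = 0 := by
      rw [← RingHom.mapMatrix_apply, ← RingHom.map_det, hM, map_zero]
    obtain ⟨a, ha0, ha⟩ := Matrix.exists_mulVec_eq_zero_iff.mpr hC
    have hzero : homAction hH ℂ ℂ t (coordH hH ℂ ℂ a) = 0 := by
      rw [homAction_coordH]
      refine (LinearEquiv.map_eq_zero_iff _).mpr ?_
      funext i
      have := congrFun ha i
      simpa [intAct_apply, Matrix.mulVec, dotProduct, zsmul_eq_mul, M] using this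
    obtain ⟨p, hp⟩ := (periodIso hH).surjective (coordH hH ℂ ℂ a)
    rw [← hp, ← periodIso_homAction, LinearEquiv.map_eq_zero_iff] at hzero
    have h1 : p.1 = 0 := by
      by_contra h
      exact deltaR_ne_zero_on hH hq hqN h (congrArg Prod.fst hzero)
    have h2 : p.2 = 0 := by
      by_contra h
      exact deltaR_ne_zero_on hH hq hqN h (congrArg Prod.snd hzero)
    rw [show p = 0 from Prod.ext h1 h2, map_zero] at hp
    exact ha0 ((LinearEquiv.map_eq_zero_iff _).mp hp.symm)
  rw [injective_iff_map_eq_zero]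
  intro φ hφ
  obtain ⟨a, rfl⟩ := (coordH hH R R).surjective φ
  rw [homAction_coordH, LinearEquiv.map_eq_zero_iff] at hφ
  have hR : (M.map (Int.castRingHom R)).det ≠ 0 := by
    rw [← RingHom.mapMatrix_apply, ← RingHom.map_det]
    simpa using hdet
  have : (M.map (Int.castRingHom R)).mulVec a = 0 := by
    funext i
    have := congrFun hφ i
    simpa [intAct_apply, Matrix.mulVec, dotProduct, zsmul_eq_mul, M] using this
  rw [LinearEquiv.map_eq_zero_iff]
  by_contra ha
  exact hR (Matrix.exists_mulVec_eq_zero_iff.mp ⟨a, ha, this⟩)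

include hH in
/-- **`gMap ∘ fMap` is injective.** -/
theorem eq_zero_of_gMap_fMap_eq_zero [hqF : Fact q.Prime] {y : Fin 2 → H1 N H R R}
    (hy : gMap N q hqN H R R (fMap N q hqN H R R y) = 0) : y = 0 := by
  obtain ⟨h0, h1⟩ := gMap_fMap N q hqN H y
  rw [hy, Pi.zero_apply] at h0 h1
  set T := heckeTH (H := H) R R hqF.out hqN
  set D := diamondH (H := H) R R (primeUnit hqF.out hqN)
  have hTD : ∀ v, T (D v) = D (T v) := fun v => by
    show T (D v) = D (T v)
    rw [show T = homAction hH R R (heckeTR hqF.out hqN (Set.notMem_empty q)) from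
        (homAction_heckeT hH R R hqF.out hqN _).symm,
      show D = homAction (S := ∅) hH R R (diamondR (primeUnit hqF.out hqN)) from
        (homAction_diamond hH R R _).symm, ← Module.End.mul_apply, ← map_mul, mul_comm, map_mul,
      Module.End.mul_apply]
  have key : ∀ v, homAction hH R R (deltaR (H := H) hqF.out hqN) v
      = ((q + 1) ^ 2) • D v - T (T v) := fun v => by
    rw [deltaR, map_sub, map_mul, map_natCast, map_pow, homAction_diamond, homAction_heckeT, sq T,
      LinearMap.sub_apply, Module.End.mul_apply, Module.End.mul_apply, Module.End.natCast_apply]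
  have hinj := homAction_deltaR_injective hH hqF.out hqN R
  have hzero : ∀ v, ((q + 1) ^ 2) • D v - T (T v) = 0 → v = 0 := fun v hv =>
    hinj (by rw [key, hv, map_zero])
  have h2 := det_smul_eq_zero T.toAddMonoidHom D.toAddMonoidHom hTD (q + 1) h0.symm h1.symm
  funext i
  fin_cases i
  · exact hzero _ h2.1
  · exact hzero _ h2.2

end Fermat.Agent.IharaTW
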