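import Fermat.Agent.IharaTW.KerKill

/-!
# The anemic Hecke ring and the whole one commute

The action of `heckeRing N H ∅` commutes with that of the anemic ring `HeckeO N H S O`; in
particular so does `T_l`, `l ∤ N`, also for `l ∈ S`.
-/

set_option autoImplicit false

noncomputable section

namespace Fermat.Agent.IharaTW

open IsLocalRing Fermat.Agent.TW Fermat.Agent.GammaH
open scoped MatrixGroups

section Level

variable {N : ℕ} [NeZero N] {H : Subgroup (ZMod N)ˣ} (hH : (-1 : (ZMod N)ˣ) ∈ H) {O : Type}
  [CommRing O] {S : Set ℕ}

/-- The whole Hecke ring commutes with the anemic one. -/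
theorem commute_actO_homAction (t : heckeRing N H ∅) (z : HeckeO N H S O) :
    Commute (homAction hH O O t) (actO hH O z) := by
  rw [← actO_toFull, show homAction hH O O t = actO hH O (HeckeO.ofT O t) by
    rw [HeckeO.ofT_apply, actO_tmul, one_smul]]
  exact (Commute.all _ _).map _

/-- `T_l`, `l ∤ N`, commutes with the anemic Hecke ring. -/
theorem commute_actO_heckeT {l : ℕ} (hl : l.Prime) (hlN : ¬ l ∣ N) (z : HeckeO N H S O) :
    Commute (heckeTH O O hl hlN) (actO hH O z) := by
  rw [← homAction_heckeT hH O O hl hlN (Set.notMem_empty l)]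
  exact commute_actO_homAction hH _ z

end Level

end Fermat.Agent.IharaTW
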