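import Fermat.Agent.IharaTW.Chain
import Fermat.Agent.IharaTW.GfInjective
import Fermat.Agent.IharaTW.OrdFlip
import Fermat.Agent.TW.UnitPart

/-!
# Compatible idempotents along a chain of stages

Summands of the residual parts of the stages, intertwined by the degeneracy maps, and their unit
parts for a family of intertwined operators.
-/

set_option autoImplicit false

noncomputable section

namespace Fermat.Agent.IharaTW

open IsLocalRing Fermat.Agent.GammaH Fermat.Agent.TW
open scoped MatrixGroups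

/-- `H¹` with coefficients in a ring is finite over it. -/
theorem moduleFinite_H1 {L : ℕ} [NeZero L] {H : Subgroup (ZMod L)ˣ} (hH : (-1 : (ZMod L)ˣ) ∈ H)
    (O : Type) [CommRing O] : Module.Finite O (H1 L H O O) :=
  Module.Finite.equiv (coordH hH O O)

namespace Chain

variable (C : Chain) (O : Type) [CommRing O] [IsDomain O] [IsDiscreteValuationRing O]
  [IsAdicComplete (maximalIdeal O) O] [CharZero O]
  (θ₀ : heckeRing C.N₀ C.H₀ (↑C.S : Set ℕ) →+* ResidueField O)

/-- The unit part of an operator of a stage. -/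
def stageUnit (i : ℕ) (t : Module.End O (H1 (C.lvl i) (C.grp i) O O)) :
    Module.End O (H1 (C.lvl i) (C.grp i) O O) :=
  haveI := moduleFinite_H1 (C.neg_mem i) O
  unitPart t

/-- The residual part of a stage as an operator. -/
abbrev idemOp (i : ℕ) (hi : i ≤ C.s) : Module.End O (H1 (C.lvl i) (C.grp i) O O) :=
  actO (C.neg_mem i) O (C.idem O θ₀ i hi)

omit [CharZero O] in
theorem isIdempotentElem_idemOp (i : ℕ) (hi : i ≤ C.s) : IsIdempotentElem (C.idemOp O θ₀ i hi) :=
  (isIdempotentElem_twIdem (C.neg_mem i) O (C.theta θ₀ i hi)).map (actO (C.neg_mem i) O)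

omit [CharZero O] in
theorem commute_idemOp (i : ℕ) (hi : i ≤ C.s)
    (z : HeckeO (C.lvl i) (C.grp i) (↑C.S : Set ℕ) O) :
    Commute (C.idemOp O θ₀ i hi) (actO (C.neg_mem i) O z) :=
  (Commute.all _ z).map (actO (C.neg_mem i) O)

/-- A summand of the residual part of a stage. -/
structure IsPiece (i : ℕ) (hi : i ≤ C.s) (E : Module.End O (H1 (C.lvl i) (C.grp i) O O)) :
    Prop where
  idem : IsIdempotentElem E
  comm : ∀ z : HeckeO (C.lvl i) (C.grp i) (↑C.S : Set ℕ) O, Commute E (actO (C.neg_mem i) O z)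
  below : C.idemOp O θ₀ i hi * E = E

omit [CharZero O] in
/-- The whole residual part. -/
theorem isPiece_idemOp (i : ℕ) (hi : i ≤ C.s) : C.IsPiece O θ₀ i hi (C.idemOp O θ₀ i hi) :=
  ⟨C.isIdempotentElem_idemOp O θ₀ i hi, C.commute_idemOp O θ₀ i hi,
    (C.isIdempotentElem_idemOp O θ₀ i hi).eq⟩

omit [CharZero O] in
/-- The unit part of an operator commuting with the Hecke ring. -/
theorem isPiece_unitPart (i : ℕ) (hi : i ≤ C.s)
    (t : Module.End O (H1 (C.lvl i) (C.grp i) O O))
    (ht : ∀ z : HeckeO (C.lvl i) (C.grp i) (↑C.S : Set ℕ) O, Commute (actO (C.neg_mem i) O z) t) :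
    C.IsPiece O θ₀ i hi (C.idemOp O θ₀ i hi * C.stageUnit O i t) := by
  have := moduleFinite_H1 (C.neg_mem i) O
  show C.IsPiece O θ₀ i hi (C.idemOp O θ₀ i hi * unitPart t)
  have hc : Commute (C.idemOp O θ₀ i hi) (unitPart t) := commute_unitPart (ht _)
  refine ⟨?_, fun z => ?_, ?_⟩
  · show _ * _ * (_ * _) = _
    rw [hc.symm.mul_mul_mul_comm, (C.isIdempotentElem_idemOp O θ₀ i hi).eq,
      (isIdempotentElem_unitPart t).eq]
  · exact ((C.commute_idemOp O θ₀ i hi z).mul_left (commute_unitPart (ht z)).symm)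
  · rw [← mul_assoc, (C.isIdempotentElem_idemOp O θ₀ i hi).eq]

omit [CharZero O] in
/-- Intertwined operators have intertwined unit parts. -/
theorem intertwined_unitPart {i : ℕ} (hi : i < C.s)
    {tq : Module.End O (H1 (C.lvl (i + 1)) (C.grp (i + 1)) O O)}
    {t : Module.End O (H1 (C.lvl i) (C.grp i) O O)}
    (h : Intertwined (C.lvl i) (C.q i) (C.not_dvd i hi) (C.grp i) tq t) :
    Intertwined (C.lvl i) (C.q i) (C.not_dvd i hi) (C.grp i)
      (C.stageUnit O (i + 1) tq) (C.stageUnit O i t) := by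
  have := moduleFinite_H1 (C.neg_mem i) O
  have := moduleFinite_H1 (C.neg_mem (i + 1)) O
  have : Module.Finite O (H1q (C.lvl i) (C.q i) (C.grp i) O O) :=
    moduleFinite_H1 (C.neg_mem (i + 1)) O
  show Intertwined (C.lvl i) (C.q i) (C.not_dvd i hi) (C.grp i) (unitPart tq) (unitPart t)
  refine ⟨fun y => ?_, fun z j => ?_⟩
  · have hy : ∀ k, fMap (C.lvl i) (C.q i) (C.not_dvd i hi) (C.grp i) O O
        (Pi.single k (unitPart t (y k))) = unitPart tq
          (fMap (C.lvl i) (C.q i) (C.not_dvd i hi) (C.grp i) O O (Pi.single k (y k))) := fun k => by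
      refine unitPart_natural ((fMap (C.lvl i) (C.q i) (C.not_dvd i hi) (C.grp i) O O) ∘ₗ
        LinearMap.single O (fun _ : Fin 2 => H1 (C.lvl i) (C.grp i) O O) k) (fun v => ?_) (y k)
      show fMap (C.lvl i) (C.q i) (C.not_dvd i hi) (C.grp i) O O (Pi.single k (t v)) = _
      refine (congrArg _ (funext fun j => ?_)).trans (h.1 (Pi.single k v))
      exact (Pi.apply_single (fun (_ : Fin 2) => (t : _ → H1 (C.lvl i) (C.grp i) O O))
        (fun _ => map_zero t) k v j).symm
    have e : ∀ w : Fin 2 → H1 (C.lvl i) (C.grp i) O O,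
        w = Pi.single 0 (w 0) + Pi.single 1 (w 1) := fun w => funext fun k => by
      fin_cases k <;> simp
    conv_lhs => rw [e fun k => unitPart t (y k)]
    conv_rhs => rw [e y]
    rw [map_add, map_add, map_add, hy, hy]
    rfl
  · exact unitPart_natural (LinearMap.proj j ∘ₗ
      gMap (C.lvl i) (C.q i) (C.not_dvd i hi) (C.grp i) O O) (fun v => h.2 v j) z

omit [CharZero O] in
include θ₀ in
/-- The residual parts of consecutive stages, cut by intertwined unit parts, are intertwined. -/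
theorem intertwined_idemOp_unitPart {i : ℕ} (hi : i < C.s)
    {tq : Module.End O (H1 (C.lvl (i + 1)) (C.grp (i + 1)) O O)}
    {t : Module.End O (H1 (C.lvl i) (C.grp i) O O)}
    (h : Intertwined (C.lvl i) (C.q i) (C.not_dvd i hi) (C.grp i) tq t) :
    Intertwined (C.lvl i) (C.q i) (C.not_dvd i hi) (C.grp i)
      (C.idemOp O θ₀ (i + 1) hi * C.stageUnit O (i + 1) tq)
      (C.idemOp O θ₀ i hi.le * C.stageUnit O i t) :=
  (C.intertwined_idem O θ₀ hi).mul (C.intertwined_unitPart O hi h)

/-- Compatible summands of all stages. -/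
structure Family where
  E : ∀ i, i ≤ C.s → Module.End O (H1 (C.lvl i) (C.grp i) O O)
  piece : ∀ i (hi : i ≤ C.s), C.IsPiece O θ₀ i hi (E i hi)
  step : ∀ i (hi : i < C.s), Intertwined (C.lvl i) (C.q i) (C.not_dvd i hi) (C.grp i)
    (E (i + 1) hi) (E i hi.le)

variable {C O θ₀}

/-- A family is nonzero everywhere as soon as it is at the bottom. -/
theorem Family.ne_zero (F : C.Family O θ₀) (h0 : F.E 0 (Nat.zero_le _) ≠ 0) :
    ∀ i (hi : i ≤ C.s), F.E i hi ≠ 0
  | 0, _ => h0
  | i + 1, hi => fun h => F.ne_zero h0 i (Nat.le_of_succ_le hi) (LinearMap.ext fun v => by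
      have h2 := (F.step i hi).1 fun _ => v
      exact congrFun (eq_zero_of_gMap_fMap_eq_zero (C.neg_mem i) (C.not_dvd i hi) O
        (y := fun _ => F.E i (Nat.le_of_succ_le hi) v) ((congrArg _ (h2.trans
          (LinearMap.congr_fun h _))).trans (map_zero _))) 0)

variable (C O θ₀)

omit [CharZero O] in
/-- The unit parts of intertwined operators. -/
theorem exists_family_unitPart (t : ∀ i, i ≤ C.s → Module.End O (H1 (C.lvl i) (C.grp i) O O))
    (ht : ∀ i (hi : i ≤ C.s) (z : HeckeO (C.lvl i) (C.grp i) (↑C.S : Set ℕ) O),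
      Commute (actO (C.neg_mem i) O z) (t i hi))
    (hstep : ∀ i (hi : i < C.s), Intertwined (C.lvl i) (C.q i) (C.not_dvd i hi) (C.grp i)
      (t (i + 1) hi) (t i hi.le)) :
    ∃ F : C.Family O θ₀, ∀ i (hi : i ≤ C.s),
      F.E i hi = C.idemOp O θ₀ i hi * C.stageUnit O i (t i hi) :=
  ⟨{ E := fun i hi => C.idemOp O θ₀ i hi * C.stageUnit O i (t i hi)
     piece := fun i hi => C.isPiece_unitPart O θ₀ i hi _ (ht i hi)
     step := fun i hi => C.intertwined_idemOp_unitPart O θ₀ hi (hstep i hi) }, fun _ _ => rfl⟩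

end Chain

end Fermat.Agent.IharaTW
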