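import Fermat.Agent.IharaTW.GroupRingMaps

/-!
# The degeneracy maps between ranges of idempotents

`fE`, `gE` between the ranges of intertwined idempotents commute with actions lifted to intertwined
operators, as `exists_scaled_pair` requires.
-/

set_option autoImplicit false

noncomputable section

namespace Fermat.Agent.IharaTW

open IsLocalRing CongruenceSubgroup Fermat.Agent.GammaH
open scoped MatrixGroups

variable (N q : ℕ) [hq : Fact q.Prime] (hqN : ¬q ∣ N) (H : Subgroup (ZMod N)ˣ) [NeZero N]
  [NeZero (N * q)] {R : Type} [CommRing R]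
  {e : Module.End R (H1 N H R R)} {eq : Module.End R (H1q N q H R R)}
  (he : Intertwined N q hqN H eq e)

section Act

attribute [local irreducible] fMap gMap

variable {A : Type} [CommRing A] [Algebra R A] (Φ : A →ₐ[R] Module.End R (LinearMap.range e))
  (Φq : A →ₐ[R] Module.End R (LinearMap.range eq))
  (hlift : ∀ a, ∃ tq t, Intertwined N q hqN H tq t ∧
    (∀ v : LinearMap.range e, (Φ a v : H1 N H R R) = t v) ∧
    ∀ v : LinearMap.range eq, (Φq a v : H1q N q H R R) = tq v)

omit [NeZero (N * q)] in
include hlift in
/-- Intertwined actions commute with `fE`. -/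
theorem fE_act (a : A) (y : Fin 2 → LinearMap.range e) :
    fE N q hqN H he (fun i => Φ a (y i)) = Φq a (fE N q hqN H he y) := by
  obtain ⟨tq, t, ht, h1, h2⟩ := hlift a
  exact Subtype.ext (((coe_fE N q hqN H he _).trans
    ((congrArg (fMap N q hqN H R R) (funext fun i => h1 (y i))).trans (ht.1 _))).trans
      ((congrArg tq (coe_fE N q hqN H he y)).symm.trans (h2 _).symm))

omit [NeZero (N * q)] in
include hlift in
/-- Intertwined actions commute with `gE`. -/
theorem gE_act (a : A) (z : LinearMap.range eq) (i : Fin 2) :
    gE N q hqN H he (Φq a z) i = Φ a (gE N q hqN H he z i) := by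
  obtain ⟨tq, t, ht, h1, h2⟩ := hlift a
  exact Subtype.ext (((coe_gE N q hqN H he _ i).trans
    ((congrFun (congrArg (gMap N q hqN H R R) (h2 z)) i).trans (ht.2 _ i))).trans
      ((congrArg t (coe_gE N q hqN H he z i)).symm.trans (h1 _).symm))

end Act

end Fermat.Agent.IharaTW
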