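import Fermat.Agent.IharaTW.Maps
import Fermat.Agent.TW.Module

/-!
# The level changing maps over the group ring

At a Taylor–Wiles level the maps `fMap`, `gMap` restrict to the Hecke stable summands, are linear
over `O[Δ]` (`Δ` is the same at both levels), and are injective, resp. surjective, modulo the
maximal ideal.
-/

set_option autoImplicit false

noncomputable section

namespace Fermat.Agent.IharaTW

open CongruenceSubgroup Fermat.Agent.GammaH Fermat.Agent.TW
open Fermat.Agent.TW.GroupRing (augR augR_single normElem mul_normElem coeff_normElem)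
open scoped MatrixGroups

/-! ## Norm and augmentation -/

section Norm

variable {R G P : Type*} [CommRing R] [CommGroup G] [Fintype G] [AddCommMonoid P]
  [Module (MonoidAlgebra R G) P] [Module R P] [IsScalarTower R (MonoidAlgebra R G) P] (I : Ideal R)

variable (G) in
/-- The ideal over `I` containing the augmentation ideal. -/
def augOver : Ideal (MonoidAlgebra R G) := I.comap (augR R G).toRingHom

omit [Fintype G] in
theorem mem_augOver {a : MonoidAlgebra R G} : a ∈ augOver G I ↔ augR R G a ∈ I := Iff.rfl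

/-- The norm sends `(I, aug) P` into `I P`. -/
theorem norm_smul_mem {v : P}
    (hv : v ∈ augOver G I • (⊤ : Submodule (MonoidAlgebra R G) P)) :
    normElem R G • v ∈ I • (⊤ : Submodule R P) := by
  refine Submodule.smul_induction_on hv (fun a ha w _ => ?_) fun x y hx hy => ?_
  · rw [smul_smul, mul_comm, mul_normElem, mul_smul, algebraMap_smul]
    exact Submodule.smul_mem_smul ((mem_augOver I).mp ha) trivial
  · rw [smul_add]
    exact add_mem hx hy

/-- For a free module the converse holds. -/
theorem mem_augOver_smul_of_norm [Module.Free (MonoidAlgebra R G) P] {v : P}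
    (hv : normElem R G • v ∈ I • (⊤ : Submodule R P)) :
    v ∈ augOver G I • (⊤ : Submodule (MonoidAlgebra R G) P) := by
  classical
  let b := Module.Free.chooseBasis (MonoidAlgebra R G) P
  have key : ∀ j, augR R G (b.repr v j) ∈ I := fun j => by
    have h1 : ∀ u ∈ I • (⊤ : Submodule R P), (b.repr u j).coeff 1 ∈ I := fun u hu => by
      refine Submodule.smul_induction_on hu (fun r hr w _ => ?_) fun x y hx hy => ?_
      · rw [← algebraMap_smul (MonoidAlgebra R G) r w, map_smul, Finsupp.smul_apply, smul_eq_mul,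
          MonoidAlgebra.coe_algebraMap, Function.comp_apply, MonoidAlgebra.coeff_single_one_mul]
        exact Ideal.mul_mem_right _ _ (by simpa using hr)
      · rw [map_add, Finsupp.add_apply, MonoidAlgebra.coeff_add, Finsupp.add_apply]
        exact add_mem hx hy
    have h2 := h1 _ hv
    rw [map_smul, Finsupp.smul_apply, smul_eq_mul, mul_comm, mul_normElem,
      MonoidAlgebra.coe_algebraMap, Function.comp_apply, MonoidAlgebra.coeff_single_one_mul,
      coeff_normElem] at h2
    simpa using h2
  rw [← b.linearCombination_repr v, Finsupp.linearCombination_apply]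
  exact Submodule.sum_mem _ fun j _ => Submodule.smul_mem_smul (key j) trivial

omit [Fintype G] in
/-- `I P` lies in `(I, aug) P`. -/
theorem mem_augOver_smul_of_mem {v : P} (hv : v ∈ I • (⊤ : Submodule R P)) :
    v ∈ augOver G I • (⊤ : Submodule (MonoidAlgebra R G) P) := by
  refine Submodule.smul_induction_on hv (fun r hr w _ => ?_) fun x y hx hy => add_mem hx hy
  rw [← algebraMap_smul (MonoidAlgebra R G) r w]
  refine Submodule.smul_mem_smul ((mem_augOver I).mpr ?_) trivial
  rw [AlgHom.commutes]
  exact hr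

omit [Fintype G] in
/-- The maximal ideal of the group ring of a `p`-group is `(m, aug)`. -/
theorem augOver_maximalIdeal [Finite G] [IsLocalRing R] [IsLocalRing (MonoidAlgebra R G)] :
    augOver G (IsLocalRing.maximalIdeal R) = IsLocalRing.maximalIdeal (MonoidAlgebra R G) := by
  refine IsLocalRing.eq_maximalIdeal ?_
  have hs : Function.Surjective (augR R G).toRingHom := fun r =>
    ⟨algebraMap R _ r, (augR R G).commutes r⟩
  exact Ideal.comap_isMaximal_of_surjective _ hs

end Norm

/-- A linear map sends `I V` into `I W`. -/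
theorem mem_smul_top_map {R V W : Type*} [CommRing R] [AddCommMonoid V] [Module R V]
    [AddCommMonoid W] [Module R W] {I : Ideal R} (f : V →ₗ[R] W) {v : V}
    (hv : v ∈ I • (⊤ : Submodule R V)) : f v ∈ I • (⊤ : Submodule R W) := by
  refine Submodule.smul_induction_on hv (fun r hr w _ => ?_) fun x y hx hy => ?_
  · rw [map_smul]
    exact Submodule.smul_mem_smul hr trivial
  · rw [map_add]
    exact add_mem hx hy

/-! ## Equivariant maps as maps over the group ring -/

section AsModule

variable {R G V W : Type*} [CommRing R] [CommGroup G] [Fintype G] [AddCommMonoid V] [Module R V]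
  [AddCommMonoid W] [Module R W] (ρ : Representation R G V) (σ : Representation R G W)

omit [Fintype G] in
theorem asModule_linear {P P' : Type*} [AddCommMonoid P] [Module (MonoidAlgebra R G) P]
    [Module R P] [IsScalarTower R (MonoidAlgebra R G) P] [AddCommMonoid P']
    [Module (MonoidAlgebra R G) P'] [Module R P'] [IsScalarTower R (MonoidAlgebra R G) P']
    (f : P →ₗ[R] P') (hf : ∀ (g : G) (v : P), f (MonoidAlgebra.single g (1 : R) • v)
      = MonoidAlgebra.single g (1 : R) • f v) (a : MonoidAlgebra R G) (v : P) :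
    f (a • v) = a • f v := by
  induction a using MonoidAlgebra.induction_on with
  | of g => exact hf g v
  | add x y hx hy => rw [add_smul, f.map_add, hx, hy, add_smul]
  | smul r x hx => rw [smul_assoc, f.map_smul, hx, smul_assoc]

/-- An equivariant map out of two copies of `V`, over the group ring. -/
def ofPi (F : (Fin 2 → V) →ₗ[R] W) (hF : ∀ g y, F (fun i => ρ g (y i)) = σ g (F y)) :
    (Fin 2 → ρ.asModule) →ₗ[MonoidAlgebra R G] σ.asModule :=
  letI f₀ : (Fin 2 → ρ.asModule) →ₗ[R] σ.asModule := σ.asModuleEquiv.symm.toLinearMap ∘ₗ F ∘ₗ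
    LinearMap.pi fun i => ρ.asModuleEquiv.toLinearMap ∘ₗ LinearMap.proj i
  { toFun := f₀
    map_add' := f₀.map_add
    map_smul' := fun a v => asModule_linear f₀ (fun g y => by
    have h : (fun i => ρ.asModuleEquiv ((MonoidAlgebra.single g (1 : R) • y) i))
        = fun i => ρ g (ρ.asModuleEquiv (y i)) := funext fun i => by
      rw [Pi.smul_apply, ρ.single_smul, one_smul]
      exact ρ.asModuleEquiv.apply_symm_apply _
    rw [σ.single_smul, one_smul]
    exact congrArg σ.asModuleEquiv.symm ((congrArg F h).trans (hF g _))) a v }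

/-- An equivariant map into two copies of `V`, over the group ring. -/
def toPi (F : W →ₗ[R] Fin 2 → V) (hF : ∀ g w i, F (σ g w) i = ρ g (F w i)) :
    σ.asModule →ₗ[MonoidAlgebra R G] Fin 2 → ρ.asModule :=
  letI f₀ : σ.asModule →ₗ[R] Fin 2 → ρ.asModule :=
    (LinearMap.pi fun i => ρ.asModuleEquiv.symm.toLinearMap ∘ₗ LinearMap.proj i) ∘ₗ
      F ∘ₗ σ.asModuleEquiv.toLinearMap
  { toFun := f₀
    map_add' := f₀.map_add
    map_smul' := fun a v => asModule_linear f₀ (fun g w => by
    funext i
    rw [Pi.smul_apply, ρ.single_smul, one_smul, σ.single_smul, one_smul]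
    exact congrArg ρ.asModuleEquiv.symm (hF g _ i)) a v }

variable (I : Ideal R)

/-- Injectivity modulo `I` gives injectivity modulo `(I, aug)`. -/
theorem mem_of_ofPi_mem [Module.Free (MonoidAlgebra R G) ρ.asModule]
    (F : (Fin 2 → V) →ₗ[R] W) (hF : ∀ g y, F (fun i => ρ g (y i)) = σ g (F y))
    (hinj : ∀ x, F x ∈ I • (⊤ : Submodule R W) → ∀ i, x i ∈ I • (⊤ : Submodule R V))
    (y : Fin 2 → ρ.asModule)
    (hy : ofPi ρ σ F hF y ∈ augOver G I • (⊤ : Submodule (MonoidAlgebra R G) σ.asModule))
    (i : Fin 2) : y i ∈ augOver G I • (⊤ : Submodule (MonoidAlgebra R G) ρ.asModule) := by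
  refine mem_augOver_smul_of_norm I ?_
  have h1 : ofPi ρ σ F hF (normElem R G • y) ∈ I • (⊤ : Submodule R σ.asModule) := by
    rw [map_smul]
    exact norm_smul_mem I hy
  have h2 := mem_smul_top_map σ.asModuleEquiv.toLinearMap h1
  have h3 := mem_smul_top_map ρ.asModuleEquiv.symm.toLinearMap (hinj _ h2 i)
  exact h3

omit [Fintype G] in
/-- Surjectivity modulo `I` gives surjectivity modulo `(I, aug)`. -/
theorem exists_toPi_eq_add (F : W →ₗ[R] Fin 2 → V)
    (hF : ∀ g w i, F (σ g w) i = ρ g (F w i))
    (hsurj : ∀ x : Fin 2 → V, ∃ w, ∀ i, ∃ d ∈ I • (⊤ : Submodule R V), F w i = x i + d)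
    (y : Fin 2 → ρ.asModule) : ∃ w, ∀ i,
      ∃ d ∈ augOver G I • (⊤ : Submodule (MonoidAlgebra R G) ρ.asModule),
        toPi ρ σ F hF w i = y i + d := by
  obtain ⟨w, hw⟩ := hsurj fun i => ρ.asModuleEquiv (y i)
  refine ⟨σ.asModuleEquiv.symm w, fun i => ?_⟩
  obtain ⟨d, hd, hdw⟩ := hw i
  exact ⟨ρ.asModuleEquiv.symm d,
    mem_augOver_smul_of_mem I (mem_smul_top_map ρ.asModuleEquiv.symm.toLinearMap hd),
    congrArg ρ.asModuleEquiv.symm hdw⟩

end AsModule

variable (N q : ℕ) [hq : Fact q.Prime] (hqN : ¬q ∣ N) (H H' : Subgroup (ZMod N)ˣ) [NeZero N]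
  [NeZero (N * q)]

/-! ## `Δ` at the two levels -/

/-- `Δ` at level `N q` maps to `Δ` at level `N`. -/
def dlMap : Dl (Hq N q H) (Hq N q H') →* Dl H H' :=
  QuotientGroup.map _ _ ((ZMod.unitsMap (dvd_mul_right N q)).subgroupComap H') fun _ hx => hx

omit hq [NeZero N] [NeZero (N * q)] in
theorem dlMap_mk (a : Hq N q H') :
    dlMap N q H H' (QuotientGroup.mk a)
      = QuotientGroup.mk (⟨ZMod.unitsMap (dvd_mul_right N q) a, a.2⟩ : H') := rfl

omit hq [NeZero N] in
theorem dlMap_bijective : Function.Bijective (dlMap N q H H') := by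
  constructor
  · rw [injective_iff_map_eq_one]
    intro x hx
    induction x using QuotientGroup.induction_on with
    | _ a =>
      rw [dlMap_mk, QuotientGroup.eq_one_iff, Subgroup.mem_subgroupOf] at hx
      rw [QuotientGroup.eq_one_iff, Subgroup.mem_subgroupOf]
      exact Subgroup.mem_comap.mpr hx
  · intro y
    induction y using QuotientGroup.induction_on with
    | _ b =>
      obtain ⟨v, hv⟩ := ZMod.unitsMap_surjective (dvd_mul_right N q) (b : (ZMod N)ˣ)
      refine ⟨QuotientGroup.mk ⟨v, show ZMod.unitsMap _ v ∈ H' by rw [hv]; exact b.2⟩, ?_⟩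
      rw [dlMap_mk]
      exact congrArg QuotientGroup.mk (Subtype.ext hv)

/-- `Δ` is the same at the two levels. -/
def dlEquiv : Dl (Hq N q H) (Hq N q H') ≃* Dl H H' :=
  MulEquiv.ofBijective (dlMap N q H H') (dlMap_bijective N q H H')

variable {R : Type} [CommRing R]

/-! ## Intertwined operators -/

/-- `tq` at level `N q` and `t` at level `N` are intertwined by `fMap` and `gMap`. -/
def Intertwined (tq : Module.End R (H1q N q H R R)) (t : Module.End R (H1 N H R R)) : Prop :=
  (∀ y, fMap N q hqN H R R (fun i => t (y i)) = tq (fMap N q hqN H R R y)) ∧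
    ∀ z i, gMap N q hqN H R R (tq z) i = t (gMap N q hqN H R R z i)

namespace Intertwined

variable {N q hqN H} {s t : Module.End R (H1 N H R R)} {sq tq : Module.End R (H1q N q H R R)}

omit [NeZero (N * q)] in
theorem one : Intertwined N q hqN H (1 : Module.End R (H1q N q H R R)) 1 :=
  ⟨fun _ => rfl, fun _ _ => rfl⟩

omit [NeZero (N * q)] in
theorem mul (hs : Intertwined N q hqN H sq s) (ht : Intertwined N q hqN H tq t) :
    Intertwined N q hqN H (sq * tq) (s * t) :=
  ⟨fun y => by simp only [Module.End.mul_apply, hs.1, ht.1],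
    fun z i => by simp only [Module.End.mul_apply, hs.2, ht.2]⟩

omit [NeZero (N * q)] in
theorem add (hs : Intertwined N q hqN H sq s) (ht : Intertwined N q hqN H tq t) :
    Intertwined N q hqN H (sq + tq) (s + t) :=
  ⟨fun y => by
    simp only [LinearMap.add_apply, ← hs.1, ← ht.1, ← map_add]
    rfl,
    fun z i => by simp only [LinearMap.add_apply, map_add, Pi.add_apply, hs.2, ht.2]⟩

omit [NeZero (N * q)] in
theorem smul (r : R) (hs : Intertwined N q hqN H sq s) :
    Intertwined N q hqN H (r • sq) (r • s) :=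
  ⟨fun y => by
    rw [LinearMap.smul_apply, ← hs.1]
    exact map_smul (fMap N q hqN H R R) r fun i => s (y i),
    fun z i => by simp only [LinearMap.smul_apply, map_smul, Pi.smul_apply, hs.2]⟩

omit [NeZero (N * q)] in
theorem zero : Intertwined N q hqN H (0 : Module.End R (H1q N q H R R)) 0 :=
  ⟨fun _ => by
    simp only [LinearMap.zero_apply]
    exact map_zero _, fun _ _ => by simp only [LinearMap.zero_apply, map_zero, Pi.zero_apply]⟩

omit [NeZero (N * q)] in
theorem neg (hs : Intertwined N q hqN H sq s) : Intertwined N q hqN H (-sq) (-s) :=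
  ⟨fun y => by
    rw [LinearMap.neg_apply, ← hs.1]
    exact map_neg (fMap N q hqN H R R) fun i => s (y i),
    fun z i => by simp only [LinearMap.neg_apply, map_neg, Pi.neg_apply, hs.2]⟩

theorem heckeT {l : ℕ} (hl : l.Prime) (hlN : ¬l ∣ N) (hl' : ¬l ∣ N * q) :
    Intertwined N q hqN H (heckeTH R R hl hl') (heckeTH R R hl hlN) :=
  ⟨fun y => by
    rw [fMap_apply, fMap_apply, res1_heckeTH N q H hl hlN hl', res1_heckeTH N q H hl hlN hl',
      w1_heckeTH N q hqN H hl hlN hl', map_add],
    fun z i => by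
      fin_cases i
      · exact cor1_heckeTH N q hqN H hl hlN hl' z
      · exact (congrArg (cor1 N q hqN H R R) (w1_heckeTH N q hqN H hl hlN hl' z)).trans
          (cor1_heckeTH N q hqN H hl hlN hl' _)⟩

theorem diamond (a : (ZMod (N * q))ˣ) :
    Intertwined N q hqN H (diamondH R R a)
      (diamondH R R (ZMod.unitsMap (dvd_mul_right N q) a)) :=
  ⟨fun y => by
    rw [fMap_apply, fMap_apply, res1_diamondH, res1_diamondH, w1_diamondH, map_add],
    fun z i => by
      fin_cases i
      · exact cor1_diamondH N q hqN H a z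
      · exact (congrArg (cor1 N q hqN H R R) (w1_diamondH N q hqN H a z)).trans
          (cor1_diamondH N q hqN H a _)⟩

end Intertwined

/-! ## On the summands -/

variable {e : Module.End R (H1 N H R R)} {eq : Module.End R (H1q N q H R R)}
  (he : Intertwined N q hqN H eq e)

/-- `fMap` on the summands. -/
def fE : (Fin 2 → LinearMap.range e) →ₗ[R] LinearMap.range eq :=
  ((fMap N q hqN H R R) ∘ₗ LinearMap.pi fun i => (LinearMap.range e).subtype ∘ₗ LinearMap.proj i
    ).codRestrict _ fun y => by
      choose w hw using fun i => (y i).2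
      refine ⟨fMap N q hqN H R R w, ?_⟩
      rw [← he.1]
      exact congrArg _ (funext fun i => hw i)

omit [NeZero (N * q)] in
theorem coe_fE (y : Fin 2 → LinearMap.range e) :
    (fE N q hqN H he y : H1q N q H R R) = fMap N q hqN H R R (fun i => (y i : H1 N H R R)) := rfl

/-- `gMap` on the summands. -/
def gE : LinearMap.range eq →ₗ[R] (Fin 2 → LinearMap.range e) :=
  LinearMap.pi fun i =>
    (LinearMap.proj i ∘ₗ gMap N q hqN H R R ∘ₗ (LinearMap.range eq).subtype).codRestrict _
      fun z => by
        obtain ⟨w, hw⟩ := z.2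
        refine ⟨gMap N q hqN H R R w i, ?_⟩
        show e (gMap N q hqN H R R w i) = gMap N q hqN H R R (z : H1q N q H R R) i
        rw [← he.2, hw]

omit [NeZero (N * q)] in
theorem coe_gE (z : LinearMap.range eq) (i : Fin 2) :
    (gE N q hqN H he z i : H1 N H R R) = gMap N q hqN H R R z i := rfl

section Nakayama

variable (I : Ideal R) {p : ℕ} [hp : Fact p.Prime] {l : ℕ} [hlF : Fact l.Prime] (hlN : ¬l ∣ N)
  (hl1 : (l : ZMod (N * q)) = 1)
  (heη : Commute e (TW.etaH R R hlF.out hlN))
  (hbij : Function.Bijective (TW.etaE hlF.out hlN heη))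
  (hp2 : p ≠ 2) (hpI : (p : R) ∈ I) (hneg : (-1 : (ZMod N)ˣ) ∈ H)
  (hH : ∀ u : (ZMod N)ˣ, ∃ k : ℕ, u ^ (p ^ k) ∈ H) (hidem : IsIdempotentElem e)

include hlN hl1 heη hbij hp2 hpI hneg hH hidem

omit hq [NeZero (N * q)] hp hl1 hbij hp2 hpI hneg hH in
theorem rangeRestrict_etaH_sq (x : LinearMap.range e) :
    e.rangeRestrict (TW.etaH R R hlF.out hlN (TW.etaH R R hlF.out hlN (x : H1 N H R R)))
      = TW.etaE hlF.out hlN heη (TW.etaE hlF.out hlN heη x) := by
  refine Subtype.ext ?_
  obtain ⟨w, hw⟩ := x.2
  show e _ = TW.etaH R R hlF.out hlN (TW.etaH R R hlF.out hlN (x : H1 N H R R))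
  rw [← hw]
  have hc := LinearMap.congr_fun (heη.mul_right heη).eq (e w)
  simp only [Module.End.mul_apply] at hc
  rw [hc, show e (e w) = e w from LinearMap.congr_fun hidem.eq w]

/-- `fE` is injective modulo `I`. -/
theorem mem_of_fE_mem (x : Fin 2 → LinearMap.range e)
    (hx : fE N q hqN H he x ∈ I • (⊤ : Submodule R (LinearMap.range eq))) (i : Fin 2) :
    x i ∈ I • (⊤ : Submodule R (LinearMap.range e)) := by
  have h2 := mem_smul_top_map (LinearMap.range eq).subtype hx
  have h4 : e.rangeRestrict (TW.etaH R R hlF.out hlN (TW.etaH R R hlF.out hlN (x i : H1 N H R R)))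
      ∈ I • (⊤ : Submodule R (LinearMap.range e)) := mem_smul_top_map e.rangeRestrict
    (eta_sq_mem_of_fMap_mem N q hqN H I hlN hl1 hp2 hpI hneg hH _ h2 i)
  rw [rangeRestrict_etaH_sq N H hlN heη hidem (x i)] at h4
  let u := LinearEquiv.ofBijective (TW.etaE hlF.out hlN heη) hbij
  have h6 : ∀ v, u.symm (TW.etaE hlF.out hlN heη v) = v := fun v => u.symm_apply_apply v
  have h5 := mem_smul_top_map (u.symm.toLinearMap ∘ₗ u.symm.toLinearMap) h4
  rw [LinearMap.comp_apply, LinearEquiv.coe_coe, h6, h6] at h5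
  exact h5

/-- `gE` is surjective modulo `I`. -/
theorem exists_gE_eq_add (hN : 2 ≤ N) (y : Fin 2 → LinearMap.range e) :
    ∃ z, ∀ i, ∃ d ∈ I • (⊤ : Submodule R (LinearMap.range e)),
      gE N q hqN H he z i = y i + d := by
  let u := LinearEquiv.ofBijective (TW.etaE hlF.out hlN heη) hbij
  obtain ⟨z, hz⟩ := exists_gMap_sub_eta_sq_mem N q hqN H I hlN hl1 hp2 hpI hN hneg hH
    (fun i => (u.symm (u.symm (y i)) : H1 N H R R))
  refine ⟨eq.rangeRestrict z, fun i => ⟨_, mem_smul_top_map e.rangeRestrict (hz i), ?_⟩⟩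
  have h : ∀ v, TW.etaE hlF.out hlN heη (u.symm v) = v := fun v => u.apply_symm_apply v
  have h1 := rangeRestrict_etaH_sq N H hlN heη hidem
    (u.symm (u.symm (y i)))
  rw [h, h] at h1
  refine Subtype.ext ?_
  have h1' := congrArg Subtype.val h1
  rw [Submodule.coe_add, coe_gE]
  show gMap N q hqN H R R (eq z) i = (y i : H1 N H R R) + e (gMap N q hqN H R R z i - _)
  rw [map_sub, he.2]
  exact ((congrArg ((y i : H1 N H R R) + ·) (congrArg (e (gMap N q hqN H R R z i) - ·) h1')).trans
    (add_sub_cancel _ _)).symm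

end Nakayama

end Fermat.Agent.IharaTW
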