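import Fermat.Agent.IharaTW.LevelMaps
import Fermat.Agent.IharaTW.GroupRingMaps
import Fermat.Agent.TW.Level

/-!
# Degeneracy data of quotient levels

Maps between free modules over a local ring `S` that are injective, resp. surjective, modulo the
maximal ideal give `FlipLevel`s between their quotients by an ideal `J` with `Λ` onto `S ⧸ J`.
-/

set_option autoImplicit false

noncomputable section

namespace Fermat.Agent.IharaTW

open IsLocalRing Fermat.Agent.Patching
open Fermat.Agent.TW.LevelQuot (Quot endQuot endQuot_mk)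

variable {Λ S : Type*} [CommRing Λ] [CommRing S] [Algebra Λ S]
  {P P' : Type*} [AddCommGroup P] [Module S P] [Module Λ P] [IsScalarTower Λ S P]
  [AddCommGroup P'] [Module S P'] [Module Λ P'] [IsScalarTower Λ S P'] {J : Ideal S}

/-! ## The maximal ideal on a quotient -/

section Max

variable [IsLocalRing Λ] [IsLocalRing S] (hJ : J ≠ ⊤)
  (hΛ : ∀ s : S, ∃ x : Λ, s - algebraMap Λ S x ∈ J)

include hJ hΛ

theorem comap_maximalIdeal_eq :
    Ideal.comap (algebraMap Λ S) (maximalIdeal S) = maximalIdeal Λ := by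
  refine IsLocalRing.eq_maximalIdeal ?_
  refine Ideal.Quotient.maximal_of_isField _ ?_
  have hne : Nontrivial (Λ ⧸ Ideal.comap (algebraMap Λ S) (maximalIdeal S)) :=
    Ideal.Quotient.nontrivial_iff.mpr (Ideal.comap_ne_top _ (maximalIdeal.isMaximal S).ne_top)
  refine ⟨exists_pair_ne _, mul_comm, fun {a} ha => ?_⟩
  obtain ⟨l, rfl⟩ := Ideal.Quotient.mk_surjective a
  rw [Ne, Ideal.Quotient.eq_zero_iff_mem, Ideal.mem_comap, mem_maximalIdeal, mem_nonunits_iff,
    not_not] at ha
  obtain ⟨u, hu⟩ := ha.exists_right_inv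
  obtain ⟨m, hm⟩ := hΛ u
  refine ⟨Ideal.Quotient.mk _ m, ?_⟩
  rw [← map_mul, ← map_one (Ideal.Quotient.mk _), Ideal.Quotient.eq, Ideal.mem_comap, map_sub,
    map_mul, map_one, ← hu, ← mul_sub, ← neg_sub u, mul_neg]
  exact neg_mem (Ideal.mul_mem_left _ _ (le_maximalIdeal hJ hm))

/-- The maximal ideal of `Λ` on `P ⧸ J P` is the image of that of `S`. -/
theorem mk_mem_maximalIdeal_iff (v : P) :
    (Submodule.Quotient.mk v : Quot S P J) ∈ maximalIdeal Λ • (⊤ : Submodule Λ (Quot S P J))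
      ↔ v ∈ maximalIdeal S • (⊤ : Submodule S P) := by
  have hmax := comap_maximalIdeal_eq hJ hΛ
  have hJle : J • (⊤ : Submodule S P) ≤ maximalIdeal S • ⊤ :=
    Submodule.smul_mono_left (le_maximalIdeal hJ)
  constructor
  · intro h
    suffices ∀ y ∈ maximalIdeal Λ • (⊤ : Submodule Λ (Quot S P J)),
        ∃ u ∈ maximalIdeal S • (⊤ : Submodule S P), Submodule.Quotient.mk u = y by
      obtain ⟨u, hu, huv⟩ := this _ h
      rw [Submodule.Quotient.eq] at huv
      have := sub_mem hu (hJle huv)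
      rwa [sub_sub_cancel] at this
    intro y hy
    refine Submodule.smul_induction_on hy (fun l hl w _ => ?_) fun x y hx hy => ?_
    · obtain ⟨w, rfl⟩ := Submodule.Quotient.mk_surjective _ w
      refine ⟨algebraMap Λ S l • w, Submodule.smul_mem_smul ?_ trivial, ?_⟩
      · rw [← hmax] at hl
        exact hl
      · rw [algebraMap_smul, Submodule.Quotient.mk_smul]
    · obtain ⟨u, hu, rfl⟩ := hx
      obtain ⟨w, hw, rfl⟩ := hy
      exact ⟨u + w, add_mem hu hw, Submodule.Quotient.mk_add _⟩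
  · intro h
    refine Submodule.smul_induction_on h (fun a ha w _ => ?_) fun x y hx hy => ?_
    · obtain ⟨m, hm⟩ := hΛ a
      have hm' : m ∈ maximalIdeal Λ := by
        rw [← hmax, Ideal.mem_comap]
        have := sub_mem ha (le_maximalIdeal hJ hm)
        rwa [sub_sub_cancel] at this
      have e : (Submodule.Quotient.mk (a • w) : Quot S P J) = m • Submodule.Quotient.mk w := by
        rw [← Submodule.Quotient.mk_smul, Submodule.Quotient.eq, ← algebraMap_smul S m w,
          ← sub_smul]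
        exact Submodule.smul_mem_smul hm trivial
      rw [e]
      exact Submodule.smul_mem_smul hm' trivial
    · rw [Submodule.Quotient.mk_add]
      exact add_mem hx hy

end Max

/-! ## The quotient maps -/

theorem mem_smul_of_linear (φ : P →ₗ[S] P') {v : P} (hv : v ∈ J • (⊤ : Submodule S P)) :
    φ v ∈ J • (⊤ : Submodule S P') :=
  mem_smul_top_map φ hv

variable (J) in
/-- An `S`-linear map on the quotients. -/
def mapQuot (φ : P →ₗ[S] P') : Quot S P J →ₗ[Λ] Quot S P' J :=
  ((J • (⊤ : Submodule S P)).mapQ (J • (⊤ : Submodule S P')) φ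
    fun _ hv => mem_smul_of_linear φ hv).restrictScalars Λ

theorem mapQuot_mk (φ : P →ₗ[S] P') (v : P) :
    mapQuot (Λ := Λ) J φ (Submodule.Quotient.mk v) = Submodule.Quotient.mk (φ v) := rfl

variable (J) in
/-- A map out of two copies, on the quotients. -/
def pairQuot (φ : (Fin 2 → P') →ₗ[S] P) : (Fin 2 → Quot S P' J) →ₗ[Λ] Quot S P J :=
  ∑ i, mapQuot J (φ ∘ₗ LinearMap.single S (fun _ : Fin 2 => P') i) ∘ₗ LinearMap.proj i

theorem pairQuot_mk (φ : (Fin 2 → P') →ₗ[S] P) (v : Fin 2 → P') :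
    pairQuot (Λ := Λ) J φ (fun i => Submodule.Quotient.mk (v i))
      = Submodule.Quotient.mk (φ v) := by
  simp only [pairQuot, LinearMap.sum_apply, LinearMap.comp_apply, LinearMap.proj_apply,
    mapQuot_mk]
  conv_rhs => rw [← Finset.univ_sum_single v, map_sum]
  rw [← Submodule.mkQ_apply, map_sum]
  rfl

variable (J) in
/-- A map into two copies, on the quotients. -/
def splitQuot (ψ : P →ₗ[S] Fin 2 → P') : Quot S P J →ₗ[Λ] (Fin 2 → Quot S P' J) :=
  LinearMap.pi fun i => mapQuot J (LinearMap.proj i ∘ₗ ψ)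

theorem splitQuot_mk (ψ : P →ₗ[S] Fin 2 → P') (v : P) (i : Fin 2) :
    splitQuot (Λ := Λ) J ψ (Submodule.Quotient.mk v) i = Submodule.Quotient.mk (ψ v i) := rfl

/-! ## The flip level -/

section Flip

variable [IsLocalRing Λ] [IsLocalRing S] [Module.Finite S P'] {A R R' : Type*} [CommRing A]
  [CommRing R] [CommRing R'] {𝔞 𝔞' : Ideal Λ} {I : Ideal R} {I' : Ideal R'} {d d' : ℕ}
  {c : Ideal Λ} {b : Fin d → Quot S P J} {b' : Fin d' → Quot S P' J}

/-- A map onto modulo the maximal ideal is onto. -/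
theorem surjective_of_eq_add (ψ : P →ₗ[S] Fin 2 → P')
    (hsurj : ∀ y : Fin 2 → P', ∃ x, ∀ i, ∃ e ∈ maximalIdeal S • (⊤ : Submodule S P'),
      ψ x i = y i + e) : Function.Surjective ψ := by
  have h : (⊤ : Submodule S (Fin 2 → P'))
      ≤ LinearMap.range ψ ⊔ maximalIdeal S • (⊤ : Submodule S (Fin 2 → P')) := fun y _ => by
    obtain ⟨x, hx⟩ := hsurj y
    choose e he hxe using hx
    refine Submodule.mem_sup.mpr ⟨ψ x, ⟨x, rfl⟩, -e, neg_mem ?_, ?_⟩
    · rw [← Finset.univ_sum_single e]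
      exact Submodule.sum_mem _ fun i _ =>
        mem_smul_top_map (LinearMap.single S (fun _ : Fin 2 => P') i) (he i)
    · funext i
      rw [Pi.add_apply, Pi.neg_apply, hxe, add_neg_cancel_right]
  have h' := Submodule.le_of_le_smul_of_le_jacobson_bot Module.Finite.fg_top
    (maximalIdeal_le_jacobson ⊥) h
  exact LinearMap.range_eq_top.mp (top_le_iff.mp h')

/-- **Flip levels of quotients from maps over `S`.** -/
theorem nonempty_flipLevel_quot (hJne : J ≠ ⊤) (hΛ : ∀ s : S, ∃ x : Λ, s - algebraMap Λ S x ∈ J)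
    (h : IsLevelBasis c b) (h' : IsLevelBasis c b')
    (act : A →+* Module.End S P) (π : A →+* R) (hπ : Function.Surjective π)
    (hs : ∀ l : Λ, ∃ a : A, endQuot J (act a) = l • LinearMap.id ∧ (l ∈ 𝔞 → π a = 0))
    (ha : ∀ a : A, π a ∈ I → ∀ x : Quot S P J,
      endQuot J (act a) x ∈ 𝔞 • (⊤ : Submodule Λ (Quot S P J)))
    (act' : A →+* Module.End S P') (π' : A →+* R') (hπ' : Function.Surjective π')
    (hs' : ∀ l : Λ, ∃ a : A, endQuot J (act' a) = l • LinearMap.id ∧ (l ∈ 𝔞' → π' a = 0))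
    (ha' : ∀ a : A, π' a ∈ I' → ∀ x : Quot S P' J,
      endQuot J (act' a) x ∈ 𝔞' • (⊤ : Submodule Λ (Quot S P' J)))
    (sc : ∀ l : Λ, ∃ a : A, endQuot J (act a) = l • (LinearMap.id : Module.End Λ (Quot S P J)) ∧
      endQuot J (act' a) = l • (LinearMap.id : Module.End Λ (Quot S P' J)))
    (f : (Fin 2 → P') →ₗ[S] P) (g : P →ₗ[S] (Fin 2 → P'))
    (hf : ∀ a y, f (fun i => act' a (y i)) = act a (f y))
    (hg : ∀ a x i, g (act a x) i = act' a (g x i))
    {δ : Matrix (Fin 2) (Fin 2) A} (hgf : ∀ y i, g (f y) i = ∑ j, act' (δ i j) (y j))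
    {K : Ideal A} (hK : ∀ k ∈ K, ∀ x, g x = 0 → act k x = 0)
    (hinj : ∀ y, f y ∈ maximalIdeal S • (⊤ : Submodule S P) →
      ∀ i, y i ∈ maximalIdeal S • (⊤ : Submodule S P'))
    (hsurj : ∀ y : Fin 2 → P', ∃ x, ∀ i, ∃ e ∈ maximalIdeal S • (⊤ : Submodule S P'),
      g x i = y i + e) :
    Nonempty (FlipLevel
      (Level.ofModule h ((endQuot (Λ := Λ) J).comp act) π hπ hs ha)
      (Level.ofModule h' ((endQuot (Λ := Λ) J).comp act') π' hπ' hs' ha') K δ) := by
  have lift2 : ∀ y : Fin 2 → Quot S P' J, ∃ v : Fin 2 → P',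
      (fun i => (Submodule.Quotient.mk (v i) : Quot S P' J)) = y := fun y =>
    ⟨fun i => (Submodule.Quotient.mk_surjective _ (y i)).choose,
      funext fun i => (Submodule.Quotient.mk_surjective _ (y i)).choose_spec⟩
  refine nonempty_flipLevel h h' _ π hπ hs ha _ π' hπ' hs' ha' sc (pairQuot J f) (splitQuot J g)
    (fun a y => ?_) (fun a x i => ?_) (fun y i => ?_) (fun k hk x hx => ?_) (fun y hy i => ?_)
    fun y => ?_
  · obtain ⟨v, rfl⟩ := lift2 y
    simp only [RingHom.comp_apply, endQuot_mk]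
    rw [pairQuot_mk f fun i => act' a (v i), pairQuot_mk f v, endQuot_mk, hf]
  · obtain ⟨v, rfl⟩ := Submodule.Quotient.mk_surjective _ x
    simp only [RingHom.comp_apply, endQuot_mk, splitQuot_mk, hg]
  · obtain ⟨v, rfl⟩ := lift2 y
    simp only [RingHom.comp_apply, endQuot_mk]
    rw [pairQuot_mk, splitQuot_mk, hgf, ← Submodule.mkQ_apply, map_sum]
    rfl
  · obtain ⟨v, rfl⟩ := Submodule.Quotient.mk_surjective _ x
    rw [RingHom.comp_apply, endQuot_mk, Submodule.Quotient.mk_eq_zero]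
    have hgv : g v ∈ J • (⊤ : Submodule S (Fin 2 → P')) := by
      rw [← Finset.univ_sum_single (g v)]
      exact Submodule.sum_mem _ fun i _ => mem_smul_top_map
        (LinearMap.single S (fun _ : Fin 2 => P') i)
        ((Submodule.Quotient.mk_eq_zero _).mp (congrFun hx i))
    have hmap : Submodule.map g (J • (⊤ : Submodule S P))
        = J • (⊤ : Submodule S (Fin 2 → P')) := by
      rw [Submodule.map_smul'', Submodule.map_top,
        LinearMap.range_eq_top.mpr (surjective_of_eq_add g hsurj)]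
    rw [← hmap] at hgv
    obtain ⟨u, hu, hgu⟩ := hgv
    have hvu := hK k hk (v - u) (by rw [map_sub, hgu, sub_self])
    rw [map_sub, sub_eq_zero] at hvu
    rw [hvu]
    exact mem_smul_top_map (act k) hu
  · obtain ⟨v, rfl⟩ := lift2 y
    rw [pairQuot_mk, mk_mem_maximalIdeal_iff hJne hΛ] at hy
    exact (mk_mem_maximalIdeal_iff hJne hΛ _).mpr (hinj v hy i)
  · obtain ⟨v, rfl⟩ := lift2 y
    obtain ⟨x, hx⟩ := hsurj v
    refine ⟨Submodule.Quotient.mk x, fun i => ?_⟩
    obtain ⟨e, he, hxe⟩ := hx i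
    rw [splitQuot_mk, ← Submodule.Quotient.mk_sub, mk_mem_maximalIdeal_iff hJne hΛ, hxe,
      add_sub_cancel_left]
    exact he

end Flip

end Fermat.Agent.IharaTW
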