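import Fermat.Agent.IharaTW.StageLevel
import Fermat.Agent.IharaTW.QuotMaps

/-!
# Flips between levels of stages

The actions of a ring `A` on two lattices `V'`, `V` and degeneracy maps `F`, `G` over `O` commuting
with it, injective, resp. surjective, modulo the maximal ideal, give a `FlipLevel` of the stage
levels.  Scaling by an operator `W` brings the matrix to `[[q + 1, t], [t, q + 1]]`.
-/

set_option autoImplicit false

noncomputable section

namespace Fermat.Agent.IharaTW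

open IsLocalRing Fermat.Agent.Patching
open Fermat.Agent.TW.LevelQuot (Quot endQuot isLevelBasis)

section One

variable {O V : Type} [CommRing O] [AddCommGroup V] [Module O V]

/-- The whole lattice as the range of the identity. -/
def oneRange : LinearMap.range (1 : Module.End O V) ≃ₗ[O] V :=
  LinearEquiv.ofTop _ (LinearMap.range_eq_top.mpr fun v => ⟨v, rfl⟩)

theorem coe_oneRange_symm (v : V) : ((oneRange (O := O)).symm v : V) = v := rfl

end One

section Flip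

variable {O A G G' V V' : Type} [CommRing O] [IsDomain O] [CharZero O] [IsLocalRing O]
  [CommRing A] [Algebra O A] [CommGroup G] [Fintype G] [IsLocalRing (MonoidAlgebra O G)]
  [CommGroup G'] [AddCommGroup V] [Module O V] [AddCommGroup V'] [Module O V']
  (Φ : A →ₐ[O] Module.End O V) (Φ' : A →ₐ[O] Module.End O V') (ζ : G →* A)

/-- The module of a lattice. -/
abbrev LatMod : Type :=
  StageMod Φ ζ (e := (1 : Module.End O V)) fun a => Commute.one_left (Φ a)

/-- A map out of two copies, over the group ring. -/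
def latPi (F : (Fin 2 → V') →ₗ[O] V) (hF : ∀ a y, F (fun i => Φ' a (y i)) = Φ a (F y)) :
    (Fin 2 → LatMod Φ' ζ) →ₗ[MonoidAlgebra O G] LatMod Φ ζ :=
  ofPi _ _ (oneRange.symm.toLinearMap ∘ₗ F ∘ₗ LinearMap.pi fun i =>
      oneRange.toLinearMap ∘ₗ LinearMap.proj i)
    fun g y => Subtype.ext (hF (ζ g) fun i => (y i : V'))

/-- A map into two copies, over the group ring. -/
def latSplit (G₂ : V →ₗ[O] Fin 2 → V') (hG : ∀ a x i, G₂ (Φ a x) i = Φ' a (G₂ x i)) :
    LatMod Φ ζ →ₗ[MonoidAlgebra O G] (Fin 2 → LatMod Φ' ζ) :=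
  toPi _ _ ((LinearMap.pi fun i => oneRange.symm.toLinearMap ∘ₗ LinearMap.proj i) ∘ₗ G₂ ∘ₗ
      oneRange.toLinearMap)
    fun g z i => Subtype.ext (hG (ζ g) (z : V) i)

omit [IsDomain O] [CharZero O] [IsLocalRing O] [Fintype G] [IsLocalRing (MonoidAlgebra O G)] in
theorem opVec_latPi (F : (Fin 2 → V') →ₗ[O] V)
    (hF : ∀ a y, F (fun i => Φ' a (y i)) = Φ a (F y)) (y : Fin 2 → LatMod Φ' ζ) :
    opVec Φ ζ _ (latPi Φ Φ' ζ F hF y) = F fun i => opVec Φ' ζ _ (y i) := rfl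

omit [IsDomain O] [CharZero O] [IsLocalRing O] [Fintype G] [IsLocalRing (MonoidAlgebra O G)] in
theorem opVec_latSplit (G₂ : V →ₗ[O] Fin 2 → V') (hG : ∀ a x i, G₂ (Φ a x) i = Φ' a (G₂ x i))
    (z : LatMod Φ ζ) (i : Fin 2) :
    opVec Φ' ζ _ (latSplit Φ Φ' ζ G₂ hG z i) = G₂ (opVec Φ ζ _ z) i := rfl

omit [IsDomain O] [CharZero O] [IsLocalRing O] [Fintype G] [IsLocalRing (MonoidAlgebra O G)] in
theorem opVec_inj {z z' : LatMod Φ ζ} (h : opVec Φ ζ _ z = opVec Φ ζ _ z') : z = z' :=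
  stageVec_injective _ _ h

omit [IsDomain O] [CharZero O] [IsLocalRing O] [Fintype G] [IsLocalRing (MonoidAlgebra O G)] in
theorem opVec_zero : opVec Φ ζ _ (0 : LatMod Φ ζ) = 0 := stageVec_zero _ _

omit [IsDomain O] [CharZero O] [IsLocalRing O] [Fintype G] [IsLocalRing (MonoidAlgebra O G)] in
theorem opVec_add (z z' : LatMod Φ ζ) :
    opVec Φ ζ _ (z + z') = opVec Φ ζ _ z + opVec Φ ζ _ z' := rfl

variable (π : G →* G') (χ : G →* Oˣ) {Λ T T' : Type} [CommRing Λ] [IsLocalRing Λ] [CommRing T]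
  [CommRing T'] (ev : Λ →+* MonoidAlgebra O G)
  (hsurj : Function.Surjective fun l => twistHom π χ (ev l)) {𝔞 : Ideal Λ} {d d' : ℕ}
  (b : Module.Basis (Fin d) (MonoidAlgebra O G) (LatMod Φ ζ))
  (b' : Module.Basis (Fin d') (MonoidAlgebra O G) (LatMod Φ' ζ))
  (h𝔞 : ∀ l, TW.GroupRing.augR O G' (twistHom π χ (ev l)) = 0 → l ∈ 𝔞)
  (πA : A →+* T) (hπA : Function.Surjective πA) (hπA𝔞 : ∀ l ∈ 𝔞, πA (strElem ζ (ev l)) = 0)
  {I : Ideal T}
  (hI : ∀ a, πA a ∈ I → ∀ x, (1 : Module.End O V) x = x → (∀ g, Φ (ζ g) x = (χ g : O) • x) →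
    Φ a x = 0)
  (πA' : A →+* T') (hπA' : Function.Surjective πA')
  (hπA𝔞' : ∀ l ∈ 𝔞, πA' (strElem ζ (ev l)) = 0) {I' : Ideal T'}
  (hI' : ∀ a, πA' a ∈ I' → ∀ x, (1 : Module.End O V') x = x →
    (∀ g, Φ' (ζ g) x = (χ g : O) • x) → Φ' a x = 0)

/-- The level of a lattice. -/
abbrev latLevel : Level Λ A T 𝔞 I d :=
  stageLevel Φ ζ (e := (1 : Module.End O V)) (fun a => Commute.one_left (Φ a)) π χ ev hsurj
    IsIdempotentElem.one b h𝔞 πA hπA hπA𝔞 hI

/-- **Flip between two stage levels.** -/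
theorem nonempty_flipLevel_lat (F : (Fin 2 → V') →ₗ[O] V) (G₂ : V →ₗ[O] Fin 2 → V')
    (hF : ∀ a y, F (fun i => Φ' a (y i)) = Φ a (F y))
    (hG : ∀ a x i, G₂ (Φ a x) i = Φ' a (G₂ x i))
    {δ : Matrix (Fin 2) (Fin 2) A}
    (hGF : ∀ y i, G₂ (F y) i = Φ' (δ i 0) (y 0) + Φ' (δ i 1) (y 1))
    {K : Ideal A} (hK : ∀ k ∈ K, ∀ z, G₂ z = 0 → Φ k z = 0)
    (hinj : ∀ y, F y ∈ maximalIdeal O • (⊤ : Submodule O V) →
      ∀ i, y i ∈ maximalIdeal O • (⊤ : Submodule O V'))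
    (hsur : ∀ y : Fin 2 → V', ∃ z, ∀ i, ∃ d ∈ maximalIdeal O • (⊤ : Submodule O V'),
      G₂ z i = y i + d) :
    Nonempty (FlipLevel (latLevel Φ ζ π χ ev hsurj b h𝔞 πA hπA hπA𝔞 hI)
      (latLevel Φ' ζ π χ ev hsurj b' h𝔞 πA' hπA' hπA𝔞' hI') K δ) := by
  let : Algebra Λ (MonoidAlgebra O G) := ev.toAlgebra
  let : Module Λ (LatMod Φ ζ) := Module.compHom _ ev
  have : IsScalarTower Λ (MonoidAlgebra O G) (LatMod Φ ζ) :=
    ⟨fun l s v => by
      show (ev l * s) • v = ev l • s • v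
      rw [mul_smul]⟩
  let : Module Λ (LatMod Φ' ζ) := Module.compHom _ ev
  have : IsScalarTower Λ (MonoidAlgebra O G) (LatMod Φ' ζ) :=
    ⟨fun l s v => by
      show (ev l * s) • v = ev l • s • v
      rw [mul_smul]⟩
  have : Module.Free (MonoidAlgebra O G) (LatMod Φ' ζ) := Module.Free.of_basis b'
  have : Module.Finite (MonoidAlgebra O G) (LatMod Φ' ζ) := Module.Finite.of_basis b'
  refine nonempty_flipLevel_quot (S := MonoidAlgebra O G) (twistIdl_ne_top π χ)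
    (fun s => exists_sub_mem_twistIdl π χ hsurj s)
    (isLevelBasis b (twistIdl π χ) (fun s => exists_sub_mem_twistIdl π χ hsurj s))
    (isLevelBasis b' (twistIdl π χ) (fun s => exists_sub_mem_twistIdl π χ hsurj s))
    (stageOp Φ ζ _) πA hπA _ _ (stageOp Φ' ζ _) πA' hπA' _ _ (fun l => ?_)
    (latPi Φ Φ' ζ F hF) (latSplit Φ Φ' ζ G₂ hG) ?_ ?_ ?_ ?_ ?_ ?_
  · refine ⟨strElem ζ (ev l), ?_, ?_⟩ <;>
    · refine LinearMap.ext fun y => ?_
      obtain ⟨v, rfl⟩ := Submodule.Quotient.mk_surjective _ y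
      rw [TW.LevelQuot.endQuot_mk, stageOp_strElem, LinearMap.smul_apply, LinearMap.id_apply,
        ← Submodule.Quotient.mk_smul]
      rfl
  · intro a y
    exact opVec_inj Φ ζ ((opVec_latPi Φ Φ' ζ F hF _).trans (hF a fun i => opVec Φ' ζ _ (y i)))
  · intro a x i
    exact opVec_inj Φ' ζ ((opVec_latSplit Φ Φ' ζ G₂ hG _ i).trans (hG a (opVec Φ ζ _ x) i))
  · intro y i
    refine opVec_inj Φ' ζ ?_
    refine ((opVec_latSplit Φ Φ' ζ G₂ hG _ i).trans (hGF _ i)).trans ?_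
    rw [Fin.sum_univ_two, opVec_add]
    rfl
  · intro k hk x hx
    refine opVec_inj Φ ζ ?_
    rw [opVec_stageOp, opVec_zero]
    refine hK k hk _ (funext fun i => ?_)
    rw [← opVec_latSplit Φ Φ' ζ G₂ hG, congrFun hx i]
    exact opVec_zero Φ' ζ
  · intro y hy i
    rw [← augOver_maximalIdeal] at hy ⊢
    refine mem_of_ofPi_mem _ _ (maximalIdeal O) _ _ ?_ y hy i
    intro x hx j
    have h1 := hinj (fun k => (x k : V')) (mem_smul_top_map oneRange.toLinearMap hx) j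
    exact mem_smul_top_map oneRange.symm.toLinearMap h1
  · intro y
    rw [← augOver_maximalIdeal]
    refine exists_toPi_eq_add _ _ (maximalIdeal O) _ _ ?_ y
    intro x
    obtain ⟨z, hz⟩ := hsur fun k => (x k : V')
    refine ⟨oneRange.symm z, fun j => ?_⟩
    obtain ⟨c, hc, he⟩ := hz j
    exact ⟨oneRange.symm c, mem_smul_top_map oneRange.symm.toLinearMap hc,
      Subtype.ext he⟩

end Flip

section Scaled

variable {O A V V' : Type} [CommRing O] [IsLocalRing O] [CommRing A] [Algebra O A] [AddCommGroup V]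
  [Module O V] [AddCommGroup V'] [Module O V'] (Φ : A →ₐ[O] Module.End O V)
  (Φ' : A →ₐ[O] Module.End O V') (W : Module.End O V')

/-- Scale the second component. -/
def scaleW : (Fin 2 → V') →ₗ[O] Fin 2 → V' :=
  LinearMap.pi fun i => (![1, W] i : Module.End O V') ∘ₗ LinearMap.proj i

omit [IsLocalRing O] in
theorem scaleW_zero (y : Fin 2 → V') : scaleW W y 0 = y 0 := rfl

omit [IsLocalRing O] in
theorem scaleW_one (y : Fin 2 → V') : scaleW W y 1 = W (y 1) := rfl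

/-- **Scaled degeneracy maps.** -/
theorem exists_scaled_pair {F : (Fin 2 → V') →ₗ[O] V} {G₂ : V →ₗ[O] Fin 2 → V'}
    (hF : ∀ a y, F (fun i => Φ' a (y i)) = Φ a (F y))
    (hG : ∀ a x i, G₂ (Φ a x) i = Φ' a (G₂ x i))
    {T D : Module.End O V'} {q : ℕ} {t : A}
    (h0 : ∀ y, G₂ (F y) 0 = (q + 1) • y 0 + T (y 1))
    (h1 : ∀ y, G₂ (F y) 1 = T (y 0) + (q + 1) • D (y 1))
    (Wi : Module.End O V') (hW : ∀ a, Commute W (Φ' a)) (hWi : Wi * W = 1) (hWi' : W * Wi = 1)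
    (hTW : T * W = Φ' t) (hWT : W * T = Φ' t) (hD : W * D * W = 1)
    {K : Ideal A} (hK : ∀ k ∈ K, ∀ z, G₂ z = 0 → Φ k z = 0)
    (hinj : ∀ y, F y ∈ maximalIdeal O • (⊤ : Submodule O V) →
      ∀ i, y i ∈ maximalIdeal O • (⊤ : Submodule O V'))
    (hsur : ∀ y : Fin 2 → V', ∃ z, ∀ i, ∃ d ∈ maximalIdeal O • (⊤ : Submodule O V'),
      G₂ z i = y i + d) :
    ∃ (F₁ : (Fin 2 → V') →ₗ[O] V) (G₁ : V →ₗ[O] Fin 2 → V'),
      (∀ a y, F₁ (fun i => Φ' a (y i)) = Φ a (F₁ y)) ∧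
      (∀ a x i, G₁ (Φ a x) i = Φ' a (G₁ x i)) ∧
      (∀ y i, G₁ (F₁ y) i
        = Φ' ((!![(q : A) + 1, t; t, (q : A) + 1] : Matrix (Fin 2) (Fin 2) A) i 0) (y 0)
          + Φ' ((!![(q : A) + 1, t; t, (q : A) + 1] : Matrix (Fin 2) (Fin 2) A) i 1) (y 1)) ∧
      (∀ k ∈ K, ∀ z, G₁ z = 0 → Φ k z = 0) ∧
      (∀ y, F₁ y ∈ maximalIdeal O • (⊤ : Submodule O V) →
        ∀ i, y i ∈ maximalIdeal O • (⊤ : Submodule O V')) ∧
      (∀ y : Fin 2 → V', ∃ z, ∀ i, ∃ d ∈ maximalIdeal O • (⊤ : Submodule O V'),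
        G₁ z i = y i + d) := by
  have app : ∀ {X Y : Module.End O V'}, X = Y → ∀ v, X v = Y v := fun h v => LinearMap.congr_fun h v
  have hn : ∀ v, Φ' ((q : A) + 1) v = (q + 1) • v := fun v => by
    rw [show (q : A) + 1 = ((q + 1 : ℕ) : A) by push_cast; ring, map_natCast,
      Module.End.natCast_apply]
  have hscale : ∀ a (y : Fin 2 → V'), scaleW W (fun i => Φ' a (y i)) =
      fun i => Φ' a (scaleW W y i) :=
    fun a y => funext fun i => by
      fin_cases i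
      · rfl
      · exact app (hW a).eq (y 1)
  refine ⟨F ∘ₗ scaleW W, scaleW W ∘ₗ G₂, fun a y => ?_, fun a x i => ?_, fun y i => ?_,
    fun k hk z hz => hK k hk z (funext fun i => ?_), fun y hy i => ?_, fun y => ?_⟩
  · rw [LinearMap.comp_apply, LinearMap.comp_apply, hscale, hF]
  · rw [LinearMap.comp_apply, LinearMap.comp_apply,
      show G₂ (Φ a x) = fun j => Φ' a (G₂ x j) from funext (hG a x), hscale]
  · rw [LinearMap.comp_apply, LinearMap.comp_apply]
    fin_cases i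
    · show G₂ (F (scaleW W y)) 0 = Φ' ((q : A) + 1) (y 0) + Φ' t (y 1)
      rw [h0, scaleW_zero, scaleW_one, hn, ← Module.End.mul_apply, hTW]
    · show W (G₂ (F (scaleW W y)) 1) = Φ' t (y 0) + Φ' ((q : A) + 1) (y 1)
      rw [h1, scaleW_zero, scaleW_one, hn, map_add, map_nsmul, ← Module.End.mul_apply, hWT,
        show W (D (W (y 1))) = y 1 from app hD (y 1)]
  · have h := congrFun hz i
    rw [LinearMap.comp_apply] at h
    fin_cases i
    · exact h
    · exact (app hWi _).symm.trans ((congrArg Wi h).trans (map_zero Wi))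
  · have h := hinj (scaleW W y) hy i
    fin_cases i
    · exact h
    · have h' : Wi (W (y 1)) ∈ maximalIdeal O • (⊤ : Submodule O V') := mem_smul_top_map Wi h
      rw [show Wi (W (y 1)) = y 1 from app hWi (y 1)] at h'
      exact h'
  · obtain ⟨z, hz⟩ := hsur ![y 0, Wi (y 1)]
    refine ⟨z, fun i => ?_⟩
    obtain ⟨c, hc, he⟩ := hz i
    fin_cases i
    · exact ⟨c, hc, he⟩
    · refine ⟨W c, mem_smul_top_map W hc, ?_⟩
      show W (G₂ z 1) = y 1 + W c
      rw [show G₂ z 1 = Wi (y 1) + c from he, map_add,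
        show W (Wi (y 1)) = y 1 from app hWi' (y 1)]

end Scaled

end Fermat.Agent.IharaTW
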