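import Fermat.Agent.IharaTW.ChainFamily
import Fermat.Agent.IharaTW.RangePair
import Fermat.Agent.IharaTW.StageTower

/-!
# The flips of a family of summands

Between consecutive stages of a family the scaled degeneracy maps commute with the Hecke ring of
the top stage, compose to `[[q + 1, t], [t, q + 1]]` and are injective, resp. surjective, modulo
the maximal ideal.
-/

set_option autoImplicit false

noncomputable section

namespace Fermat.Agent.IharaTW

open IsLocalRing Fermat.Agent.GammaH Fermat.Agent.TW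
open scoped MatrixGroups

namespace Chain

variable {C : Chain} {O : Type} [CommRing O] [IsDomain O] [IsDiscreteValuationRing O]
  [IsAdicComplete (maximalIdeal O) O] [CharZero O]
  {θ₀ : heckeRing C.N₀ C.H₀ (↑C.S : Set ℕ) →+* ResidueField O} (F : C.Family O θ₀)

/-- The summand of a stage. -/
abbrev Family.space (i : ℕ) (hi : i ≤ C.s) : Submodule O (H1 (C.lvl i) (C.grp i) O O) :=
  LinearMap.range (F.E i hi)

/-- The Hecke ring of a stage on its summand. -/
def Family.opAct (i : ℕ) (hi : i ≤ C.s) :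
    HeckeO (C.lvl i) (C.grp i) (↑C.S : Set ℕ) O →ₐ[O] Module.End O (F.space i hi) where
  toFun z := (actO (C.neg_mem i) O z).restrict fun v hv => by
    obtain ⟨w, rfl⟩ := hv
    exact ⟨actO (C.neg_mem i) O z w, LinearMap.congr_fun ((F.piece i hi).comm z).eq w⟩
  map_one' := LinearMap.ext fun v => Subtype.ext (by simp)
  map_mul' x y := LinearMap.ext fun v => Subtype.ext (by simp)
  map_zero' := LinearMap.ext fun v => Subtype.ext (by simp)
  map_add' x y := LinearMap.ext fun v => Subtype.ext (by simp)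
  commutes' a := LinearMap.ext fun v => Subtype.ext (by
    rw [LinearMap.coe_restrict_apply, AlgHom.commutes, Module.algebraMap_end_apply,
      Module.algebraMap_end_apply]
    rfl)

omit [CharZero O] in
theorem Family.coe_opAct (i : ℕ) (hi : i ≤ C.s)
    (z : HeckeO (C.lvl i) (C.grp i) (↑C.S : Set ℕ) O) (v : F.space i hi) :
    (F.opAct i hi z v : H1 (C.lvl i) (C.grp i) O O) = actO (C.neg_mem i) O z v := rfl

/-- The Hecke ring of the top stage on the summand of a stage. -/
def Family.act (i : ℕ) (hi : i ≤ C.s) :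
    HeckeO (C.lvl C.s) (C.grp C.s) (↑C.S : Set ℕ) O →ₐ[O] Module.End O (F.space i hi) :=
  (F.opAct i hi).comp (C.toO O i hi)

omit [CharZero O] in
theorem Family.apply_coe (i : ℕ) (hi : i ≤ C.s) (v : F.space i hi) :
    F.E i hi (v : H1 (C.lvl i) (C.grp i) O O) = v := by
  obtain ⟨x, hx⟩ := v.2
  rw [← hx, ← Module.End.mul_apply, (F.piece i hi).idem.eq]

/-- An element killing the summand of a stage kills the one below. -/
theorem Family.act_eq_zero_of_succ {i : ℕ} (hi : i < C.s)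
    (z : HeckeO (C.lvl C.s) (C.grp C.s) (↑C.S : Set ℕ) O) (h : F.act (i + 1) hi z = 0) :
    F.act i hi.le z = 0 := by
  refine LinearMap.ext fun v => Subtype.ext ?_
  have hv := F.apply_coe i hi.le v
  have h1 : F.E (i + 1) hi (fMap (C.lvl i) (C.q i) (C.not_dvd i hi) (C.grp i) O O
      fun _ => (v : H1 (C.lvl i) (C.grp i) O O))
      = fMap (C.lvl i) (C.q i) (C.not_dvd i hi) (C.grp i) O O fun _ => v := by
    refine ((F.step i hi).1 _).symm.trans ?_
    rw [hv]
  have h2 : actO (C.neg_mem (i + 1)) O (C.toO O (i + 1) hi z)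
      (fMap (C.lvl i) (C.q i) (C.not_dvd i hi) (C.grp i) O O fun _ => v) = 0 :=
    congrArg Subtype.val (LinearMap.congr_fun h ⟨_, _, h1⟩)
  exact congrFun (eq_zero_of_gMap_fMap_eq_zero (C.neg_mem i) (C.not_dvd i hi) O
    (y := fun _ : Fin 2 => actO (C.neg_mem i) O (C.toO O i hi.le z) v) ((congrArg _
      (((C.intertwined_toO O hi z).1 fun _ => (v : H1 (C.lvl i) (C.grp i) O O)).trans h2)).trans
        (map_zero _))) 0

private theorem flip_scale_key {X E : Type} [CommRing X] [Semiring E] (f : X →+* E) (a b c : X)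
    (hab : a * b = 1) :
    f (c * b) * f a = f c ∧ f a * f (c * b) = f c ∧ f a * f (b * b) * f a = 1 :=
  ⟨by rw [← map_mul, mul_assoc, mul_comm b, hab, mul_one],
    by rw [← map_mul, mul_left_comm, hab, mul_one],
    by rw [← map_mul, ← map_mul, ← mul_assoc, hab, one_mul, mul_comm b, hab, map_one]⟩

variable {p : ℕ} [hpF : Fact p.Prime]

omit [CharZero O] in
/-- **The scaled degeneracy maps of a step.** -/
theorem Family.exists_flip {i : ℕ} (hi : i < C.s) {A : Type} [CommRing A] [Algebra O A]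
    (Φ' : A →ₐ[O] Module.End O (F.space i hi.le))
    (Φ : A →ₐ[O] Module.End O (F.space (i + 1) hi))
    (hpr : ∀ a, ∃ z, F.act i hi.le z = Φ' a ∧ F.act (i + 1) hi z = Φ a)
    {l : ℕ} (hl : l.Prime) (hlS : l ∉ (↑C.S : Set ℕ)) (hl0 : ¬ l ∣ C.N₀)
    (hθ : θ₀ (heckeTR hl hl0 hlS) ≠ ((l + 1 : ℕ) : ResidueField O))
    (hl1 : (l : ZMod (C.lvl C.s)) = 1) (hp2 : p ≠ 2) (hpO : (p : O) ∈ maximalIdeal O)
    (hexp : ∀ u : (ZMod C.N₀)ˣ, ∃ k : ℕ, u ^ p ^ k ∈ C.H₀) (hN : 2 ≤ C.N₀)
    (w wi : HeckeO (C.lvl i) (C.grp i) (↑C.S : Set ℕ) O) (hw : w * wi = 1) (t : A)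
    (hTw : ∀ x : F.space i hi.le,
      heckeTH O O (C.prime i) (C.not_dvd i hi) (F.opAct i hi.le w x : H1 (C.lvl i) (C.grp i) O O)
        = (Φ' t x : H1 (C.lvl i) (C.grp i) O O))
    (hD : ∀ x, F.E i hi.le x = x → actO (C.neg_mem i) O w
      (diamondH O O (primeUnit (C.prime i) (C.not_dvd i hi)) (actO (C.neg_mem i) O w x)) = x)
    {K : Ideal A}
    (hK : ∀ k ∈ K, ∀ z : F.space (i + 1) hi,
      gMap (C.lvl i) (C.q i) (C.not_dvd i hi) (C.grp i) O O
        (z : H1 (C.lvl (i + 1)) (C.grp (i + 1)) O O)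
        = 0 → Φ k z = 0) :
    ∃ (F₁ : (Fin 2 → F.space i hi.le) →ₗ[O] F.space (i + 1) hi)
      (G₁ : F.space (i + 1) hi →ₗ[O] Fin 2 → F.space i hi.le),
      (∀ a y, F₁ (fun j => Φ' a (y j)) = Φ a (F₁ y)) ∧
      (∀ a x j, G₁ (Φ a x) j = Φ' a (G₁ x j)) ∧
      (∀ y j, G₁ (F₁ y) j
        = Φ'
            ((!![(C.q i : A) + 1, t; t, (C.q i : A) + 1] : Matrix (Fin 2) (Fin 2) A) j 0) (y 0)
          + Φ'
            ((!![(C.q i : A) + 1, t; t, (C.q i : A) + 1] : Matrix (Fin 2) (Fin 2) A) j 1) (y 1)) ∧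
      (∀ k ∈ K, ∀ z, G₁ z = 0 → Φ k z = 0) ∧
      (∀ y, F₁ y ∈ maximalIdeal O • (⊤ : Submodule O (F.space (i + 1) hi)) →
        ∀ j, y j ∈ maximalIdeal O • (⊤ : Submodule O (F.space i hi.le))) ∧
      (∀ y : Fin 2 → F.space i hi.le, ∃ z, ∀ j,
        ∃ d ∈ maximalIdeal O • (⊤ : Submodule O (F.space i hi.le)), G₁ z j = y j + d) := by
  have : Fact l.Prime := ⟨hl⟩
  have hqN := C.not_dvd i hi
  have hfix : ∀ {j : ℕ} {hj : j ≤ C.s} (v : F.space j hj),
      F.E j hj (v : H1 (C.lvl j) (C.grp j) O O) = v := fun {j hj} v => by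
    obtain ⟨x, hx⟩ := v.2
    rw [← hx, ← Module.End.mul_apply, (F.piece j hj).idem.eq]
  have hww : wi * w = 1 := by rw [mul_comm, hw]
  let W : Module.End O (F.space i hi.le) := F.opAct i hi.le w
  let Wi : Module.End O (F.space i hi.le) := F.opAct i hi.le wi
  refine (hpr t).elim fun zt hzt' => ?_
  have hzt := hzt'.1
  let tt := C.toO O i hi.le zt
  let T : Module.End O (F.space i hi.le) := F.opAct i hi.le (tt * wi)
  let D : Module.End O (F.space i hi.le) := F.opAct i hi.le (wi * wi)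
  have hT : ∀ v : F.space i hi.le,
      heckeTH O O (C.prime i) hqN (v : H1 (C.lvl i) (C.grp i) O O)
        = (T v : H1 (C.lvl i) (C.grp i) O O) := fun v => by
    have h := hTw (Wi v)
    have e : F.opAct i hi.le w (Wi v) = v := by
      show F.opAct i hi.le w (F.opAct i hi.le wi v) = v
      rw [← Module.End.mul_apply, ← map_mul, hw, map_one, Module.End.one_apply]
    rw [e] at h
    refine h.trans (congrArg Subtype.val ?_)
    show Φ' t (Wi v) = T v
    rw [← hzt]
    exact (LinearMap.congr_fun (map_mul (F.opAct i hi.le) tt wi) v).symm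
  have hDv : ∀ v : F.space i hi.le,
      diamondH O O (primeUnit (C.prime i) hqN) (v : H1 (C.lvl i) (C.grp i) O O)
        = (D v : H1 (C.lvl i) (C.grp i) O O) := fun v => by
    have h := congrArg (actO (C.neg_mem i) O wi) (hD _ (hfix (Wi v)))
    have e : actO (C.neg_mem i) O w (Wi v : H1 (C.lvl i) (C.grp i) O O) = v.1 := by
      rw [F.coe_opAct, ← Module.End.mul_apply, ← map_mul, hw, map_one, Module.End.one_apply]
    have e' : ∀ x, actO (C.neg_mem i) O wi (actO (C.neg_mem i) O w x) = x := fun x => by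
      rw [← Module.End.mul_apply, ← map_mul, hww, map_one, Module.End.one_apply]
    rw [e, e'] at h
    refine h.trans ?_
    rw [F.coe_opAct, F.coe_opAct, map_mul, Module.End.mul_apply]
  have hg01 : (∀ y, gE (C.lvl i) (C.q i) hqN (C.grp i) (F.step i hi)
        (fE (C.lvl i) (C.q i) hqN (C.grp i) (F.step i hi) y) 0
          = (C.q i + 1) • y 0 + T (y 1)) ∧
      ∀ y, gE (C.lvl i) (C.q i) hqN (C.grp i) (F.step i hi)
        (fE (C.lvl i) (C.q i) hqN (C.grp i) (F.step i hi) y) 1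
          = T (y 0) + (C.q i + 1) • D (y 1) := by
    refine ⟨fun y => Subtype.ext ?_, fun y => Subtype.ext ?_⟩
    · refine ((coe_gE _ _ hqN _ (F.step i hi) _ 0).trans ((congrArg (fun z =>
        gMap _ _ hqN _ O O z 0) (coe_fE _ _ hqN _ (F.step i hi) y)).trans
          (gMap_fMap (R := O) (A := O) _ _ hqN (C.grp i) fun j => (y j).1).1)).trans ?_
      rw [hT]
      rfl
    · refine ((coe_gE _ _ hqN _ (F.step i hi) _ 1).trans ((congrArg (fun z =>
        gMap _ _ hqN _ O O z 1) (coe_fE _ _ hqN _ (F.step i hi) y)).trans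
          (gMap_fMap (R := O) (A := O) _ _ hqN (C.grp i) fun j => (y j).1).2)).trans ?_
      rw [hT, hDv]
      rfl
  have hli : ¬ l ∣ C.lvl i := C.not_dvd_lvl hi.le hl hlS
  have heη := C.commute_eta O hl hlS (F.piece i hi.le).comm hli
  have hbij := C.bijective_etaE O θ₀ hi.le hl hlS hl0 hθ (F.piece i hi.le).comm
    (F.piece i hi.le).below hli heη
  have hTW : T * W = Φ' t ∧ W * T = Φ' t ∧
      W * D * W = 1 := by
    rw [← hzt]
    exact flip_scale_key (F.opAct i hi.le).toRingHom w wi tt hw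
  have hlift : ∀ a, ∃ tq u, Intertwined (C.lvl i) (C.q i) hqN (C.grp i) tq u ∧
      (∀ v : F.space i hi.le, (Φ' a v : H1 (C.lvl i) (C.grp i) O O)
        = u (v : H1 (C.lvl i) (C.grp i) O O)) ∧
      ∀ z : F.space (i + 1) hi, (Φ a z : H1 (C.lvl (i + 1)) (C.grp (i + 1)) O O)
        = tq (z : H1 (C.lvl (i + 1)) (C.grp (i + 1)) O O) := fun a => by
    obtain ⟨z, h', h⟩ := hpr a
    exact ⟨_, _, C.intertwined_toO O hi z, fun v => by rw [← h']; rfl, fun x => by rw [← h]; rfl⟩
  refine exists_scaled_pair (V := F.space (i + 1) hi) (V' := F.space i hi.le)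
    (F := fE (C.lvl i) (C.q i) hqN (C.grp i) (F.step i hi))
    (G₂ := gE (C.lvl i) (C.q i) hqN (C.grp i) (F.step i hi)) Φ Φ' W ?_ ?_
    hg01.1 hg01.2 Wi (fun a => ?_) ?_ ?_ ?_ ?_ ?_ (fun k hk z hz => ?_) ?_ ?_
  · intro a y
    exact fE_act _ _ hqN _ (F.step i hi) _ _ hlift a y
  · intro a x j
    exact gE_act _ _ hqN _ (F.step i hi) _ _ hlift a x j
  · obtain ⟨z, h', -⟩ := hpr a
    rw [← h']
    exact (Commute.all w (C.toO O i hi.le z)).map (F.opAct i hi.le)
  · exact (map_mul _ _ _).symm.trans (by rw [hww, map_one])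
  · exact (map_mul _ _ _).symm.trans (by rw [hw, map_one])
  · exact hTW.1
  · exact hTW.2.1
  · exact hTW.2.2
  · have hg : gMap (C.lvl i) (C.q i) (C.not_dvd i hi) (C.grp i) O O z.1 = 0 := funext fun j =>
      (coe_gE (C.lvl i) (C.q i) (C.not_dvd i hi) (C.grp i) (F.step i hi) z j).symm.trans
        (congrArg Subtype.val (congrFun hz j))
    exact hK k hk z hg
  · exact fun y hy j => mem_of_fE_mem _ _ hqN _ (F.step i hi) (maximalIdeal O) hli
      (C.natCast_mul_eq_one hi hl1) heη hbij hp2 hpO (C.neg_mem i) (C.exists_pow_mem hexp i)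
      (F.piece i hi.le).idem y hy j
  · exact exists_gE_eq_add _ _ hqN _ (F.step i hi) (maximalIdeal O) hli
      (C.natCast_mul_eq_one hi hl1) heη hbij hp2 hpO (C.neg_mem i) (C.exists_pow_mem hexp i)
      (F.piece i hi.le).idem (C.two_le_lvl hN i)

end Chain

end Fermat.Agent.IharaTW
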