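import Fermat.Agent.Ihara.CuspStab
import Fermat.Agent.GammaH.Group

/-!
# Ihara's lemma for `Γ_H(N)[1/q]`

For `H ≤ (ℤ/N)ˣ` with quotient a `p`-group: a function on cusps changed by constants under
`Γ_H(N)` and its conjugate by `diag(q, 1)` is fixed by `Γ₁(N)[1/q]`, in odd exponent `p`.
-/

set_option autoImplicit false

noncomputable section

namespace Fermat.Agent.IharaTW

open Matrix OnePoint CongruenceSubgroup Fermat.Agent.Ihara
open scoped MatrixGroups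

variable {q : ℕ} [hq : Fact q.Prime] {N : ℕ} {p : ℕ}

/-- `z` is the reduction modulo `N` of `x ∈ ℤ[1/q]`. -/
def RedTo (q N : ℕ) (x : ℚ) (z : ZMod N) : Prop :=
  ∃ (k : ℕ) (n : ℤ), x * (q : ℚ) ^ k = n ∧ z * (q : ZMod N) ^ k = n

theorem isUnit_qcast (hqN : ¬q ∣ N) : IsUnit (q : ZMod N) :=
  (ZMod.isUnit_iff_coprime q N).mpr ((Nat.Prime.coprime_iff_not_dvd hq.out).mpr hqN)

omit hq in
theorem RedTo.intCast (n : ℤ) : RedTo q N (n : ℚ) (n : ZMod N) := ⟨0, n, by simp, by simp⟩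

theorem exists_redTo (hqN : ¬q ∣ N) {x : ℚ} (hx : IsQInt q x) : ∃ z, RedTo q N x z := by
  obtain ⟨k, n, hn⟩ := hx
  obtain ⟨u, hu⟩ := (isUnit_qcast hqN).pow k
  exact ⟨(n : ZMod N) * (u⁻¹ : (ZMod N)ˣ), k, n, hn,
    by rw [mul_assoc, ← hu, Units.inv_mul, mul_one]⟩

theorem RedTo.unique (hqN : ¬q ∣ N) {x : ℚ} {z z' : ZMod N} (h : RedTo q N x z)
    (h' : RedTo q N x z') : z = z' := by
  obtain ⟨k, n, hn, hz⟩ := h
  obtain ⟨l, m, hm, hz'⟩ := h'
  have e : n * (q : ℤ) ^ l = m * (q : ℤ) ^ k := by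
    have : ((n * (q : ℤ) ^ l : ℤ) : ℚ) = ((m * (q : ℤ) ^ k : ℤ) : ℚ) := by
      push_cast; rw [← hn, ← hm]; ring
    exact_mod_cast this
  have e' : (n : ZMod N) * (q : ZMod N) ^ l = (m : ZMod N) * (q : ZMod N) ^ k := by
    have := congrArg (fun t : ℤ => (t : ZMod N)) e
    push_cast at this; exact this
  refine ((isUnit_qcast hqN).pow (k + l)).mul_left_injective ?_
  show z * _ = z' * _
  rw [pow_add, ← mul_assoc, hz, e', mul_comm ((q : ZMod N) ^ k) ((q : ZMod N) ^ l), ← mul_assoc,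
    hz']

omit hq in
theorem RedTo.add {x y : ℚ} {z w : ZMod N} (h : RedTo q N x z) (h' : RedTo q N y w) :
    RedTo q N (x + y) (z + w) := by
  obtain ⟨k, n, hn, hz⟩ := h
  obtain ⟨l, m, hm, hw⟩ := h'
  refine ⟨k + l, n * (q : ℤ) ^ l + m * (q : ℤ) ^ k, ?_, ?_⟩ <;> push_cast
  · rw [← hn, ← hm]; ring
  · rw [← hz, ← hw]; ring

omit hq in
theorem RedTo.mul {x y : ℚ} {z w : ZMod N} (h : RedTo q N x z) (h' : RedTo q N y w) :
    RedTo q N (x * y) (z * w) := by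
  obtain ⟨k, n, hn, hz⟩ := h
  obtain ⟨l, m, hm, hw⟩ := h'
  refine ⟨k + l, n * m, ?_, ?_⟩ <;> push_cast
  · rw [← hn, ← hm]; ring
  · rw [← hz, ← hw]; ring

omit hq in
theorem RedTo.of_qDvd {x : ℚ} (h : QDvd q (N : ℤ) x) : RedTo q N x 0 := by
  obtain ⟨y, ⟨k, n, hn⟩, rfl⟩ := h
  exact ⟨k, (N : ℤ) * n, by push_cast; rw [← hn]; ring, by push_cast; simp⟩

theorem qDvd_sub_one_of_redTo {x : ℚ} (h : RedTo q N x 1) : QDvd q (N : ℤ) (x - 1) := by
  obtain ⟨k, n, hn, hz⟩ := h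
  have hq0 : (q : ℚ) ≠ 0 := by exact_mod_cast hq.out.ne_zero
  obtain ⟨m, hm⟩ : (N : ℤ) ∣ n - (q : ℤ) ^ k := by
    rw [← ZMod.intCast_zmod_eq_zero_iff_dvd]
    push_cast
    rw [← hz, one_mul, sub_self]
  refine ⟨(x - 1) / N, ?_, ?_⟩
  · rcases eq_or_ne (N : ℚ) 0 with h0 | h0
    · simp [h0, IsQInt.zero]
    refine ⟨k, m, ?_⟩
    have hm' : (n : ℚ) - (q : ℚ) ^ k = N * m := by exact_mod_cast hm
    field_simp
    linear_combination hn + hm'
  · rcases eq_or_ne (N : ℚ) 0 with h0 | h0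
    · have hm' : (n : ℚ) - (q : ℚ) ^ k = N * m := by exact_mod_cast hm
      rw [h0, zero_mul] at hm'
      have : (x - 1) * (q : ℚ) ^ k = 0 := by linear_combination hn + hm'
      rcases mul_eq_zero.mp this with h1 | h1
      · rw [h1]; simp
      · exact absurd h1 (pow_ne_zero _ hq0)
    · push_cast; field_simp

omit hq in
theorem RedTo.one : RedTo q N 1 1 := by simpa using RedTo.intCast (q := q) (N := N) 1

omit hq in
theorem RedTo.mul_one_one {a b : SL(2, ℚ)} (ha : a ∈ G0 q (N : ℤ)) (hb : b ∈ G0 q (N : ℤ))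
    {z w : ZMod N} (h : RedTo q N (a 1 1) z) (h' : RedTo q N (b 1 1) w) :
    RedTo q N ((a * b) 1 1) (z * w) := by
  rw [sl_mul, ← zero_add (z * w)]
  exact (RedTo.of_qDvd (ha.2.2.2.mul_right hb.2.1)).add (h.mul h')

/-- `Γ_H(N)[1/q]`. -/
def GH (q : ℕ) [Fact q.Prime] {N : ℕ} (hqN : ¬q ∣ N) (H : Subgroup (ZMod N)ˣ) :
    Subgroup SL(2, ℚ) where
  carrier := {g | g ∈ G0 q (N : ℤ) ∧ ∃ h ∈ H, RedTo q N (g 1 1) (h : ZMod N)}
  one_mem' := ⟨one_mem _, 1, one_mem H, by simpa using RedTo.one⟩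
  mul_mem' := by
    rintro a b ⟨ha, h, hh, hr⟩ ⟨hb, h', hh', hr'⟩
    exact ⟨mul_mem ha hb, h * h', mul_mem hh hh', by
      simpa using RedTo.mul_one_one ha hb hr hr'⟩
  inv_mem' := by
    rintro a ⟨ha, h, hh, hr⟩
    obtain ⟨z, hz⟩ := exists_redTo hqN (inv_mem ha).2.2.1
    have e : z * (h : ZMod N) = 1 := by
      refine RedTo.unique hqN (RedTo.mul_one_one (inv_mem ha) ha hz hr) ?_
      rw [inv_mul_cancel]
      simpa using RedTo.one
    refine ⟨inv_mem ha, h⁻¹, inv_mem hh, ?_⟩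
    rw [show ((h⁻¹ : (ZMod N)ˣ) : ZMod N) = z from ?_]
    · exact hz
    · rw [← mul_one ((h⁻¹ : (ZMod N)ˣ) : ZMod N), ← e, mul_comm z, ← mul_assoc, Units.inv_mul,
        one_mul]

theorem G1_le_GH (hqN : ¬q ∣ N) (H : Subgroup (ZMod N)ˣ) : G1 q (N : ℤ) ≤ GH q hqN H := by
  intro g hg
  refine ⟨hg.1, 1, one_mem H, ?_⟩
  have := (RedTo.of_qDvd hg.2.2).add RedTo.one
  simpa using this

theorem GH_bot_le (hqN : ¬q ∣ N) : GH q hqN ⊥ ≤ G1 q (N : ℤ) := by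
  rintro g ⟨hg, u, hu, hr⟩
  rw [Subgroup.mem_bot] at hu
  subst hu
  exact mem_G1_of_d hg (qDvd_sub_one_of_redTo (by simpa using hr))

/-- The lower right entry of a conjugate by `Γ₀(N)[1/q]` has the same reduction. -/
theorem conj_mem_GH (hqN : ¬q ∣ N) {H : Subgroup (ZMod N)ˣ} {g x : SL(2, ℚ)}
    (hg : g ∈ G0 q (N : ℤ)) (hx : x ∈ GH q hqN H) : g * x * g⁻¹ ∈ GH q hqN H := by
  obtain ⟨hx0, u, hu, hr⟩ := hx
  obtain ⟨z, hz⟩ := exists_redTo hqN hg.2.2.1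
  obtain ⟨w, hw⟩ := exists_redTo hqN (inv_mem hg).2.2.1
  have hzw : z * w = 1 := by
    refine RedTo.unique hqN (RedTo.mul_one_one hg (inv_mem hg) hz hw) ?_
    rw [mul_inv_cancel]
    simpa using RedTo.one
  refine ⟨mul_mem (mul_mem hg hx0) (inv_mem hg), u, hu, ?_⟩
  have := RedTo.mul_one_one (mul_mem hg hx0) (inv_mem hg) (RedTo.mul_one_one hg hx0 hz hr) hw
  rwa [mul_right_comm, hzw, one_mul] at this

theorem conj_mem_G1 (hqN : ¬q ∣ N) {g x : SL(2, ℚ)} (hg : g ∈ G0 q (N : ℤ))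
    (hx : x ∈ G1 q (N : ℤ)) : g * x * g⁻¹ ∈ G1 q (N : ℤ) :=
  GH_bot_le hqN (conj_mem_GH hqN hg (G1_le_GH hqN ⊥ hx))

omit hq in
theorem castSL_mem_G0 {M : ℕ} (hNM : N ∣ M) (γ : Gamma0 M) : castSL γ ∈ G0 q (N : ℤ) := by
  refine ⟨?_, ?_, ?_, ?_⟩ <;> simp only [castSL_apply]
  · exact IsQInt.intCast _
  · exact IsQInt.intCast _
  · exact IsQInt.intCast _
  · exact QDvd.of_dvd ((Int.natCast_dvd_natCast.mpr hNM).trans (Ihara.mem_Gamma0_iff.mp γ.2))

theorem castSL_mul (a b : SL(2, ℤ)) : castSL (a * b) = castSL a * castSL b := by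
  apply sl_ext <;>
    simp [sl_mul, Matrix.SpecialLinearGroup.coe_mul, Matrix.mul_apply, Fin.sum_univ_two]

theorem castSL_one : castSL 1 = 1 := by apply sl_ext <;> simp

theorem castSL_inv (a : SL(2, ℤ)) : castSL a⁻¹ = (castSL a)⁻¹ := by
  refine eq_inv_of_mul_eq_one_left ?_
  rw [← castSL_mul, inv_mul_cancel, castSL_one]

/-- The lower right entry of an element of `Γ₀(N)` as a unit modulo `N`. -/
theorem exists_unit_d {M : ℕ} (hNM : N ∣ M) (γ : Gamma0 M) :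
    ∃ u : (ZMod N)ˣ, (u : ZMod N) = ((γ : SL(2, ℤ)) 1 1 : ZMod N) := by
  refine ⟨Units.mk (((γ : SL(2, ℤ)) 1 1 : ℤ) : ZMod N)
    (((γ : SL(2, ℤ)) 0 0 : ℤ) : ZMod N) ?_ ?_, rfl⟩
  all_goals
    have hdet :
        (γ : SL(2, ℤ)) 0 0 * (γ : SL(2, ℤ)) 1 1 - (γ : SL(2, ℤ)) 0 1 * (γ : SL(2, ℤ)) 1 0 = 1 := by
      rw [← Matrix.det_fin_two]; exact γ.1.2
    have h10 : (((γ : SL(2, ℤ)) 1 0 : ℤ) : ZMod N) = 0 :=
      (ZMod.intCast_zmod_eq_zero_iff_dvd _ _).mpr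
      ((Int.natCast_dvd_natCast.mpr hNM).trans (Ihara.mem_Gamma0_iff.mp γ.2))
    have h := congrArg (fun t : ℤ => (t : ZMod N)) hdet
    push_cast at h
    rw [h10, mul_zero, sub_zero] at h
    linear_combination h

omit hq in
theorem castSL_redTo (γ : SL(2, ℤ)) : RedTo q N (castSL γ 1 1) (γ 1 1 : ZMod N) := by
  rw [castSL_apply]; exact RedTo.intCast _

/-- Every unit modulo `N` is the lower right entry of an element of `Γ₀(N q)`. -/
theorem exists_gamma0_d [NeZero N] (_hqN : ¬q ∣ N) (u : (ZMod N)ˣ) :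
    ∃ a : Gamma0 (N * q), ((a : SL(2, ℤ)) 1 1 : ZMod N) = (u : ZMod N) := by
  have : NeZero q := ⟨hq.out.ne_zero⟩
  have : NeZero (N * q) := ⟨mul_ne_zero (NeZero.ne N) hq.out.ne_zero⟩
  obtain ⟨v, hv⟩ := ZMod.unitsMap_surjective (dvd_mul_right N q) u
  have hc : IsCoprime ((v : ZMod (N * q)).val : ℤ) ((N * q : ℕ) : ℤ) :=
    Nat.isCoprime_iff_coprime.mpr (ZMod.val_coe_unit_coprime v)
  obtain ⟨x, y, hxy⟩ := hc
  refine ⟨⟨slMk x (-y) ((N * q : ℕ) : ℤ) ((v : ZMod (N * q)).val : ℤ) (by linear_combination hxy),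
    slMk_mem _ dvd_rfl⟩, ?_⟩
  rw [show ((slMk x (-y) ((N * q : ℕ) : ℤ) ((v : ZMod (N * q)).val : ℤ) _ : SL(2, ℤ)) 1 1)
      = ((v : ZMod (N * q)).val : ℤ) from slMk_11 .., Int.cast_natCast, ← hv, ZMod.unitsMap_val,
    ZMod.natCast_val]

section Fixed

variable {F : Type*} [AddCommGroup F]

theorem pow_sub_one_apply (hp : p.Prime) (hp2 : p ≠ 2) (hF : ∀ x : F, p • x = 0)
    (T : AddMonoid.End (SL(2, ℚ) → F)) (n : ℕ) (f : SL(2, ℚ) → F) (x : SL(2, ℚ)) :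
    ((T - 1) ^ (p ^ n)) f x = (T ^ (p ^ n)) f x - f x := by
  obtain ⟨r, hr⟩ := (Commute.one_right T).neg_right.exists_add_pow_prime_pow_eq hp n
  rw [sub_eq_add_neg, hr, ((hp.odd_of_ne_two hp2).pow).neg_one_pow, mul_assoc, mul_assoc]
  have hz : ∀ s : AddMonoid.End (SL(2, ℚ) → F),
      ((p : AddMonoid.End (SL(2, ℚ) → F)) * s) f x = 0 := fun s => by
    show ((p : AddMonoid.End (SL(2, ℚ) → F)) (s f)) x = 0
    rw [AddMonoid.End.natCast_apply, Pi.smul_apply, hF]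
  refine Eq.trans (congrArg (((T ^ p ^ n) f x + -(f x)) + ·) (hz _)) ?_
  rw [add_zero, sub_eq_add_neg]

variable (S : Subgroup SL(2, ℚ)) {f : SL(2, ℚ) → F}

/-- Homomorphism on `S` killing unipotents. -/
def SHom (f : SL(2, ℚ) → F) : Prop :=
  (∀ x ∈ S, ∀ y ∈ S, f (x * y) = f x + f y) ∧ ∀ x ∈ S, tr2 x = 2 → f x = 0

theorem SHom.map_conj (hf : SHom S f) {c x : SL(2, ℚ)} (hc : c ∈ S) (hx : x ∈ S) :
    f (c * x * c⁻¹) = f x := by
  have h1 : f (c * x * c⁻¹) + f c = f c + f x := by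
    rw [← hf.1 _ (mul_mem (mul_mem hc hx) (inv_mem hc)) c hc, inv_mul_cancel_right, hf.1 c hc x hx]
  rw [add_comm (f c)] at h1
  exact add_right_cancel h1

/-- Ihara's lemma for a subgroup between `Γ₁(N)[1/q]` and `Γ₀(N)[1/q]` normalised by `Γ₀(N q)`,
with `p`-power index condition. -/
theorem sHom_eq_zero [NeZero N] (hqN : ¬q ∣ N) (hp : p.Prime) (hp2 : p ≠ 2)
    (hF : ∀ x : F, p • x = 0) (hS : G1 q (N : ℤ) ≤ S)
    (hnorm : ∀ a : Gamma0 (N * q), ∀ x ∈ S, castSL a * x * (castSL a)⁻¹ ∈ S)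
    (hpow : ∀ a : Gamma0 (N * q), ∃ k : ℕ, castSL a ^ (p ^ k) ∈ S)
    (hf : SHom S f) {g : SL(2, ℚ)} (hg : g ∈ G1 q (N : ℤ)) : f g = 0 := by
  classical
  by_contra hne
  -- representatives
  choose a ha using exists_gamma0_d (N := N) (q := q) hqN
  suffices key : ∀ s : Finset (ZMod N)ˣ, ∃ f' : SL(2, ℚ) → F, SHom S f' ∧
      (∃ x ∈ G1 q (N : ℤ), f' x ≠ 0) ∧
      ∀ u ∈ s, ∀ x ∈ G1 q (N : ℤ), f' (castSL (a u) * x * (castSL (a u))⁻¹) = f' x by
    obtain ⟨f', hf', ⟨x, hx, hx0⟩, hinv⟩ := key Finset.univ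
    refine hx0 (ihara_vanish (NeZero.ne N) hqN hp hp2 hF
      { hom := fun u hu v hv => hf'.1 u (hS hu) v (hS hv)
        uni := fun u hu => hf'.2 u (hS hu)
        conj_self := fun h hh y hy => ?_ } hx)
    -- `h = c * a_u` with `c ∈ Γ₁`
    obtain ⟨z, hz⟩ := exists_redTo hqN hh.2.2.1
    obtain ⟨w, hw⟩ := exists_redTo hqN (inv_mem hh).2.2.1
    have hzw : z * w = 1 := by
      refine RedTo.unique hqN (RedTo.mul_one_one hh (inv_mem hh) hz hw) ?_
      rw [mul_inv_cancel]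
      simpa using RedTo.one
    set u : (ZMod N)ˣ := Units.mk z w hzw (by rw [mul_comm]; exact hzw)
    have hag : castSL (a u) ∈ G0 q (N : ℤ) := castSL_mem_G0 (dvd_mul_right N q) (a u)
    obtain ⟨v, hv⟩ := exists_redTo hqN (inv_mem hag).2.2.1
    have hzv : z * v = 1 := by
      have h1 := RedTo.mul_one_one hag (inv_mem hag) (castSL_redTo _) hv
      rw [ha] at h1
      refine RedTo.unique hqN h1 ?_
      rw [mul_inv_cancel]
      simpa using RedTo.one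
    have hc : h * (castSL (a u))⁻¹ ∈ G1 q (N : ℤ) := by
      refine mem_G1_of_d (mul_mem hh (inv_mem hag)) (qDvd_sub_one_of_redTo ?_)
      exact hzv ▸ RedTo.mul_one_one hh (inv_mem hag) hz hv
    have e : h * y * h⁻¹ = (h * (castSL (a u))⁻¹) * (castSL (a u) * y * (castSL (a u))⁻¹) *
        (h * (castSL (a u))⁻¹)⁻¹ := by group
    rw [e, hf'.map_conj S (hS hc) (hS (conj_mem_G1 hqN hag hy)), hinv u (Finset.mem_univ _) y hy]
  intro s
  induction s using Finset.induction with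
  | empty => exact ⟨f, hf, ⟨g, hg, hne⟩, by simp⟩
  | insert u s _ ih =>
    obtain ⟨f₀, hf₀, hex, hinv⟩ := ih
    set c := castSL (a u) with hc
    let T : AddMonoid.End (SL(2, ℚ) → F) :=
      { toFun := fun φ x => φ (c * x * c⁻¹), map_zero' := rfl, map_add' := fun _ _ => rfl }
    have hT : ∀ φ x, T φ x = φ (c * x * c⁻¹) := fun _ _ => rfl
    have hTpow : ∀ n φ x, (T ^ n) φ x = φ (c ^ n * x * (c ^ n)⁻¹) := by
      intro n
      induction n with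
      | zero => intro φ x; simp
      | succ n ih =>
        intro φ x
        rw [pow_succ, AddMonoid.End.coe_mul, Function.comp_apply, ih, hT]
        congr 1
        rw [pow_succ']; group
    obtain ⟨k, hk⟩ := hpow (a u)
    have hvan : ∀ x ∈ G1 q (N : ℤ), ((T - 1) ^ (p ^ k)) f₀ x = 0 := fun x hx => by
      rw [pow_sub_one_apply hp hp2 hF, hTpow, hf₀.map_conj S hk (hS hx), sub_self]
    have hex' : ∃ j : ℕ, ∀ x ∈ G1 q (N : ℤ), ((T - 1) ^ j) f₀ x = 0 := ⟨_, hvan⟩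
    have hpos : 0 < Nat.find hex' := by
      obtain ⟨x, hx, hx0⟩ := hex
      refine Nat.pos_of_ne_zero fun h0 => hx0 ?_
      have h1 := Nat.find_spec hex' x hx
      rw [h0, pow_zero] at h1
      exact h1
    obtain ⟨j, hj⟩ : ∃ j, Nat.find hex' = j + 1 := ⟨_, (Nat.succ_pred_eq_of_pos hpos).symm⟩
    have hclass : ∀ j : ℕ, SHom S ((((T - 1) ^ j : AddMonoid.End (SL(2, ℚ) → F))) f₀) ∧
        ∀ v ∈ s, ∀ x ∈ G1 q (N : ℤ),
          ((T - 1) ^ j) f₀ (castSL (a v) * x * (castSL (a v))⁻¹) = ((T - 1) ^ j) f₀ x := by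
      intro j
      induction j with
      | zero => exact ⟨by simpa using hf₀, by simpa using hinv⟩
      | succ j ih =>
        obtain ⟨hh, hi⟩ := ih
        have hstep : ((T - 1) ^ (j + 1)) f₀
            = fun x => ((T - 1) ^ j) f₀ (c * x * c⁻¹) - ((T - 1) ^ j) f₀ x := by
          rw [pow_succ', AddMonoid.End.coe_mul, Function.comp_apply]
          rfl
        rw [hstep]
        set φ := ((T - 1) ^ j) f₀
        refine ⟨⟨fun x hx y hy => ?_, fun x hx htr => ?_⟩, fun v hv x hx => ?_⟩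
        · show φ _ - φ _ = _
          rw [show c * (x * y) * c⁻¹ = (c * x * c⁻¹) * (c * y * c⁻¹) by group,
            hh.1 _ (hnorm (a u) x hx) _ (hnorm (a u) y hy), hh.1 _ hx _ hy]
          simp only [← hc]
          abel
        · show φ _ - φ _ = 0
          rw [hh.2 _ (hnorm (a u) x hx) (by rw [tr2_conj, htr]), hh.2 x hx htr, sub_self]
        · show φ _ - φ _ = φ _ - φ _
          set d := castSL (a v) with hd
          have hcg : c ∈ G0 q (N : ℤ) := castSL_mem_G0 (dvd_mul_right N q) (a u)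
          have hdg : d ∈ G0 q (N : ℤ) := castSL_mem_G0 (dvd_mul_right N q) (a v)
          have hcd : c * d * (d * c)⁻¹ ∈ G1 q (N : ℤ) := by
            have hm := mul_mem (mul_mem hcg hdg) (inv_mem (mul_mem hdg hcg))
            obtain ⟨w, hw⟩ := exists_redTo hqN (inv_mem (mul_mem hdg hcg)).2.2.1
            refine mem_G1_of_d hm (qDvd_sub_one_of_redTo ?_)
            have h1 := RedTo.mul_one_one (mul_mem hcg hdg) (inv_mem (mul_mem hdg hcg))
              (RedTo.mul_one_one hcg hdg (castSL_redTo _) (castSL_redTo _)) hw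
            have h2 := RedTo.mul_one_one (mul_mem hdg hcg) (inv_mem (mul_mem hdg hcg))
              (RedTo.mul_one_one hdg hcg (castSL_redTo _) (castSL_redTo _)) hw
            rw [mul_inv_cancel] at h2
            have e := RedTo.unique hqN h2 (by simpa using RedTo.one)
            rw [mul_comm (((a u : SL(2, ℤ)) 1 1 : ℤ) : ZMod N)] at h1
            exact e ▸ h1
          have hy : c * x * c⁻¹ ∈ G1 q (N : ℤ) := conj_mem_G1 hqN hcg hx
          have e1 : c * (d * x * d⁻¹) * c⁻¹ =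
              (c * d * (d * c)⁻¹) * (d * (c * x * c⁻¹) * d⁻¹) * (c * d * (d * c)⁻¹)⁻¹ := by group
          rw [e1, hh.map_conj S (hS hcd) (hS (conj_mem_G1 hqN hdg hy)), hi v hv _ hy, hi v hv x hx]
    refine ⟨((T - 1) ^ j) f₀, (hclass j).1, ?_, fun v hv x hx => ?_⟩
    · by_contra h
      push Not at h
      exact Nat.find_min hex' (show j < Nat.find hex' by omega) h
    · rcases Finset.mem_insert.mp hv with rfl | hv
      · have := Nat.find_spec hex' x hx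
        rw [hj, pow_succ', AddMonoid.End.coe_mul, Function.comp_apply] at this
        exact sub_eq_zero.mp this
      · exact (hclass j).2 v hv x hx

end Fixed

section Cusps

variable {F : Type*} [AddCommGroup F] (Ψ : OnePoint ℚ → F)

/-- **Ihara's lemma at level `Γ_H(N)`.** -/
theorem fixed_of_gammaH [NeZero N] (hqN : ¬q ∣ N) (hp : p.Prime) (hp2 : p ≠ 2)
    (hF : ∀ x : F, p • x = 0) (H : Subgroup (ZMod N)ˣ)
    (hH : ∀ u : (ZMod N)ˣ, ∃ k : ℕ, u ^ (p ^ k) ∈ H)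
    (hΓ : ∀ γ : Gamma0 N, (∃ h ∈ H, ((γ : SL(2, ℤ)) 1 1 : ZMod N) = (h : ZMod N)) →
      castSL γ ∈ shiftStab Ψ)
    (hΓ' : ∀ (γ : Gamma0 N) (g : SL(2, ℚ)),
        (∃ h ∈ H, ((γ : SL(2, ℤ)) 1 1 : ZMod N) = (h : ZMod N)) →
      g 0 0 = castSL γ 0 0 → g 0 1 = castSL γ 0 1 / q → g 1 0 = castSL γ 1 0 * q →
      g 1 1 = castSL γ 1 1 → g ∈ shiftStab Ψ)
    {g : SL(2, ℚ)} (hg : g ∈ G1 q (N : ℤ)) (x : OnePoint ℚ) : Ψ (sGL g • x) = Ψ x := by
  classical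
  have hq0 : (q : ℚ) ≠ 0 := by exact_mod_cast hq.out.ne_zero
  set S := shiftStab Ψ ⊓ GH q hqN H with hSdef
  -- the twisted copy of an element
  have htw : ∀ γ : Gamma0 N, ∃ t : SL(2, ℚ), t 0 0 = castSL γ 0 0 ∧ t 0 1 = castSL γ 0 1 / q ∧
      t 1 0 = castSL γ 1 0 * q ∧ t 1 1 = castSL γ 1 1 ∧ t ∈ G0 q (N : ℤ) := by
    intro γ
    refine ⟨mat (castSL γ 0 0) (castSL γ 0 1 / q) (castSL γ 1 0 * q) (castSL γ 1 1) (by
      have := sl_det (castSL (γ : SL(2, ℤ)))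
      field_simp
      linear_combination this), rfl, rfl, rfl, rfl, ?_⟩
    have h0 := castSL_mem_G0 (q := q) dvd_rfl γ
    refine ⟨h0.1, ?_, h0.2.2.1, h0.2.2.2.mul_right (IsQInt.natCast q)⟩
    exact ⟨1, (γ : SL(2, ℤ)) 0 1, by simp [castSL_apply, hq0]⟩
  choose tw htw using htw
  set gens : Set SL(2, ℚ) :=
    {x | ∃ γ : Gamma0 N, (∃ h ∈ H, ((γ : SL(2, ℤ)) 1 1 : ZMod N) = (h : ZMod N)) ∧
      (x = castSL γ ∨ x = tw γ)} with hgens
  set S₀ := Subgroup.closure gens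
  have hS₀ : S₀ ≤ shiftStab Ψ ⊓ GH q hqN H := by
    refine (Subgroup.closure_le _).mpr ?_
    rintro _ ⟨γ, ⟨h, hh, hd⟩, rfl | rfl⟩
    · exact ⟨hΓ γ ⟨h, hh, hd⟩, castSL_mem_G0 dvd_rfl γ, h, hh, hd ▸ castSL_redTo _⟩
    · obtain ⟨e1, e2, e3, e4, hm⟩ := htw γ
      exact ⟨hΓ' γ _ ⟨h, hh, hd⟩ e1 e2 e3 e4, hm, h, hh, by rw [e4]; exact hd ▸ castSL_redTo _⟩
  -- `Γ₀(N q)` normalises the generators
  have hnorm₀ : ∀ a : Gamma0 (N * q), ∀ x ∈ S₀, castSL a * x * (castSL a)⁻¹ ∈ S₀ := by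
    intro a x hx
    induction hx using Subgroup.closure_induction with
    | mem x hx =>
      obtain ⟨γ, ⟨h, hh, hd⟩, hx⟩ := hx
      obtain ⟨c, hc⟩ := Ihara.mem_Gamma0_iff.mp a.2
      rw [Nat.cast_mul] at hc
      have ha0 : (a : SL(2, ℤ)) ∈ Gamma0 N := Gamma0_le_of_dvd (dvd_mul_right N q) a.2
      have hdet : (a : SL(2, ℤ)) 0 0 * (a : SL(2, ℤ)) 1 1
          - (a : SL(2, ℤ)) 0 1 * (a : SL(2, ℤ)) 1 0 = 1 := by
        rw [← Matrix.det_fin_two]; exact a.1.2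
      -- the twisted conjugator
      set a' : Gamma0 N := ⟨slMk ((a : SL(2, ℤ)) 0 0) ((a : SL(2, ℤ)) 0 1 * q) ((N : ℤ) * c)
        ((a : SL(2, ℤ)) 1 1) (by rw [hc] at hdet; linear_combination hdet),
        slMk_mem _ (dvd_mul_right _ _)⟩
      set a₀ : Gamma0 N := ⟨a, ha0⟩
      have hconjd : ∀ b : Gamma0 N,
          ((b * γ * b⁻¹ : Gamma0 N) : SL(2, ℤ)) 1 1 = ((γ : SL(2, ℤ)) 1 1 : ZMod N) := by
        intro b
        obtain ⟨u, hu⟩ := exists_unit_d (dvd_refl N) b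
        obtain ⟨v, hv⟩ := exists_unit_d (dvd_refl N) γ
        have e : GammaH.unitD N (b * γ * b⁻¹) = GammaH.unitD N γ := by
          rw [map_mul, map_mul, map_inv, mul_right_comm, mul_inv_cancel, one_mul]
        have := congrArg Units.val e
        rwa [GammaH.coe_unitD, GammaH.coe_unitD] at this
      rcases hx with rfl | rfl
      · refine Subgroup.subset_closure ⟨a₀ * γ * a₀⁻¹, ⟨h, hh, by rw [hconjd, hd]⟩, Or.inl ?_⟩
        simp [a₀, castSL_mul, castSL_inv]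
      · refine Subgroup.subset_closure ⟨a' * γ * a'⁻¹, ⟨h, hh, by rw [hconjd, hd]⟩, Or.inr ?_⟩
        obtain ⟨e1, e2, e3, e4, -⟩ := htw γ
        obtain ⟨f1, f2, f3, f4, -⟩ := htw (a' * γ * a'⁻¹)
        have hcq : ((a : SL(2, ℤ)) 1 0 : ℚ) = (N : ℚ) * q * c := by rw [hc]; push_cast; ring
        apply sl_ext <;>
          simp only [f1, f2, f3, f4, sl_mul, sl_inv00, sl_inv01, sl_inv10, sl_inv11, e1, e2, e3, e4,
            Subgroup.coe_mul, Subgroup.coe_inv, castSL_mul, castSL_inv] <;>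
          simp [a', castSL_apply, slMk_00, slMk_01, slMk_10, slMk_11, hcq] <;>
          field_simp
    | one => simp [one_mem]
    | mul x y _ _ ihx ihy =>
      rw [show castSL a * (x * y) * (castSL a)⁻¹
        = (castSL a * x * (castSL a)⁻¹) * (castSL a * y * (castSL a)⁻¹) by group]
      exact mul_mem ihx ihy
    | inv x _ ih =>
      rw [show castSL a * x⁻¹ * (castSL a)⁻¹ = (castSL a * x * (castSL a)⁻¹)⁻¹ by group]
      exact inv_mem ih
  -- the group generated together with `Γ₀(N q)` is everything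
  have hT : ∀ g ∈ G0 q (N : ℤ), ∃ a : Gamma0 (N * q), (castSL a)⁻¹ * g ∈ S₀ := by
    let T : Subgroup SL(2, ℚ) :=
      { carrier := {g | ∃ a : Gamma0 (N * q), (castSL a)⁻¹ * g ∈ S₀}
        one_mem' := ⟨1, by simp [castSL_one, one_mem]⟩
        mul_mem' := by
          rintro g h ⟨a, ha⟩ ⟨b, hb⟩
          refine ⟨a * b, ?_⟩
          have := mul_mem (hnorm₀ b⁻¹ _ ha) hb
          rw [Subgroup.coe_inv, castSL_inv, inv_inv] at this
          convert this using 1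
          rw [Subgroup.coe_mul, castSL_mul]; group
        inv_mem' := by
          rintro g ⟨a, ha⟩
          refine ⟨a⁻¹, ?_⟩
          have := hnorm₀ a _ (inv_mem ha)
          convert this using 1
          rw [Subgroup.coe_inv, castSL_inv]; group }
    refine fun g hg => (G0_le_of_gens hqN T (fun γ => ?_) ?_ hg : g ∈ T)
    · obtain ⟨u, hu⟩ := exists_unit_d (dvd_refl N) γ
      obtain ⟨a, ha⟩ := exists_gamma0_d (q := q) hqN u
      have ha0 : (a : SL(2, ℤ)) ∈ Gamma0 N := Gamma0_le_of_dvd (dvd_mul_right N q) a.2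
      refine ⟨a, Subgroup.subset_closure ⟨⟨a, ha0⟩⁻¹ * γ, ⟨1, one_mem H, ?_⟩, Or.inl ?_⟩⟩
      · have e : GammaH.unitD N (⟨a, ha0⟩⁻¹ * γ) = 1 := by
          rw [map_mul, map_inv, inv_mul_eq_one]
          refine Units.ext ?_
          rw [GammaH.coe_unitD, GammaH.coe_unitD, ha, hu]
        have := congrArg Units.val e
        rwa [GammaH.coe_unitD] at this
      · simp [castSL_mul, castSL_inv]
    · have hu : slMk 1 1 0 1 (by ring) ∈ Gamma0 N := slMk_mem _ (dvd_zero _)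
      refine ⟨1, Subgroup.subset_closure ⟨⟨_, hu⟩, ⟨1, one_mem H, by simp [slMk_11]⟩, Or.inr ?_⟩⟩
      obtain ⟨e1, e2, e3, e4, -⟩ := htw ⟨_, hu⟩
      rw [Subgroup.coe_one, castSL_one, inv_one, one_mul]
      apply sl_ext <;> simp [e1, e2, e3, e4, slMk_00, slMk_01, slMk_10, slMk_11]
  have hG1 : G1 q (N : ℤ) ≤ S₀ := by
    intro g hg
    obtain ⟨a, ha⟩ := hT g hg.1
    have h2 : castSL a ∈ GH q hqN H := by
      have := mul_mem (G1_le_GH hqN H hg) (inv_mem ((hS₀ ha).2))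
      rwa [_root_.mul_inv_rev, inv_inv, mul_inv_cancel_left] at this
    obtain ⟨-, h, hh, hr⟩ := h2
    have ha0 : (a : SL(2, ℤ)) ∈ Gamma0 N := Gamma0_le_of_dvd (dvd_mul_right N q) a.2
    have : castSL a ∈ S₀ := Subgroup.subset_closure
      ⟨⟨a, ha0⟩, ⟨h, hh, RedTo.unique hqN (castSL_redTo _) hr⟩, Or.inl rfl⟩
    simpa using mul_mem this ha
  have hpow : ∀ a : Gamma0 (N * q), ∃ k : ℕ, castSL a ^ (p ^ k) ∈ S₀ := by
    intro a
    have ha0 : (a : SL(2, ℤ)) ∈ Gamma0 N := Gamma0_le_of_dvd (dvd_mul_right N q) a.2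
    obtain ⟨k, hk⟩ := hH (GammaH.unitD N ⟨a, ha0⟩)
    refine ⟨k, Subgroup.subset_closure ⟨⟨a, ha0⟩ ^ (p ^ k), ⟨_, hk, ?_⟩, Or.inl ?_⟩⟩
    · rw [← map_pow, GammaH.coe_unitD]
    · generalize p ^ k = m
      induction m with
      | zero => simp [castSL_one]
      | succ m ih => rw [pow_succ, pow_succ, Subgroup.coe_mul, castSL_mul, ← ih]
  have hsh : SHom S₀ fun g => Ψ (sGL g • (∞ : OnePoint ℚ)) - Ψ ∞ := by
    refine ⟨fun a ha b _ => ?_, fun a ha htr => ?_⟩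
    · show Ψ (sGL (a * b) • ∞) - Ψ ∞ = (Ψ (sGL a • ∞) - Ψ ∞) + (Ψ (sGL b • ∞) - Ψ ∞)
      rw [map_mul, mul_smul, (hS₀ ha).1 (sGL b • ∞)]
      abel
    · obtain ⟨y, hy⟩ := tr2_two_fixes_cusp htr
      have := (hS₀ ha).1 y
      rw [hy] at this
      exact right_eq_add.mp this
  rw [(hS₀ (hG1 hg)).1 x, sHom_eq_zero S₀ hqN hp hp2 hF hG1 hnorm₀ hpow hsh hg, zero_add]

end Cusps

end Fermat.Agent.IharaTW
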