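import Fermat.Agent.IharaTW.Families
import Fermat.Agent.IharaTW.IharaH
import Fermat.Agent.Ihara.DegeneracyInjective

/-!
# The kernel of the degeneracy maps at level `Γ_H(N)` is Eisenstein modulo `p`

Both components of a pair killed by the sum of the two degeneracy maps are killed by
`(T_ℓ - ℓ - 1)²`, for primes `ℓ ≡ 1` modulo the level (`degeneracy_kernelH`).  The argument is
`Ihara.degeneracy_kernel_of_fixed`, fed with Ihara's lemma for `Γ_H(N)[1/q]`.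
-/

set_option autoImplicit false

noncomputable section

namespace Fermat.Agent.IharaTW

open Matrix OnePoint CongruenceSubgroup Fermat.Agent.Ihara
open scoped MatrixGroups

section Plain

variable {N : ℕ} {H : Subgroup (ZMod N)ˣ} {G₁ G₂ Γ₁ Γ₂ : Subgroup SL(2, ℤ)} {ι : Type*}

/-- A family whose representatives already have the class `u`. -/
def plainSys (h₁ : IsLevel N H G₁ Γ₁) (h₂ : IsLevel N H G₂ Γ₂) (S₀ : CosetSys G₁ G₂ ι)
    (u : (ZMod N)ˣ) (hd : ∀ i, HasD N (S₀.α i) (u : ZMod N)) : CosetSys Γ₁ Γ₂ ι where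
  α := S₀.α
  pos := S₀.pos
  exists_perm γ i := by
    have e := S₀.mul_eq ⟨γ, h₂.le γ.2⟩ i
    obtain ⟨a, ha, had⟩ := (h₂.mem_iff γ (h₂.le γ.2)).mp γ.2
    set g : G₁ := S₀.cof ⟨γ, h₂.le γ.2⟩ i
    have h1 := ((hd i).mul had).unique (e ▸ (h₁.hasD g.2).mul (hd _))
    refine ⟨_, ⟨g, (h₁.mem_iff g g.2).mpr ⟨a, ha, (h₁.hasD g.2).1, ?_⟩⟩, e⟩
    exact u.isUnit.mul_left_injective ((show _ * _ = _ * _ from h1.symm).trans (mul_comm _ _))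
  inj i j g h := S₀.inj i j ⟨g, h₁.le g.2⟩ h

theorem isLift_plainSys (h₁ : IsLevel N H G₁ Γ₁) (h₂ : IsLevel N H G₂ Γ₂) (S₀ : CosetSys G₁ G₂ ι)
    (u : (ZMod N)ˣ) (hd : ∀ i, HasD N (S₀.α i) (u : ZMod N)) :
    IsLift N (plainSys h₁ h₂ S₀ u hd) S₀ u := fun i =>
  ⟨⟨1, one_mem _, by show S₀.α i = _; rw [mcoe_one, one_mul]⟩, hd i⟩

end Plain

variable {F : Type*} [AddCommGroup F]

variable (N q : ℕ) [hq : Fact q.Prime] (hqN : ¬q ∣ N) (H : Subgroup (ZMod N)ˣ) [NeZero N]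

include hqN in
/-- **Ihara's lemma at `Γ_H(N)`.** A pair in the kernel of `(res, diag)` modulo an odd prime is
annihilated by `(T_ℓ - ℓ - 1)²` for the primes `ℓ ≡ 1 (mod N q)`. -/
theorem degeneracy_kernelH {p : ℕ} (hp : p.Prime) (hp2 : p ≠ 2) (hF : ∀ x : F, p • x = 0)
    (hH : ∀ u : (ZMod N)ˣ, ∃ k : ℕ, u ^ (p ^ k) ∈ H)
    {χ₁ χ₂ : Additive (GammaH.GammaH N H) →+ F}
    (hχ₁ : χ₁ ∈ Cosets.parEllHoms ℤ (GammaH.GammaH N H) F)
    (hχ₂ : χ₂ ∈ Cosets.parEllHoms ℤ (GammaH.GammaH N H) F)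
    (hker : (resH N q H).op ℤ F χ₁ + (diagH N q H 1).op ℤ F χ₂ = 0) {ℓ : ℕ} [hℓ : Fact ℓ.Prime]
    (hℓN : ¬ℓ ∣ N) (hℓ1 : (ℓ : ZMod (N * q)) = 1) :
    let T := (heckeH (isLevel_GammaH H) hℓN hℓN 1).op ℤ F
    (T (T χ₁ - (ℓ + 1) • χ₁) = (ℓ + 1) • (T χ₁ - (ℓ + 1) • χ₁)) ∧
    (T (T χ₂ - (ℓ + 1) • χ₂) = (ℓ + 1) • (T χ₂ - (ℓ + 1) • χ₂)) := by
  intro T₀
  have hℓ1' : (ℓ : ZMod N) = 1 := by
    have h := congrArg (ZMod.castHom (dvd_mul_right N q) (ZMod N)) hℓ1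
    rwa [map_natCast, map_one] at h
  set L := isLevel_GammaH (N := N) H
  set Lq := isLevel_q N q H
  set S := plainSys L L (heckeSys N ℓ hℓN) 1 (fun j => by
    rw [heckeSys_α, Units.val_one]
    induction j using OnePoint.rec with
    | infty => simp [HasD, zRep_infty]
    | coe i => simp [HasD, zRep_coe, hℓ1'])
  have hT : ∀ χ : Additive (GammaH.GammaH N H) →+ F, T₀ χ = S.op ℤ F χ := fun χ =>
    IsLift.op_eq L (isLift_heckeH _ _ _ 1) (isLift_plainSys L L _ 1 _) χ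
  simp only [hT]
  set D := plainSys L Lq (diagSys N q) 1 (fun _ => by
    rw [Units.val_one]
    show HasD N (diagMat q) 1
    simp [HasD, diagMat])
  have hD : (diagH N q H 1).op ℤ F χ₂ = D.op ℤ F χ₂ :=
    IsLift.op_eq L (isLift_diagH N q H 1) (isLift_plainSys L Lq _ 1 _) χ₂
  rw [hD] at hker
  have hmem1 : ∀ {M : ℕ} {H' : Subgroup (ZMod M)ˣ} {γ : SL(2, ℤ)}, (M : ℤ) ∣ γ 1 0 →
      ((γ 1 1 : ℤ) : ZMod M) = 1 → γ ∈ GammaH.GammaH M H' := fun {M H' γ} h h' =>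
    GammaH.mem_GammaH'.mpr ⟨(ZMod.intCast_zmod_eq_zero_iff_dvd _ _).mpr h, 1, one_mem _, by simpa⟩
  have hmemH : ∀ γ : Gamma0 N, (∃ h ∈ H, ((γ : SL(2, ℤ)) 1 1 : ZMod N) = (h : ZMod N)) →
      (γ : SL(2, ℤ)) ∈ GammaH.GammaH N H := fun γ ⟨h, hh, hd⟩ =>
    GammaH.mem_GammaH'.mpr ⟨Gamma0_mem.mp γ.2, h, hh, hd⟩
  refine degeneracy_kernel_of_fixed N q hℓ1 S rfl D (fun _ => rfl)
    (fun t => hmem1 (by simp [slMk_10]) (by simp [slMk_11]))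
    (fun γ h10 h11 => hmem1 ((ZMod.intCast_zmod_eq_zero_iff_dvd _ _).mp h10) h11)
    (fun γ hγ => (resH_apply N q H χ₁ ⟨γ, hγ⟩).choose) (fun Φ hΓ htw g hg x => ?_) hχ₁ hχ₂
    fun γ => ?_
  · exact fixed_of_gammaH Φ hqN hp hp2 hF H hH (fun γ hγ => hΓ ⟨_, hmemH γ hγ⟩)
      (fun γ g' hγ => htw ⟨_, hmemH γ hγ⟩ g') hg x
  · obtain ⟨_, hres⟩ := resH_apply N q H χ₁ γ
    have := DFunLike.congr_fun hker (Additive.ofMul γ)
    rwa [AddMonoidHom.add_apply, hres, D.op_apply, Fintype.sum_unique,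
      AddMonoidHom.zero_apply] at this

end Fermat.Agent.IharaTW
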