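import Fermat.Agent.IharaTW.DegeneracyH
import Fermat.Agent.Ihara.Nondegenerate
import Fermat.Agent.GammaH.Algebra

/-!
# Surjectivity of the trace maps at level `Γ_H(N)` away from Eisenstein

The intersection pairing modulo an odd prime turns Ihara's lemma into the surjectivity of
`φ ↦ (cor φ, cor W φ)` onto the image of `(T_ℓ - ℓ - 1)²`.
-/

set_option autoImplicit false

noncomputable section

namespace Fermat.Agent.IharaTW

open Matrix CongruenceSubgroup Fermat.Agent.Ihara Fermat.Agent.GammaH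
open Fermat.Agent.Cosets (parEllHoms trace_sq_eq_four_or_pow_twelve)
open scoped MatrixGroups

section Cycle

variable {Γ : Subgroup SL(2, ℤ)}

theorem cycleHom_fst_eq_zero' (γ δ : Γ)
    (hγ : ((γ : SL(2, ℤ)) : Matrix (Fin 2) (Fin 2) ℤ).trace ^ 2 ≤ 4) :
    cycleHom Γ γ (Additive.ofMul δ) = 0 := by
  rcases trace_sq_eq_four_or_pow_twelve hγ with h4 | h12
  · obtain ⟨c, e, hc, he, hfix⟩ := exists_fixed_vec h4
    rw [cycleHom_base Γ γ δ c hc UpperHalfPlane.I, hfix]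
    refine finsum_eq_zero_of_forall_eq_zero fun h => ?_
    have hd : det2 (rvec c) (rvec (e • c)) = 0 := by simp [det2, rvec]; ring
    rw [wind_eq_zero_of_det hd, wind_eq_zero_of_det hd, sub_self]
  · have h : (12 : ℕ) • cycleMap Γ (Additive.ofMul γ) = 0 := by
      rw [← map_nsmul, ← ofMul_pow, show γ ^ 12 = 1 from Subtype.ext (by simpa using h12),
        ofMul_one, map_zero]
    have := DFunLike.congr_fun h (Additive.ofMul δ)
    simpa using this

variable {N : ℕ} (p : ℕ) (hN : 2 ≤ N) (hle : Γ ≤ Gamma0 N)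

/-- Intersection with `γ`, modulo `p`. -/
def cmodMap : Additive Γ →+ parEllHoms (ZMod p) Γ (ZMod p) :=
  AddMonoidHom.mk' (fun γ => ⟨(Int.castAddHom (ZMod p)).comp (cycleHom Γ γ.toMul), fun δ hδ => by
      show ((cycleHom Γ γ.toMul (Additive.ofMul δ) : ℤ) : ZMod p) = 0
      rw [cycleHom_mem_parEll_of_le hN hle γ.toMul δ hδ, Int.cast_zero]⟩)
    fun γ δ => Subtype.ext <| by
      refine AddMonoidHom.ext fun x => ?_
      show ((cycleHom Γ (γ + δ).toMul x : ℤ) : ZMod p) = _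
      rw [toMul_add, cycleHom_mul, AddMonoidHom.add_apply, Int.cast_add]
      rfl

theorem coe_cmodMap (γ : Γ) :
    (cmodMap p hN hle (Additive.ofMul γ) : Additive Γ →+ ZMod p)
      = (Int.castAddHom (ZMod p)).comp (cycleHom Γ γ) := rfl

/-- The intersection pairing modulo an odd prime is perfect. -/
theorem cmodMap_surjective [Fact p.Prime] [Γ.FiniteIndex] (hp2 : p ≠ 2)
    (hneg : (-1 : SL(2, ℤ)) ∈ Γ) [Finite (parEllHoms (ZMod p) Γ (ZMod p))] :
    Function.Surjective (cmodMap p hN hle) := by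
  classical
  set V := parEllHoms (ZMod p) Γ (ZMod p)
  let ev : Additive Γ →+ Module.Dual (ZMod p) V :=
    AddMonoidHom.mk' (fun γ =>
      { toFun := fun χ => (χ : Additive Γ →+ ZMod p) γ
        map_add' := fun _ _ => rfl
        map_smul' := fun _ _ => rfl }) fun γ δ => LinearMap.ext fun χ => by
      simp
  have : Module.Finite (ZMod p) V := Module.Finite.of_finite
  have hev : Function.Surjective ev := by
    intro φ
    by_contra hφ
    set U : Submodule (ZMod p) (Module.Dual (ZMod p) V) :=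
      AddSubgroup.toZModSubmodule p ev.range
    obtain ⟨Φ, hΦ, hU⟩ := Submodule.exists_dual_map_eq_bot_of_notMem (p := U) (x := φ)
      (fun h => hφ h) inferInstance
    obtain ⟨χ, rfl⟩ := (Module.evalEquiv (ZMod p) V).surjective Φ
    have hχ : χ = 0 := Subtype.ext <| AddMonoidHom.ext fun γ => by
      have h1 : (Module.evalEquiv (ZMod p) V χ) (ev γ) ∈ U.map (Module.evalEquiv (ZMod p) V χ) :=
        Submodule.mem_map_of_mem (show ev γ ∈ U from ⟨γ, rfl⟩)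
      rw [hU, Submodule.mem_bot] at h1
      exact h1
    simp [hχ] at hΦ
  choose s hs using hev
  have hker : ∀ γ δ : Additive Γ, cmodMap p hN hle γ = cmodMap p hN hle δ → ev γ = ev δ := by
    intro γ δ h
    rw [← sub_eq_zero, ← map_sub]
    have h0 : cmodMap p hN hle (γ - δ) = 0 := by rw [map_sub, h, sub_self]
    refine LinearMap.ext fun χ => ?_
    exact cycle_nondegenerate hneg hp2 (γ - δ).toMul
      (fun ε => DFunLike.congr_fun (congrArg Subtype.val h0) (Additive.ofMul ε))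
      (χ : Additive Γ →+ ZMod p) χ.2
  obtain ⟨e⟩ : Nonempty (V ≃ₗ[ZMod p] Module.Dual (ZMod p) V) :=
    ⟨(Module.finBasis (ZMod p) V).toDualEquiv⟩
  have hinj : Function.Injective (cmodMap p hN hle ∘ s ∘ e) := fun a b hab => e.injective (by
    rw [← hs (e a), ← hs (e b)]
    exact hker _ _ hab)
  intro v
  obtain ⟨w, hw⟩ := Finite.injective_iff_surjective.mp hinj v
  exact ⟨_, hw⟩

/-- A correspondence applied to an intersection class. -/
theorem op_cmodMap {Γ₂ : Subgroup SL(2, ℤ)} {M : ℕ} (hM : 2 ≤ M) (hle₂ : Γ₂ ≤ Gamma0 M)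
    {ι κ : Type*} [Fintype ι] [Fintype κ] {S : CosetSys Γ Γ₂ ι} {T : CosetSys Γ₂ Γ κ}
    (h : IsAdjointPair S T) (γ : Γ₂) (R : Type*) [Semiring R] [Module R (ZMod p)] :
    T.op R (ZMod p) (cmodMap p hM hle₂ (Additive.ofMul γ) : Additive Γ₂ →+ ZMod p)
      = ((∑ i, cmodMap p hN hle (Additive.ofMul (S.cof γ i)) :
          parEllHoms (ZMod p) Γ (ZMod p)) : Additive Γ →+ ZMod p) := by
  rw [coe_cmodMap, T.op_natural (R := ℤ) (R' := R), ← cycleHom_adjoint S T h γ,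
    AddSubmonoidClass.coe_finsetSum]
  refine AddMonoidHom.ext fun x => ?_
  simp [coe_cmodMap]

/-- The homomorphism attached to a functional on the intersection classes. -/
def chiOf (φ : Module.Dual (ZMod p) (parEllHoms (ZMod p) Γ (ZMod p))) : Additive Γ →+ ZMod p :=
  φ.toAddMonoidHom.comp (cmodMap p hN hle)

theorem chiOf_apply (φ : Module.Dual (ZMod p) (parEllHoms (ZMod p) Γ (ZMod p))) (γ : Additive Γ) :
    chiOf p hN hle φ γ = φ (cmodMap p hN hle γ) := rfl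

theorem chiOf_mem (φ : Module.Dual (ZMod p) (parEllHoms (ZMod p) Γ (ZMod p))) :
    chiOf p hN hle φ ∈ parEllHoms ℤ Γ (ZMod p) := fun δ hδ => by
  have : cmodMap p hN hle (Additive.ofMul δ) = 0 := Subtype.ext <| AddMonoidHom.ext fun x => by
    obtain ⟨x, rfl⟩ := Additive.ofMul.surjective x
    show ((cycleHom _ δ (Additive.ofMul x) : ℤ) : ZMod p) = 0
    rw [cycleHom_fst_eq_zero' δ x hδ, Int.cast_zero]
  rw [chiOf_apply, this, map_zero]

/-- Transposition of an adjoint pair. -/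
theorem dual_op {Γ₂ : Subgroup SL(2, ℤ)} {M : ℕ} (hM : 2 ≤ M) (hle₂ : Γ₂ ≤ Gamma0 M)
    {ι κ : Type*} [Fintype ι] [Fintype κ] {S : CosetSys Γ Γ₂ ι} {T : CosetSys Γ₂ Γ κ}
    (h : IsAdjointPair S T) (φ : Module.Dual (ZMod p) (parEllHoms (ZMod p) Γ (ZMod p))) (γ : Γ₂)
    (v : parEllHoms (ZMod p) Γ (ZMod p))
    (hv : (v : Additive Γ →+ ZMod p) = T.op (ZMod p) (ZMod p)
      (cmodMap p hM hle₂ (Additive.ofMul γ) : Additive Γ₂ →+ ZMod p)) :
    φ v = S.op ℤ (ZMod p) (chiOf p hN hle φ) (Additive.ofMul γ) := by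
  have e : v = ∑ i, cmodMap p hN hle (Additive.ofMul (S.cof γ i)) :=
    Subtype.ext (hv.trans (op_cmodMap p hN hle hM hle₂ h γ (ZMod p)))
  rw [e, map_sum, CosetSys.op_apply]
  rfl

/-- Transposition of a composite. -/
theorem dual_op₂ {Γ₂ Γ₃ : Subgroup SL(2, ℤ)} {M M' : ℕ} (hM : 2 ≤ M) (hle₂ : Γ₂ ≤ Gamma0 M)
    (hM' : 2 ≤ M') (hle₃ : Γ₃ ≤ Gamma0 M') {ι κ μ ν : Type*} [Fintype ι] [Fintype κ] [Fintype μ]
    [Fintype ν] {S : CosetSys Γ Γ₂ ι} {T : CosetSys Γ₂ Γ κ} {S' : CosetSys Γ₂ Γ₃ μ}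
    {T' : CosetSys Γ₃ Γ₂ ν} (h : IsAdjointPair S T) (h' : IsAdjointPair S' T')
    (φ : Module.Dual (ZMod p) (parEllHoms (ZMod p) Γ (ZMod p))) (γ : Γ₃)
    (v : parEllHoms (ZMod p) Γ (ZMod p))
    (hv : (v : Additive Γ →+ ZMod p) = T.op (ZMod p) (ZMod p) (T'.op (ZMod p) (ZMod p)
      (cmodMap p hM' hle₃ (Additive.ofMul γ) : Additive Γ₃ →+ ZMod p))) :
    φ v = S'.op ℤ (ZMod p) (S.op ℤ (ZMod p) (chiOf p hN hle φ)) (Additive.ofMul γ) := by
  set u : μ → parEllHoms (ZMod p) Γ (ZMod p) := fun j =>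
    ⟨T.op (ZMod p) (ZMod p) (cmodMap p hM hle₂ (Additive.ofMul (S'.cof γ j)) :
      Additive Γ₂ →+ ZMod p), T.op_mem_parEllHoms (Subtype.prop _)⟩
  have e : v = ∑ j, u j := Subtype.ext <| by
    rw [hv, op_cmodMap p hM hle₂ hM' hle₃ h' γ (ZMod p), AddSubmonoidClass.coe_finsetSum, map_sum,
      AddSubmonoidClass.coe_finsetSum]
  rw [e, map_sum, CosetSys.op_apply]
  exact Finset.sum_congr rfl fun j _ => dual_op p hN hle hM hle₂ h φ _ _ rfl

end Cycle

variable (N q : ℕ) [hq : Fact q.Prime] (hqN : ¬q ∣ N) (H : Subgroup (ZMod N)ˣ) [NeZero N]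

omit hq [NeZero N] in
/-- `-1` lies in the group over `H`. -/
theorem neg_one_mem_Hq (hneg : (-1 : (ZMod N)ˣ) ∈ H) : (-1 : (ZMod (N * q))ˣ) ∈ Hq N q H := by
  rw [Hq, Subgroup.mem_comap]
  convert hneg using 1
  refine Units.ext ?_
  rw [ZMod.unitsMap_val, Units.val_neg, Units.val_one, Units.val_neg, Units.val_one,
    ← map_one (ZMod.castHom (dvd_mul_right N q) (ZMod N)), ← map_neg]
  rfl

variable (R A : Type*) [Ring R] [AddCommGroup A] [Module R A]

/-- `η = T_ℓ - (ℓ + 1)`. -/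
def etaOp {ℓ : ℕ} [Fact ℓ.Prime] (hℓN : ¬ℓ ∣ N) :
    (Additive (GammaH.GammaH N H) →+ A) →ₗ[R] (Additive (GammaH.GammaH N H) →+ A) :=
  (heckeH (isLevel_GammaH H) hℓN hℓN 1).op R A - (ℓ + 1) • LinearMap.id

theorem etaOp_apply {ℓ : ℕ} [Fact ℓ.Prime] (hℓN : ¬ℓ ∣ N)
    (φ : Additive (GammaH.GammaH N H) →+ A) :
    etaOp N H R A hℓN φ = (heckeH (isLevel_GammaH H) hℓN hℓN 1).op R A φ - (ℓ + 1) • φ := rfl

theorem etaOp_mem {ℓ : ℕ} [Fact ℓ.Prime] (hℓN : ¬ℓ ∣ N)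
    {φ : Additive (GammaH.GammaH N H) →+ A} (hφ : φ ∈ parEllHoms R (GammaH.GammaH N H) A) :
    etaOp N H R A hℓN φ ∈ parEllHoms R (GammaH.GammaH N H) A := by
  rw [etaOp_apply]
  exact Submodule.sub_mem _ (CosetSys.op_mem_parEllHoms _ hφ) (nsmul_mem hφ _)

/-- The action of `η` on the lattice of parabolic homomorphisms. -/
def etaH1 {ℓ : ℕ} [Fact ℓ.Prime] (hℓN : ¬ℓ ∣ N) : Module.End R (H1 N H R A) :=
  (etaOp N H R A hℓN).restrict fun _ h => etaOp_mem N H R A hℓN h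

@[simp] theorem coe_etaH1 {ℓ : ℕ} [Fact ℓ.Prime] (hℓN : ¬ℓ ∣ N) (φ : H1 N H R A) :
    (etaH1 N H R A hℓN φ : Additive (GammaH.GammaH N H) →+ A) = etaOp N H R A hℓN φ := rfl

variable {N q H}

section Fp

variable (p : ℕ) [hp : Fact p.Prime]

include hqN in
/-- **Surjectivity of the traces modulo `p`, on the image of `η²`.** -/
theorem exists_cor_eq_eta_sq_zmod (hp2 : p ≠ 2) (hN : 2 ≤ N) (hneg : (-1 : (ZMod N)ˣ) ∈ H)
    (hH : ∀ u : (ZMod N)ˣ, ∃ k : ℕ, u ^ (p ^ k) ∈ H) {ℓ : ℕ} [hℓ : Fact ℓ.Prime] (hℓN : ¬ℓ ∣ N)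
    (hℓ1 : (ℓ : ZMod (N * q)) = 1) (v₁ v₂ : H1 N H (ZMod p) (ZMod p)) :
    ∃ w ∈ parEllHoms (ZMod p) (GammaHq N q H) (ZMod p),
      (corH N q hqN H).op (ZMod p) (ZMod p) w
          = etaOp N H (ZMod p) (ZMod p) hℓN (etaOp N H (ZMod p) (ZMod p) hℓN v₁) ∧
        (corH N q hqN H).op (ZMod p) (ZMod p) ((wH N q hqN H (unitOf hqN)).op (ZMod p) (ZMod p) w)
          = etaOp N H (ZMod p) (ZMod p) hℓN (etaOp N H (ZMod p) (ZMod p) hℓN v₂) := by
  classical
  have : NeZero (N * q) := ⟨mul_ne_zero (NeZero.ne N) hq.out.ne_zero⟩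
  have hℓ1' : (ℓ : ZMod N) = 1 := by
    have h := congrArg (ZMod.castHom (dvd_mul_right N q) (ZMod N)) hℓ1
    rwa [map_natCast, map_one] at h
  have : Finite (H1 N H (ZMod p) (ZMod p)) :=
    Finite.of_equiv _ (coordH (N := N) (H := H) hneg (ZMod p) (ZMod p)).toEquiv
  set g : (parEllHoms (ZMod p) (GammaHq N q H) (ZMod p)) →ₗ[ZMod p]
      (H1 N H (ZMod p) (ZMod p)) × (H1 N H (ZMod p) (ZMod p)) :=
    (((corH N q hqN H).op (ZMod p) (ZMod p)).restrict
        (fun _ h => (corH N q hqN H).op_mem_parEllHoms h)).prod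
      ((((corH N q hqN H).op (ZMod p) (ZMod p)).comp
          ((wH N q hqN H (unitOf hqN)).op (ZMod p) (ZMod p))).restrict
        (fun _ h => (corH N q hqN H).op_mem_parEllHoms
          ((wH N q hqN H (unitOf hqN)).op_mem_parEllHoms h)))
  set η : Module.End (ZMod p) (H1 N H (ZMod p) (ZMod p)) := etaH1 N H (ZMod p) (ZMod p) hℓN
  suffices key : (η (η v₁), η (η v₂)) ∈ LinearMap.range g by
    obtain ⟨w, hw⟩ := key
    exact ⟨w, w.2, congrArg
        (fun x : (H1 N H (ZMod p) (ZMod p)) × (H1 N H (ZMod p) (ZMod p)) =>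
          (x.1 : Additive (GammaH.GammaH N H) →+ ZMod p)) hw,
      congrArg
        (fun x : (H1 N H (ZMod p) (ZMod p)) × (H1 N H (ZMod p) (ZMod p)) =>
          (x.2 : Additive (GammaH.GammaH N H) →+ ZMod p)) hw⟩
  by_contra hnot
  obtain ⟨Φ, hΦ, hrange⟩ := Submodule.exists_dual_map_eq_bot_of_notMem hnot inferInstance
  have hzero : ∀ x, Φ (g x) = 0 := fun x => by
    have h1 : Φ (g x) ∈ (LinearMap.range g).map Φ := Submodule.mem_map_of_mem ⟨x, rfl⟩
    rwa [hrange, Submodule.mem_bot] at h1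
  -- the homomorphism attached to a functional
  have hle := GammaH.GammaH_le_Gamma0 (N := N) (H := H)
  have hsurj : Function.Surjective (cmodMap p hN hle) :=
    cmodMap_surjective p hN hle hp2 (neg_one_mem_GammaH hneg)
  -- `η` is self adjoint
  have hT := isAdjointPair_heckeH (isLevel_GammaH H) hℓN hℓN 1 1 (by simp [hℓ1'])
  have hself : ∀ φ : Module.Dual (ZMod p) (H1 N H (ZMod p) (ZMod p)),
      chiOf p hN hle (φ.comp η) = etaOp N H ℤ (ZMod p) hℓN (chiOf p hN hle φ) := by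
    intro φ
    refine AddMonoidHom.ext fun δ => ?_
    obtain ⟨δ, rfl⟩ := Additive.ofMul.surjective δ
    set cd : H1 N H (ZMod p) (ZMod p) := cmodMap p hN hle (Additive.ofMul δ) with hcd
    have e : η cd = ⟨_, (heckeH (isLevel_GammaH H) hℓN hℓN 1).op_mem_parEllHoms (R := ZMod p)
        cd.2⟩ - (ℓ + 1) • cd := Subtype.ext (by
      rw [coe_etaH1, etaOp_apply, AddSubgroupClass.coe_sub, AddSubmonoidClass.coe_nsmul])
    rw [chiOf_apply, LinearMap.comp_apply, ← hcd, e, map_sub, map_nsmul, etaOp_apply,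
      AddMonoidHom.sub_apply, AddMonoidHom.smul_apply, chiOf_apply, ← hcd,
      dual_op p hN hle hN hle hT φ δ _ (by rw [hcd])]
  set φ₁ := Φ.comp (LinearMap.inl (ZMod p) (H1 N H (ZMod p) (ZMod p)) (H1 N H (ZMod p) (ZMod p)))
    with hφ₁
  set φ₂ := Φ.comp (LinearMap.inr (ZMod p) (H1 N H (ZMod p) (ZMod p)) (H1 N H (ZMod p) (ZMod p)))
    with hφ₂
  have hsplit : ∀ x, Φ x = φ₁ x.1 + φ₂ x.2 := fun x => by
    simp [hφ₁, hφ₂, ← map_add]
  -- the two homomorphisms lie in the kernel of the degeneracy map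
  have hleq : GammaHq N q H ≤ Gamma0 (N * q) := GammaH.GammaH_le_Gamma0
  have hNq : 2 ≤ N * q := le_trans hN (Nat.le_mul_of_pos_right N hq.out.pos)
  have hker : (resH N q H).op ℤ (ZMod p) (chiOf p hN hle φ₁)
      + (diagH N q H 1).op ℤ (ZMod p) (chiOf p hN hle φ₂) = 0 := by
    refine AddMonoidHom.ext fun γ => ?_
    obtain ⟨γ, rfl⟩ := Additive.ofMul.surjective γ
    have hadj := isAdjointPair_symm (isAdjointPair_resH N q hqN H)
    have hadjW := isAdjointPair_wH N q hqN H 1 (unitOf hqN) (mul_one _)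
    have h0 := hzero (cmodMap p hNq hleq (Additive.ofMul γ))
    rw [hsplit] at h0
    rw [dual_op p hN hle hNq hleq hadj φ₁ γ _ rfl,
      dual_op₂ p hN hle hNq hleq hNq hleq hadj hadjW φ₂ γ _ rfl] at h0
    rw [← wH_resH N q hqN H 1, AddMonoidHom.add_apply, AddMonoidHom.zero_apply]
    exact h0
  obtain ⟨h₁, h₂⟩ := degeneracy_kernelH N q hqN H hp.out hp2
    (fun x => by rw [nsmul_eq_mul, ZMod.natCast_self, zero_mul]) hH (chiOf_mem p hN hle φ₁)
    (chiOf_mem p hN hle φ₂) hker hℓN hℓ1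
  have hvan : ∀ φ,
      etaOp N H ℤ (ZMod p) hℓN (etaOp N H ℤ (ZMod p) hℓN (chiOf p hN hle φ)) = 0 →
      ∀ v, φ (η (η v)) = 0 := by
    intro φ h v
    obtain ⟨δ, rfl⟩ := hsurj v
    show chiOf p hN hle ((φ.comp η).comp η) δ = 0
    rw [hself, hself, h, AddMonoidHom.zero_apply]
  apply hΦ
  rw [hsplit, hvan φ₁ (sub_eq_zero.mpr h₁), hvan φ₂ (sub_eq_zero.mpr h₂), add_zero]

end Fp

end Fermat.Agent.IharaTW
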