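import Fermat.Agent.IharaTW.Lift
import Fermat.Agent.GammaH.Hecke

/-!
# Restriction, corestriction, Atkin–Lehner and `T_ℓ` between the levels `Γ_H(N)` and `Γ_H(N q)`

The lifted families of these correspondences, their adjoints, and their relations as operators.
-/

set_option autoImplicit false

noncomputable section

namespace Fermat.Agent.IharaTW

open Matrix CongruenceSubgroup Fermat.Agent.Ihara
open scoped MatrixGroups

/-- Adjointness is symmetric. -/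
theorem isAdjointPair_symm {Γ₁ Γ₂ : Subgroup SL(2, ℤ)} {ι κ : Type*} {S : CosetSys Γ₁ Γ₂ ι}
    {T : CosetSys Γ₂ Γ₁ κ} (h : IsAdjointPair S T) : IsAdjointPair T S := by
  have key : ∀ (i : ι) (j : κ) (x : Γ₁) (y : Γ₂),
      (S.α i).adjugate * mcoe x = mcoe y * T.α j →
      (T.α j).adjugate * mcoe (y⁻¹ : Γ₂) = mcoe (x⁻¹ : Γ₁) * S.α i := by
    intro i j x y he
    have h2 := congrArg Matrix.adjugate he
    rw [Matrix.adjugate_mul_distrib, Matrix.adjugate_mul_distrib, adjugate_adjugate_two,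
      ← Matrix.SpecialLinearGroup.coe_inv, ← Matrix.SpecialLinearGroup.coe_inv] at h2
    exact h2.symm
  constructor
  · intro j k
    obtain ⟨i, x, hx⟩ := h.right j k⁻¹
    exact ⟨i, x⁻¹, by simpa using key i j x _ hx⟩
  · intro i x
    obtain ⟨j, y, hy⟩ := h.left i x⁻¹
    exact ⟨j, y⁻¹, by simpa using key i j _ y hy⟩

section Hecke

variable {N M : ℕ} {H : Subgroup (ZMod N)ˣ} {Γ : Subgroup SL(2, ℤ)}

/-- The class of a prime not dividing the level. -/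
abbrev unitOf {ℓ : ℕ} [hℓ : Fact ℓ.Prime] (h : ¬ℓ ∣ N) : (ZMod N)ˣ := GammaH.primeUnit hℓ.out h

theorem zRep_hasD {ℓ : ℕ} [hℓ : Fact ℓ.Prime] (hℓN : ¬ℓ ∣ N) (x : OnePoint (ZMod ℓ)) :
    ∃ v : (ZMod N)ˣ, HasD N (zRep ℓ x) (v : ZMod N) := by
  induction x using OnePoint.rec with
  | infty => exact ⟨1, by simp [HasD, zRep_infty]⟩
  | coe j => exact ⟨unitOf hℓN, by simp [HasD, zRep_coe]⟩

variable {ℓ : ℕ} [hℓ : Fact ℓ.Prime] (hL : IsLevel N H (Gamma0 M) Γ) (hℓN : ¬ℓ ∣ N)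
  (hℓM : ¬ℓ ∣ M)

/-- `T_ℓ` at the level cut out by `H`, with representatives of class `u`. -/
def heckeH (u : (ZMod N)ˣ) : CosetSys Γ Γ (OnePoint (ZMod ℓ)) :=
  liftSys hL hL (heckeSys M ℓ hℓM) (fun x => zRep_hasD hℓN x) u

theorem isLift_heckeH (u : (ZMod N)ˣ) :
    IsLift N (heckeH hL hℓN hℓM u) (heckeSys M ℓ hℓM) u := isLift_liftSys _ _ _ _ u

theorem isAdjointPair_heckeH (u v : (ZMod N)ˣ) (h : ((v * u : (ZMod N)ˣ) : ZMod N) = (ℓ : ZMod N)) :
    IsAdjointPair (heckeH hL hℓN hℓM u) (heckeH hL hℓN hℓM v) := by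
  refine isAdjointPair_lift hL hL (isLift_heckeH hL hℓN hℓM u) (isLift_heckeH hL hℓN hℓM v)
    (heckeSys_adjoint M ℓ hℓM) fun i => ?_
  obtain ⟨⟨g, -, e⟩, -⟩ := isLift_heckeH hL hℓN hℓM u i
  rw [e, Matrix.det_mul, mcoe_det, one_mul, heckeSys_α, det_zRep, h, Int.cast_natCast]

end Hecke

variable (N q : ℕ) [hq : Fact q.Prime] (hqN : ¬q ∣ N) (H : Subgroup (ZMod N)ˣ)

/-- The subgroup of `(ℤ/Nq)ˣ` over `H`. -/
def Hq : Subgroup (ZMod (N * q))ˣ := H.comap (ZMod.unitsMap (dvd_mul_right N q))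

/-- `Γ_H` at level `N q`. -/
abbrev GammaHq : Subgroup SL(2, ℤ) := GammaH.GammaH (N * q) (Hq N q H)

theorem isLevel_q [NeZero N] : IsLevel N H (Gamma0 (N * q)) (GammaHq N q H) :=
  haveI : NeZero (N * q) := ⟨mul_ne_zero (NeZero.ne N) hq.out.ne_zero⟩
  isLevel_comap (dvd_mul_right N q) H

omit hq in
theorem resSys_hasD (i : Unit) :
    ∃ v : (ZMod N)ˣ, HasD N ((resSys N q).α i) (v : ZMod N) :=
  ⟨1, by rw [resSys_α, Units.val_one]; exact hasD_one⟩

theorem diagSys_hasD (i : Unit) : ∃ v : (ZMod N)ˣ, HasD N ((diagSys N q).α i) (v : ZMod N) :=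
  ⟨1, by show HasD N (diagMat q) _; simp [HasD, diagMat]⟩

theorem corSys_hasD (x : OnePoint (ZMod q)) :
    ∃ v : (ZMod N)ˣ, HasD N ((corSys N q hqN).α x) (v : ZMod N) := by
  have h := corRep_mem N q hqN x
  exact ⟨GammaH.unitD N ⟨_, h⟩, hasD_mcoe h⟩

theorem wSys_hasD (i : Unit) : ∃ v : (ZMod N)ˣ, HasD N ((wSys N q hqN).α i) (v : ZMod N) :=
  ⟨unitOf hqN, by show HasD N (wMat N q) _; simp [HasD, wMat]⟩

variable [NeZero N]

/-- Restriction. -/
def resH : CosetSys (GammaH.GammaH N H) (GammaHq N q H) Unit :=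
  liftSys (isLevel_GammaH H) (isLevel_q N q H) (resSys N q) (resSys_hasD N q) 1

/-- `f ↦ f(qτ)`, of class `u`. -/
def diagH (u : (ZMod N)ˣ) : CosetSys (GammaH.GammaH N H) (GammaHq N q H) Unit :=
  liftSys (isLevel_GammaH H) (isLevel_q N q H) (diagSys N q) (diagSys_hasD N q) u

theorem isLift_resH : IsLift N (resH N q H) (resSys N q) 1 := isLift_liftSys _ _ _ _ _

theorem isLift_diagH (u : (ZMod N)ˣ) : IsLift N (diagH N q H u) (diagSys N q) u :=
  isLift_liftSys _ _ _ _ _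

/-- Corestriction. -/
def corH : CosetSys (GammaHq N q H) (GammaH.GammaH N H) (OnePoint (ZMod q)) :=
  liftSys (isLevel_q N q H) (isLevel_GammaH H) (corSys N q hqN) (corSys_hasD N q hqN) 1

/-- The Atkin–Lehner family of class `u`. -/
def wH (u : (ZMod N)ˣ) : CosetSys (GammaHq N q H) (GammaHq N q H) Unit :=
  liftSys (isLevel_q N q H) (isLevel_q N q H) (wSys N q hqN) (wSys_hasD N q hqN) u

theorem isLift_corH : IsLift N (corH N q hqN H) (corSys N q hqN) 1 := isLift_liftSys _ _ _ _ _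

theorem isLift_wH (u : (ZMod N)ˣ) : IsLift N (wH N q hqN H u) (wSys N q hqN) u :=
  isLift_liftSys _ _ _ _ _

/-! ## Injectivity of the composites -/

omit hq in
omit [NeZero N] in
theorem prodInj_res_hecke {ℓ : ℕ} [hℓ : Fact ℓ.Prime] (hℓ' : ¬ℓ ∣ N * q) :
    ProdInj (resSys N q) (heckeSys (N * q) ℓ hℓ') := fun i i' x x' g e => by
  simp only [resSys_α, one_mul, heckeSys_α] at e
  rw [zRep_inj hℓ.out e]

omit hq in
omit [NeZero N] in
theorem prodInj_hecke_res {ℓ : ℕ} [hℓ : Fact ℓ.Prime] (hℓN : ¬ℓ ∣ N) :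
    ProdInj (heckeSys N ℓ hℓN) (resSys N q) := fun i i' x x' g e => by
  simp only [resSys_α, mul_one, heckeSys_α] at e
  rw [zRep_inj hℓ.out e]

omit [NeZero N] in
theorem prodInj_hecke_w {ℓ : ℕ} [hℓ : Fact ℓ.Prime] (hℓ' : ¬ℓ ∣ N * q) :
    ProdInj (heckeSys (N * q) ℓ hℓ') (wSys N q hqN) := fun i i' x x' g e => by
  simp only [wSys_α, heckeSys_α, ← mul_assoc] at e
  have := mat2_right_cancel (by rw [det_wMat N q hqN]; exact_mod_cast hq.out.ne_zero) e
  rw [zRep_inj hℓ.out this]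

omit [NeZero N] in
theorem prodInj_w_hecke {ℓ : ℕ} [hℓ : Fact ℓ.Prime] (hℓ' : ¬ℓ ∣ N * q) :
    ProdInj (wSys N q hqN) (heckeSys (N * q) ℓ hℓ') := by
  intro i i' x x' g e
  simp only [wSys_α, heckeSys_α] at e
  obtain ⟨g₀, hg₀⟩ := wMat_sq N q hqN
  obtain ⟨h', hh'⟩ := wMat_conj_one N q hqN g
  have h2 := congrArg (fun X => wMat N q * X) e
  simp only [← mul_assoc] at h2
  rw [hh', mul_assoc (mcoe h') (wMat N q), hg₀, Matrix.smul_mul, Matrix.mul_smul,
    Matrix.smul_mul] at h2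
  have h3 := smul_right_injective Mat2 (by exact_mod_cast hq.out.ne_zero) h2
  rw [zRep_inj hℓ.out (x := x) (y := x')
    (g := ((g₀⁻¹ * (h' * g₀) : Gamma0 (N * q)) : SL(2, ℤ))) (by
      rw [Subgroup.coe_mul, Subgroup.coe_mul, Subgroup.coe_inv, mcoe_mul, mcoe_mul, mul_assoc,
        ← h3, mcoe_inv_mul_cancel])]

omit [NeZero N] in
theorem prodInj_cor_hecke {ℓ : ℕ} [hℓ : Fact ℓ.Prime] (hℓN : ¬ℓ ∣ N) :
    ProdInj (corSys N q hqN) (heckeSys N ℓ hℓN) := by
  intro x x' i i' g e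
  simp only [corSys_α, heckeSys_α] at e
  have h1 : zRep ℓ i
      = mcoe ((corRep N q hqN x)⁻¹ * g * corRep N q hqN x') * zRep ℓ i' := by
    rw [mcoe_mul, mcoe_mul, mul_assoc, mul_assoc, ← e, mcoe_inv_mul_cancel]
  have hi := zRep_inj hℓ.out h1
  subst hi
  rw [← mul_assoc] at e
  have h2 := mat2_right_cancel (det_zRep ℓ i ▸ by exact_mod_cast hℓ.out.ne_zero) e
  rw [← mcoe_mul] at h2
  rw [corRep_inj N q hqN (x := x) (y := x')
    (by rw [mcoe_injective h2, mul_inv_cancel_right]; exact g.2)]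

omit [NeZero N] in
theorem prodInj_hecke_cor {ℓ : ℕ} [hℓ : Fact ℓ.Prime] (hℓ' : ¬ℓ ∣ N * q) :
    ProdInj (heckeSys (N * q) ℓ hℓ') (corSys N q hqN) := by
  intro i i' x x' g e
  simp only [corSys_α, heckeSys_α] at e
  set m := corRep N q hqN x * (corRep N q hqN x')⁻¹ with hm
  have h1 : zRep ℓ i * mcoe m = mcoe g * zRep ℓ i' := by
    rw [hm, mcoe_mul, ← mul_assoc, e, mul_assoc (mcoe (g : SL(2, ℤ))),
      mul_assoc (zRep ℓ i'), ← mcoe_mul, mul_inv_cancel, mcoe_one, mul_one]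
  have hz : ∀ j, zRep ℓ j 1 0 = 0 ∧ IsCoprime (zRep ℓ j 1 1) ((N * q : ℕ) : ℤ) := by
    intro j
    induction j using OnePoint.rec with
    | infty => simp [zRep_infty, isCoprime_one_left]
    | coe k =>
      refine ⟨by simp [zRep_coe], ?_⟩
      have e' : zRep ℓ (k : OnePoint (ZMod ℓ)) 1 1 = (ℓ : ℤ) := by simp [zRep_coe]
      rw [e', Nat.isCoprime_iff_coprime]
      exact (Nat.Prime.coprime_iff_not_dvd hℓ.out).mpr hℓ'
  have h10 := congrFun (congrFun h1 1) 0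
  rw [Matrix.mul_apply, Matrix.mul_apply, Fin.sum_univ_two, Fin.sum_univ_two, (hz i).1,
    zero_mul, zero_add, (hz i').1, mul_zero, add_zero] at h10
  have hd : ((N * q : ℕ) : ℤ) ∣ m 1 0 := by
    refine (hz i).2.symm.dvd_of_dvd_mul_left ?_
    rw [h10]
    exact dvd_mul_of_dvd_left (mem_Gamma0_iff.mp g.2) _
  have hx := corRep_inj N q hqN (x := x) (y := x') (mem_Gamma0_iff.mpr hd)
  subst hx
  rw [hm, mul_inv_cancel, mcoe_one, mul_one] at h1
  rw [zRep_inj hℓ.out h1]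

/-! ## Relations -/

variable {A : Type*} [AddCommGroup A]

theorem resH_heckeH {ℓ : ℕ} [Fact ℓ.Prime] (hℓN : ¬ℓ ∣ N) (hℓ' : ¬ℓ ∣ N * q) (u : (ZMod N)ˣ)
    (φ : Additive (GammaH.GammaH N H) →+ A) :
    (resH N q H).op ℤ A ((heckeH (isLevel_GammaH H) hℓN hℓN u).op ℤ A φ)
      = (heckeH (isLevel_q N q H) hℓN hℓ' u).op ℤ A ((resH N q H).op ℤ A φ) := by
  refine op_comp_lift (isLevel_GammaH H) (isLift_heckeH _ _ _ u) (isLift_resH N q H)
    (isLift_resH N q H) (isLift_heckeH _ _ _ u) (prodInj_hecke_res N q hℓN)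
    (prodInj_res_hecke N q hℓ') (by simp) one_ne_zero (by simp)
    (fun x => ⟨((), x.1), 1, one_mem _, ?_⟩) φ
  simp [resSys_α, heckeSys_α]

theorem wH_heckeH {ℓ : ℕ} [hℓ : Fact ℓ.Prime] (hℓN : ¬ℓ ∣ N) (hℓ' : ¬ℓ ∣ N * q) (u v : (ZMod N)ˣ)
    (φ : Additive (GammaHq N q H) →+ A) :
    (heckeH (isLevel_q N q H) hℓN hℓ' u).op ℤ A ((wH N q hqN H v).op ℤ A φ)
      = (wH N q hqN H v).op ℤ A ((heckeH (isLevel_q N q H) hℓN hℓ' u).op ℤ A φ) := by
  refine op_comp_lift (isLevel_q N q H) (isLift_wH N q hqN H v) (isLift_heckeH _ _ _ u)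
    (isLift_heckeH _ _ _ u) (isLift_wH N q hqN H v) (prodInj_w_hecke N q hqN hℓ')
    (prodInj_hecke_w N q hqN hℓ') (by simp) one_ne_zero
    (by rw [Int.cast_one, one_mul, mul_comm]) (fun x => ?_) φ
  obtain ⟨M', hM', he⟩ := wMat_conj N q hqN (heckeSet_zRep (N * q) ℓ x.2)
  obtain ⟨y, g, rfl⟩ := heckeSet_cover hℓ.out hℓ' M' hM'
  exact ⟨(y, ()), g, g.2, by rw [one_smul, wSys_α, heckeSys_α, he, mul_assoc]⟩

theorem corH_heckeH {ℓ : ℕ} [hℓ : Fact ℓ.Prime] (hℓN : ¬ℓ ∣ N) (hℓ' : ¬ℓ ∣ N * q) (u : (ZMod N)ˣ)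
    (φ : Additive (GammaHq N q H) →+ A) :
    (heckeH (isLevel_GammaH H) hℓN hℓN u).op ℤ A ((corH N q hqN H).op ℤ A φ)
      = (corH N q hqN H).op ℤ A ((heckeH (isLevel_q N q H) hℓN hℓ' u).op ℤ A φ) := by
  refine op_comp_lift (isLevel_q N q H) (isLift_corH N q hqN H) (isLift_heckeH _ _ _ u)
    (isLift_heckeH _ _ _ u) (isLift_corH N q hqN H) (prodInj_cor_hecke N q hqN hℓN)
    (prodInj_hecke_cor N q hqN hℓ') (by simp [Nat.mul_comm]) one_ne_zero (by simp) (fun x => ?_) φ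
  set P : Mat2 := mcoe (corRep N q hqN x.1) * zRep ℓ x.2
  have hP : heckeSet N ℓ P :=
    heckeSet_mul_left ⟨_, corRep_mem N q hqN x.1⟩ (heckeSet_zRep N ℓ x.2)
  obtain ⟨j, g, hg⟩ := heckeSet_cover hℓ.out hℓN _ (heckeSet_adjugate hP)
  obtain ⟨x', k, hk⟩ := corRep_cover N q hqN g⁻¹
  obtain ⟨y, k', hk'⟩ := heckeSet_cover hℓ.out hℓ' _
    (heckeSet_mul_right k (heckeSet_adjugate (heckeSet_zRep (N * q) ℓ j)))
  refine ⟨(y, x'), k', k'.2, ?_⟩
  rw [one_smul, corSys_α, heckeSys_α, heckeSys_α]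
  show P = _
  rw [corSys_α, ← mul_assoc, ← hk', mul_assoc, ← hk, ← adjugate_adjugate_two P, hg,
    Matrix.adjugate_mul_distrib]
  congr 1

theorem wH_resH (v : (ZMod N)ˣ) (φ : Additive (GammaH.GammaH N H) →+ A) :
    (wH N q hqN H v).op ℤ A ((resH N q H).op ℤ A φ) = (diagH N q H v).op ℤ A φ := by
  obtain ⟨-, g, hg⟩ := diagSet_cover N q (A := wMat N q)
    ⟨det_wMat N q hqN, by simp [wMat], by simp [wMat]⟩
  refine op_comp_lift_single (isLevel_GammaH H) (isLift_resH N q H) (isLift_wH N q hqN H v)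
    (isLift_diagH N q H v) (fun _ _ _ _ _ _ => rfl) (by simp) one_ne_zero (by simp)
    (fun x => ⟨(), g, g.2, ?_⟩) φ
  simp only [resSys_α, wSys_α, one_mul, one_smul]
  exact hg

theorem diagH_dia (u : (ZMod N)ˣ) (φ : Additive (GammaH.GammaH N H) →+ A) :
    (diagH N q H 1).op ℤ A ((diaSys (isLevel_GammaH H) u).op ℤ A φ) = (diagH N q H u).op ℤ A φ := by
  refine op_comp_lift_single (isLevel_GammaH H) (isLift_diaSys _ u) (isLift_diagH N q H 1)
    (isLift_diagH N q H u) (fun _ _ _ _ _ _ => rfl) (by simp) one_ne_zero (by simp)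
    (fun x => ⟨(), 1, one_mem _, ?_⟩) φ
  simp [inclSys]

theorem wH_wH (v w : (ZMod N)ˣ) (φ : Additive (GammaHq N q H) →+ A) :
    (wH N q hqN H w).op ℤ A ((wH N q hqN H v).op ℤ A φ)
      = (diaSys (isLevel_q N q H) (v * w * (unitOf hqN)⁻¹)).op ℤ A φ := by
  obtain ⟨g, hg⟩ := wMat_sq N q hqN
  refine op_comp_lift_single (isLevel_q N q H) (isLift_wH N q hqN H v) (isLift_wH N q hqN H w)
    (isLift_diaSys _ _) (fun _ _ _ _ _ _ => rfl) (by simp)
    (k := (q : ℤ)) (by exact_mod_cast hq.out.ne_zero) ?_ (fun x => ⟨(), g, g.2, ?_⟩) φ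
  · rw [Int.cast_natCast, ← GammaH.coe_primeUnit hq.out hqN, ← Units.val_mul,
      mul_left_comm, mul_inv_cancel, mul_one]
  · simp only [wSys_α, inclSys, mul_one]
    exact hg

/-- `cor ∘ diag = T_q`. -/
theorem corH_diagH (u : (ZMod N)ˣ) (φ : Additive (GammaH.GammaH N H) →+ A) :
    (corH N q hqN H).op ℤ A ((diagH N q H u).op ℤ A φ)
      = (heckeH (isLevel_GammaH H) hqN hqN u).op ℤ A φ := by
  have : NeZero q := ⟨hq.out.ne_zero⟩
  refine op_comp_lift_single (isLevel_GammaH H) (isLift_diagH N q H u) (isLift_corH N q hqN H)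
    (isLift_heckeH _ _ _ u) ?_ (by simp) one_ne_zero (by simp) (fun x => ?_) φ
  · intro i i' x x' g e
    refine Prod.ext rfl (corRep_inj N q hqN ?_)
    set m := corRep N q hqN x * (corRep N q hqN x')⁻¹ with hm
    have h1 : diagMat q * mcoe m = mcoe g * diagMat q := by
      have h2 : diagMat q * mcoe (corRep N q hqN x)
          = mcoe g * (diagMat q * mcoe (corRep N q hqN x')) := e
      rw [hm, mcoe_mul, ← mul_assoc, h2, mul_assoc (mcoe (g : SL(2, ℤ))), mul_assoc (diagMat q),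
        ← mcoe_mul, mul_inv_cancel, mcoe_one, mul_one]
    have h10 := congrFun (congrFun h1 1) 0
    simp [diagMat, Matrix.mul_apply, Fin.sum_univ_two] at h10
    rw [mem_Gamma0_iff, show m 1 0 = g.1 1 0 * (q : ℤ) from h10, Nat.cast_mul]
    exact mul_dvd_mul_right (mem_Gamma0_iff.mp g.2) _
  · obtain ⟨y, g, hg⟩ := heckeSet_cover hq.out hqN (diagMat q * mcoe (corRep N q hqN x.2)) ⟨by
      rw [Matrix.det_mul, (diagMat_mem N q).1, mcoe_det, mul_one], by
      simpa [diagMat, Matrix.mul_apply, Fin.sum_univ_two] using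
        mem_Gamma0_iff.mp (corRep_mem N q hqN x.2)⟩
    exact ⟨y, g, g.2, by rw [one_smul]; exact hg⟩

theorem resH_apply (φ : Additive (GammaH.GammaH N H) →+ A) (γ : GammaHq N q H) :
    ∃ h : (γ : SL(2, ℤ)) ∈ GammaH.GammaH N H,
      (resH N q H).op ℤ A φ (Additive.ofMul γ) = φ (Additive.ofMul ⟨γ, h⟩) := by
  have hle : GammaHq N q H ≤ GammaH.GammaH N H := fun x hx => by
    have hq' := isLevel_q N q H
    obtain ⟨a, ha, hd⟩ := (hq'.mem_iff x (hq'.le hx)).mp hx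
    exact ((isLevel_GammaH H).mem_iff x (hq'.le_gamma0 (hq'.le hx))).mpr ⟨a, ha, hd⟩
  refine ⟨hle γ.2, ?_⟩
  obtain ⟨⟨c, hc, e⟩, hd⟩ := isLift_resH N q H ()
  rw [resSys_α, mul_one] at e
  rw [Units.val_one, e] at hd
  set c' : GammaH.GammaH N H := ⟨c, (isLevel_GammaH H).mem_of_one hc hd⟩
  rw [(resH N q H).op_apply_of_eq φ γ id (fun _ => c' * ⟨γ, hle γ.2⟩ * c'⁻¹) (fun _ => by
      rw [id, show (resH N q H).α () = mcoe c from e, Subgroup.coe_mul, Subgroup.coe_mul,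
        Subgroup.coe_inv, mcoe_mul, mcoe_mul, mul_assoc, mul_assoc, ← mcoe_mul c⁻¹ c,
        inv_mul_cancel, mcoe_one, mul_one]),
    Fintype.sum_unique]
  simp only [ofMul_mul, ofMul_inv, map_add, map_neg]
  abel

/-- `cor ∘ res = q + 1`. -/
theorem corH_resH (φ : Additive (GammaH.GammaH N H) →+ A) :
    (corH N q hqN H).op ℤ A ((resH N q H).op ℤ A φ) = (q + 1) • φ := by
  have : NeZero q := ⟨hq.out.ne_zero⟩
  set S := corH N q hqN H
  refine AddMonoidHom.ext fun γ => ?_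
  obtain ⟨γ, rfl⟩ := Additive.ofMul.surjective γ
  have hrep : ∀ x, ∃ c : GammaH.GammaH N H, S.α x = mcoe (c : SL(2, ℤ)) := by
    intro x
    obtain ⟨⟨g, hg, e⟩, hd⟩ := isLift_corH N q hqN H x
    have hm : g * corRep N q hqN x ∈ Gamma0 N :=
      mul_mem (Gamma0_le_of_dvd (dvd_mul_right N q) hg) (corRep_mem N q hqN x)
    have e' : (corH N q hqN H).α x = mcoe (g * corRep N q hqN x) := by rw [e, mcoe_mul]; rfl
    rw [e', Units.val_one] at hd
    exact ⟨⟨_, (isLevel_GammaH H).mem_of_one hm hd⟩, e'⟩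
  choose c hc using hrep
  rw [S.op_apply]
  have hterm : ∀ x, (resH N q H).op ℤ A φ (Additive.ofMul (S.cof γ x))
      = φ (Additive.ofMul γ) + (φ (Additive.ofMul (c x)) - φ (Additive.ofMul (c (S.idx γ x)))) := by
    intro x
    obtain ⟨h, hres⟩ := resH_apply N q H φ (S.cof γ x)
    have e := S.mul_eq γ x
    rw [hc, hc, ← mcoe_mul, ← mcoe_mul] at e
    have h1 : c x * γ = (⟨_, h⟩ : GammaH.GammaH N H) * c (S.idx γ x) :=
      Subtype.ext (mcoe_injective e)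
    have h2 := congrArg (fun u => φ (Additive.ofMul u)) h1
    simp only [ofMul_mul, map_add] at h2
    rw [hres, ← add_sub_assoc, eq_sub_iff_add_eq, ← h2, add_comm]
  simp only [hterm, Finset.sum_add_distrib, Finset.sum_sub_distrib]
  rw [show (∑ x, φ (Additive.ofMul (c (S.idx γ x)))) = ∑ x, φ (Additive.ofMul (c x)) from
    Equiv.sum_comp (S.permE γ) fun x => φ (Additive.ofMul (c x)), sub_self, add_zero,
    Finset.sum_const, Finset.card_univ, AddMonoidHom.smul_apply]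
  congr 1
  rw [← Nat.card_eq_fintype_card, show Nat.card (OnePoint (ZMod q)) = Nat.card (Option (ZMod q))
    from rfl, Finite.card_option, Nat.card_zmod]

/-! ## Adjoint pairs -/

theorem isAdjointPair_resH : IsAdjointPair (corH N q hqN H) (resH N q H) := by
  refine isAdjointPair_lift (isLevel_q N q H) (isLevel_GammaH H) (isLift_corH N q hqN H)
    (isLift_resH N q H) (res_cor_adjoint N q hqN) fun i => ?_
  obtain ⟨⟨g, -, e⟩, -⟩ := isLift_corH N q hqN H i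
  rw [e, corSys_α, Matrix.det_mul, mcoe_det, mcoe_det]
  simp

theorem isAdjointPair_wH (u v : (ZMod N)ˣ) (h : v * u = unitOf hqN) :
    IsAdjointPair (wH N q hqN H u) (wH N q hqN H v) := by
  have hleft : ∀ (A : Mat2) (g : Gamma0 (N * q)), wSet N q A → wSet N q (mcoe g * A) := by
    intro A g hA
    have hg : (N : ℤ) * q ∣ (g.1 1 0) := by simpa using mem_Gamma0_iff.mp g.2
    obtain ⟨h1, h2, h3, h4⟩ := hA
    refine ⟨by rw [Matrix.det_mul, h1, mcoe_det, one_mul], ?_, ?_, ?_⟩ <;>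
      rw [Matrix.mul_apply, Fin.sum_univ_two]
    · exact dvd_add (dvd_mul_of_dvd_left hg _) (dvd_mul_of_dvd_right h2 _)
    · exact dvd_add (dvd_mul_of_dvd_right h3 _) (dvd_mul_of_dvd_right
        ((dvd_mul_left _ _).trans h2) _)
    · exact dvd_add (dvd_mul_of_dvd_left ((dvd_mul_left _ _).trans hg) _)
        (dvd_mul_of_dvd_right h4 _)
  have hadj : ∀ A : Mat2, wSet N q A → wSet N q A.adjugate := fun A ⟨h1, h2, h3, h4⟩ =>
    ⟨by rw [Matrix.det_adjugate, Fintype.card_fin, pow_one, h1],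
      by simpa [Matrix.adjugate_fin_two] using h2, by simpa [Matrix.adjugate_fin_two] using h4,
      by simpa [Matrix.adjugate_fin_two] using h3⟩
  refine isAdjointPair_lift (isLevel_q N q H) (isLevel_q N q H) (isLift_wH N q hqN H u)
    (isLift_wH N q hqN H v)
    (isAdjointPair_of_sets _ _ (wSet N q) (wSet N q) (fun _ => wMat_mem N q hqN)
      (fun _ => wMat_mem N q hqN) (fun A hA => wSet_cover N q hqN hA)
      (fun A hA => wSet_cover N q hqN hA) hadj hadj (fun A g hA => wSet_mul_right N q g hA) hleft)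
    fun i => ?_
  obtain ⟨⟨g, -, e⟩, -⟩ := isLift_wH N q hqN H u i
  rw [e, Matrix.det_mul, mcoe_det, one_mul, wSys_α, det_wMat N q hqN, h, Int.cast_natCast,
    GammaH.coe_primeUnit]

end Fermat.Agent.IharaTW
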