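import Mathlib
import Fermat.Agent.Patching.Patched

/-!
# The component flip

Two modules `M'` (level `N`) and `M` (level `N q`), free over `Λ`, with maps `f : M'² → M` split
injective and `g : M → M'²` split surjective over `Λ`, all compatible with `A`, such that `g ∘ f`
is given by a matrix `δ` over `A`.  If `J` (the Steinberg ideal at `q`) kills the kernel of `g`,
then near a prime `Q` of the support of `M'` on which `det δ` vanishes the module `M` is supported
on the Steinberg component.
-/

set_option autoImplicit false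

noncomputable section

namespace Fermat.Agent.IharaTW

variable {Λ A : Type*} [CommRing Λ] [CommRing A]

section Action

variable {N : Type*} [AddCommGroup N] [Module Λ N]

/-- A minimal prime over the annihilator of a module finite free over `Λ` is a minimal prime of
`A` if `dim A ≤ dim Λ`. -/
theorem mem_minimalPrimes_of_action [IsDomain Λ] [IsNoetherianRing Λ] [IsLocalRing Λ]
    [Module.Free Λ N] [Module.Finite Λ N] (ρ : A →+* Module.End Λ N)
    (sc : ∀ l : Λ, ∃ a : A, ρ a = l • LinearMap.id) (hdim : ringKrullDim A ≤ ringKrullDim Λ)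
    {P : Ideal A} (hP : P ∈ (RingHom.ker ρ).minimalPrimes) : P ∈ minimalPrimes A := by
  classical
  let b := Module.finBasis Λ N
  let e : Module.End Λ N →+* Matrix (Fin (Module.finrank Λ N)) (Fin (Module.finrank Λ N)) Λ :=
    (algEquivMatrix b).toRingEquiv.toRingHom
  have hinj : Function.Injective e := (algEquivMatrix b).injective
  have hker : RingHom.ker (e.comp ρ) = RingHom.ker ρ := by
    ext a
    simp [RingHom.mem_ker, map_eq_zero_iff e hinj]
  let D : Patching.Patched Λ A (A ⧸ RingHom.ker ρ) ⊥ ⊥ (Module.finrank Λ N) :=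
    { act := e.comp ρ
      ψ := Ideal.Quotient.mk _
      ψ_surjective := Ideal.Quotient.mk_surjective
      exists_scalar := fun l => by
        obtain ⟨a, ha⟩ := sc l
        refine ⟨a, ?_⟩
        rw [RingHom.comp_apply, ha]
        show algEquivMatrix b (l • LinearMap.id) = _
        rw [map_smul, ← Module.End.one_eq_id, map_one, Matrix.smul_one_eq_diagonal]
        rfl
      exists_scalar_of_mem := fun l hl => by
        rw [Ideal.mem_bot] at hl
        exact ⟨0, by rw [map_zero, hl, map_zero], map_zero _⟩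
      entry_mem := fun a ha i j => by
        rw [Ideal.mem_bot, Ideal.Quotient.eq_zero_iff_mem, RingHom.mem_ker] at ha
        rw [Ideal.mem_bot, RingHom.comp_apply, ha, map_zero]
        rfl }
  exact D.mem_minimalPrimes hdim
    (by rw [show RingHom.ker D.act = RingHom.ker ρ from hker]; exact hP)

end Action

/-- If a matrix with determinant in `Q` is surjective on `N²` after inverting some element outside
`Q`, then `Q` is not in the support of `N`. -/
theorem not_annihilator_le {N : Type*} [AddCommGroup N] [Module A N] [Module.Finite A N]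
    (δ : Matrix (Fin 2) (Fin 2) A) {Q : Ideal A} [hQ : Q.IsPrime] (hdet : δ.det ∈ Q) {t : A}
    (ht : t ∉ Q) (hsurj : ∀ y : Fin 2 → N, ∃ z : Fin 2 → N, ∀ i, t • y i = ∑ j, δ i j • z j) :
    ¬ Module.annihilator A N ≤ Q := by
  classical
  intro hann
  rw [Matrix.det_fin_two] at hdet
  obtain ⟨v, i, hv, hvδ⟩ : ∃ (v : Fin 2 → A) (i : Fin 2), v i ∉ Q ∧ ∀ j, ∑ k, v k * δ k j ∈ Q := by
    by_cases hall : ∀ k j, δ k j ∈ Q
    · exact ⟨![1, 0], 0, by simpa using Ideal.ne_top_iff_one Q |>.mp hQ.ne_top,
        fun j => by simpa [Fin.sum_univ_two] using hall 0 j⟩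
    · by_cases h : δ 1 1 ∈ Q ∧ δ 0 1 ∈ Q
      · refine ⟨![-δ 1 0, δ 0 0], if δ 1 0 ∈ Q then 1 else 0, ?_, fun j => ?_⟩
        · split_ifs with h10
          · intro h00
            refine hall fun k j => ?_
            fin_cases k <;> fin_cases j
            exacts [by simpa using h00, h.2, h10, h.1]
          · simpa using h10
        · fin_cases j <;> simp [Fin.sum_univ_two]
          · ring_nf; exact zero_mem _
          · convert hdet using 1; ring
      · refine ⟨![δ 1 1, -δ 0 1], if δ 1 1 ∈ Q then 1 else 0, ?_, fun j => ?_⟩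
        · split_ifs with h11
          · simpa using fun h01 => h ⟨h11, h01⟩
          · simpa using h11
        · fin_cases j <;> simp [Fin.sum_univ_two]
          · convert hdet using 1; ring
          · ring_nf; exact zero_mem _
  have hrange : LinearMap.range (DistribSMul.toLinearMap A N (t * v i)) ≤ Q • ⊤ := by
    rintro _ ⟨x, rfl⟩
    obtain ⟨z, hz⟩ := hsurj (Pi.single i x)
    have e : (t * v i) • x = ∑ j, (∑ k, v k * δ k j) • z j := by
      have h1 : ∑ k, v k • (t • (Pi.single i x : Fin 2 → N) k) = ∑ k, v k • ∑ j, δ k j • z j :=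
        Finset.sum_congr rfl fun k _ => by rw [hz k]
      simp only [Finset.smul_sum, smul_smul] at h1
      rw [Finset.sum_comm, Finset.sum_eq_single i (fun k _ hk => by simp [hk]) (by simp)] at h1
      simpa [Finset.sum_smul, mul_comm t, add_smul] using h1
    show (t * v i) • x ∈ _
    rw [e]
    exact Submodule.sum_mem _ fun j _ => Submodule.smul_mem_smul (hvδ j) trivial
  obtain ⟨P, hmon, -, hcoeff, hP⟩ :=
    LinearMap.exists_monic_and_natDegree_eq_and_coeff_mem_pow_and_aeval_eq_zero A
      (DistribSMul.toLinearMap A N (t * v i)) Q hrange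
  set a := t * v i with ha
  have hnot : a ∉ Q := fun h => (hQ.mem_or_mem h).elim ht hv
  have hend : DistribSMul.toLinearMap A N a = algebraMap A (Module.End A N) a := rfl
  rw [hend, Polynomial.aeval_algebraMap_apply] at hP
  have hmem : Polynomial.aeval a P ∈ Q := hann (Module.mem_annihilator.mpr fun x => by
    simpa [Module.algebraMap_end_apply] using LinearMap.congr_fun hP x)
  rw [Polynomial.coe_aeval_eq_eval, Polynomial.eval_eq_sum_range, Finset.sum_range_succ,
    hmon.coeff_natDegree, one_mul] at hmem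
  refine hnot (hQ.mem_of_pow_mem P.natDegree ((Submodule.add_mem_iff_right _ ?_).mp hmem))
  refine Ideal.sum_mem _ fun k hk => Ideal.mul_mem_right _ _ ?_
  exact Ideal.pow_le_self (by have := Finset.mem_range.mp hk; omega) (hcoeff k)

section Flip

variable {M M' : Type*} [AddCommGroup M] [AddCommGroup M'] [Module Λ M] [Module Λ M']
  [Module A M] [Module A M']

/-- `A` acts `Λ`-linearly when scalars of `Λ` come from `A`. -/
theorem smul_comm_of_scalar (sc : ∀ l : Λ, ∃ a : A, ∀ x : M, a • x = l • x) :
    SMulCommClass Λ A M :=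
  ⟨fun l a x => by
    obtain ⟨b, hb⟩ := sc l
    rw [← hb, ← hb, smul_comm]⟩

/-- **The flip.** `f`, `g` commute with `A`, are split over `Λ`, `g ∘ f = δ` and `J` kills
`ker g`.  If near a prime `Q` of the support of `M'` with `det δ ∈ Q` every component other than `P`
contains neither `J` nor `det δ`, then `P` is in the support of `M`. -/
theorem annihilator_le_of_flip [IsDomain Λ] [IsNoetherianRing Λ] [IsLocalRing Λ]
    [Module.Free Λ M] [Module.Finite Λ M] [Module.Finite Λ M']
    (hdim : ringKrullDim A ≤ ringKrullDim Λ)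
    (sc : ∀ l : Λ, ∃ a : A, (∀ x : M, a • x = l • x) ∧ ∀ y : M', a • y = l • y)
    (f : (Fin 2 → M') →ₗ[Λ] M) (g : M →ₗ[Λ] (Fin 2 → M'))
    (hf : ∀ (a : A) y, f (a • y) = a • f y) (hg : ∀ (a : A) x, g (a • x) = a • g x)
    (C : M →ₗ[Λ] (Fin 2 → M')) (hC : ∀ y, C (f y) = y)
    (E : (Fin 2 → M') →ₗ[Λ] M) (hE : ∀ y, g (E y) = y)
    (δ : Matrix (Fin 2) (Fin 2) A) (hgf : ∀ y i, g (f y) i = ∑ j, δ i j • y j)
    {J : Ideal A} (hJ : ∀ j ∈ J, ∀ x : M, g x = 0 → j • x = 0)
    {Q : Ideal A} [hQ : Q.IsPrime] (hsupp : Module.annihilator A M' ≤ Q) (hdet : δ.det ∈ Q)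
    {P : Ideal A}
    (hcomp : ∀ P' ∈ minimalPrimes A, P' ≤ Q → P' = P ∨ (¬ J ≤ P' ∧ δ.det ∉ P')) :
    Module.annihilator A M ≤ P := by
  classical
  have : SMulCommClass Λ A M := smul_comm_of_scalar fun l => ⟨_, (sc l).choose_spec.1⟩
  have : SMulCommClass A Λ M := SMulCommClass.symm _ _ _
  have : Module.Finite A M' := by
    obtain ⟨s, hs⟩ := (Module.Finite.fg_top : (⊤ : Submodule Λ M').FG)
    refine ⟨⟨s, Submodule.eq_top_iff'.mpr fun y => ?_⟩⟩
    have hy : y ∈ Submodule.span Λ (s : Set M') := hs ▸ Submodule.mem_top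
    induction hy using Submodule.span_induction with
    | mem x hx => exact Submodule.subset_span hx
    | zero => exact zero_mem _
    | add x z _ _ hx hz => exact add_mem hx hz
    | smul l x _ hx =>
      obtain ⟨a, -, ha⟩ := sc l
      rw [← ha]
      exact Submodule.smul_mem _ _ hx
  let ρ : A →+* Module.End Λ M := Module.toModuleEnd Λ (S := A) M
  -- the kernel of `g`
  let K := LinearMap.ker g
  have hKst : ∀ a : A, ∀ x ∈ K, a • x ∈ K := fun a x hx => by
    rw [LinearMap.mem_ker] at hx ⊢
    rw [hg, hx, smul_zero]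
  let ρK : A →+* Module.End Λ K :=
    { toFun := fun a => (ρ a).restrict (hKst a)
      map_one' := LinearMap.ext fun x => Subtype.ext (one_smul A (x : M))
      map_mul' := fun a b => LinearMap.ext fun x => Subtype.ext (mul_smul a b (x : M))
      map_zero' := LinearMap.ext fun x => Subtype.ext (zero_smul A (x : M))
      map_add' := fun a b => LinearMap.ext fun x => Subtype.ext (add_smul a b (x : M)) }
  have hKsplit : ((LinearMap.id - E ∘ₗ g).codRestrict K fun x => by
      rw [LinearMap.mem_ker]; simp [hE]) ∘ₗ K.subtype = LinearMap.id :=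
    LinearMap.ext fun x => Subtype.ext (by simp [LinearMap.mem_ker.mp x.2])
  have : Module.Finite Λ K := inferInstance
  have : Module.Projective Λ K := Module.Projective.of_split _ _ hKsplit
  have : Module.Free Λ K := Module.free_of_flat_of_isLocalRing
  have scK : ∀ l : Λ, ∃ a : A, ρK a = l • LinearMap.id := fun l => by
    obtain ⟨a, ha, -⟩ := sc l
    exact ⟨a, LinearMap.ext fun x => Subtype.ext (ha x)⟩
  have hannK : Module.annihilator A M ≤ RingHom.ker ρK := fun a ha =>
    LinearMap.ext fun x => Subtype.ext (Module.mem_annihilator.mp ha x)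
  have hJK : J ≤ RingHom.ker ρK := fun j hj =>
    LinearMap.ext fun x => Subtype.ext (hJ j hj x (LinearMap.mem_ker.mp x.2))
  by_cases hK : RingHom.ker ρK ≤ Q
  · obtain ⟨P', hP', hle⟩ := Ideal.exists_minimalPrimes_le hK
    rcases hcomp P' (mem_minimalPrimes_of_action ρK scK hdim hP') hle with rfl | ⟨h, -⟩
    · exact hannK.trans hP'.1.2
    · exact absurd (hJK.trans hP'.1.2) h
  obtain ⟨s, hs, hsQ⟩ := SetLike.not_le_iff_exists.mp hK
  have hsK : ∀ x, g x = 0 → s • x = 0 := fun x hx =>
    congrArg Subtype.val (LinearMap.congr_fun (RingHom.mem_ker.mp hs) ⟨x, LinearMap.mem_ker.mpr hx⟩)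
  -- the cokernel of `f`
  let F := LinearMap.range f
  have hFst : ∀ a : A, F ≤ F.comap (ρ a) := by
    rintro a _ ⟨y, rfl⟩
    exact ⟨a • y, hf a y⟩
  let ρL : A →+* Module.End Λ (M ⧸ F) :=
    { toFun := fun a => F.mapQ F (ρ a) (hFst a)
      map_one' := Submodule.linearMap_qext _ <| LinearMap.ext fun x => by simp
      map_mul' := fun a b => Submodule.linearMap_qext _ <| LinearMap.ext fun x => by simp
      map_zero' := Submodule.linearMap_qext _ <| LinearMap.ext fun x => by simp
      map_add' := fun a b => Submodule.linearMap_qext _ <| LinearMap.ext fun x => by simp }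
  have hLlift : F ≤ LinearMap.ker (LinearMap.id - f ∘ₗ C) := by
    rintro _ ⟨y, rfl⟩
    simp [hC]
  have hLsplit : F.mkQ ∘ₗ F.liftQ _ hLlift = LinearMap.id := by
    refine Submodule.linearMap_qext _ (LinearMap.ext fun x => ?_)
    simp only [LinearMap.comp_apply, Submodule.mkQ_apply, Submodule.liftQ_apply,
      LinearMap.sub_apply, LinearMap.id_apply]
    exact (Submodule.Quotient.eq F).mpr ⟨-C x, by simp⟩
  have : Module.Projective Λ (M ⧸ F) := Module.Projective.of_split _ _ hLsplit
  have : Module.Free Λ (M ⧸ F) := Module.free_of_flat_of_isLocalRing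
  have scL : ∀ l : Λ, ∃ a : A, ρL a = l • LinearMap.id := fun l => by
    obtain ⟨a, ha, -⟩ := sc l
    refine ⟨a, Submodule.linearMap_qext _ <| LinearMap.ext fun x => ?_⟩
    show (Submodule.Quotient.mk (a • x) : M ⧸ F) = l • (Submodule.Quotient.mk x : M ⧸ F)
    rw [ha, Submodule.Quotient.mk_smul]
  have hmemL : ∀ a : A, a ∈ RingHom.ker ρL ↔ ∀ x : M, a • x ∈ F := fun a => by
    rw [RingHom.mem_ker]
    constructor
    · intro h x
      rw [← Submodule.Quotient.mk_eq_zero F]
      exact LinearMap.congr_fun h (Submodule.Quotient.mk x)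
    · intro h
      refine Submodule.linearMap_qext _ <| LinearMap.ext fun x => ?_
      exact (Submodule.Quotient.mk_eq_zero F).mpr (h x)
  by_cases hL : RingHom.ker ρL ≤ Q
  · obtain ⟨P', hP', hle⟩ := Ideal.exists_minimalPrimes_le hL
    rcases hcomp P' (mem_minimalPrimes_of_action ρL scL hdim hP') hle with rfl | ⟨-, h⟩
    · refine fun a ha => hP'.1.2 ((hmemL a).mpr fun x => ?_)
      rw [Module.mem_annihilator.mp ha x]
      exact zero_mem _
    · exfalso
      have := hP'.1.1
      have hsd : s * δ.det ∈ RingHom.ker ρL := (hmemL _).mpr fun x => by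
        let z : Fin 2 → M' := fun j => ∑ k, δ.adjugate j k • g x k
        have hz : g (f z) = δ.det • g x := by
          funext i
          rw [hgf, Pi.smul_apply]
          simp only [z, Finset.smul_sum, smul_smul]
          rw [Finset.sum_comm]
          simp only [← Finset.sum_smul, ← Matrix.mul_apply, Matrix.mul_adjugate,
            Matrix.smul_apply, Matrix.one_apply, smul_eq_mul, mul_ite, mul_one, mul_zero, ite_smul,
            zero_smul]
          simp
        have h0 := hsK (δ.det • x - f z) (by rw [map_sub, hg, hz, sub_self])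
        rw [smul_sub, sub_eq_zero, smul_smul] at h0
        exact ⟨s • z, by rw [hf, ← h0]⟩
      exact h ((hP'.1.1.mem_or_mem (hP'.1.2 hsd)).resolve_left fun h' => hsQ (hle h'))
  obtain ⟨t, ht, htQ⟩ := SetLike.not_le_iff_exists.mp hL
  exfalso
  refine not_annihilator_le δ hdet htQ (fun y => ?_) hsupp
  obtain ⟨z, hz⟩ := (hmemL t).mp ht (E y)
  refine ⟨z, fun i => ?_⟩
  rw [← hgf, hz, hg, hE, Pi.smul_apply]

end Flip

end Fermat.Agent.IharaTW
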