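import Fermat.Agent.IharaTW.GroupRingMaps
import Fermat.Agent.IharaTW.GfInjective
import Fermat.Agent.TW.Idem

/-!
# The anemic Hecke rings of two stages

Away from a set containing the primes of `N q` the ring of level `Γ_H(N q)` maps onto that of level
`Γ_H(N)`, intertwined by the degeneracy maps; residual idempotents map to each other.
-/

set_option autoImplicit false

noncomputable section

namespace Fermat.Agent.IharaTW

open IsLocalRing CongruenceSubgroup Fermat.Agent.GammaH Fermat.Agent.TW
open scoped MatrixGroups TensorProduct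

variable (N q : ℕ) [hq : Fact q.Prime] (hqN : ¬q ∣ N) (H : Subgroup (ZMod N)ˣ) [NeZero N]
  [NeZero (N * q)] {S : Set ℕ} (hH : (-1 : (ZMod N)ˣ) ∈ H)
  (hHq : (-1 : (ZMod (N * q))ˣ) ∈ Hq N q H)
  (hLS : ∀ l : ℕ, l.Prime → l ∣ N * q → l ∈ S)

/-- Hecke operators of the two levels intertwined over every coefficient ring. -/
def StagePair (tq : heckeRing (N * q) (Hq N q H) S) (t : heckeRing N H S) : Prop :=
  ∀ (R : Type) [CommRing R], Intertwined N q hqN H (homAction hHq R R tq) (homAction hH R R t)

variable {N q hqN H hH hHq}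

theorem StagePair.add {tq sq : heckeRing (N * q) (Hq N q H) S} {t s : heckeRing N H S}
    (ht : StagePair N q hqN H hH hHq tq t) (hs : StagePair N q hqN H hH hHq sq s) :
    StagePair N q hqN H hH hHq (tq + sq) (t + s) := fun R _ => by
  rw [map_add, map_add]
  exact (ht R).add (hs R)

theorem StagePair.mul {tq sq : heckeRing (N * q) (Hq N q H) S} {t s : heckeRing N H S}
    (ht : StagePair N q hqN H hH hHq tq t) (hs : StagePair N q hqN H hH hHq sq s) :
    StagePair N q hqN H hH hHq (tq * sq) (t * s) := fun R _ => by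
  rw [map_mul, map_mul]
  exact (ht R).mul (hs R)

theorem stagePair_one : StagePair (S := S) N q hqN H hH hHq 1 1 := fun R _ => by
  rw [map_one, map_one]
  exact Intertwined.one

theorem stagePair_zero : StagePair (S := S) N q hqN H hH hHq 0 0 := fun R _ => by
  rw [map_zero, map_zero]
  exact Intertwined.zero

theorem stagePair_intCast (n : ℤ) :
    StagePair (S := S) N q hqN H hH hHq (n : heckeRing (N * q) (Hq N q H) S)
      (n : heckeRing N H S) := fun R _ => by
  rw [map_intCast, map_intCast]
  induction n using Int.induction_on with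
  | zero => simpa only [Int.cast_zero] using Intertwined.zero
  | succ i ih =>
    rw [Int.cast_add, Int.cast_add, Int.cast_one, Int.cast_one]
    exact ih.add Intertwined.one
  | pred i ih =>
    rw [Int.cast_sub, Int.cast_sub, Int.cast_one, Int.cast_one]
    convert ih.add Intertwined.one.neg using 1 <;> exact sub_eq_add_neg _ _

theorem stagePair_diamondR (a : (ZMod (N * q))ˣ) :
    StagePair (S := S) N q hqN H hH hHq (diamondR a)
      (diamondR (ZMod.unitsMap (dvd_mul_right N q) a)) := fun R _ => by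
  rw [homAction_diamond, homAction_diamond]
  exact Intertwined.diamond a

theorem stagePair_heckeTR {l : ℕ} (hl : l.Prime) (hlN : ¬ l ∣ N * q) (hlN' : ¬ l ∣ N)
    (hlS : l ∉ S) :
    StagePair N q hqN H hH hHq (heckeTR hl hlN hlS) (heckeTR hl hlN' hlS) := fun R _ => by
  rw [homAction_heckeT, homAction_heckeT]
  exact Intertwined.heckeT hl hlN' hlN

variable (N q hqN H hH hHq)

include hLS in
theorem exists_stagePair (tq : heckeRing (N * q) (Hq N q H) S) :
    ∃ t, StagePair N q hqN H hH hHq tq t := by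
  suffices ∀ x ∈ Algebra.adjoin ℤ (heckeGens (N * q) (Hq N q H) S),
      ∀ tq : heckeRing (N * q) (Hq N q H) S, tq.1 = x → ∃ t, StagePair N q hqN H hH hHq tq t from
    this tq.1 tq.2 tq rfl
  intro x hx
  induction hx using Algebra.adjoin_induction with
  | mem x hx =>
    intro tq htq
    rcases hx with (⟨a, rfl⟩ | ⟨l, hl, hlN, hlS, rfl⟩) | ⟨l, hlN, hl, hlS, rfl⟩
    · refine ⟨diamondR (ZMod.unitsMap (dvd_mul_right N q) a), ?_⟩
      have e : tq = diamondR a := Subtype.ext (htq.trans (coe_diamondR a).symm)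
      rw [e]
      exact stagePair_diamondR a
    · refine ⟨heckeTR hl (fun h => hlN (dvd_mul_of_dvd_left h q)) hlS, ?_⟩
      have e : tq = heckeTR hl hlN hlS := Subtype.ext (htq.trans (coe_heckeTR hl hlN hlS).symm)
      rw [e]
      exact stagePair_heckeTR hl hlN _ hlS
    · exact absurd (hLS l hl hlN) hlS
  | algebraMap n =>
    intro tq htq
    refine ⟨(n : heckeRing N H S), ?_⟩
    have e : tq = (n : heckeRing (N * q) (Hq N q H) S) := Subtype.ext <| htq.trans <| by
      rw [← eq_intCast (algebraMap ℤ (heckeRing (N * q) (Hq N q H) S)) n, Subalgebra.coe_algebraMap]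
    rw [e]
    exact stagePair_intCast n
  | add x y hx hy ihx ihy =>
    intro tq htq
    obtain ⟨u, hu⟩ : ∃ u : heckeRing (N * q) (Hq N q H) S, u.1 = x := ⟨⟨x, hx⟩, rfl⟩
    obtain ⟨v, hv⟩ : ∃ v : heckeRing (N * q) (Hq N q H) S, v.1 = y := ⟨⟨y, hy⟩, rfl⟩
    obtain ⟨s, hs⟩ := ihx u hu
    obtain ⟨t, ht⟩ := ihy v hv
    have e : tq = u + v := Subtype.ext (by rw [htq, AddMemClass.coe_add, hu, hv])
    exact ⟨s + t, by rw [e]; exact hs.add ht⟩
  | mul x y hx hy ihx ihy =>
    intro tq htq
    obtain ⟨u, hu⟩ : ∃ u : heckeRing (N * q) (Hq N q H) S, u.1 = x := ⟨⟨x, hx⟩, rfl⟩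
    obtain ⟨v, hv⟩ : ∃ v : heckeRing (N * q) (Hq N q H) S, v.1 = y := ⟨⟨y, hy⟩, rfl⟩
    obtain ⟨s, hs⟩ := ihx u hu
    obtain ⟨t, ht⟩ := ihy v hv
    have e : tq = u * v := Subtype.ext (by rw [htq, MulMemClass.coe_mul, hu, hv])
    exact ⟨s * t, by rw [e]; exact hs.mul ht⟩

theorem stagePair_unique {tq : heckeRing (N * q) (Hq N q H) S} {s t : heckeRing N H S}
    (hs : StagePair N q hqN H hH hHq tq s) (ht : StagePair N q hqN H hH hHq tq t) : s = t := by
  refine matrixH_injective hH (Matrix.ext fun i j => ?_)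
  have h : ∀ φ, homAction hH ℤ ℤ s φ = homAction hH ℤ ℤ t φ := fun φ => by
    have e1 := (hs ℤ).1 fun _ => φ
    have e2 := (ht ℤ).1 fun _ => φ
    have h0 := eq_zero_of_gMap_fMap_eq_zero (q := q) hH hqN ℤ
      (y := (fun _ => homAction hH ℤ ℤ s φ) - fun _ => homAction hH ℤ ℤ t φ)
      (by rw [map_sub, e1, e2, sub_self, map_zero])
    exact sub_eq_zero.mp (congrFun h0 0)
  have h1 := h (coordH hH ℤ ℤ (Pi.single j 1))
  rw [homAction_coordH, homAction_coordH] at h1
  have h2 := congrFun ((coordH hH ℤ ℤ).injective h1) i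
  simpa [intAct_apply, Pi.single_apply] using h2

/-- The map of anemic Hecke rings. -/
def stageR : heckeRing (N * q) (Hq N q H) S →+* heckeRing N H S where
  toFun tq := (exists_stagePair N q hqN H hH hHq hLS tq).choose
  map_one' := stagePair_unique N q hqN H hH hHq
    (exists_stagePair N q hqN H hH hHq hLS 1).choose_spec stagePair_one
  map_mul' s t := stagePair_unique N q hqN H hH hHq
    (exists_stagePair N q hqN H hH hHq hLS (s * t)).choose_spec
    ((exists_stagePair N q hqN H hH hHq hLS s).choose_spec.mul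
      (exists_stagePair N q hqN H hH hHq hLS t).choose_spec)
  map_zero' := stagePair_unique N q hqN H hH hHq
    (exists_stagePair N q hqN H hH hHq hLS 0).choose_spec stagePair_zero
  map_add' s t := stagePair_unique N q hqN H hH hHq
    (exists_stagePair N q hqN H hH hHq hLS (s + t)).choose_spec
    ((exists_stagePair N q hqN H hH hHq hLS s).choose_spec.add
      (exists_stagePair N q hqN H hH hHq hLS t).choose_spec)

theorem stagePair_stageR (tq : heckeRing (N * q) (Hq N q H) S) :
    StagePair N q hqN H hH hHq tq (stageR N q hqN H hH hHq hLS tq) :=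
  (exists_stagePair N q hqN H hH hHq hLS tq).choose_spec

theorem stageR_diamondR (a : (ZMod (N * q))ˣ) :
    stageR N q hqN H hH hHq hLS (diamondR a) = diamondR (ZMod.unitsMap (dvd_mul_right N q) a) :=
  stagePair_unique N q hqN H hH hHq (stagePair_stageR N q hqN H hH hHq hLS _) (stagePair_diamondR a)

theorem stageR_heckeTR {l : ℕ} (hl : l.Prime) (hlN : ¬ l ∣ N * q) (hlN' : ¬ l ∣ N) (hlS : l ∉ S) :
    stageR N q hqN H hH hHq hLS (heckeTR hl hlN hlS) = heckeTR hl hlN' hlS :=
  stagePair_unique N q hqN H hH hHq (stagePair_stageR N q hqN H hH hHq hLS _)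
    (stagePair_heckeTR hl hlN hlN' hlS)

theorem stageR_surjective : Function.Surjective (stageR N q hqN H hH hHq hLS) := by
  rintro ⟨x, hx⟩
  induction hx using Algebra.adjoin_induction with
  | mem x hx =>
    rcases hx with (⟨a, rfl⟩ | ⟨l, hl, hlN, hlS, rfl⟩) | ⟨l, hlN, hl, hlS, rfl⟩
    · obtain ⟨b, rfl⟩ := ZMod.unitsMap_surjective (dvd_mul_right N q) a
      exact ⟨diamondR b, stageR_diamondR N q hqN H hH hHq hLS b⟩
    · have hne : ¬ l ∣ N * q := fun h => hlS (hLS l hl h)
      exact ⟨heckeTR hl hne hlS, stageR_heckeTR N q hqN H hH hHq hLS hl hne hlN hlS⟩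
    · exact absurd (hLS l hl (dvd_mul_of_dvd_left hlN q)) hlS
  | algebraMap n =>
    refine ⟨(n : heckeRing (N * q) (Hq N q H) S), ?_⟩
    rw [map_intCast]
    exact (eq_intCast (algebraMap ℤ (heckeRing N H S)) n).symm
  | add x y hx hy ihx ihy =>
    obtain ⟨s, hs⟩ := ihx
    obtain ⟨t, ht⟩ := ihy
    exact ⟨s + t, by rw [map_add, hs, ht]; rfl⟩
  | mul x y hx hy ihx ihy =>
    obtain ⟨s, hs⟩ := ihx
    obtain ⟨t, ht⟩ := ihy
    exact ⟨s * t, by rw [map_mul, hs, ht]; rfl⟩

variable (O : Type) [CommRing O]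

/-- The map of anemic Hecke rings with coefficients. -/
def stageO : HeckeO (N * q) (Hq N q H) S O →ₐ[O] HeckeO N H S O :=
  liftO O ((HeckeO.ofT O).comp (stageR N q hqN H hH hHq hLS))

theorem stageO_mk (a : O) (t : heckeRing (N * q) (Hq N q H) S) :
    stageO N q hqN H hH hHq hLS O (HeckeO.mk O a t)
      = a • HeckeO.ofT O (stageR N q hqN H hH hHq hLS t) :=
  liftO_tmul O _ a t

theorem stageO_surjective : Function.Surjective (stageO N q hqN H hH hHq hLS O) := by
  intro x
  induction x using HeckeO.induction with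
  | zero => exact ⟨0, map_zero _⟩
  | add x y hx hy =>
    obtain ⟨u, rfl⟩ := hx
    obtain ⟨v, rfl⟩ := hy
    exact ⟨u + v, map_add _ _ _⟩
  | mk a t =>
    obtain ⟨s, rfl⟩ := stageR_surjective N q hqN H hH hHq hLS t
    refine ⟨HeckeO.mk O a s, ?_⟩
    rw [stageO_mk, HeckeO.ofT_apply]
    show a • ((1 : O) ⊗ₜ[ℤ] _ : O ⊗[ℤ] heckeRing N H S) = a ⊗ₜ[ℤ] _
    rw [TensorProduct.smul_tmul', smul_eq_mul, mul_one]

/-- The two actions are intertwined. -/
theorem intertwined_stageO (x : HeckeO (N * q) (Hq N q H) S O) :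
    Intertwined N q hqN H (actO hHq O x) (actO hH O (stageO N q hqN H hH hHq hLS O x)) := by
  induction x using HeckeO.induction with
  | zero => simpa only [map_zero] using Intertwined.zero
  | add x y hx hy => simpa only [map_add] using hx.add hy
  | mk a t =>
    rw [stageO_mk, map_smul, HeckeO.ofT_apply, actO_tmul, actO_tmul, one_smul]
    exact (stagePair_stageR N q hqN H hH hHq hLS t O).smul a

variable [IsDomain O] [IsDiscreteValuationRing O] (θ : heckeRing N H S →+* ResidueField O)

theorem residO_stageO (x : HeckeO (N * q) (Hq N q H) S O) :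
    residO O θ (stageO N q hqN H hH hHq hLS O x)
      = residO O (θ.comp (stageR N q hqN H hH hHq hLS)) x := by
  induction x using HeckeO.induction with
  | zero => simp
  | add x y hx hy => simp only [map_add, hx, hy]
  | mk a t =>
    rw [stageO_mk, Algebra.smul_def, map_mul, residO_algebraMap, HeckeO.ofT_apply, residO_tmul,
      residO_tmul, map_one, one_mul, RingHom.comp_apply]

variable [IsAdicComplete (maximalIdeal O) O] in
/-- **The residual idempotents correspond.** -/
theorem stageO_twIdem :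
    stageO N q hqN H hH hHq hLS O (twIdem hHq O (θ.comp (stageR N q hqN H hH hHq hLS)))
      = twIdem hH O θ := by
  set θq := θ.comp (stageR N q hqN H hH hHq hLS)
  set r := stageO N q hqN H hH hHq hLS O
  set f := r (twIdem hHq O θq)
  set e := twIdem hH O θ
  have hf : f * f = f := by rw [← map_mul, (isIdempotentElem_twIdem hHq O θq).eq]
  have he : e * e = e := (isIdempotentElem_twIdem hH O θ).eq
  have hrf : residO O θ f = 1 := by rw [residO_stageO, residO_twIdem]
  -- `f e = e`
  obtain ⟨y, hy⟩ := exists_mul_eq_twIdem hH O θ (x := f) (by rw [hrf]; exact one_ne_zero)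
  have h1 : f * e = e := by rw [show e = y * f from hy.symm, mul_left_comm, hf]
  -- `f (1 - e) = 0`
  obtain ⟨z, hz⟩ := stageO_surjective N q hqN H hH hHq hLS O (1 - e)
  set u := twIdem hHq O θq * z
  have hu : r u = f * (1 - e) := by rw [map_mul, hz]
  have hru : residO O θq u = 0 := by
    rw [← residO_stageO, hu, map_mul, map_sub, map_one, residO_twIdem, sub_self, mul_zero]
  obtain ⟨y', hy'⟩ := exists_mul_eq_twIdem hHq O θq (x := 1 - u)
    (by rw [map_sub, map_one, hru, sub_zero]; exact one_ne_zero)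
  have h2 := congrArg r hy'
  rw [map_mul, map_sub, map_one, hu] at h2
  set w := f * (1 - e)
  have hw : w * w = w := by
    show f * (1 - e) * (f * (1 - e)) = _
    rw [mul_mul_mul_comm, hf, show (1 - e) * (1 - e) = 1 - e - e + e * e by ring, he,
      sub_add_cancel]
  have hfw : f * w = w := by rw [← mul_assoc, hf]
  have h3 := congrArg (· * w) h2
  simp only [mul_assoc, sub_mul, one_mul, hw, sub_self, mul_zero] at h3
  rw [show r (twIdem hHq O θq) * w = w from hfw] at h3
  calc f = f * e + w := by rw [← mul_add, add_sub_cancel, mul_one]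
    _ = e := by rw [h1, ← h3, add_zero]

end Fermat.Agent.IharaTW
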