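import Fermat.Agent.IharaTW.StageTower

/-!
# A stage as the coinvariants of a larger one

`ψ : V → V₀` onto, equivariant, with kernel that of the norm along `π : G → G'` carries a basis of
the stage over `O[G]` to one over `O[G']`; the two levels have congruent matrices.
-/

set_option autoImplicit false

noncomputable section

namespace Fermat.Agent.IharaTW

open Fermat.Agent.Patching
open Fermat.Agent.TW.LevelQuot (Quot endQuot endQuot_mk isLevelBasis)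

variable {O A A' G G' V V₀ : Type} [CommRing O] [IsDomain O] [CharZero O] [CommRing A]
  [Algebra O A] [CommRing A'] [Algebra O A']
  [CommGroup G] [Fintype G] [CommGroup G'] [Fintype G'] [AddCommGroup V] [Module O V]
  [AddCommGroup V₀] [Module O V₀] (Φ : A →ₐ[O] Module.End O V) (Φ₀ : A' →ₐ[O] Module.End O V₀)
  (pA : A →ₐ[O] A') (ζ : G →* A) (ζ₀ : G' →* A') (π : G →* G') (ψ : V →ₗ[O] V₀) [IsLocalRing O]
  [IsLocalRing (MonoidAlgebra O G)] [IsLocalRing (MonoidAlgebra O G')]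

omit [IsDomain O] [CharZero O] [Fintype G'] [IsLocalRing O] [IsLocalRing (MonoidAlgebra O G')] in
/-- The twist along the identity by the trivial character is the identity. -/
theorem twistHom_id_one (s : MonoidAlgebra O G') :
    twistHom (MonoidHom.id G') (1 : G' →* Oˣ) s = s := by
  induction s using MonoidAlgebra.induction_on with
  | of g =>
    show twistHom (MonoidHom.id G') (1 : G' →* Oˣ) (MonoidAlgebra.single g 1) = _
    rw [twistHom_single, MonoidHom.one_apply, Units.val_one, one_mul]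
    rfl
  | add x y hx hy => rw [map_add, hx, hy]
  | smul r x hx => rw [map_smul, hx]

/-- `ψ` on the modules of the lattices. -/
def latMap : LatMod Φ ζ →+ LatMod Φ₀ ζ₀ where
  toFun v := (stageRep (strMap Φ₀ ζ₀)
      (commute_strMap Φ₀ ζ₀ fun a => Commute.one_left (Φ₀ a))).asModuleEquiv.symm
    (oneRange.symm (ψ (opVec Φ ζ _ v)))
  map_zero' := by rw [opVec_zero Φ ζ, map_zero, map_zero, map_zero]
  map_add' v w := by rw [opVec_add Φ ζ, map_add, map_add, map_add]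

omit [IsDomain O] [CharZero O] [Fintype G] [IsLocalRing O] [IsLocalRing (MonoidAlgebra O G)] in
omit [Fintype G'] [IsLocalRing (MonoidAlgebra O G')] in
theorem opVec_latMap (v : LatMod Φ ζ) :
    opVec Φ₀ ζ₀ _ (latMap Φ Φ₀ ζ ζ₀ ψ v) = ψ (opVec Φ ζ _ v) := by
  simp [opVec, stageVec, latMap, coe_oneRange_symm]

variable (hψ : ∀ a x, ψ (Φ a x) = Φ₀ (pA a) (ψ x))
  (hζ : ∀ g x, Φ₀ (ζ₀ (π g)) x = Φ₀ (pA (ζ g)) x)

omit [IsDomain O] [CharZero O] [Fintype G] [IsLocalRing O] [IsLocalRing (MonoidAlgebra O G)] in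
omit [Fintype G'] [IsLocalRing (MonoidAlgebra O G')] in
include hψ hζ in
/-- `ψ` is semilinear. -/
theorem latMap_smul (s : MonoidAlgebra O G) (v : LatMod Φ ζ) :
    latMap Φ Φ₀ ζ ζ₀ ψ (s • v)
      = twistHom π (1 : G →* Oˣ) s • latMap Φ Φ₀ ζ ζ₀ ψ v := by
  refine opVec_inj Φ₀ ζ₀ ?_
  rw [← stageOp_strElem Φ ζ (fun a => Commute.one_left (Φ a)),
    ← stageOp_strElem Φ₀ ζ₀ (fun a => Commute.one_left (Φ₀ a))]
  rw [opVec_latMap, opVec_stageOp, opVec_stageOp, opVec_latMap, hψ]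
  have key : Φ₀ (strElem ζ₀ (twistHom π (1 : G →* Oˣ) s)) = Φ₀ (pA (strElem ζ s)) := by
    induction s using MonoidAlgebra.induction_on with
    | of g =>
      show Φ₀ (strElem ζ₀ (twistHom π (1 : G →* Oˣ) (MonoidAlgebra.single g 1)))
        = Φ₀ (pA (strElem ζ (MonoidAlgebra.single g 1)))
      rw [twistHom_single, MonoidHom.one_apply, Units.val_one, one_mul, strElem_single,
        strElem_single, one_smul, one_smul]
      exact LinearMap.ext (hζ g)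
    | add x y hx hy => simp only [map_add, hx, hy]
    | smul r x hx => simp only [map_smul, hx]
  rw [key]

variable (hπ : Function.Surjective π) (hsur : Function.Surjective ψ)
  (hker : ∀ x, ψ x = 0 ↔ Φ (eigElem ζ π (1 : G →* Oˣ)) x = 0)

omit [IsLocalRing O] [IsLocalRing (MonoidAlgebra O G)] in
omit [Fintype G'] [IsLocalRing (MonoidAlgebra O G')] in
include hψ hζ hπ hsur hker in
/-- A basis over `O[G]` gives one over `O[G']`. -/
theorem exists_basis_latMap {d : ℕ} (b : Module.Basis (Fin d) (MonoidAlgebra O G) (LatMod Φ ζ)) :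
    ∃ b₀ : Module.Basis (Fin d) (MonoidAlgebra O G') (LatMod Φ₀ ζ₀),
      ∀ i, b₀ i = latMap Φ Φ₀ ζ ζ₀ ψ (b i) := by
  have hlm := latMap_smul Φ Φ₀ pA ζ ζ₀ π ψ hψ hζ
  have hli : LinearIndependent (MonoidAlgebra O G') fun i => latMap Φ Φ₀ ζ ζ₀ ψ (b i) := by
    rw [Fintype.linearIndependent_iff]
    intro c hc i
    choose s hs using fun i => twistHom_surjective π (1 : G →* Oˣ) hπ (c i)
    have h1 : ψ (opVec Φ ζ _ (∑ j, s j • b j)) = 0 := by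
      rw [← opVec_latMap Φ Φ₀ ζ ζ₀ ψ, map_sum]
      simp only [hlm, hs, hc]
      exact opVec_zero Φ₀ ζ₀
    rw [hker, ← opVec_stageOp, eigElem, stageOp_strElem, Finset.smul_sum] at h1
    have h2 : ∑ j, twistNorm π (1 : G →* Oˣ) • s j • b j = 0 :=
      opVec_inj Φ ζ (h1.trans (opVec_zero Φ ζ).symm)
    simp only [smul_smul] at h2
    have h3 := Fintype.linearIndependent_iff.mp b.linearIndependent _ h2 i
    rw [mul_comm, mul_twistNorm_eq_zero_iff π 1 hπ, mem_twistIdl, hs] at h3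
    exact h3
  refine ⟨Module.Basis.mk hli fun y _ => ?_, fun i => Module.Basis.mk_apply _ _ i⟩
  obtain ⟨x, hx⟩ := hsur (opVec Φ₀ ζ₀ _ y)
  obtain ⟨v, hv⟩ : ∃ v : LatMod Φ ζ, opVec Φ ζ _ v = x :=
    ⟨(stageRep _ (commute_strMap Φ ζ fun a => Commute.one_left (Φ a))).asModuleEquiv.symm
      (oneRange.symm x), by simp [opVec, stageVec, coe_oneRange_symm]⟩
  have hy : y = latMap Φ Φ₀ ζ ζ₀ ψ v := opVec_inj Φ₀ ζ₀ (by rw [opVec_latMap, hv, hx])
  rw [hy, ← b.sum_repr v, map_sum]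
  refine Submodule.sum_mem _ fun i _ => ?_
  rw [hlm]
  exact Submodule.smul_mem _ _ (Submodule.subset_span ⟨i, rfl⟩)

variable {Λ T T₀ : Type} [CommRing Λ] [CommRing T] [CommRing T₀]
  (ev : Λ →+* MonoidAlgebra O G)
  (hsurj : Function.Surjective fun l => twistHom π (1 : G →* Oˣ) (ev l)) {𝔞 : Ideal Λ} {d : ℕ}
  (b : Module.Basis (Fin d) (MonoidAlgebra O G) (LatMod Φ ζ))
  (b₀ : Module.Basis (Fin d) (MonoidAlgebra O G') (LatMod Φ₀ ζ₀))
  (h𝔞 : ∀ l, TW.GroupRing.augR O G' (twistHom π (1 : G →* Oˣ) (ev l)) = 0 → l ∈ 𝔞)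
  (πA : A →+* T) (hπA : Function.Surjective πA) (hπA𝔞 : ∀ l ∈ 𝔞, πA (strElem ζ (ev l)) = 0)
  {I : Ideal T}
  (hI : ∀ a, πA a ∈ I → ∀ x, (1 : Module.End O V) x = x →
    (∀ g, Φ (ζ g) x = ((1 : G →* Oˣ) g : O) • x) → Φ a x = 0)
  (hsurj₀ : Function.Surjective fun l => twistHom (MonoidHom.id G') (1 : G' →* Oˣ)
    (((twistHom π (1 : G →* Oˣ)).toRingHom.comp ev) l))
  (h𝔞₀ : ∀ l, TW.GroupRing.augR O G' (twistHom (MonoidHom.id G') (1 : G' →* Oˣ)
    (((twistHom π (1 : G →* Oˣ)).toRingHom.comp ev) l)) = 0 → l ∈ 𝔞)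
  (πA₀ : A' →+* T₀) (hπA₀ : Function.Surjective πA₀)
  (hπA𝔞₀ : ∀ l ∈ 𝔞, πA₀ (strElem ζ₀ (((twistHom π (1 : G →* Oˣ)).toRingHom.comp ev) l)) = 0)
  {I₀ : Ideal T₀}
  (hI₀ : ∀ a, πA₀ a ∈ I₀ → ∀ x, (1 : Module.End O V₀) x = x →
    (∀ g, Φ₀ (ζ₀ g) x = ((1 : G' →* Oˣ) g : O) • x) → Φ₀ a x = 0)

omit [IsLocalRing O] [IsLocalRing (MonoidAlgebra O G')] in
omit [IsLocalRing (MonoidAlgebra O G)] in
theorem latLevel_c_eq (l : Λ) :
    l ∈ (latLevel Φ ζ π (1 : G →* Oˣ) ev hsurj b h𝔞 πA hπA hπA𝔞 hI).c ↔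
      l ∈ (latLevel Φ₀ ζ₀ (MonoidHom.id G') (1 : G' →* Oˣ)
        ((twistHom π (1 : G →* Oˣ)).toRingHom.comp ev) hsurj₀ b₀ h𝔞₀ πA₀ hπA₀ hπA𝔞₀ hI₀).c := by
  rw [mem_stageLevel_c, mem_stageLevel_c, twistHom_id_one]
  rfl

omit [IsLocalRing O] [IsLocalRing (MonoidAlgebra O G)] in
omit [IsLocalRing (MonoidAlgebra O G')] in
include hψ hζ in
/-- **The two levels are congruent.** -/
theorem latLevel_iso_congr (hb : ∀ i, b₀ i = latMap Φ Φ₀ ζ ζ₀ ψ (b i)) (a : A) (i j : Fin d) :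
    (latLevel Φ ζ π (1 : G →* Oˣ) ev hsurj b h𝔞 πA hπA hπA𝔞 hI).mat a i j
      - (latLevel Φ₀ ζ₀ (MonoidHom.id G') (1 : G' →* Oˣ)
          ((twistHom π (1 : G →* Oˣ)).toRingHom.comp ev) hsurj₀ b₀ h𝔞₀ πA₀ hπA₀ hπA𝔞₀
          hI₀).mat (pA a) i j
      ∈ (latLevel Φ₀ ζ₀ (MonoidHom.id G') (1 : G' →* Oˣ)
          ((twistHom π (1 : G →* Oˣ)).toRingHom.comp ev) hsurj₀ b₀ h𝔞₀ πA₀ hπA₀ hπA𝔞₀ hI₀).c := by
  set ev₀ := (twistHom π (1 : G →* Oˣ)).toRingHom.comp ev with hev₀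
  let : Algebra Λ (MonoidAlgebra O G) := ev.toAlgebra
  let : Module Λ (LatMod Φ ζ) := Module.compHom _ ev
  have : IsScalarTower Λ (MonoidAlgebra O G) (LatMod Φ ζ) :=
    ⟨fun l s v => by
      show (ev l * s) • v = ev l • s • v
      rw [mul_smul]⟩
  let : Algebra Λ (MonoidAlgebra O G') := ev₀.toAlgebra
  let : Module Λ (LatMod Φ₀ ζ₀) := Module.compHom _ ev₀
  have : IsScalarTower Λ (MonoidAlgebra O G') (LatMod Φ₀ ζ₀) :=
    ⟨fun l s v => by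
      show (ev₀ l * s) • v = ev₀ l • s • v
      rw [mul_smul]⟩
  set h := isLevelBasis b (twistIdl π (1 : G →* Oˣ))
    (fun s => exists_sub_mem_twistIdl π (1 : G →* Oˣ) hsurj s) with hh
  set h₀ := isLevelBasis b₀ (twistIdl (MonoidHom.id G') (1 : G' →* Oˣ))
    (fun s => exists_sub_mem_twistIdl (MonoidHom.id G') (1 : G' →* Oˣ) hsurj₀ s) with hh₀
  obtain ⟨M, hM⟩ := h.exists_matrix ((endQuot (Λ := Λ) (twistIdl π (1 : G →* Oˣ))).comp
    (stageOp Φ ζ fun a => Commute.one_left (Φ a)) a)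
  have hM₀ : ∀ j, ∑ i, M i j • (Submodule.Quotient.mk (b₀ i) :
        Quot (MonoidAlgebra O G') (LatMod Φ₀ ζ₀) (twistIdl (MonoidHom.id G') (1 : G' →* Oˣ)))
      = (endQuot (Λ := Λ) (twistIdl (MonoidHom.id G') (1 : G' →* Oˣ))).comp
        (stageOp Φ₀ ζ₀ fun a => Commute.one_left (Φ₀ a)) (pA a) (Submodule.Quotient.mk (b₀ j)) := by
    intro j
    have h1 := hM j
    rw [RingHom.comp_apply, endQuot_mk] at h1
    simp only [← Submodule.Quotient.mk_smul] at h1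
    rw [← Submodule.mkQ_apply] at h1
    simp only [← Submodule.mkQ_apply] at h1
    rw [← map_sum, Submodule.mkQ_apply, Submodule.mkQ_apply, Submodule.Quotient.eq] at h1
    have hzero : ∀ v ∈ twistIdl π (1 : G →* Oˣ) • (⊤ : Submodule (MonoidAlgebra O G) (LatMod Φ ζ)),
        latMap Φ Φ₀ ζ ζ₀ ψ v = 0 := fun v hv => by
      refine Submodule.smul_induction_on hv (fun s hs w _ => ?_) fun x y hx hy => by
        rw [map_add, hx, hy, add_zero]
      rw [latMap_smul Φ Φ₀ pA ζ ζ₀ π ψ hψ hζ, (mem_twistIdl π 1).mp hs, zero_smul]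
    have h2 := hzero _ h1
    rw [map_sub, sub_eq_zero, map_sum] at h2
    have h3 : latMap Φ Φ₀ ζ ζ₀ ψ (stageOp Φ ζ (fun a => Commute.one_left (Φ a)) a (b j))
        = stageOp Φ₀ ζ₀ (fun a => Commute.one_left (Φ₀ a)) (pA a) (b₀ j) :=
      opVec_inj Φ₀ ζ₀ (by rw [opVec_latMap, opVec_stageOp, opVec_stageOp, hψ, hb, opVec_latMap])
    rw [RingHom.comp_apply, endQuot_mk, ← h3, ← h2]
    simp only [← Submodule.mkQ_apply]
    rw [map_sum]
    refine Finset.sum_congr rfl fun i _ => ?_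
    rw [show M i j • b i = ev (M i j) • b i from rfl, latMap_smul Φ Φ₀ pA ζ ζ₀ π ψ hψ hζ, ← hb]
    rfl
  have e1 : (latLevel Φ ζ π (1 : G →* Oˣ) ev hsurj b h𝔞 πA hπA hπA𝔞 hI).mat a i j - M i j ∈
      (latLevel Φ ζ π (1 : G →* Oˣ) ev hsurj b h𝔞 πA hπA hπA𝔞 hI).c :=
    Level.mat_sub_mem _ (show h.endMatrixHom _ i j = _ by rw [h.endMatrixHom_eq hM]; rfl)
  have e2 : (latLevel Φ₀ ζ₀ (MonoidHom.id G') (1 : G' →* Oˣ) ev₀ hsurj₀ b₀ h𝔞₀ πA₀ hπA₀ hπA𝔞₀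
      hI₀).mat (pA a) i j - M i j ∈ (latLevel Φ₀ ζ₀ (MonoidHom.id G') (1 : G' →* Oˣ) ev₀ hsurj₀
        b₀ h𝔞₀ πA₀ hπA₀ hπA𝔞₀ hI₀).c :=
    Level.mat_sub_mem _ (show h₀.endMatrixHom _ i j = _ by rw [h₀.endMatrixHom_eq hM₀]; rfl)
  have e3 := (latLevel_c_eq Φ Φ₀ ζ ζ₀ π ev hsurj b b₀ h𝔞 πA hπA hπA𝔞 hI hsurj₀ h𝔞₀ πA₀ hπA₀
    hπA𝔞₀ hI₀ _).mp e1
  have := sub_mem e3 e2
  rwa [sub_sub_sub_cancel_right] at this

end Fermat.Agent.IharaTW
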