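import Fermat.Agent.IharaTW.StageFacts
import Fermat.Agent.IharaTW.StageIso
import Fermat.Agent.TW.GroupRing

/-!
# The levels of a tower of lattices

A lattice free over `O[G]` gives a level over `O⟦X_1, …, X_r⟧`.  A second lattice, free over the
group ring of a group mapping onto `G` and with the first as coinvariants, gives the twin level.
-/

set_option autoImplicit false

noncomputable section

namespace Fermat.Agent.IharaTW

open IsLocalRing Fermat.Agent.LocalRing Fermat.Agent.Patching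
open Fermat.Agent.TW.GroupRing (augR augR_single)

/-- A basis of a representation gives one of the lattice it is carried to. -/
theorem exists_basis_latMod {O W V A G : Type} [CommRing O] [AddCommGroup W] [Module O W]
    [AddCommGroup V] [Module O V] [CommRing A] [Algebra O A] [CommGroup G] [Fintype G]
    (ρ : Representation O G W) (Φ : A →ₐ[O] Module.End O V) (δ : G →* A) (f : W ≃ₗ[O] V)
    (hf : ∀ g w, f (ρ g w) = Φ (δ g) (f w)) {d : ℕ}
    (b : Module.Basis (Fin d) (MonoidAlgebra O G) ρ.asModule) :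
    ∃ b' : Module.Basis (Fin d) (MonoidAlgebra O G) (LatMod Φ δ),
      ∀ i, opVec Φ δ _ (b' i) = f (ρ.asModuleEquiv (b i)) := by
  let σ := stageRep (strMap Φ δ) (commute_strMap Φ δ fun a => Commute.one_left (Φ a))
  let φ : ρ.asModule ≃ₗ[O] σ.asModule :=
    ρ.asModuleEquiv ≪≫ₗ f ≪≫ₗ oneRange.symm ≪≫ₗ σ.asModuleEquiv.symm
  let ψ : ρ.asModule ≃ₗ[MonoidAlgebra O G] LatMod Φ δ :=
    { φ.toAddEquiv with
      map_smul' := fun s v => asModule_linear φ.toLinearMap (fun g w => by
        refine σ.asModuleEquiv.injective (Subtype.ext ?_)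
        rw [σ.single_smul, one_smul, ρ.single_smul, one_smul]
        simp only [φ, LinearEquiv.coe_coe, LinearEquiv.trans_apply, LinearEquiv.apply_symm_apply]
        exact hf g _) s v }
  refine ⟨b.map ψ, fun i => ?_⟩
  rw [Module.Basis.map_apply]
  simp [ψ, φ, opVec, stageVec, σ, coe_oneRange_symm]

/-- Maps out of the coefficients agreeing on constants and variables are equal. -/
theorem coeffMap_ext {σ : Type} [Finite σ] {O : Type} [CommRing O] [IsDomain O]
    [IsDiscreteValuationRing O] {G : Type} [CommGroup G] [Fintype G]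
    [IsLocalRing (MonoidAlgebra O G)] {e e' : MvPowerSeries σ O →+* MonoidAlgebra O G} (g : σ → G)
    (hC : ∀ c, e (MvPowerSeries.C c) = algebraMap O (MonoidAlgebra O G) c)
    (hX : ∀ i, e (MvPowerSeries.X i) = MonoidAlgebra.single (g i) 1 - 1)
    (hC' : ∀ c, e' (MvPowerSeries.C c) = algebraMap O (MonoidAlgebra O G) c)
    (hX' : ∀ i, e' (MvPowerSeries.X i) = MonoidAlgebra.single (g i) 1 - 1) : e = e' := by
  have : IsNoetherianRing (MonoidAlgebra O G) := IsNoetherianRing.of_finite O _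
  have hm : ∀ x : MonoidAlgebra O G, augR O G x ∈ maximalIdeal O →
      x ∈ maximalIdeal (MonoidAlgebra O G) := fun x hx => by
    rwa [← augOver_maximalIdeal, mem_augOver]
  refine RingHom.ext fun f => sub_eq_zero.mp (Ideal.mem_bot.mp ?_)
  exact sub_mem_of_generators e e' ⊥ (fun c => by simp [hC, hC']) (fun i => by simp [hX, hX'])
    (fun c hc => hm _ (by simpa [hC, augR_single] using hc))
    (fun i => hm _ (by simp [hX, augR_single]))
    (fun c hc => hm _ (by simpa [hC', augR_single] using hc))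
    (fun i => hm _ (by simp [hX', augR_single])) f

section Aug

variable {O : Type} [CommRing O] {G G' A T : Type} [CommGroup G] [CommGroup G'] [CommRing A]
  [Algebra O A] [CommRing T] (ζ : G →* A) (π : G →* G') (χ : G →* Oˣ) (πA : A →+* T)

/-- A structure map landing in a character is the twisted augmentation. -/
theorem map_strElem_of_char (h : ∀ g, πA (ζ g) = πA (algebraMap O A (χ g : O)))
    (s : MonoidAlgebra O G) :
    πA (strElem ζ s) = πA (algebraMap O A (augR O G' (twistHom π χ s))) := by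
  induction s using MonoidAlgebra.induction_on with
  | of g =>
    show πA (strElem ζ (MonoidAlgebra.single g 1))
      = πA (algebraMap O A (augR O G' (twistHom π χ (MonoidAlgebra.single g 1))))
    rw [strElem_single, one_smul, h, twistHom_single, augR_single, one_mul]
  | add x y hx hy => simp only [map_add, hx, hy]
  | smul r x hx => simp only [Algebra.smul_def, map_mul, AlgHom.commutes, hx]; rfl

end Aug

theorem sub_mem_sup_of_congr {R : Type} [CommRing R] {x y z : R} {J c₁ c₂ c₃ : Ideal R}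
    (hc : ∀ l, l ∈ c₁ ↔ l ∈ c₂) (hxy : y - x ∈ c₂) (hyz : y - z ∈ J ⊔ c₁ ⊔ c₃) :
    x - z ∈ J ⊔ c₂ ⊔ c₃ := by
  rw [show c₁ = c₂ from Ideal.ext hc] at hyz
  simpa using sub_mem hyz (Ideal.mem_sup_left (Ideal.mem_sup_right hxy) : y - x ∈ J ⊔ c₂ ⊔ c₃)

section One

variable {O : Type} [CommRing O] [IsDomain O] [IsDiscreteValuationRing O] [CharZero O] {r : ℕ}
  {G : Type} [CommGroup G] [Fintype G] [IsLocalRing (MonoidAlgebra O G)] {A T V : Type}
  [CommRing A] [Algebra O A] [CommRing T] [AddCommGroup V] [Module O V]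
  (Φ : A →ₐ[O] Module.End O V) (ζ : G →* A) (ev : MvPowerSeries (Fin r) O →+* MonoidAlgebra O G)
  (g : Fin r → G) (hC : ∀ c, ev (MvPowerSeries.C c) = algebraMap O (MonoidAlgebra O G) c)
  (hX : ∀ i, ev (MvPowerSeries.X i) = MonoidAlgebra.single (g i) 1 - 1)
  (hgen : Subgroup.closure (Set.range g) = ⊤) {d : ℕ}
  (b : Module.Basis (Fin d) (MonoidAlgebra O G) (LatMod Φ ζ)) (πA : A →+* T)
  (hπA : Function.Surjective πA) (hπζ : ∀ x, πA (ζ x) = 1) {I : Ideal T}
  (hI : ∀ a, πA a ∈ I → ∀ x, (∀ h, Φ (ζ h) x = x) → Φ a x = 0)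

/-- **The level of a stage.** -/
def twLevel : Level (MvPowerSeries (Fin r) O) A T
    (RingHom.ker (MvPowerSeries.constantCoeff : MvPowerSeries (Fin r) O →+* O)) I d :=
  latLevel Φ ζ (MonoidHom.id G) (1 : G →* Oˣ) ev
    (twistHom_ev_surjective ev g hC hX _ _ (fun _ => rfl) hgen) b
    (fun l hl => RingHom.mem_ker.mpr
      ((augR_twistHom_ev ev g hC hX _ _ (fun _ => rfl) l).symm.trans hl))
    πA hπA (fun _ hl => strElem_ev_eq_zero ev g hC hX ζ πA hπζ (RingHom.mem_ker.mp hl))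
    fun a ha x _ hx => hI a ha x fun h => by rw [hx h, MonoidHom.one_apply, Units.val_one, one_smul]

omit [IsLocalRing (MonoidAlgebra O G)] in
theorem mem_twLevel_c (l : MvPowerSeries (Fin r) O) :
    l ∈ (twLevel Φ ζ ev g hC hX hgen b πA hπA hπζ hI).c ↔ ev l = 0 := by
  rw [twLevel, mem_stageLevel_c, twistHom_id_one]

omit [IsLocalRing (MonoidAlgebra O G)] in
theorem twLevel_c_le {n : ℕ} (h : RingHom.ker ev ≤ maximalIdeal (MvPowerSeries (Fin r) O) ^ n) :
    (twLevel Φ ζ ev g hC hX hgen b πA hπA hπζ hI).c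
      ≤ maximalIdeal (MvPowerSeries (Fin r) O) ^ n := fun l hl =>
  h (RingHom.mem_ker.mpr ((mem_twLevel_c Φ ζ ev g hC hX hgen b πA hπA hπζ hI l).mp hl))

omit [IsLocalRing (MonoidAlgebra O G)] in
theorem twLevel_scalar (c : O) :
    (twLevel Φ ζ ev g hC hX hgen b πA hπA hπζ hI).act (algebraMap O A c) =
      Matrix.scalar (Fin d) (Ideal.Quotient.mk (twLevel Φ ζ ev g hC hX hgen b πA hπA hπζ hI).c
        (MvPowerSeries.C c)) :=
  by
  unfold twLevel latLevel
  exact stageLevel_act_scalar (O := O) (hl := hC c) ..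

omit [IsLocalRing (MonoidAlgebra O G)] in
/-- The level acts faithfully. -/
theorem twLevel_act_eq_zero_iff (a : A) :
    (twLevel Φ ζ ev g hC hX hgen b πA hπA hπζ hI).act a = 0 ↔ Φ a = 0 := by
  rw [twLevel, stageLevel_act_eq_zero_iff _ _ _ _ _ _ _ _ Function.surjective_id]
  have h1 : eigElem ζ (MonoidHom.id G) (1 : G →* Oˣ) = (1 : A) := by
    rw [eigElem, show twistNorm (MonoidHom.id G) (1 : G →* Oˣ) = (1 : MonoidAlgebra O G) from ?_,
      map_one]
    classical
    rw [twistNorm, Finset.sum_eq_single (1 : G)]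
    · simp [MonoidAlgebra.one_def]
    · intro h _ hh
      simp [hh]
    · simp
  rw [h1, map_one]
  exact ⟨fun h => LinearMap.ext fun x => h x rfl, fun h x _ => by rw [h]; rfl⟩

omit [IsLocalRing (MonoidAlgebra O G)] in
/-- **Vanishing.** Divisors of an injectively acting element are no zero divisors. -/
theorem twLevel_act_eq_zero_of_mul {det x z y : A} (hinj : ∀ v, Φ det v = 0 → v = 0)
    (hdet : det = x * z) (hy : (twLevel Φ ζ ev g hC hX hgen b πA hπA hπζ hI).act (y * x) = 0) :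
    (twLevel Φ ζ ev g hC hX hgen b πA hπA hπζ hI).act y = 0 := by
  rw [twLevel_act_eq_zero_iff] at hy ⊢
  refine LinearMap.ext fun v => hinj _ ?_
  rw [← Module.End.mul_apply, ← map_mul, hdet, show x * z * y = z * (y * x) by ring, map_mul, hy,
    mul_zero, LinearMap.zero_apply]

variable {V' : Type} [AddCommGroup V'] [Module O V'] (Φ' : A →ₐ[O] Module.End O V') {d' : ℕ}
  (b' : Module.Basis (Fin d') (MonoidAlgebra O G) (LatMod Φ' ζ)) {I' : Ideal T}
  (hI' : ∀ a, πA a ∈ I' → ∀ x, (∀ h, Φ' (ζ h) x = x) → Φ' a x = 0)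

/-- **Flip between two stages.** -/
theorem nonempty_flipLevel_twLevel (F : (Fin 2 → V') →ₗ[O] V) (G₂ : V →ₗ[O] Fin 2 → V')
    (hF : ∀ a y, F (fun i => Φ' a (y i)) = Φ a (F y))
    (hG : ∀ a x i, G₂ (Φ a x) i = Φ' a (G₂ x i))
    {δ : Matrix (Fin 2) (Fin 2) A}
    (hGF : ∀ y i, G₂ (F y) i = Φ' (δ i 0) (y 0) + Φ' (δ i 1) (y 1))
    {K : Ideal A} (hK : ∀ k ∈ K, ∀ z, G₂ z = 0 → Φ k z = 0)
    (hinj : ∀ y, F y ∈ maximalIdeal O • (⊤ : Submodule O V) →
      ∀ i, y i ∈ maximalIdeal O • (⊤ : Submodule O V'))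
    (hsur : ∀ y : Fin 2 → V', ∃ z, ∀ i, ∃ d ∈ maximalIdeal O • (⊤ : Submodule O V'),
      G₂ z i = y i + d) :
    Nonempty (FlipLevel (twLevel Φ ζ ev g hC hX hgen b πA hπA hπζ hI)
      (twLevel Φ' ζ ev g hC hX hgen b' πA hπA hπζ hI') K δ) :=
  by
  unfold twLevel
  exact nonempty_flipLevel_lat (F := F) (G₂ := G₂) (hF := hF) (hG := hG) (hGF := hGF) (hK := hK)
    (hinj := hinj) (hsur := hsur) ..

end One

section Twin

variable {O : Type} [CommRing O] [IsDomain O] [IsDiscreteValuationRing O] [CharZero O] {r : ℕ}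
  {G GT : Type} [CommGroup G] [Fintype G] [IsLocalRing (MonoidAlgebra O G)] [CommGroup GT]
  [Fintype GT] [IsLocalRing (MonoidAlgebra O GT)] {A AT AX T TX V VT : Type} [CommRing A]
  [Algebra O A] [CommRing AT] [Algebra O AT] [CommRing AX] [Algebra O AX] [CommRing T] [CommRing TX]
  [AddCommGroup V] [Module O V] [AddCommGroup VT] [Module O VT]
  (ΦT : AT →ₐ[O] Module.End O VT) (ζT : GT →* AT) (π : GT →* G) (χ : GT →* Oˣ)
  (evT : MvPowerSeries (Fin r) O →+* MonoidAlgebra O GT) (gT : Fin r → GT)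
  (hCT : ∀ c, evT (MvPowerSeries.C c) = algebraMap O (MonoidAlgebra O GT) c)
  (hXT : ∀ i, evT (MvPowerSeries.X i) = MonoidAlgebra.single (gT i) 1 - 1)

omit [IsDomain O] [IsDiscreteValuationRing O] [CharZero O] [Fintype G]
  [IsLocalRing (MonoidAlgebra O G)] [Fintype GT] [IsLocalRing (MonoidAlgebra O GT)] in
include hCT in
/-- The coefficients of stage `0` under those of the twin: constants. -/
theorem twistHom_one_evT_C (c : O) :
    ((twistHom π (1 : GT →* Oˣ)).toRingHom.comp evT) (MvPowerSeries.C c)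
      = algebraMap O (MonoidAlgebra O G) c := by
  rw [RingHom.comp_apply, hCT]
  exact (twistHom π (1 : GT →* Oˣ)).commutes c

omit [IsDomain O] [IsDiscreteValuationRing O] [CharZero O] [Fintype G]
  [IsLocalRing (MonoidAlgebra O G)] [Fintype GT] [IsLocalRing (MonoidAlgebra O GT)] in
include hXT in
/-- The coefficients of stage `0` under those of the twin: variables. -/
theorem twistHom_one_evT_X (i : Fin r) :
    ((twistHom π (1 : GT →* Oˣ)).toRingHom.comp evT) (MvPowerSeries.X i)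
      = MonoidAlgebra.single (π (gT i)) 1 - 1 := by
  rw [RingHom.comp_apply, hXT]
  show twistHom π (1 : GT →* Oˣ) (MonoidAlgebra.single (gT i) 1 - 1) = _
  rw [map_sub, map_one, twistHom_single, MonoidHom.one_apply, Units.val_one, one_mul]

variable (hπ : Function.Surjective π) (hgenT : Subgroup.closure (Set.range fun i => π (gT i)) = ⊤)
  (hχT : ∀ i, χ (gT i) = 1) {d : ℕ}
  (bT : Module.Basis (Fin d) (MonoidAlgebra O GT) (LatMod ΦT ζT))
  (pX : AT →ₐ[O] AX) (hpX : Function.Surjective pX)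
  (hkX : ∀ a, pX a = 0 → ∀ x, ΦT a (ΦT (eigElem ζT π χ) x) = 0)
  (πX : AX →+* TX) (hπX : Function.Surjective πX)
  (hπζX : ∀ h, πX (pX (ζT h)) = πX (algebraMap O AX (χ h : O))) {IX : Ideal TX}
  (hIX : ∀ a, πX (pX a) ∈ IX → ∀ x, (∀ h, ΦT (ζT h) x = (χ h : O) • x) → ΦT a x = 0)

/-- The level of the character over the algebra of the twin. -/
abbrev chiLevel : Level (MvPowerSeries (Fin r) O) AT TX
    (RingHom.ker (MvPowerSeries.constantCoeff : MvPowerSeries (Fin r) O →+* O)) IX d :=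
  latLevel ΦT ζT π χ evT (twistHom_ev_surjective evT gT hCT hXT π χ hχT hgenT) bT
    (fun l hl => RingHom.mem_ker.mpr
      ((augR_twistHom_ev evT gT hCT hXT π χ hχT l).symm.trans hl))
    (πX.comp pX.toRingHom) (hπX.comp hpX)
    (fun l hl => by
      rw [map_strElem_of_char ζT π χ (πX.comp pX.toRingHom) (fun h => by
          rw [RingHom.comp_apply, RingHom.comp_apply]
          exact (hπζX h).trans (congrArg πX (pX.commutes _).symm)) (evT l),
        augR_twistHom_ev evT gT hCT hXT π χ hχT, RingHom.mem_ker.mp hl, map_zero, map_zero])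
    fun a ha x _ hx => hIX a ha x hx

omit [IsLocalRing (MonoidAlgebra O G)] [IsLocalRing (MonoidAlgebra O GT)] in
include hπ hkX in
theorem ker_le_chiLevel_act :
    RingHom.ker pX.toRingHom ≤ RingHom.ker (chiLevel ΦT ζT π χ evT gT hCT hXT hgenT hχT bT pX hpX
      πX hπX hπζX hIX).act := fun a ha => by
  rw [RingHom.mem_ker, chiLevel, stageLevel_act_eq_zero_iff _ _ _ _ _ _ _ _ hπ]
  exact fun x _ => hkX a (RingHom.mem_ker.mp ha) x

/-- **The twin level.** -/
def twinLevel : Level (MvPowerSeries (Fin r) O) AX TX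
    (RingHom.ker (MvPowerSeries.constantCoeff : MvPowerSeries (Fin r) O →+* O)) IX d :=
  descLevel (chiLevel ΦT ζT π χ evT gT hCT hXT hgenT hχT bT pX hpX πX hπX hπζX hIX) pX.toRingHom
    hpX (ker_le_chiLevel_act ΦT ζT π χ evT gT hCT hXT hπ hgenT hχT bT pX hpX hkX πX hπX hπζX hIX)
    πX rfl

omit [CharZero O] [Fintype GT] [IsLocalRing (MonoidAlgebra O GT)] in
include hχT hCT hXT in
/-- The twist by a character trivial on the variables is the trivial one on the coefficients. -/
theorem twistHom_evT_eq (l : MvPowerSeries (Fin r) O) :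
    twistHom π χ (evT l) = twistHom π (1 : GT →* Oˣ) (evT l) :=
  RingHom.congr_fun (coeffMap_ext (e := (twistHom π χ).toRingHom.comp evT)
    (e' := (twistHom π (1 : GT →* Oˣ)).toRingHom.comp evT) (fun i => π (gT i))
    (fun c => by
      rw [RingHom.comp_apply, hCT]
      exact (twistHom π χ).commutes c)
    (fun i => by
      rw [RingHom.comp_apply, hXT]
      show twistHom π χ (MonoidAlgebra.single (gT i) 1 - 1) = _
      rw [map_sub, map_one, twistHom_single, hχT, Units.val_one, one_mul])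
    (twistHom_one_evT_C π evT hCT) (twistHom_one_evT_X π evT gT hXT)) l

omit [IsLocalRing (MonoidAlgebra O GT)] in
theorem twinLevel_c_le {n : ℕ}
    (h : RingHom.ker ((twistHom π (1 : GT →* Oˣ)).toRingHom.comp evT)
      ≤ maximalIdeal (MvPowerSeries (Fin r) O) ^ n) :
    (twinLevel ΦT ζT π χ evT gT hCT hXT hπ hgenT hχT bT pX hpX hkX πX hπX hπζX hIX).c
      ≤ maximalIdeal (MvPowerSeries (Fin r) O) ^ n := fun l hl => by
  have hl' : twistHom π χ (evT l) = 0 := hl
  rw [twistHom_evT_eq π χ evT gT hCT hXT hχT] at hl'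
  exact h (RingHom.mem_ker.mpr hl')

omit [IsLocalRing (MonoidAlgebra O G)] [IsLocalRing (MonoidAlgebra O GT)] in
theorem twinLevel_scalar (c : O) :
    (twinLevel ΦT ζT π χ evT gT hCT hXT hπ hgenT hχT bT pX hpX hkX πX hπX hπζX hIX).act
      (algebraMap O AX c) = Matrix.scalar (Fin d) (Ideal.Quotient.mk
        (twinLevel ΦT ζT π χ evT gT hCT hXT hπ hgenT hχT bT pX hpX hkX πX hπX hπζX hIX).c
          (MvPowerSeries.C c)) := by
  rw [← pX.commutes c, twinLevel]
  refine (descLevel_act _ _ _ _ _ _ _).trans ?_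
  exact stageLevel_act_scalar _ _ _ _ _ _ _ _ _ _ _ _ _ _ _ c (hCT c)

variable (Φ : A →ₐ[O] Module.End O V) (ζ : G →* A) (pU : AT →ₐ[O] A) (ψ : VT →ₗ[O] V)
  (hψ : ∀ a x, ψ (ΦT a x) = Φ (pU a) (ψ x)) (hζ : ∀ h x, Φ (ζ (π h)) x = Φ (pU (ζT h)) x)
  (b₀ : Module.Basis (Fin d) (MonoidAlgebra O G) (LatMod Φ ζ))
  (hb₀ : ∀ i, b₀ i = latMap ΦT Φ ζT ζ ψ (bT i))
  (πA : A →+* T) (hπA : Function.Surjective πA) (hπζ : ∀ x, πA (ζ x) = 1) {I : Ideal T}
  (hI : ∀ a, πA a ∈ I → ∀ x, (∀ h, Φ (ζ h) x = x) → Φ a x = 0)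

omit [IsLocalRing (MonoidAlgebra O GT)] in
omit [IsLocalRing (MonoidAlgebra O G)] in
include hψ hζ hb₀ in
/-- **Congruence of stage `0` and its twin.** -/
theorem twLevel_twinLevel_congr {ϖ : O} (hχ : ∀ h, ϖ ∣ (χ h : O) - 1) (a : AT) (i j : Fin d) :
    (twLevel Φ ζ ((twistHom π (1 : GT →* Oˣ)).toRingHom.comp evT) (fun i => π (gT i))
        (twistHom_one_evT_C π evT hCT) (twistHom_one_evT_X π evT gT hXT) hgenT b₀ πA hπA hπζ
        hI).mat (pU a) i j
      - (twinLevel ΦT ζT π χ evT gT hCT hXT hπ hgenT hχT bT pX hpX hkX πX hπX hπζX hIX).mat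
          (pX a) i j ∈
      Ideal.span {MvPowerSeries.C ϖ}
        ⊔ (twLevel Φ ζ ((twistHom π (1 : GT →* Oˣ)).toRingHom.comp evT) (fun i => π (gT i))
          (twistHom_one_evT_C π evT hCT) (twistHom_one_evT_X π evT gT hXT) hgenT b₀ πA hπA hπζ hI).c
        ⊔ (twinLevel ΦT ζT π χ evT gT hCT hXT hπ hgenT hχT bT pX hpX hkX πX hπX hπζX hIX).c := by
  -- the trivial character over the algebra of the twin, with the largest unpatched quotient
  set 𝔞 := RingHom.ker (MvPowerSeries.constantCoeff : MvPowerSeries (Fin r) O →+* O)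
  set K : Ideal AT := Ideal.span ((fun l => strElem ζT (evT l)) '' (𝔞 : Set (MvPowerSeries _ O)))
  have h1T : ∀ i, (1 : GT →* Oˣ) (gT i) = 1 := fun _ => rfl
  have hsurj1 := twistHom_ev_surjective evT gT hCT hXT π (1 : GT →* Oˣ) h1T hgenT
  have h𝔞1 : ∀ l, augR O G (twistHom π (1 : GT →* Oˣ) (evT l)) = 0 → l ∈ 𝔞 := fun l hl =>
    RingHom.mem_ker.mpr ((augR_twistHom_ev evT gT hCT hXT π (1 : GT →* Oˣ) h1T l).symm.trans hl)
  have hK : ∀ l ∈ 𝔞, Ideal.Quotient.mk K (strElem ζT (evT l)) = 0 := fun l hl =>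
    Ideal.Quotient.eq_zero_iff_mem.mpr (Ideal.subset_span ⟨l, hl, rfl⟩)
  have hIK : ∀ a, Ideal.Quotient.mk K a ∈ (⊥ : Ideal (AT ⧸ K)) → ∀ x,
      (1 : Module.End O VT) x = x →
        (∀ h, ΦT (ζT h) x = ((1 : GT →* Oˣ) h : O) • x) → ΦT a x = 0 := by
    intro a ha x _ hx
    rw [Submodule.mem_bot, Ideal.Quotient.eq_zero_iff_mem] at ha
    have key : ∀ s, ΦT (strElem ζT s) x
        = augR O G (twistHom π (1 : GT →* Oˣ) s) • x := fun s => by
      induction s using MonoidAlgebra.induction_on with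
      | of h =>
        show ΦT (strElem ζT (MonoidAlgebra.single h 1)) x
          = augR O G (twistHom π (1 : GT →* Oˣ) (MonoidAlgebra.single h 1)) • x
        rw [strElem_single, one_smul, hx, twistHom_single, augR_single, one_mul]
      | add s t hs ht => simp only [map_add, LinearMap.add_apply, hs, ht, add_smul]
      | smul c s hs => simp only [map_smul, LinearMap.smul_apply, hs, smul_assoc]
    refine Submodule.span_induction ?_ (by simp) (fun u v _ _ hu hv => by
      rw [map_add, LinearMap.add_apply, hu, hv, add_zero]) (fun c u _ hu => by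
      rw [smul_eq_mul, map_mul, Module.End.mul_apply, hu, map_zero]) ha
    rintro _ ⟨l, hl, rfl⟩
    rw [key, augR_twistHom_ev evT gT hCT hXT π (1 : GT →* Oˣ) h1T, RingHom.mem_ker.mp hl, zero_smul]
  have hL1 := latLevel_iso_congr ΦT Φ pU ζT ζ π ψ hψ hζ evT hsurj1 bT b₀ h𝔞1
    (Ideal.Quotient.mk K) Ideal.Quotient.mk_surjective hK hIK
    (twistHom_ev_surjective _ (fun i => π (gT i)) (twistHom_one_evT_C π evT hCT)
      (twistHom_one_evT_X π evT gT hXT) _ _ (fun _ => rfl) hgenT)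
    (fun l hl => RingHom.mem_ker.mpr ((augR_twistHom_ev _ (fun i => π (gT i))
      (twistHom_one_evT_C π evT hCT) (twistHom_one_evT_X π evT gT hXT) _ _ (fun _ => rfl)
        l).symm.trans hl))
    πA hπA (fun _ hl => strElem_ev_eq_zero _ (fun i => π (gT i)) (twistHom_one_evT_C π evT hCT)
      (twistHom_one_evT_X π evT gT hXT) ζ πA hπζ (RingHom.mem_ker.mp hl))
    (I₀ := I) (fun a ha x _ hx => hI a ha x fun h => by
      rw [hx h, MonoidHom.one_apply, Units.val_one, one_smul]) hb₀ a i j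
  have hL2 := stageLevel_congr ΦT ζT (e := (1 : Module.End O VT))
    (fun a => Commute.one_left (ΦT a)) π (1 : GT →* Oˣ) evT hsurj1 IsIdempotentElem.one bT h𝔞1
    (Ideal.Quotient.mk K) Ideal.Quotient.mk_surjective hK hIK (χ' := χ)
    (twistHom_ev_surjective evT gT hCT hXT π χ hχT hgenT)
    (fun l hl => RingHom.mem_ker.mpr
      ((augR_twistHom_ev evT gT hCT hXT π χ hχT l).symm.trans hl))
    (πX.comp pX.toRingHom) (hπX.comp hpX)
    (fun l hl => by
      rw [map_strElem_of_char ζT π χ (πX.comp pX.toRingHom) (fun h => by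
          rw [RingHom.comp_apply, RingHom.comp_apply]
          exact (hπζX h).trans (congrArg πX (pX.commutes _).symm)) (evT l),
        augR_twistHom_ev evT gT hCT hXT π χ hχT, RingHom.mem_ker.mp hl, map_zero, map_zero])
    (I' := IX) (fun a ha x _ hx => hIX a ha x hx) hπ (MvPowerSeries.C ϖ) (hCT ϖ)
    (fun h => by simpa using hχ h) a i j
  have hm : (twinLevel ΦT ζT π χ evT gT hCT hXT hπ hgenT hχT bT pX hpX hkX πX hπX hπζX hIX).mat
      (pX a) = (chiLevel ΦT ζT π χ evT gT hCT hXT hgenT hχT bT pX hpX πX hπX hπζX hIX).mat a :=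
    descLevel_mat (chiLevel ΦT ζT π χ evT gT hCT hXT hgenT hχT bT pX hpX πX hπX hπζX hIX)
      pX.toRingHom hpX _ πX rfl a
  rw [hm]
  have hcc : ∀ l, l ∈ (latLevel ΦT ζT π (1 : GT →* Oˣ) evT hsurj1 bT h𝔞1 (Ideal.Quotient.mk K)
      Ideal.Quotient.mk_surjective hK hIK).c ↔
      l ∈ (twLevel Φ ζ ((twistHom π (1 : GT →* Oˣ)).toRingHom.comp evT) (fun i => π (gT i))
        (twistHom_one_evT_C π evT hCT) (twistHom_one_evT_X π evT gT hXT)
        hgenT b₀ πA hπA hπζ hI).c :=
    fun l => by rw [mem_stageLevel_c, mem_twLevel_c]; rfl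
  exact sub_mem_sup_of_congr hcc hL1 hL2

end Twin

end Fermat.Agent.IharaTW
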