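import Fermat.Agent.Patching.Module

/-!
# Levels along surjections

A level over `A` whose action and projection factor through a surjection `A → A'` is a level over
`A'`, with the same matrices.
-/

set_option autoImplicit false

noncomputable section

namespace Fermat.Agent.IharaTW

open Fermat.Agent.Patching

variable {Λ A A' R : Type*} [CommRing Λ] [CommRing A] [CommRing A'] [CommRing R] {𝔞 : Ideal Λ}
  {I : Ideal R} {d : ℕ} (L : Level Λ A R 𝔞 I d) (p : A →+* A') (hp : Function.Surjective p)
  (hker : RingHom.ker p ≤ RingHom.ker L.act) (π : A' →+* R) (hπ : π.comp p = L.π)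

/-- The level over the quotient. -/
def descLevel : Level Λ A' R 𝔞 I d where
  c := L.c
  act := p.liftOfSurjective hp ⟨L.act, hker⟩
  π := π
  π_surjective x := by
    obtain ⟨a, ha⟩ := L.π_surjective x
    exact ⟨p a, (RingHom.congr_fun hπ a).trans ha⟩
  exists_scalar l := by
    obtain ⟨a, ha, ha0⟩ := L.exists_scalar l
    exact ⟨p a, (p.liftOfRightInverse_comp_apply _ _ _ a).trans ha,
      fun h => (RingHom.congr_fun hπ a).trans (ha0 h)⟩
  entry_mem a' ha i j := by
    obtain ⟨a, rfl⟩ := hp a'
    rw [RingHom.liftOfSurjective, p.liftOfRightInverse_comp_apply]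
    exact L.entry_mem a (by rw [← hπ]; exact ha) i j

theorem descLevel_act (a : A) : (descLevel L p hp hker π hπ).act (p a) = L.act a :=
  p.liftOfRightInverse_comp_apply _ _ _ a

theorem descLevel_mat (a : A) : (descLevel L p hp hker π hπ).mat (p a) = L.mat a := by
  funext i j
  exact congrArg (Function.surjInv (f := Ideal.Quotient.mk L.c) Ideal.Quotient.mk_surjective)
    (congrFun (congrFun (descLevel_act L p hp hker π hπ a) i) j)

/-- An endomorphism with zero matrix in a level basis is zero. -/
theorem endMatrixHom_eq_zero_iff {N : Type*} [AddCommGroup N] [Module Λ N] {c : Ideal Λ}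
    {b : Fin d → N} (h : IsLevelBasis c b) {T : Module.End Λ N} :
    h.endMatrixHom T = 0 ↔ T = 0 := by
  refine ⟨fun hT => ?_, fun hT => by rw [hT, map_zero]⟩
  obtain ⟨M, hM⟩ := h.exists_matrix T
  rw [h.endMatrixHom_eq hM] at hT
  refine LinearMap.ext_on_range h.span_eq fun j => ?_
  rw [LinearMap.zero_apply, ← hM j]
  exact (h.rel _).mpr fun i => Ideal.Quotient.eq_zero_iff_mem.mp (congrFun (congrFun hT i) j)

end Fermat.Agent.IharaTW
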