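import Fermat.Agent.IharaTW.PatchMap
import Fermat.Agent.Patching.Module

/-!
# Degeneracy data at one level from module maps

Linear maps between modules free over `Λ ⧸ c` that are injective, resp. surjective, modulo the
maximal ideal give the matrices of a `FlipLevel`.
-/

set_option autoImplicit false

noncomputable section

open IsLocalRing Matrix

namespace Fermat.Agent.IharaTW

open Fermat.Agent.Patching

section Inverse

variable {Λ : Type*} [CommRing Λ] [IsLocalRing Λ] {ι κ : Type*} [Fintype ι] [Fintype κ]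
  [DecidableEq ι] [DecidableEq κ]

/-- A square matrix which is `1` modulo the maximal ideal is invertible. -/
theorem isUnit_det_of_sub_one_mem {M : Matrix ι ι Λ} (h : ∀ i j, (M - 1) i j ∈ maximalIdeal Λ) :
    IsUnit M.det := by
  refine (isUnit_map_iff (residue Λ) _).mp ?_
  have h1 : M.map (residue Λ) = 1 := by
    ext i j
    have := h i j
    rw [← Ideal.Quotient.eq_zero_iff_mem, Matrix.sub_apply, map_sub, sub_eq_zero] at this
    rw [Matrix.map_apply]
    exact this.trans (by by_cases hij : i = j <;> simp [Matrix.one_apply, hij] <;> rfl)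
  rw [RingHom.map_det, RingHom.mapMatrix_apply, h1, Matrix.det_one]
  exact isUnit_one

/-- A matrix injective modulo the maximal ideal has a left inverse. -/
theorem exists_left_inverse {X : Matrix ι κ Λ}
    (h : ∀ z : κ → Λ, (∀ i, (X *ᵥ z) i ∈ maximalIdeal Λ) → ∀ j, z j ∈ maximalIdeal Λ) :
    ∃ C : Matrix κ ι Λ, C * X = 1 := by
  set Xb := X.map (residue Λ)
  have hinj : LinearMap.ker (Matrix.toLin' Xb) = ⊥ := by
    refine LinearMap.ker_eq_bot'.mpr fun w hw => ?_
    obtain ⟨z, rfl⟩ : ∃ z : κ → Λ, (fun j => residue Λ (z j)) = w :=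
      ⟨fun j => (residue_surjective (w j)).choose,
        funext fun j => (residue_surjective (w j)).choose_spec⟩
    funext j
    refine (residue_eq_zero_iff _).mpr (h z (fun i => ?_) j)
    rw [← residue_eq_zero_iff]
    have := congrFun hw i
    rw [Matrix.toLin'_apply, Pi.zero_apply] at this
    rw [← this]
    simp [Matrix.mulVec, dotProduct, Xb]
  obtain ⟨l, hl⟩ := (Matrix.toLin' Xb).exists_leftInverse_of_injective hinj
  set Yb := LinearMap.toMatrix' l
  have hY : Yb * Xb = 1 := by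
    apply Matrix.toLin'.injective
    rw [Matrix.toLin'_mul, Matrix.toLin'_toMatrix', Matrix.toLin'_one, hl]
  set Y : Matrix κ ι Λ := Matrix.of fun i j => (residue_surjective (Yb i j)).choose
  have hYr : Y.map (residue Λ) = Yb :=
    Matrix.ext fun i j => (residue_surjective (Yb i j)).choose_spec
  have hu : IsUnit (Y * X).det := isUnit_det_of_sub_one_mem fun i j => by
    rw [← Ideal.Quotient.eq_zero_iff_mem, Matrix.sub_apply, map_sub, sub_eq_zero]
    have e : (Y * X).map (residue Λ) = 1 := by rw [Matrix.map_mul, hYr, hY]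
    have := congrFun (congrFun e i) j
    rw [Matrix.map_apply] at this
    exact this.trans (by by_cases hij : i = j <;> simp [Matrix.one_apply, hij] <;> rfl)
  exact ⟨(Y * X)⁻¹ * Y, by rw [Matrix.mul_assoc, Matrix.nonsing_inv_mul _ hu]⟩

omit [DecidableEq κ] in
/-- A matrix surjective modulo the maximal ideal has a right inverse. -/
theorem exists_right_inverse {X : Matrix ι κ Λ}
    (h : ∀ i, ∃ z : κ → Λ, ∀ j, (X *ᵥ z) j - (if j = i then 1 else 0) ∈ maximalIdeal Λ) :
    ∃ E : Matrix κ ι Λ, X * E = 1 := by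
  choose z hz using h
  set Y : Matrix κ ι Λ := Matrix.of fun r i => z i r
  have hu : IsUnit (X * Y).det := isUnit_det_of_sub_one_mem fun j i => by
    simpa [Matrix.mul_apply, Matrix.mulVec, dotProduct, Y, Matrix.one_apply] using hz i j
  exact ⟨Y * (X * Y)⁻¹, by rw [← Matrix.mul_assoc, Matrix.mul_nonsing_inv _ hu]⟩

end Inverse

section Level

variable {Λ A R R' : Type*} [CommRing Λ] [IsLocalRing Λ] [CommRing A] [CommRing R] [CommRing R']
  {𝔞 𝔞' : Ideal Λ} {I : Ideal R} {I' : Ideal R'} {d d' : ℕ}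
  {N N' : Type*} [AddCommGroup N] [Module Λ N] [AddCommGroup N'] [Module Λ N']
  {c : Ideal Λ} {b : Fin d → N} {b' : Fin d' → N'}

omit [IsLocalRing Λ] in
theorem sum_mul_smul {ι κ μ : Type*} [Fintype ι] [Fintype κ] (P : Matrix ι κ Λ) (Q : Matrix κ μ Λ)
    (v : ι → N) (x : μ) : ∑ s, (P * Q) s x • v s = ∑ t, Q t x • ∑ s, P s t • v s := by
  simp_rw [Matrix.mul_apply, Finset.sum_smul, Finset.smul_sum, smul_smul]
  rw [Finset.sum_comm]
  simp_rw [mul_comm (P _ _)]

/-- **Degeneracy data from module maps.** -/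
theorem nonempty_flipLevel (h : IsLevelBasis c b) (h' : IsLevelBasis c b')
    (act : A →+* Module.End Λ N) (π : A →+* R) (hπ : Function.Surjective π)
    (hs : ∀ l : Λ, ∃ a : A, act a = l • LinearMap.id ∧ (l ∈ 𝔞 → π a = 0))
    (ha : ∀ a : A, π a ∈ I → ∀ x : N, act a x ∈ 𝔞 • (⊤ : Submodule Λ N))
    (act' : A →+* Module.End Λ N') (π' : A →+* R') (hπ' : Function.Surjective π')
    (hs' : ∀ l : Λ, ∃ a : A, act' a = l • LinearMap.id ∧ (l ∈ 𝔞' → π' a = 0))
    (ha' : ∀ a : A, π' a ∈ I' → ∀ x : N', act' a x ∈ 𝔞' • (⊤ : Submodule Λ N'))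
    (sc : ∀ l : Λ, ∃ a : A, act a = l • LinearMap.id ∧ act' a = l • LinearMap.id)
    (f : (Fin 2 → N') →ₗ[Λ] N) (g : N →ₗ[Λ] (Fin 2 → N'))
    (hf : ∀ a y, f (fun i => act' a (y i)) = act a (f y))
    (hg : ∀ a x i, g (act a x) i = act' a (g x i))
    {δ : Matrix (Fin 2) (Fin 2) A} (hgf : ∀ y i, g (f y) i = ∑ j, act' (δ i j) (y j))
    {J : Ideal A} (hJ : ∀ j ∈ J, ∀ x, g x = 0 → act j x = 0)
    (hinj : ∀ y, f y ∈ maximalIdeal Λ • (⊤ : Submodule Λ N) →
      ∀ i, y i ∈ maximalIdeal Λ • (⊤ : Submodule Λ N'))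
    (hsurj : ∀ y : Fin 2 → N', ∃ x, ∀ i, g x i - y i ∈ maximalIdeal Λ • (⊤ : Submodule Λ N')) :
    Nonempty (FlipLevel (Level.ofModule h act π hπ hs ha) (Level.ofModule h' act' π' hπ' hs' ha')
      J δ) := by
  classical
  set L := Level.ofModule h act π hπ hs ha
  set L' := Level.ofModule h' act' π' hπ' hs' ha'
  -- matrices of the action
  have hmat : ∀ a j, ∑ i, Matrix.of (L.mat a) i j • b i = act a (b j) := fun a j => by
    obtain ⟨M, hM⟩ := h.exists_matrix (act a)
    rw [← hM j, ← sub_eq_zero, ← Finset.sum_sub_distrib]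
    simp_rw [← sub_smul]
    refine (h.rel _).mpr fun i => L.mat_sub_mem ?_
    show h.endMatrixHom (act a) i j = _
    rw [h.endMatrixHom_eq hM]; rfl
  have hmat' : ∀ a j, ∑ i, Matrix.of (L'.mat a) i j • b' i = act' a (b' j) := fun a j => by
    obtain ⟨M, hM⟩ := h'.exists_matrix (act' a)
    rw [← hM j, ← sub_eq_zero, ← Finset.sum_sub_distrib]
    simp_rw [← sub_smul]
    refine (h'.rel _).mpr fun i => L'.mat_sub_mem ?_
    show h'.endMatrixHom (act' a) i j = _
    rw [h'.endMatrixHom_eq hM]; rfl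
  -- matrices of the maps
  choose F hF using fun x : Fin 2 × Fin d' => h.exists_coord (f (Pi.single x.1 (b' x.2)))
  choose G hG using fun s : Fin d => fun i : Fin 2 => h'.exists_coord (g (b s) i)
  set X : Matrix (Fin d) (Fin 2 × Fin d') Λ := Matrix.of fun s x => F x s
  set Y : Matrix (Fin 2 × Fin d') (Fin d) Λ := Matrix.of fun x s => G s x.1 x.2
  have hX : ∀ z : Fin 2 × Fin d' → Λ,
      ∑ s, (X *ᵥ z) s • b s = f (∑ x, z x • (Pi.single x.1 (b' x.2) : Fin 2 → N')) := fun z => by
    simp_rw [map_sum, map_smul, ← hF, Matrix.mulVec, dotProduct, Finset.sum_smul, Finset.smul_sum,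
      smul_smul]
    rw [Finset.sum_comm]
    simp [X, mul_comm]
  have hY : ∀ (w : Fin d → Λ) i, ∑ r, (Y *ᵥ w) (i, r) • b' r = g (∑ s, w s • b s) i := fun w i => by
    simp_rw [map_sum, map_smul, Finset.sum_apply, Pi.smul_apply, ← hG, Matrix.mulVec, dotProduct,
      Finset.sum_smul, Finset.smul_sum, smul_smul]
    rw [Finset.sum_comm]
    simp [Y, mul_comm]
  -- membership criteria
  have crit : ∀ {P P' : Fin d → Λ}, ∑ s, P s • b s = ∑ s, P' s • b s → ∀ s, P s - P' s ∈ c :=
    fun he => (h.rel _).mp (by simp_rw [sub_smul, Finset.sum_sub_distrib]; rw [he, sub_self])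
  have crit' : ∀ {P P' : Fin 2 × Fin d' → Λ},
      (∀ i, ∑ r, P (i, r) • b' r = ∑ r, P' (i, r) • b' r) → ∀ x, P x - P' x ∈ c :=
    fun {P P'} he x => (h'.rel fun r => P (x.1, r) - P' (x.1, r)).mp
      (by simp_rw [sub_smul, Finset.sum_sub_distrib]; rw [he x.1, sub_self]) x.2
  have hc : L.c ⊔ L'.c = c := sup_idem c
  -- left and right inverses
  obtain ⟨C, hC⟩ : ∃ C : Matrix (Fin 2 × Fin d') (Fin d) Λ,
      ∀ i j, (C * X - (1 : Matrix (Fin 2 × Fin d') (Fin 2 × Fin d') Λ)) i j ∈ c := by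
    by_cases htop : c = ⊤
    · exact ⟨0, fun i j => htop ▸ Submodule.mem_top⟩
    have hcm : c ≤ maximalIdeal Λ := le_maximalIdeal htop
    obtain ⟨C, hC⟩ := exists_left_inverse (X := X) fun z hz x => by
      obtain ⟨u, hu⟩ : ∃ u, u = ∑ x, z x • (Pi.single x.1 (b' x.2) : Fin 2 → N') := ⟨_, rfl⟩
      have hfu : f u ∈ maximalIdeal Λ • (⊤ : Submodule Λ N) := by
        rw [hu, ← hX]
        exact Submodule.sum_mem _ fun s _ => Submodule.smul_mem_smul (hz s) trivial
      obtain ⟨w, hw, hws⟩ := h'.exists_coord_mem _ (hinj u hfu x.1)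
      have hui : u x.1 = ∑ r, z (x.1, r) • b' r := by
        rw [hu, Fintype.sum_prod_type, Finset.sum_apply]
        simp only [Finset.sum_apply, Pi.smul_apply]
        rw [Finset.sum_eq_single x.1 (fun i _ hi => Finset.sum_eq_zero fun r _ => by
          simp [Pi.single_eq_of_ne (Ne.symm hi)]) (by simp)]
        simp
      have := (h'.rel fun r => z (x.1, r) - w r).mp
        (by simp_rw [sub_smul, Finset.sum_sub_distrib]; rw [hws, hui, sub_self]) x.2
      exact (Submodule.sub_mem_iff_left _ (hw x.2)).mp (hcm this)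
    exact ⟨C, fun i j => by rw [hC, sub_self]; exact zero_mem _⟩
  obtain ⟨E, hE⟩ : ∃ E : Matrix (Fin d) (Fin 2 × Fin d') Λ,
      ∀ i j, (Y * E - (1 : Matrix (Fin 2 × Fin d') (Fin 2 × Fin d') Λ)) i j ∈ c := by
    by_cases htop : c = ⊤
    · exact ⟨0, fun i j => htop ▸ Submodule.mem_top⟩
    have hcm : c ≤ maximalIdeal Λ := le_maximalIdeal htop
    obtain ⟨E, hE⟩ := exists_right_inverse (X := Y) fun x => by
      obtain ⟨v, hv⟩ := hsurj (Pi.single x.1 (b' x.2))
      obtain ⟨w, hw⟩ := h.exists_coord v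
      refine ⟨w, fun y => ?_⟩
      obtain ⟨u, hu, hus⟩ := h'.exists_coord_mem _ (hv y.1)
      have e := (h'.rel fun r =>
        (Y *ᵥ w) (y.1, r) - (if (y.1, r) = x then (1 : Λ) else 0) - u r).mp (by
          simp_rw [sub_smul, Finset.sum_sub_distrib]
          rw [hY, hw, hus, sub_sub, sub_eq_zero]
          by_cases hy : y.1 = x.1
          · simp [hy, Prod.ext_iff, ite_smul, Pi.single_eq_same]
          · simp [hy, Prod.ext_iff]) y.2
      exact (Submodule.sub_mem_iff_left _ (hu y.2)).mp (hcm e)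
    exact ⟨E, fun i j => by rw [hE, sub_self]; exact zero_mem _⟩
  -- coordinates of unit vectors
  have hsingle : ∀ x : Fin 2 × Fin d',
      ∑ t, (1 : Matrix (Fin 2 × Fin d') (Fin 2 × Fin d') Λ) t x •
        (Pi.single t.1 (b' t.2) : Fin 2 → N') = Pi.single x.1 (b' x.2) := fun x => by
    simp [Matrix.one_apply, ite_smul]
  have hblk : ∀ (M : Matrix (Fin d') (Fin d') Λ) (z : Fin 2 × Fin d' → Λ) i r,
      (blk M *ᵥ z) (i, r) = ∑ t, M r t * z (i, t) := fun M z i r => by
    rw [Matrix.mulVec, dotProduct, Fintype.sum_prod_type,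
      Finset.sum_eq_single i (fun j _ hj => Finset.sum_eq_zero fun t _ => by
        simp [blk, Ne.symm hj]) (by simp)]
    simp [blk]
  refine ⟨{ f := X, g := Y, C := C, E := E, scalar := ?_, f_comm := ?_, g_comm := ?_,
            C_f := by rw [hc]; exact hC, g_E := by rw [hc]; exact hE, g_f := ?_, kill := ?_ }⟩
  · intro l
    obtain ⟨a, h1, h2⟩ := sc l
    exact ⟨a, by
      show h.endMatrixHom (act a) = _
      rw [h1, h.endMatrixHom_smul_id]; rfl, by
      show h'.endMatrixHom (act' a) = _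
      rw [h2, h'.endMatrixHom_smul_id]; rfl⟩
  · intro a s x
    rw [hc, Matrix.sub_apply]
    refine crit (P := fun r => (Matrix.of (L.mat a) * X) r x)
      (P' := fun r => (X * blk (Matrix.of (L'.mat a))) r x) ?_ s
    rw [sum_mul_smul]
    simp_rw [hmat]
    rw [show (∑ s, (X * blk (Matrix.of (L'.mat a))) s x • b s) = _ from
      hX (fun t => blk (Matrix.of (L'.mat a)) t x)]
    have e : (∑ t, X t x • act a (b t)) = act a (f (Pi.single x.1 (b' x.2))) := by
      simp_rw [← map_smul, ← map_sum]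
      rw [← hF x]
      rfl
    rw [e, ← hf]
    congr 1
    funext i
    rw [Fintype.sum_prod_type, Finset.sum_apply]
    simp only [Finset.sum_apply, Pi.smul_apply]
    by_cases hi : i = x.1
    · subst hi
      rw [Pi.single_eq_same, ← hmat' a x.2, Finset.sum_eq_single x.1 (fun j _ hj =>
        Finset.sum_eq_zero fun t _ => by simp [Pi.single_eq_of_ne (Ne.symm hj)]) (by simp)]
      simp [blk]
    · rw [Pi.single_eq_of_ne hi, map_zero]
      symm
      refine Finset.sum_eq_zero fun j _ => Finset.sum_eq_zero fun t _ => ?_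
      by_cases hj : j = x.1
      · subst hj; simp [Pi.single_eq_of_ne hi]
      · simp [blk, hj]
  · intro a x s
    rw [hc, Matrix.sub_apply]
    refine crit' (P := fun y => (Y * Matrix.of (L.mat a)) y s)
      (P' := fun y => (blk (Matrix.of (L'.mat a)) * Y) y s) (fun i => ?_) x
    rw [show (∑ r, (Y * Matrix.of (L.mat a)) (i, r) s • b' r) = _ from
      hY (fun t => Matrix.of (L.mat a) t s) i, hmat a s, hg, ← hG s i, map_sum]
    simp_rw [map_smul, ← hmat']
    have e : ∀ r, (blk (Matrix.of (L'.mat a)) * Y) (i, r) s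
        = ∑ t, Matrix.of (L'.mat a) r t * G s i t :=
      fun r => hblk _ (fun t => Y t s) i r
    simp_rw [e, Finset.sum_smul, Finset.smul_sum, smul_smul]
    rw [Finset.sum_comm]
    simp_rw [mul_comm (G s i _)]
  · intro x y
    rw [hc, Matrix.sub_apply]
    refine crit' (P := fun z => (Y * X) z y)
      (P' := fun z => deltaBlk (fun a => Matrix.of (L'.mat a)) δ z y) (fun i => ?_) x
    rw [show (∑ r, (Y * X) (i, r) y • b' r) = _ from hY (fun t => X t y) i,
      show (∑ s, X s y • b s) = f (Pi.single y.1 (b' y.2)) from hF y, hgf,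
      Finset.sum_eq_single y.1 (fun j _ hj => by simp [Pi.single_eq_of_ne hj]) (by simp),
      Pi.single_eq_same, ← hmat']
    rfl
  · intro a haJ s t
    rw [hc]
    have := crit (P := fun r =>
      (Matrix.of (L.mat a) * ((1 : Matrix (Fin d) (Fin d) Λ) - E * Y)) r t)
      (P' := 0) ?_ s
    · simpa using this
    rw [sum_mul_smul]
    simp_rw [hmat, ← map_smul, ← map_sum]
    simp only [Pi.zero_apply, zero_smul, Finset.sum_const_zero]
    refine hJ a haJ _ (funext fun i => ?_)
    rw [← hY (fun r => ((1 : Matrix (Fin d) (Fin d) Λ) - E * Y) r t) i]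
    refine (h'.rel _).mpr fun r => ?_
    show (Y * ((1 : Matrix (Fin d) (Fin d) Λ) - E * Y)) (i, r) t ∈ c
    rw [Matrix.mul_sub, Matrix.mul_one, ← Matrix.mul_assoc,
      show Y - Y * E * Y = -((Y * E - 1) * Y) by rw [Matrix.sub_mul, Matrix.one_mul, neg_sub],
      Matrix.neg_apply, Matrix.mul_apply]
    exact neg_mem (Submodule.sum_mem _ fun u _ => Ideal.mul_mem_right _ _ (hE _ u))

end Level

end Fermat.Agent.IharaTW
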