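import Fermat.Agent.LocalRing.Series

/-!
# The coefficient ring of a level is small

If `O⟦X_i⟧ → O[G]`, `X_i ↦ g_i - 1`, and `G` is presented by `g_i` with orders divisible by `p^n`
only, then the kernel lies in the `n`-th power of the maximal ideal.
-/

set_option autoImplicit false

noncomputable section

namespace Fermat.Agent.IharaTW

open IsLocalRing Fermat.Agent.LocalRing

/-- `(1 + x)^(p^v) ≡ 1` modulo the `(v + 1)`-st power. -/
theorem pow_sub_one_mem_pow {R : Type*} [CommRing R] {I : Ideal R} {p : ℕ} (hp : (p : R) ∈ I)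
    {a : R} (ha : a - 1 ∈ I) (v : ℕ) : a ^ p ^ v - 1 ∈ I ^ (v + 1) := by
  induction v with
  | zero => simpa using ha
  | succ v ih =>
    set b := a ^ p ^ v
    have hb : b - 1 ∈ I := Ideal.pow_le_self (Nat.succ_ne_zero v) ih
    have hsum : ∑ i ∈ Finset.range p, b ^ i ∈ I := by
      rw [← Ideal.Quotient.eq_zero_iff_mem, map_sum]
      have hb' : Ideal.Quotient.mk I b = 1 := by
        rw [← map_one (Ideal.Quotient.mk I), Ideal.Quotient.mk_eq_mk_iff_sub_mem]
        exact hb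
      simp [map_pow, hb', ← map_natCast (Ideal.Quotient.mk I),
        Ideal.Quotient.eq_zero_iff_mem.mpr hp]
    rw [pow_succ p, pow_mul, ← geom_sum_mul, pow_succ' I (v + 1)]
    exact Ideal.mul_mem_mul hsum ih

variable {σ : Type} [Finite σ] {O : Type} [CommRing O] [IsDomain O] [IsDiscreteValuationRing O]
  {G : Type} [CommGroup G]

/-- **Kernels inside powers of the maximal ideal.** -/
theorem ker_le_maximalIdeal_pow (n : ℕ) (ev : MvPowerSeries σ O →+* MonoidAlgebra O G) (g : σ → G)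
    (hC : ∀ c, ev (MvPowerSeries.C c) = algebraMap O (MonoidAlgebra O G) c)
    (hX : ∀ i, ev (MvPowerSeries.X i) = MonoidAlgebra.single (g i) 1 - 1)
    (m : σ → ℕ)
    (hlift : ∀ (M : Type) [CommMonoid M] (η : σ → M), (∀ i, η i ^ m i = 1) →
      ∃ φ : G →* M, ∀ i, φ (g i) = η i)
    {p : ℕ} (hp : (p : O) ∈ maximalIdeal O) (hord : ∀ i, ∃ v, n ≤ v + 1 ∧ m i = p ^ v) :
    RingHom.ker ev ≤ maximalIdeal (MvPowerSeries σ O) ^ n := by
  rcases Nat.eq_zero_or_pos n with rfl | hn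
  · rw [pow_zero, Ideal.one_eq_top]
    exact le_top
  set 𝔪 := maximalIdeal (MvPowerSeries σ O)
  set π := Ideal.Quotient.mk (𝔪 ^ n)
  have hne : 𝔪 ^ n ≠ ⊤ := fun h => (maximalIdeal.isMaximal _).ne_top
    (top_le_iff.mp (h ▸ Ideal.pow_le_self hn.ne'))
  have : Nontrivial (MvPowerSeries σ O ⧸ 𝔪 ^ n) := Ideal.Quotient.nontrivial_iff.mpr hne
  have : IsLocalRing (MvPowerSeries σ O ⧸ 𝔪 ^ n) :=
    IsLocalRing.of_surjective' π Ideal.Quotient.mk_surjective
  have hπm : ∀ z ∈ 𝔪, π z ∈ maximalIdeal (MvPowerSeries σ O ⧸ 𝔪 ^ n) := fun z hz => by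
    rw [mem_maximalIdeal, mem_nonunits_iff] at hz ⊢
    intro hu
    obtain ⟨w, hw⟩ := hu.exists_left_inv
    obtain ⟨w, rfl⟩ := Ideal.Quotient.mk_surjective w
    have h1 : w * z - 1 ∈ 𝔪 := Ideal.pow_le_self hn.ne'
      ((Ideal.Quotient.mk_eq_mk_iff_sub_mem _ _).mp (by rwa [map_mul, map_one]))
    have h2 : w * z ∈ 𝔪 := Ideal.mul_mem_left _ _ ((mem_maximalIdeal _).mpr hz)
    have h3 := sub_mem h2 h1
    rw [sub_sub_cancel] at h3
    exact (maximalIdeal.isMaximal _).ne_top (Ideal.eq_top_of_isUnit_mem _ h3 isUnit_one)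
  have hpm : (p : MvPowerSeries σ O) ∈ 𝔪 := by
    rw [← map_natCast (MvPowerSeries.C (σ := σ))]
    exact C_mem_maximalIdeal hp
  obtain ⟨φ, hφ⟩ := hlift (MvPowerSeries σ O ⧸ 𝔪 ^ n) (fun i => π (1 + MvPowerSeries.X i))
    fun i => by
      obtain ⟨v, hv, hm⟩ := hord i
      rw [hm, ← map_pow, ← map_one π, Ideal.Quotient.mk_eq_mk_iff_sub_mem]
      exact Ideal.pow_le_pow_right hv (pow_sub_one_mem_pow hpm
        (by rw [add_sub_cancel_left]; exact X_mem_maximalIdeal i) v)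
  let Θ := MonoidAlgebra.lift O (MvPowerSeries σ O ⧸ 𝔪 ^ n) G φ
  have hΘC : ∀ c, Θ (ev (MvPowerSeries.C c)) = π (MvPowerSeries.C c) := fun c => by
    rw [hC, AlgHom.commutes]
    rfl
  have hΘX : ∀ i, Θ (ev (MvPowerSeries.X i)) = π (MvPowerSeries.X i) := fun i => by
    rw [hX, map_sub, map_one, show Θ (MonoidAlgebra.single (g i) 1) = φ (g i) by
      simp [Θ, MonoidAlgebra.lift_single], hφ, map_add, map_one, add_sub_cancel_left]
  intro f hf
  have h := sub_mem_of_generators (Θ.toRingHom.comp ev) π ⊥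
    (fun c => by simp [hΘC]) (fun i => by simp [hΘX])
    (fun c hc => by simpa [hΘC] using hπm _ (C_mem_maximalIdeal hc))
    (fun i => by simpa [hΘX] using hπm _ (X_mem_maximalIdeal i))
    (fun c hc => hπm _ (C_mem_maximalIdeal hc)) (fun i => hπm _ (X_mem_maximalIdeal i)) f
  rw [RingHom.comp_apply, RingHom.mem_ker.mp hf, map_zero, zero_sub, Submodule.mem_bot,
    neg_eq_zero] at h
  exact Ideal.Quotient.eq_zero_iff_mem.mp h

end Fermat.Agent.IharaTW
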