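import Fermat.Agent.Ihara.Relations
import Fermat.Agent.GammaH.Group

/-!
# Correspondences at levels between `Γ₁` and `Γ₀`

A family of matrices between two groups `G₁, G₂ ≤ Γ₀(N)` lifts to the subgroups cut out by
`H ≤ (ℤ/N)ˣ` once the lower right entries are normalised to one class modulo `N`.
-/

set_option autoImplicit false

noncomputable section

namespace Fermat.Agent.IharaTW

open Matrix CongruenceSubgroup Fermat.Agent.Ihara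
open scoped MatrixGroups

variable {N : ℕ}

/-- Upper triangular modulo `N`, with lower right entry `u`. -/
def HasD (N : ℕ) (A : Mat2) (u : ZMod N) : Prop :=
  (A 1 0 : ZMod N) = 0 ∧ (A 1 1 : ZMod N) = u

theorem HasD.mul {A B : Mat2} {u v : ZMod N} (hA : HasD N A u) (hB : HasD N B v) :
    HasD N (A * B) (u * v) := by
  constructor <;> rw [Matrix.mul_apply, Fin.sum_univ_two] <;> push_cast <;>
    simp [hA.1, hA.2, hB.1, hB.2]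

theorem HasD.unique {A : Mat2} {u v : ZMod N} (hA : HasD N A u) (hA' : HasD N A v) : u = v :=
  hA.2.symm.trans hA'.2

theorem HasD.smul {A : Mat2} {u : ZMod N} (hA : HasD N A u) (k : ℤ) :
    HasD N (k • A) ((k : ZMod N) * u) := by
  constructor <;> simp [hA.1, hA.2]

theorem hasD_one : HasD N (1 : Mat2) 1 := by constructor <;> simp

theorem hasD_mcoe {g : SL(2, ℤ)} (hg : g ∈ Gamma0 N) : HasD N (mcoe g) (g 1 1 : ZMod N) :=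
  ⟨Gamma0_mem.mp hg, rfl⟩

theorem hasD_det {A : Mat2} {u : ZMod N} (hA : HasD N A u) :
    (A.det : ZMod N) = (A 0 0 : ZMod N) * u := by
  rw [Matrix.det_fin_two]; push_cast; rw [hA.1, hA.2]; ring

theorem HasD.adjugate {A : Mat2} {u : ZMod N} (hA : HasD N A u) :
    HasD N A.adjugate (A 0 0 : ZMod N) := by
  constructor <;> simp [Matrix.adjugate_fin_two, hA.1]

/-- `Γ` is cut out of `G ≤ Γ₀(N)` by the condition that the lower right entry lies in `H`. -/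
structure IsLevel (N : ℕ) (H : Subgroup (ZMod N)ˣ) (G Γ : Subgroup SL(2, ℤ)) : Prop where
  le : Γ ≤ G
  le_gamma0 : G ≤ Gamma0 N
  mem_iff : ∀ g ∈ G, g ∈ Γ ↔ ∃ a ∈ H, HasD N (mcoe g) (a : (ZMod N)ˣ)
  surj : ∀ a : (ZMod N)ˣ, ∃ g ∈ G, HasD N (mcoe g) (a : ZMod N)

variable {H : Subgroup (ZMod N)ˣ} {G₁ G₂ G₃ Γ₁ Γ₂ Γ₃ : Subgroup SL(2, ℤ)}

theorem isLevel_GammaH [NeZero N] (H : Subgroup (ZMod N)ˣ) :
    IsLevel N H (Gamma0 N) (GammaH.GammaH N H) where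
  le := GammaH.GammaH_le_Gamma0
  le_gamma0 := le_rfl
  mem_iff g hg := by
    rw [GammaH.mem_GammaH']
    exact ⟨fun ⟨h, a, ha, e⟩ => ⟨a, ha, h, e⟩, fun ⟨a, ha, h, e⟩ => ⟨h, a, ha, e⟩⟩
  surj a := by
    obtain ⟨γ, hγ⟩ := GammaH.exists_unitD_eq a
    exact ⟨γ, γ.2, Gamma0_mem.mp γ.2, by rw [← hγ, GammaH.coe_unitD]⟩

theorem isLevel_comap {M : ℕ} [NeZero M] (hNM : N ∣ M) (H : Subgroup (ZMod N)ˣ) :
    IsLevel N H (Gamma0 M) (GammaH.GammaH M (H.comap (ZMod.unitsMap hNM))) where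
  le := GammaH.GammaH_le_Gamma0
  le_gamma0 := Gamma0_le_of_dvd hNM
  mem_iff g hg := by
    rw [GammaH.mem_GammaH]
    have key : ((ZMod.unitsMap hNM (GammaH.unitD M ⟨g, hg⟩) : (ZMod N)ˣ) : ZMod N)
        = (g 1 1 : ZMod N) := by
      rw [ZMod.unitsMap_val, GammaH.coe_unitD, ZMod.cast_intCast hNM]
    constructor
    · rintro ⟨h, hu⟩
      exact ⟨_, Subgroup.mem_comap.mp hu, Gamma0_mem.mp (Gamma0_le_of_dvd hNM hg), key.symm⟩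
    · rintro ⟨a, ha, -, he⟩
      refine ⟨hg, Subgroup.mem_comap.mpr ?_⟩
      rwa [show ZMod.unitsMap hNM (GammaH.unitD M ⟨g, hg⟩) = a from Units.ext (key.trans he)]
  surj a := by
    obtain ⟨v, hv⟩ := ZMod.unitsMap_surjective hNM a
    obtain ⟨γ, hγ⟩ := GammaH.exists_unitD_eq v
    refine ⟨γ, γ.2, Gamma0_mem.mp (Gamma0_le_of_dvd hNM γ.2), ?_⟩
    rw [← hv, ZMod.unitsMap_val, ← hγ, GammaH.coe_unitD, ZMod.cast_intCast hNM]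

theorem IsLevel.mem_of_one (hL : IsLevel N H G₁ Γ₁) {g : SL(2, ℤ)} (hg : g ∈ G₁)
    (h : HasD N (mcoe g) 1) : g ∈ Γ₁ :=
  (hL.mem_iff g hg).mpr ⟨1, one_mem H, by simpa using h⟩

theorem IsLevel.hasD (hL : IsLevel N H G₁ Γ₁) {g : SL(2, ℤ)} (hg : g ∈ G₁) :
    HasD N (mcoe g) (g 1 1 : ZMod N) :=
  hasD_mcoe (hL.le_gamma0 hg)

section Lift

variable {ι κ ι' κ' μ : Type*}

/-- `S` is `S₀` with representatives moved inside `G₁` to have lower right entry `u`. -/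
def IsLift (N : ℕ) (S : CosetSys Γ₁ Γ₂ ι) (S₀ : CosetSys G₁ G₂ ι) (u : (ZMod N)ˣ) : Prop :=
  ∀ i, (∃ g ∈ G₁, S.α i = mcoe g * S₀.α i) ∧ HasD N (S.α i) (u : ZMod N)

/-- The lift of a family. -/
def liftSys (h₁ : IsLevel N H G₁ Γ₁) (h₂ : IsLevel N H G₂ Γ₂) (S₀ : CosetSys G₁ G₂ ι)
    (hd : ∀ i, ∃ v : (ZMod N)ˣ, HasD N (S₀.α i) (v : ZMod N)) (u : (ZMod N)ˣ) :
    CosetSys Γ₁ Γ₂ ι where
  α i := mcoe (h₁.surj (u * ((hd i).choose)⁻¹)).choose * S₀.α i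
  pos i := by rw [Matrix.det_mul, mcoe_det, one_mul]; exact S₀.pos i
  exists_perm γ i := by
    set c : ι → SL(2, ℤ) := fun i => (h₁.surj (u * ((hd i).choose)⁻¹)).choose
    have hc : ∀ i, c i ∈ G₁ := fun i => (h₁.surj (u * ((hd i).choose)⁻¹)).choose_spec.1
    have hcd : ∀ i, HasD N (mcoe (c i) * S₀.α i) (u : ZMod N) := fun i => by
      have := (h₁.surj (u * ((hd i).choose)⁻¹)).choose_spec.2.mul (hd i).choose_spec
      rwa [← Units.val_mul, inv_mul_cancel_right] at this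
    let γ₀ : G₂ := ⟨γ, h₂.le γ.2⟩
    set j := S₀.idx γ₀ i
    set g : SL(2, ℤ) := c i * S₀.cof γ₀ i * (c j)⁻¹
    have hg : g ∈ G₁ := mul_mem (mul_mem (hc i) (S₀.cof γ₀ i).2) (inv_mem (hc j))
    have e : mcoe (c i) * S₀.α i * mcoe γ = mcoe g * (mcoe (c j) * S₀.α j) := by
      rw [mul_assoc, show S₀.α i * mcoe γ = _ from S₀.mul_eq γ₀ i]
      simp only [g, j, mcoe_mul, mul_assoc, mcoe_inv_mul_cancel]
    obtain ⟨a, ha, had⟩ := (h₂.mem_iff γ (h₂.le γ.2)).mp γ.2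
    refine ⟨j, ⟨g, (h₁.mem_iff g hg).mpr ⟨a, ha, ?_⟩⟩, e⟩
    have h1 := ((hcd i).mul had).unique (e ▸ (h₁.hasD hg).mul (hcd j))
    refine ⟨(h₁.hasD hg).1, u.isUnit.mul_left_injective ?_⟩
    show (g 1 1 : ZMod N) * _ = _ * _
    rw [← h1, mul_comm]
  inj i j g h := by
    set c : ι → SL(2, ℤ) := fun i => (h₁.surj (u * ((hd i).choose)⁻¹)).choose
    have hc : ∀ i, c i ∈ G₁ := fun i => (h₁.surj (u * ((hd i).choose)⁻¹)).choose_spec.1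
    refine S₀.inj i j ⟨(c i)⁻¹ * g * c j, mul_mem (mul_mem (inv_mem (hc i)) (h₁.le g.2)) (hc j)⟩ ?_
    simp only [mcoe_mul, mul_assoc]
    rw [← h, mcoe_inv_mul_cancel]

theorem isLift_liftSys (h₁ : IsLevel N H G₁ Γ₁) (h₂ : IsLevel N H G₂ Γ₂) (S₀ : CosetSys G₁ G₂ ι)
    (hd : ∀ i, ∃ v : (ZMod N)ˣ, HasD N (S₀.α i) (v : ZMod N)) (u : (ZMod N)ˣ) :
    IsLift N (liftSys h₁ h₂ S₀ hd u) S₀ u := fun i => by
  obtain ⟨hg, hgd⟩ := (h₁.surj (u * ((hd i).choose)⁻¹)).choose_spec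
  refine ⟨⟨_, hg, rfl⟩, ?_⟩
  have := hgd.mul (hd i).choose_spec
  rwa [← Units.val_mul, inv_mul_cancel_right] at this

variable {R : Type*} [Semiring R] {A : Type*} [AddCommGroup A] [Module R A]

/-- The operator of a lift only depends on the class `u`. -/
theorem IsLift.op_eq [Fintype ι] (h₁ : IsLevel N H G₁ Γ₁) {S S' : CosetSys Γ₁ Γ₂ ι}
    {S₀ : CosetSys G₁ G₂ ι} {u : (ZMod N)ˣ} (hS : IsLift N S S₀ u) (hS' : IsLift N S' S₀ u)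
    (φ : Additive Γ₁ →+ A) : S.op R A φ = S'.op R A φ := by
  refine CosetSys.op_congr _ _ (Equiv.refl ι) 1 one_ne_zero (fun i => ?_) φ
  obtain ⟨⟨g, hg, e⟩, hu⟩ := hS i
  obtain ⟨⟨g', hg', e'⟩, hu'⟩ := hS' i
  have he : S.α i = mcoe (g * g'⁻¹) * S'.α i := by
    rw [e', mcoe_mul, mul_assoc, mcoe_inv_mul_cancel, e]
  have hmem : g * g'⁻¹ ∈ G₁ := mul_mem hg (inv_mem hg')
  have hd := hu.unique (he ▸ (h₁.hasD hmem).mul hu')
  refine ⟨⟨_, h₁.mem_of_one hmem ⟨(h₁.hasD hmem).1, u.isUnit.mul_left_injective ?_⟩⟩,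
    by rw [one_smul]; exact he⟩
  show _ * _ = 1 * _
  rw [one_mul]
  exact hd.symm

/-- Injectivity of a product of families modulo the group on the left. -/
def ProdInj (S : CosetSys Γ₁ Γ₂ ι) (T : CosetSys Γ₂ Γ₃ κ) : Prop :=
  ∀ i i' x x' (g : Γ₁), S.α i * T.α x = mcoe g * (S.α i' * T.α x') → (i, x) = (i', x')

theorem exists_prod_congr {S : CosetSys Γ₁ Γ₂ ι} {T : CosetSys Γ₂ Γ₃ κ} {S₀ : CosetSys G₁ G₂ ι}
    {T₀ : CosetSys G₂ G₃ κ} {u v : (ZMod N)ˣ} (hS : IsLift N S S₀ u) (hT : IsLift N T T₀ v) :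
    ∃ σ : ι × κ ≃ ι × κ, ∀ x, ∃ g ∈ G₁,
      S.α x.1 * T.α x.2 = mcoe g * (S₀.α (σ x).1 * T₀.α (σ x).2) := by
  choose c hc ec using fun i => (hS i).1
  choose c' hc' ec' using fun i => (hT i).1
  refine ⟨⟨fun x => (S₀.idx ⟨c' x.2, hc' x.2⟩ x.1, x.2),
    fun x => (S₀.idx ⟨c' x.2, hc' x.2⟩⁻¹ x.1, x.2),
    fun x => Prod.ext ((S₀.permE ⟨c' x.2, hc' x.2⟩).left_inv x.1) rfl,
    fun x => Prod.ext ((S₀.permE ⟨c' x.2, hc' x.2⟩).right_inv x.1) rfl⟩, fun x => ?_⟩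
  refine ⟨c x.1 * S₀.cof ⟨c' x.2, hc' x.2⟩ x.1, mul_mem (hc _) (Subtype.prop _), ?_⟩
  have h := S₀.mul_eq ⟨c' x.2, hc' x.2⟩ x.1
  show _ = _ * (S₀.α (S₀.idx _ x.1) * T₀.α x.2)
  rw [ec, ec', mcoe_mul, mul_assoc, ← mul_assoc (S₀.α x.1), h, mul_assoc, mul_assoc]

theorem prodInj_of_isLift (h₁ : IsLevel N H G₁ Γ₁) {S : CosetSys Γ₁ Γ₂ ι} {T : CosetSys Γ₂ Γ₃ κ}
    {S₀ : CosetSys G₁ G₂ ι} {T₀ : CosetSys G₂ G₃ κ} {u v : (ZMod N)ˣ} (hS : IsLift N S S₀ u)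
    (hT : IsLift N T T₀ v) (h₀ : ProdInj S₀ T₀) : ProdInj S T := by
  obtain ⟨σ, hσ⟩ := exists_prod_congr hS hT
  intro i i' x x' g hg
  obtain ⟨a, ha, ea⟩ := hσ (i, x)
  obtain ⟨b, hb, eb⟩ := hσ (i', x')
  rw [ea, eb] at hg
  refine σ.injective (h₀ _ _ _ _ ⟨a⁻¹ * g * b, mul_mem (mul_mem (inv_mem ha) (h₁.le g.2)) hb⟩ ?_)
  have := congrArg (mcoe a⁻¹ * ·) hg
  simp only [mcoe_inv_mul_cancel] at this
  simp only [mcoe_mul, mul_assoc] at this ⊢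
  exact this

/-- The congruence data of two composites pass to the lifts. -/
theorem exists_equiv_lift [Fintype ι] [Fintype κ] [Fintype μ] (h₁ : IsLevel N H G₁ Γ₁)
    {S : CosetSys Γ₁ Γ₂ ι} {T : CosetSys Γ₂ Γ₃ κ} {S₀ : CosetSys G₁ G₂ ι}
    {T₀ : CosetSys G₂ G₃ κ} {u v : (ZMod N)ˣ} (hS : IsLift N S S₀ u) (hT : IsLift N T T₀ v)
    (h₀ : ProdInj S₀ T₀) (β β₀ : μ → Mat2) (w : ZMod N) (_hw : IsUnit w)
    (hβ : ∀ y, HasD N (β y) w) (hβ₀ : ∀ y, ∃ y', ∃ g ∈ G₁, β₀ y = mcoe g * β y')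
    (hcard : Fintype.card (ι × κ) = Fintype.card μ) {k : ℤ} (_hk : k ≠ 0)
    (hkw : ((u * v : (ZMod N)ˣ) : ZMod N) = (k : ZMod N) * w)
    (h : ∀ x : ι × κ, ∃ y, ∃ g ∈ G₁, S₀.α x.1 * T₀.α x.2 = k • (mcoe g * β₀ y)) :
    ∃ e : ι × κ ≃ μ, ∀ x, ∃ g : Γ₁, S.α x.1 * T.α x.2 = k • (mcoe g * β (e x)) := by
  obtain ⟨σ, hσ⟩ := exists_prod_congr hS hT
  have key : ∀ x : ι × κ, ∃ y, ∃ g : Γ₁, S.α x.1 * T.α x.2 = k • (mcoe g * β y) := by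
    intro x
    obtain ⟨a, ha, ea⟩ := hσ x
    obtain ⟨y₀, b, hb, eb⟩ := h (σ x)
    obtain ⟨y, c, hc, ec⟩ := hβ₀ y₀
    have hg : a * b * c ∈ G₁ := mul_mem (mul_mem ha hb) hc
    have e : S.α x.1 * T.α x.2 = k • (mcoe (a * b * c) * β y) := by
      rw [ea, eb, ec, mcoe_mul, mcoe_mul, Matrix.mul_smul, mul_assoc, mul_assoc]
    refine ⟨y, ⟨_, h₁.mem_of_one hg ⟨(h₁.hasD hg).1, ?_⟩⟩, e⟩
    have h1 := ((hS x.1).2.mul (hT x.2).2).unique (e ▸ ((h₁.hasD hg).mul (hβ y)).smul k)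
    rw [← Units.val_mul, hkw, ← mul_assoc, mul_comm (k : ZMod N) ((a * b * c) 1 1 : ZMod N),
      mul_assoc] at h1
    have hu : IsUnit ((k : ZMod N) * w) := hkw ▸ (u * v).isUnit
    exact (hu.mul_left_injective (show (1 : ZMod N) * _ = _ * _ by rw [one_mul]; exact h1)).symm
  choose y g hy using key
  have hinj : Function.Injective y := fun x x' hxx => by
    refine prodInj_of_isLift h₁ hS hT h₀ _ _ _ _ (g x * (g x')⁻¹) ?_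
    rw [hy x, hy x', hxx, Subgroup.coe_mul, Subgroup.coe_inv, mcoe_mul, mul_assoc, Matrix.mul_smul,
      mcoe_inv_mul_cancel, Matrix.mul_smul]
  exact ⟨Equiv.ofBijective y ((Fintype.bijective_iff_injective_and_card y).mpr ⟨hinj, hcard⟩),
    fun x => ⟨g x, hy x⟩⟩

/-- Composites of lifts agree when the original composites are congruent and the classes match. -/
theorem op_comp_lift [Fintype ι] [Fintype κ] [Fintype ι'] [Fintype κ']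
    {G₂' Γ₂' : Subgroup SL(2, ℤ)} (h₁ : IsLevel N H G₁ Γ₁) {S : CosetSys Γ₁ Γ₂ ι}
    {T : CosetSys Γ₂ Γ₃ κ} {S' : CosetSys Γ₁ Γ₂' ι'} {T' : CosetSys Γ₂' Γ₃ κ'}
    {S₀ : CosetSys G₁ G₂ ι} {T₀ : CosetSys G₂ G₃ κ} {S₀' : CosetSys G₁ G₂' ι'}
    {T₀' : CosetSys G₂' G₃ κ'} {u v u' v' : (ZMod N)ˣ} (hS : IsLift N S S₀ u)
    (hT : IsLift N T T₀ v) (hS' : IsLift N S' S₀' u') (hT' : IsLift N T' T₀' v')
    (h₀ : ProdInj S₀ T₀) (h₀' : ProdInj S₀' T₀')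
    (hcard : Fintype.card (ι × κ) = Fintype.card (ι' × κ')) {k : ℤ} (hk : k ≠ 0)
    (hkw : ((u * v : (ZMod N)ˣ) : ZMod N) = (k : ZMod N) * ((u' * v' : (ZMod N)ˣ) : ZMod N))
    (h : ∀ x : ι × κ, ∃ y : ι' × κ', ∃ g ∈ G₁,
      S₀.α x.1 * T₀.α x.2 = k • (mcoe g * (S₀'.α y.1 * T₀'.α y.2)))
    (φ : Additive Γ₁ →+ A) : T.op ℤ A (S.op ℤ A φ) = T'.op ℤ A (S'.op ℤ A φ) := by
  obtain ⟨σ, hσ⟩ := exists_prod_congr hS' hT'
  obtain ⟨e, he⟩ := exists_equiv_lift (μ := ι' × κ') h₁ hS hT h₀ (fun y => S'.α y.1 * T'.α y.2)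
    (fun y => S₀'.α y.1 * T₀'.α y.2) ((u' * v' : (ZMod N)ˣ) : ZMod N) (u' * v').isUnit
    (fun y => by rw [Units.val_mul]; exact (hS' y.1).2.mul (hT' y.2).2)
    (fun y => by
      obtain ⟨g, hg, eg⟩ := hσ (σ.symm y)
      refine ⟨σ.symm y, g⁻¹, inv_mem hg, ?_⟩
      rw [eg, Equiv.apply_symm_apply, mcoe_inv_mul_cancel])
    hcard hk hkw (fun x => h x)
  have hinj' := prodInj_of_isLift h₁ hS' hT' h₀'
  exact op_comp_congr S T S' T' e k hk hinj' he φ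

/-- A composite of lifts which is congruent to a single lift. -/
theorem op_comp_lift_single [Fintype ι] [Fintype κ] [Fintype μ] (h₁ : IsLevel N H G₁ Γ₁)
    {S : CosetSys Γ₁ Γ₂ ι} {T : CosetSys Γ₂ Γ₃ κ} {U : CosetSys Γ₁ Γ₃ μ}
    {S₀ : CosetSys G₁ G₂ ι} {T₀ : CosetSys G₂ G₃ κ} {U₀ : CosetSys G₁ G₃ μ}
    {u v w : (ZMod N)ˣ} (hS : IsLift N S S₀ u) (hT : IsLift N T T₀ v) (hU : IsLift N U U₀ w)
    (h₀ : ProdInj S₀ T₀) (hcard : Fintype.card (ι × κ) = Fintype.card μ) {k : ℤ} (hk : k ≠ 0)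
    (hkw : ((u * v : (ZMod N)ˣ) : ZMod N) = (k : ZMod N) * (w : ZMod N))
    (h : ∀ x : ι × κ, ∃ y, ∃ g ∈ G₁, S₀.α x.1 * T₀.α x.2 = k • (mcoe g * U₀.α y))
    (φ : Additive Γ₁ →+ A) : T.op ℤ A (S.op ℤ A φ) = U.op ℤ A φ := by
  obtain ⟨e, he⟩ := exists_equiv_lift h₁ hS hT h₀ U.α U₀.α _ w.isUnit (fun y => (hU y).2)
    (fun y => by
      obtain ⟨g, hg, eg⟩ := (hU y).1
      exact ⟨y, g⁻¹, inv_mem hg, by rw [eg, mcoe_inv_mul_cancel]⟩)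
    hcard hk hkw h
  exact op_comp_eq_single S T U e k hk he φ

/-- Lifts of adjoint families are adjoint when the classes multiply to the determinant. -/
theorem isAdjointPair_lift (h₁ : IsLevel N H G₁ Γ₁) (h₂ : IsLevel N H G₂ Γ₂)
    {S : CosetSys Γ₁ Γ₂ ι} {T : CosetSys Γ₂ Γ₁ κ} {S₀ : CosetSys G₁ G₂ ι}
    {T₀ : CosetSys G₂ G₁ κ} {u v : (ZMod N)ˣ} (hS : IsLift N S S₀ u) (hT : IsLift N T T₀ v)
    (h₀ : IsAdjointPair S₀ T₀)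
    (hdet : ∀ i, ((S.α i).det : ZMod N) = ((v * u : (ZMod N)ˣ) : ZMod N)) :
    IsAdjointPair S T := by
  have e : ∀ g : SL(2, ℤ), (mcoe g).adjugate = mcoe g⁻¹ := fun g =>
    (Matrix.SpecialLinearGroup.coe_inv g).symm
  have hadj : ∀ i, HasD N (S.α i).adjugate (v : ZMod N) := fun i => by
    have h1 := (hS i).2.adjugate
    have h2 := hasD_det (hS i).2
    rw [hdet i, Units.val_mul] at h2
    rwa [← u.isUnit.mul_left_injective h2] at h1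
  have hclass : ∀ (i : ι) (j : κ) (h k : SL(2, ℤ)), h ∈ G₁ → k ∈ G₂ →
      (S.α i).adjugate * mcoe h = mcoe k * T.α j → (h 1 1 : ZMod N) = (k 1 1 : ZMod N) := by
    intro i j h k hh hk he
    have h1 := ((hadj i).mul (h₁.hasD hh)).unique (he ▸ (h₂.hasD hk).mul (hT j).2)
    exact v.isUnit.mul_right_injective (h1.trans (mul_comm _ _))
  constructor
  · intro i h
    obtain ⟨⟨a, ha, ea⟩, -⟩ := hS i
    obtain ⟨j, k, hk⟩ := h₀.left i ⟨a⁻¹ * h, mul_mem (inv_mem ha) (h₁.le h.2)⟩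
    obtain ⟨⟨b, hb, eb⟩, -⟩ := hT j
    have hmem : (k : SL(2, ℤ)) * b⁻¹ ∈ G₂ := mul_mem k.2 (inv_mem hb)
    have he : (S.α i).adjugate * mcoe h = mcoe ((k : SL(2, ℤ)) * b⁻¹) * T.α j := by
      rw [ea, Matrix.adjugate_mul_distrib, e, eb, mcoe_mul, mul_assoc,
        mul_assoc (mcoe (k : SL(2, ℤ))), mcoe_inv_mul_cancel, ← mcoe_mul]
      exact hk
    obtain ⟨c, hc, hcd⟩ := (h₁.mem_iff h (h₁.le h.2)).mp h.2
    refine ⟨j, ⟨_, (h₂.mem_iff _ hmem).mpr ⟨c, hc, (h₂.hasD hmem).1, ?_⟩⟩, he⟩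
    exact (hclass i j _ _ (h₁.le h.2) hmem he).symm.trans hcd.2
  · intro j k
    obtain ⟨⟨b, hb, eb⟩, -⟩ := hT j
    obtain ⟨i, h, hh⟩ := h₀.right j ⟨k * b, mul_mem (h₂.le k.2) hb⟩
    obtain ⟨⟨a, ha, ea⟩, -⟩ := hS i
    have hmem : a * h ∈ G₁ := mul_mem ha h.2
    have he : (S.α i).adjugate * mcoe (a * h) = mcoe k * T.α j := by
      rw [ea, Matrix.adjugate_mul_distrib, e, mul_assoc, mcoe_mul a, mcoe_inv_mul_cancel, eb,
        ← mul_assoc, ← mcoe_mul]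
      exact hh
    obtain ⟨c, hc, hcd⟩ := (h₂.mem_iff k (h₂.le k.2)).mp k.2
    refine ⟨i, ⟨_, (h₁.mem_iff _ hmem).mpr ⟨c, hc, (h₁.hasD hmem).1, ?_⟩⟩, he⟩
    exact (hclass i j _ _ hmem (h₂.le k.2) he).trans hcd.2

end Lift

section Diamond

/-- The inclusion family of `G₂ ≤ G₁`. -/
def inclSys (h : G₂ ≤ G₁) : CosetSys G₁ G₂ Unit where
  α _ := 1
  pos _ := by simp
  exists_perm γ i := ⟨i, ⟨γ, h γ.2⟩, by simp⟩
  inj _ _ _ _ := rfl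

theorem inclSys_hasD (h : G₂ ≤ G₁) (i : Unit) :
    ∃ v : (ZMod N)ˣ, HasD N ((inclSys h).α i) (v : ZMod N) :=
  ⟨1, by rw [Units.val_one]; exact hasD_one⟩

/-- The diamond family of `a`. -/
def diaSys (h₁ : IsLevel N H G₁ Γ₁) (a : (ZMod N)ˣ) : CosetSys Γ₁ Γ₁ Unit :=
  liftSys h₁ h₁ (inclSys le_rfl) (inclSys_hasD le_rfl) a

theorem isLift_diaSys (h₁ : IsLevel N H G₁ Γ₁) (a : (ZMod N)ˣ) :
    IsLift N (diaSys h₁ a) (inclSys (le_refl G₁)) a := isLift_liftSys h₁ h₁ _ _ a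

/-- A lift commutes with diamonds. -/
theorem op_dia_comm {ι : Type*} [Fintype ι] {A : Type*} [AddCommGroup A]
    (h₁ : IsLevel N H G₁ Γ₁) (h₂ : IsLevel N H G₂ Γ₂) {S : CosetSys Γ₁ Γ₂ ι}
    {S₀ : CosetSys G₁ G₂ ι} {u : (ZMod N)ˣ} (hS : IsLift N S S₀ u) (a : (ZMod N)ˣ)
    (φ : Additive Γ₁ →+ A) :
    (diaSys h₂ a).op ℤ A (S.op ℤ A φ) = S.op ℤ A ((diaSys h₁ a).op ℤ A φ) := by
  refine op_comp_lift h₁ hS (isLift_diaSys h₂ a) (isLift_diaSys h₁ a) hS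
    (fun i i' x x' g e => ?_) (fun i i' x x' g e => ?_) (by simp) one_ne_zero
    (by rw [Int.cast_one, one_mul, mul_comm]) (fun x => ⟨((), x.1), 1, one_mem _, ?_⟩) φ
  · simp only [inclSys, mul_one] at e
    rw [S₀.inj _ _ g e]
  · simp only [inclSys, one_mul] at e
    rw [S₀.inj _ _ g e]
  · simp [inclSys]

end Diamond

end Fermat.Agent.IharaTW
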