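import Fermat.Agent.IharaTW.Bridge
import Fermat.Agent.IharaTW.DualityH
import Fermat.Agent.TW.Descent

/-!
# The level changing maps at `Γ_H` on integral cohomology

`fMap (x, y) = res x + W (res y)` and `gMap z = (cor z, cor (W z))` between the levels `Γ_H(N)` and
`Γ_H(N q)`: their composite, their equivariance, and, away from Eisenstein, injectivity and
surjectivity modulo an ideal of residue characteristic `p`.
-/

set_option autoImplicit false

noncomputable section

namespace Fermat.Agent.IharaTW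

open Matrix CongruenceSubgroup Fermat.Agent.Ihara Fermat.Agent.GammaH
open Fermat.Agent.Cosets (parEllHoms)
open scoped MatrixGroups

section Dia

variable {N : ℕ} {H : Subgroup (ZMod N)ˣ} {G Γ : Subgroup SL(2, ℤ)} (hL : IsLevel N H G Γ)
  {A : Type*} [AddCommGroup A]

theorem dia_dia (a b : (ZMod N)ˣ) (φ : Additive Γ →+ A) :
    (diaSys hL b).op ℤ A ((diaSys hL a).op ℤ A φ) = (diaSys hL (a * b)).op ℤ A φ :=
  op_comp_lift_single hL (isLift_diaSys hL a) (isLift_diaSys hL b) (isLift_diaSys hL (a * b))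
    (fun _ _ _ _ _ _ => rfl) (by simp) one_ne_zero (by simp)
    (fun _ => ⟨(), 1, one_mem _, by simp [inclSys]⟩) φ

theorem dia_one (φ : Additive Γ →+ A) : (diaSys hL 1).op ℤ A φ = φ := by
  set P := plainSys hL hL (inclSys (le_refl G)) 1
    (fun _ => by rw [Units.val_one]; exact hasD_one)
  rw [IsLift.op_eq hL (isLift_diaSys hL 1) (isLift_plainSys hL hL (inclSys (le_refl G)) 1
    (fun _ => by rw [Units.val_one]; exact hasD_one))]
  refine AddMonoidHom.ext fun γ => ?_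
  obtain ⟨γ, rfl⟩ := Additive.ofMul.surjective γ
  rw [P.op_apply_of_eq φ γ id (fun _ => γ) fun _ => (one_mul _).trans (mul_one _).symm,
    Fintype.sum_unique]

theorem dia_eq_zero (a : (ZMod N)ˣ) {φ : Additive Γ →+ A}
    (h : (diaSys hL a).op ℤ A φ = 0) : φ = 0 := by
  rw [← dia_one hL φ, ← mul_inv_cancel a, ← dia_dia hL a a⁻¹, h, map_zero]

end Dia

theorem op_eq_op {Γ₁ Γ₂ : Subgroup SL(2, ℤ)} {ι : Type*} [Fintype ι] (S : CosetSys Γ₁ Γ₂ ι)
    (R : Type*) [Semiring R] {A : Type*} [AddCommGroup A] [Module R A] (φ : Additive Γ₁ →+ A) :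
    S.op R A φ = S.op ℤ A φ := rfl

theorem unitsMap_self {N : ℕ} (a : (ZMod N)ˣ) : ZMod.unitsMap (dvd_refl N) a = a := by
  refine Units.ext ?_
  rw [ZMod.unitsMap_val, ZMod.cast_id]

variable (N q : ℕ) [hq : Fact q.Prime] (hqN : ¬q ∣ N) (H : Subgroup (ZMod N)ˣ) [NeZero N]

/-- `-1 ∈ H` gives the same at level `N q`. -/
abbrev H1q (R A : Type*) [Semiring R] [AddCommGroup A] [Module R A] :=
  H1 (N * q) (Hq N q H) R A

section Defs

variable (R A : Type*) [CommRing R] [AddCommGroup A] [Module R A]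

/-- Restriction. -/
def res1 : H1 N H R A →ₗ[R] H1q N q H R A :=
  ((resH N q H).op R A).restrict fun _ h => (resH N q H).op_mem_parEllHoms h

/-- Corestriction. -/
def cor1 : H1q N q H R A →ₗ[R] H1 N H R A :=
  ((corH N q hqN H).op R A).restrict fun _ h => (corH N q hqN H).op_mem_parEllHoms h

/-- The Atkin–Lehner operator, with `W² = ⟨q⟩`. -/
def w1 : H1q N q H R A →ₗ[R] H1q N q H R A :=
  ((wH N q hqN H (unitOf hqN)).op R A).restrict fun _ h =>
    (wH N q hqN H (unitOf hqN)).op_mem_parEllHoms h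

/-- `(x, y) ↦ res x + W (res y)`. -/
def fMap : (Fin 2 → H1 N H R A) →ₗ[R] H1q N q H R A :=
  res1 N q H R A ∘ₗ LinearMap.proj 0 + w1 N q hqN H R A ∘ₗ res1 N q H R A ∘ₗ LinearMap.proj 1

/-- `z ↦ (cor z, cor (W z))`. -/
def gMap : H1q N q H R A →ₗ[R] (Fin 2 → H1 N H R A) :=
  LinearMap.pi ![cor1 N q hqN H R A, cor1 N q hqN H R A ∘ₗ w1 N q hqN H R A]

theorem fMap_apply (y : Fin 2 → H1 N H R A) :
    fMap N q hqN H R A y
      = res1 N q H R A (y 0) + w1 N q hqN H R A (res1 N q H R A (y 1)) := rfl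

theorem gMap_apply_zero (z : H1q N q H R A) :
    gMap N q hqN H R A z 0 = cor1 N q hqN H R A z := rfl

theorem gMap_apply_one (z : H1q N q H R A) :
    gMap N q hqN H R A z 1 = cor1 N q hqN H R A (w1 N q hqN H R A z) := rfl

end Defs

section Relations

variable {R A : Type*} [CommRing R] [AddCommGroup A] [Module R A]

theorem cor1_res1 (φ : H1 N H R A) :
    cor1 N q hqN H R A (res1 N q H R A φ) = (q + 1) • φ :=
  Subtype.ext <| by
    rw [AddSubmonoidClass.coe_nsmul]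
    exact corH_resH N q hqN H φ.1

theorem cor1_w1_res1 (φ : H1 N H R A) :
    cor1 N q hqN H R A (w1 N q hqN H R A (res1 N q H R A φ)) = heckeTH R A hq.out hqN φ :=
  Subtype.ext <| by
    show (corH N q hqN H).op ℤ A ((wH N q hqN H (unitOf hqN)).op ℤ A
      ((resH N q H).op ℤ A φ.1)) = _
    rw [wH_resH, corH_diagH, ← heckeH_op_eq (isLevel_GammaH H) dvd_rfl hqN hqN φ]
    rfl

theorem cor1_w1_w1_res1 (φ : H1 N H R A) :
    cor1 N q hqN H R A (w1 N q hqN H R A (w1 N q hqN H R A (res1 N q H R A φ)))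
      = (q + 1) • diamondH R A (primeUnit hq.out hqN) φ :=
  Subtype.ext <| by
    rw [AddSubmonoidClass.coe_nsmul, ← diaSys_op_eq (isLevel_GammaH H) dvd_rfl, unitsMap_self]
    show (corH N q hqN H).op ℤ A ((wH N q hqN H (unitOf hqN)).op ℤ A
      ((wH N q hqN H (unitOf hqN)).op ℤ A ((resH N q H).op ℤ A φ.1))) = _
    rw [wH_wH, mul_inv_cancel_right, op_dia_comm (isLevel_GammaH H) (isLevel_q N q H)
      (isLift_resH N q H), corH_resH]
    rfl

/-- `gMap ∘ fMap` is `[[q + 1, T_q], [T_q, (q + 1)⟨q⟩]]`. -/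
theorem gMap_fMap (y : Fin 2 → H1 N H R A) :
    gMap N q hqN H R A (fMap N q hqN H R A y) 0
        = (q + 1) • y 0 + heckeTH R A hq.out hqN (y 1) ∧
      gMap N q hqN H R A (fMap N q hqN H R A y) 1
        = heckeTH R A hq.out hqN (y 0) + (q + 1) • diamondH R A (primeUnit hq.out hqN) (y 1) := by
  constructor
  · rw [gMap_apply_zero, fMap_apply, map_add, cor1_res1, cor1_w1_res1]
  · rw [gMap_apply_one, fMap_apply, map_add, map_add, cor1_w1_res1, cor1_w1_w1_res1]

/-! ## Equivariance -/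

variable [NeZero (N * q)]

theorem heckeH_q_op {l : ℕ} (hl : l.Prime) (hlN : ¬l ∣ N) (hl' : ¬l ∣ N * q)
    (φ : H1q N q H R A) :
    haveI : Fact l.Prime := ⟨hl⟩
    (heckeH (isLevel_q N q H) hlN hl' (unitOf hlN)).op ℤ A φ.1
      = (heckeTH R A hl hl' φ : Additive (GammaHq N q H) →+ A) :=
  haveI : Fact l.Prime := ⟨hl⟩
  heckeH_op_eq (R := R) (isLevel_q N q H) (dvd_mul_right N q) hlN hl' φ

theorem res1_heckeTH {l : ℕ} (hl : l.Prime) (hlN : ¬l ∣ N) (hl' : ¬l ∣ N * q) (φ : H1 N H R A) :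
    res1 N q H R A (heckeTH R A hl hlN φ) = heckeTH R A hl hl' (res1 N q H R A φ) := by
  have : Fact l.Prime := ⟨hl⟩
  refine Subtype.ext ?_
  rw [← heckeH_q_op N q H hl hlN hl']
  show (resH N q H).op ℤ A (heckeTH R A hl hlN φ).1 = _
  rw [← heckeH_op_eq (R := R) (isLevel_GammaH H) dvd_rfl hlN hlN φ, op_eq_op _ R, resH_heckeH]
  rfl

theorem cor1_heckeTH {l : ℕ} (hl : l.Prime) (hlN : ¬l ∣ N) (hl' : ¬l ∣ N * q)
    (φ : H1q N q H R A) :
    cor1 N q hqN H R A (heckeTH R A hl hl' φ) = heckeTH R A hl hlN (cor1 N q hqN H R A φ) := by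
  have : Fact l.Prime := ⟨hl⟩
  refine Subtype.ext ?_
  rw [← heckeH_op_eq (R := R) (isLevel_GammaH H) dvd_rfl hlN hlN]
  show (corH N q hqN H).op ℤ A (heckeTH R A hl hl' φ).1 = _
  rw [← heckeH_q_op N q H hl hlN hl', ← corH_heckeH N q hqN H hlN hl']
  rfl

theorem w1_heckeTH {l : ℕ} (hl : l.Prime) (hlN : ¬l ∣ N) (hl' : ¬l ∣ N * q)
    (φ : H1q N q H R A) :
    w1 N q hqN H R A (heckeTH R A hl hl' φ) = heckeTH R A hl hl' (w1 N q hqN H R A φ) := by
  have : Fact l.Prime := ⟨hl⟩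
  refine Subtype.ext ?_
  rw [← heckeH_q_op N q H hl hlN hl']
  show (wH N q hqN H (unitOf hqN)).op ℤ A (heckeTH R A hl hl' φ).1 = _
  rw [← heckeH_q_op N q H hl hlN hl', ← wH_heckeH N q hqN H hlN hl']
  rfl

theorem diaSys_q_op (a : (ZMod (N * q))ˣ) (φ : H1q N q H R A) :
    (diaSys (isLevel_q N q H) (ZMod.unitsMap (dvd_mul_right N q) a)).op ℤ A φ.1
      = (diamondH R A a φ : Additive (GammaHq N q H) →+ A) :=
  diaSys_op_eq (R := R) (isLevel_q N q H) (dvd_mul_right N q) a φ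

theorem diaSys_one_op (a : (ZMod N)ˣ) (φ : H1 N H R A) :
    (diaSys (isLevel_GammaH H) a).op ℤ A φ.1
      = (diamondH R A a φ : Additive (GammaH.GammaH N H) →+ A) := by
  conv_lhs => rw [← unitsMap_self a]
  exact diaSys_op_eq (R := R) (isLevel_GammaH H) dvd_rfl a φ

theorem res1_diamondH (a : (ZMod (N * q))ˣ) (φ : H1 N H R A) :
    res1 N q H R A (diamondH R A (ZMod.unitsMap (dvd_mul_right N q) a) φ)
      = diamondH R A a (res1 N q H R A φ) := by
  refine Subtype.ext ?_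
  rw [← diaSys_q_op N q H a]
  show (resH N q H).op ℤ A (diamondH R A (ZMod.unitsMap (dvd_mul_right N q) a) φ).1
    = (diaSys (isLevel_q N q H) _).op ℤ A ((resH N q H).op ℤ A φ.1)
  rw [← diaSys_one_op N H, op_dia_comm (isLevel_GammaH H) (isLevel_q N q H) (isLift_resH N q H)]

theorem cor1_diamondH (a : (ZMod (N * q))ˣ) (φ : H1q N q H R A) :
    cor1 N q hqN H R A (diamondH R A a φ)
      = diamondH R A (ZMod.unitsMap (dvd_mul_right N q) a) (cor1 N q hqN H R A φ) := by
  refine Subtype.ext ?_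
  rw [← diaSys_one_op N H]
  show (corH N q hqN H).op ℤ A (diamondH R A a φ).1
    = (diaSys (isLevel_GammaH H) _).op ℤ A ((corH N q hqN H).op ℤ A φ.1)
  rw [← diaSys_q_op N q H a,
    op_dia_comm (isLevel_q N q H) (isLevel_GammaH H) (isLift_corH N q hqN H)]

theorem w1_diamondH (a : (ZMod (N * q))ˣ) (φ : H1q N q H R A) :
    w1 N q hqN H R A (diamondH R A a φ) = diamondH R A a (w1 N q hqN H R A φ) := by
  refine Subtype.ext ?_
  rw [← diaSys_q_op N q H a]
  show (wH N q hqN H (unitOf hqN)).op ℤ A (diamondH R A a φ).1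
    = (diaSys (isLevel_q N q H) _).op ℤ A ((wH N q hqN H (unitOf hqN)).op ℤ A φ.1)
  rw [← diaSys_q_op N q H a,
    op_dia_comm (isLevel_q N q H) (isLevel_q N q H) (isLift_wH N q hqN H (unitOf hqN))]

end Relations

/-! ## Modulo an ideal -/

section Modulo

theorem comp_coordH {M : ℕ} [NeZero M] {K : Subgroup (ZMod M)ˣ} (hK : (-1 : (ZMod M)ˣ) ∈ K)
    {R A R' B : Type} [Semiring R] [AddCommGroup A] [Module R A] [Semiring R'] [AddCommGroup B]
    [Module R' B] (u : A →+ B) (a : Fin (homRankH M K) → A) :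
    u.comp (coordH hK R A a : Additive (GammaH.GammaH M K) →+ A)
      = (coordH hK R' B (fun j => u (a j)) : Additive (GammaH.GammaH M K) →+ B) := by
  refine AddMonoidHom.ext fun γ => ?_
  obtain ⟨γ, rfl⟩ := Additive.ofMul.surjective γ
  rw [AddMonoidHom.comp_apply, coordH_apply, coordH_apply, map_sum]
  simp only [map_zsmul]

variable {R : Type} [CommRing R] (I : Ideal R)

/-- Reduction of coefficients. -/
abbrev redI : R →+ R ⧸ I := (Ideal.Quotient.mk I).toAddMonoidHom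

/-- `I H¹` consists of the classes vanishing modulo `I`. -/
theorem mem_smul_top_H1_iff {M : ℕ} [NeZero M] {K : Subgroup (ZMod M)ˣ}
    (hK : (-1 : (ZMod M)ˣ) ∈ K) (v : H1 M K R R) :
    v ∈ I • (⊤ : Submodule R (H1 M K R R))
      ↔ (redI I).comp (v : Additive (GammaH.GammaH M K) →+ R) = 0 := by
  constructor
  · intro h
    refine Submodule.smul_induction_on h (fun r hr w _ => AddMonoidHom.ext fun γ => ?_)
      fun x y hx hy => ?_
    · exact (Ideal.Quotient.eq_zero_iff_mem).mpr (Ideal.mul_mem_right _ _ hr)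
    · rw [Submodule.coe_add, AddMonoidHom.comp_add, hx, hy, add_zero]
  · intro h
    obtain ⟨a, rfl⟩ := (coordH hK R R).surjective v
    rw [comp_coordH hK (R := R) (R' := ℤ)] at h
    have ha : (fun j => redI I (a j)) = 0 := (coordH hK ℤ (R ⧸ I)).injective
      ((Subtype.ext h).trans (map_zero _).symm)
    rw [pi_eq_sum_univ' a, map_sum]
    refine Submodule.sum_mem _ fun j _ => ?_
    rw [map_smul]
    exact Submodule.smul_mem_smul (Ideal.Quotient.eq_zero_iff_mem.mp (congrFun ha j)) trivial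

variable {p : ℕ} [hp : Fact p.Prime]

omit hp in
theorem nsmul_quot_eq_zero (hpI : (p : R) ∈ I) (x : R ⧸ I) : p • x = 0 := by
  obtain ⟨r, rfl⟩ := Ideal.Quotient.mk_surjective x
  rw [nsmul_eq_mul, ← map_natCast (Ideal.Quotient.mk I), ← map_mul, Ideal.Quotient.eq_zero_iff_mem]
  exact Ideal.mul_mem_right _ _ hpI

variable {l : ℕ} [hlF : Fact l.Prime] (hlN : ¬l ∣ N) (hl1 : (l : ZMod (N * q)) = 1)

omit hq [NeZero N] hlF in
include hl1 in
theorem cast_one_level : (l : ZMod N) = 1 := by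
  have h := congrArg (ZMod.castHom (dvd_mul_right N q) (ZMod N)) hl1
  rwa [map_natCast, map_one] at h

omit hq in
include hl1 in
/-- The two descriptions of `η`. -/
theorem etaH_coe_eq {A : Type*} [AddCommGroup A] [Module R A] (φ : H1 N H R A) :
    (TW.etaH R A hlF.out hlN φ : Additive (GammaH.GammaH N H) →+ A)
      = etaOp N H ℤ A hlN φ.1 := by
  have hu : (unitOf hlN : (ZMod N)ˣ) = 1 :=
    Units.ext (by rw [coe_primeUnit, Units.val_one, cast_one_level N q hl1])
  rw [etaOp_apply, ← hu, ← op_eq_op (R := R),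
    heckeH_op_eq (R := R) (isLevel_GammaH H) dvd_rfl hlN hlN φ]
  rfl

theorem etaOp_natural {R R' : Type*} [Ring R] [Ring R'] {A B : Type*} [AddCommGroup A]
    [AddCommGroup B] [Module R A] [Module R' B] (u : A →+ B)
    (φ : Additive (GammaH.GammaH N H) →+ A) :
    etaOp N H R' B hlN (u.comp φ) = u.comp (etaOp N H R A hlN φ) := by
  rw [etaOp_apply, etaOp_apply, CosetSys.op_natural _ (R := R) (R' := R') u]
  refine AddMonoidHom.ext fun x => ?_
  simp [map_nsmul]

theorem etaOp_dia {A : Type*} [AddCommGroup A] (a : (ZMod N)ˣ)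
    (φ : Additive (GammaH.GammaH N H) →+ A) :
    etaOp N H ℤ A hlN ((diaSys (isLevel_GammaH H) a).op ℤ A φ)
      = (diaSys (isLevel_GammaH H) a).op ℤ A (etaOp N H ℤ A hlN φ) := by
  rw [etaOp_apply, etaOp_apply, map_sub, map_nsmul,
    op_dia_comm (isLevel_GammaH H) (isLevel_GammaH H) (isLift_heckeH _ hlN hlN 1)]

include hqN hl1

/-- **Injectivity modulo `I` away from Eisenstein.** -/
theorem eta_sq_mem_of_fMap_mem (hp2 : p ≠ 2) (hpI : (p : R) ∈ I)
    (hneg : (-1 : (ZMod N)ˣ) ∈ H) (hH : ∀ u : (ZMod N)ˣ, ∃ k : ℕ, u ^ (p ^ k) ∈ H)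
    [NeZero (N * q)] (y : Fin 2 → H1 N H R R)
    (hy : fMap N q hqN H R R y ∈ I • (⊤ : Submodule R (H1q N q H R R))) (i : Fin 2) :
    TW.etaH R R hlF.out hlN (TW.etaH R R hlF.out hlN (y i))
      ∈ I • (⊤ : Submodule R (H1 N H R R)) := by
  set χ : Fin 2 → (Additive (GammaH.GammaH N H) →+ R ⧸ I) := fun i => (redI I).comp (y i).1
  have hχ : ∀ i, χ i ∈ parEllHoms ℤ (GammaH.GammaH N H) (R ⧸ I) := fun i γ hγ => by
    show redI I _ = 0
    rw [(y i).2 γ hγ, map_zero]
  set χ' := (diaSys (isLevel_GammaH H) (unitOf hqN)).op ℤ (R ⧸ I) (χ 1) with hχ'def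
  have hker : (resH N q H).op ℤ (R ⧸ I) (χ 0) + (diagH N q H 1).op ℤ (R ⧸ I) χ' = 0 := by
    have h := (mem_smul_top_H1_iff I (neg_one_mem_Hq N q H hneg) _).mp hy
    rw [fMap_apply, Submodule.coe_add, AddMonoidHom.comp_add] at h
    rw [hχ'def, diagH_dia, ← wH_resH N q hqN H, CosetSys.op_natural _ (R := R) (R' := ℤ),
      CosetSys.op_natural _ (R := R) (R' := ℤ), CosetSys.op_natural _ (R := R) (R' := ℤ)]
    exact h
  obtain ⟨h₀, h₁⟩ := degeneracy_kernelH N q hqN H hp.out hp2 (nsmul_quot_eq_zero I hpI) hH (hχ 0)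
    (CosetSys.op_mem_parEllHoms _ (hχ 1)) hker hlN hl1
  have h₁' : etaOp N H ℤ (R ⧸ I) hlN (etaOp N H ℤ (R ⧸ I) hlN (χ 1)) = 0 := by
    refine dia_eq_zero (isLevel_GammaH H) (unitOf hqN) ?_
    rw [← etaOp_dia N H hlN, ← etaOp_dia N H hlN]
    exact sub_eq_zero.mpr h₁
  have hzero : ∀ i, etaOp N H ℤ (R ⧸ I) hlN (etaOp N H ℤ (R ⧸ I) hlN (χ i)) = 0 := by
    intro i
    fin_cases i
    · exact sub_eq_zero.mpr h₀
    · exact h₁'
  rw [mem_smul_top_H1_iff I hneg, etaH_coe_eq N q H hlN hl1, etaH_coe_eq N q H hlN hl1,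
    ← etaOp_natural N H hlN (R := ℤ) (R' := ℤ), ← etaOp_natural N H hlN (R := ℤ) (R' := ℤ)]
  exact hzero i

/-- **Surjectivity modulo `I` away from Eisenstein.** -/
theorem exists_gMap_sub_eta_sq_mem (hp2 : p ≠ 2) (hpI : (p : R) ∈ I) (hN : 2 ≤ N)
    (hneg : (-1 : (ZMod N)ˣ) ∈ H) (hH : ∀ u : (ZMod N)ˣ, ∃ k : ℕ, u ^ (p ^ k) ∈ H)
    [NeZero (N * q)] (y : Fin 2 → H1 N H R R) :
    ∃ z : H1q N q H R R, ∀ i, gMap N q hqN H R R z i
      - TW.etaH R R hlF.out hlN (TW.etaH R R hlF.out hlN (y i))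
        ∈ I • (⊤ : Submodule R (H1 N H R R)) := by
  classical
  -- a preimage modulo `p` for each basis vector
  have hbase := fun (j : Fin (homRankH N H)) (i : Fin 2) =>
    exists_cor_eq_eta_sq_zmod hqN p hp2 hN hneg hH hlN hl1
      (if i = 0 then coordH hneg (ZMod p) (ZMod p) (Pi.single j 1) else 0)
      (if i = 1 then coordH hneg (ZMod p) (ZMod p) (Pi.single j 1) else 0)
  choose w hw hw₀ hw₁ using hbase
  choose a ha using fun i : Fin 2 => (coordH hneg R R).surjective (y i)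
  let u : Fin 2 → Fin (homRankH N H) → (ZMod p →+ R ⧸ I) := fun i j =>
    ZMod.lift p ⟨zmultiplesHom (R ⧸ I) (redI I (a i j)), by
      rw [zmultiplesHom_apply, natCast_zsmul]
      exact nsmul_quot_eq_zero I hpI _⟩
  have hu : ∀ i j, u i j 1 = redI I (a i j) := fun i j => by
    rw [← Int.cast_one (R := ZMod p), ZMod.lift_coe]
    exact one_zsmul _
  have hy : ∀ i, (redI I).comp (y i).1
      = ∑ j, (u i j).comp (coordH hneg (ZMod p) (ZMod p) (Pi.single j 1) :
          Additive (GammaH.GammaH N H) →+ ZMod p) := by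
    intro i
    refine AddMonoidHom.ext fun γ => ?_
    obtain ⟨γ, rfl⟩ := Additive.ofMul.surjective γ
    rw [AddMonoidHom.comp_apply, ← ha i, coordH_apply, AddMonoidHom.finsetSum_apply, map_sum]
    refine Finset.sum_congr rfl fun j _ => ?_
    rw [AddMonoidHom.comp_apply, coordH_apply, Finset.sum_eq_single j
      (fun k _ hk => by rw [Pi.single_eq_of_ne hk, smul_zero]) (by simp),
      Pi.single_eq_same, map_zsmul, map_zsmul, hu]
  set zb : Additive (GammaHq N q H) →+ R ⧸ I := ∑ i, ∑ j, (u i j).comp (w j i) with hzb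
  have hzbmem : zb ∈ parEllHoms ℤ (GammaHq N q H) (R ⧸ I) := fun γ hγ => by
    rw [hzb, AddMonoidHom.finsetSum_apply]
    refine Finset.sum_eq_zero fun i _ => ?_
    rw [AddMonoidHom.finsetSum_apply]
    refine Finset.sum_eq_zero fun j _ => ?_
    rw [AddMonoidHom.comp_apply, hw j i γ hγ, map_zero]
  -- lift to `R`
  obtain ⟨c, hc⟩ := (coordH (neg_one_mem_Hq N q H hneg) ℤ (R ⧸ I)).surjective ⟨zb, hzbmem⟩
  choose c' hc' using fun j => Ideal.Quotient.mk_surjective (c j)
  refine ⟨coordH (neg_one_mem_Hq N q H hneg) R R c', fun i => ?_⟩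
  have hz : (redI I).comp
      (coordH (neg_one_mem_Hq N q H hneg) R R c' : Additive (GammaHq N q H) →+ R) = zb := by
    rw [comp_coordH (neg_one_mem_Hq N q H hneg) (R := R) (R' := ℤ) (redI I) c',
      show (fun j => redI I (c' j)) = c from funext hc', hc]
  rw [mem_smul_top_H1_iff I hneg, AddSubgroupClass.coe_sub, AddMonoidHom.comp_sub,
    etaH_coe_eq N q H hlN hl1, etaH_coe_eq N q H hlN hl1,
    ← etaOp_natural N H hlN (R := ℤ) (R' := ℤ), ← etaOp_natural N H hlN (R := ℤ) (R' := ℤ),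
    hy, map_sum, map_sum, sub_eq_zero]
  have hnat : ∀ (k : Fin 2) (j : Fin (homRankH N H)),
      etaOp N H ℤ (R ⧸ I) hlN (etaOp N H ℤ (R ⧸ I) hlN ((u k j).comp
        (coordH hneg (ZMod p) (ZMod p) (Pi.single j 1) :
          Additive (GammaH.GammaH N H) →+ ZMod p)))
      = (u k j).comp (etaOp N H (ZMod p) (ZMod p) hlN (etaOp N H (ZMod p) (ZMod p) hlN
        (coordH hneg (ZMod p) (ZMod p) (Pi.single j 1) :
          Additive (GammaH.GammaH N H) →+ ZMod p))) := fun k j => by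
    rw [etaOp_natural N H hlN (R := ZMod p) (R' := ℤ),
      etaOp_natural N H hlN (R := ZMod p) (R' := ℤ)]
  simp only [hnat]
  have hcor : ∀ (k : Fin 2) (j : Fin (homRankH N H)),
      (corH N q hqN H).op ℤ (R ⧸ I) ((u k j).comp (w j k))
        = if k = 0 then (u k j).comp (etaOp N H (ZMod p) (ZMod p) hlN
            (etaOp N H (ZMod p) (ZMod p) hlN (coordH hneg (ZMod p) (ZMod p) (Pi.single j 1)).1))
          else 0 := by
    intro k j
    rw [CosetSys.op_natural _ (R := ZMod p) (R' := ℤ), hw₀]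
    split
    · rfl
    · rw [ZeroMemClass.coe_zero, map_zero, map_zero, AddMonoidHom.comp_zero]
  have hcorw : ∀ (k : Fin 2) (j : Fin (homRankH N H)),
      (corH N q hqN H).op ℤ (R ⧸ I) ((wH N q hqN H (unitOf hqN)).op ℤ (R ⧸ I)
        ((u k j).comp (w j k)))
        = if k = 1 then (u k j).comp (etaOp N H (ZMod p) (ZMod p) hlN
            (etaOp N H (ZMod p) (ZMod p) hlN (coordH hneg (ZMod p) (ZMod p) (Pi.single j 1)).1))
          else 0 := by
    intro k j
    rw [CosetSys.op_natural _ (R := ZMod p) (R' := ℤ),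
      CosetSys.op_natural _ (R := ZMod p) (R' := ℤ), hw₁]
    split
    · rfl
    · rw [ZeroMemClass.coe_zero, map_zero, map_zero, AddMonoidHom.comp_zero]
  fin_cases i
  · show (redI I).comp ((corH N q hqN H).op R R _) = _
    rw [← CosetSys.op_natural _ (R' := ℤ), Submodule.subtype_apply, hz, hzb]
    simp only [map_sum, hcor]
    simp
  · show (redI I).comp ((corH N q hqN H).op R R ((wH N q hqN H (unitOf hqN)).op R R _)) = _
    rw [← CosetSys.op_natural _ (R' := ℤ), ← CosetSys.op_natural _ (R' := ℤ),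
      Submodule.subtype_apply, hz, hzb]
    simp only [map_sum, hcorw]
    simp

end Modulo

end Fermat.Agent.IharaTW
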