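import Fermat.Agent.GalRep.LocalDatum

/-!
# Finite reduced algebras acting on torsion free modules

An element of a reduced algebra acting nilpotently acts as zero; an element vanishing at all points
killing the annihilator acts nilpotently.
-/

set_option autoImplicit false

noncomputable section

namespace Fermat.Agent.IharaTW

open IsLocalRing Polynomial

section Integral

variable {O B : Type*} [CommRing O] [IsDomain O] [CommRing B] [Algebra O B]
  [Algebra.IsIntegral O B]

/-- A relation `(a₀ + k s) k^j = 0` with `a₀ ≠ 0`. -/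
theorem exists_relation (k : B) :
    ∃ (j : ℕ) (a₀ : O) (s : B), a₀ ≠ 0 ∧ (algebraMap O B a₀ + k * s) * k ^ j = 0 := by
  obtain ⟨f, hf, hfk⟩ := Algebra.IsIntegral.isIntegral (R := O) k
  obtain ⟨g, hg, hg0⟩ := f.exists_eq_pow_rootMultiplicity_mul_and_not_dvd hf.ne_zero 0
  simp only [map_zero, sub_zero] at hg hg0
  refine ⟨f.rootMultiplicity 0, g.coeff 0, aeval k g.divX, fun h => hg0 ?_, ?_⟩
  · exact Polynomial.X_dvd_iff.mpr h
  · have h1 : aeval k g = algebraMap O B (g.coeff 0) + k * aeval k g.divX := by
      conv_lhs => rw [← g.X_mul_divX_add]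
      rw [map_add, map_mul, aeval_X, aeval_C, add_comm]
    rw [← h1, mul_comm]
    have h2 : aeval k f = 0 := hfk
    rwa [hg, map_mul, map_pow, aeval_X] at h2

theorem exists_relation_of_reduced [IsReduced B] (k : B) :
    ∃ (a₀ : O) (s : B), a₀ ≠ 0 ∧ (algebraMap O B a₀ + k * s) * k = 0 := by
  obtain ⟨j, a₀, s, ha, h⟩ := exists_relation (O := O) k
  refine ⟨a₀, s, ha, IsNilpotent.eq_zero ⟨j + 1, ?_⟩⟩
  set u := algebraMap O B a₀ + k * s
  rw [mul_pow, pow_succ u, pow_succ k,
    show u ^ j * u * (k ^ j * k) = u ^ j * (u * k ^ j) * k by ring, h, mul_zero,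
    zero_mul]

variable {M : Type*} [AddCommGroup M] [Module O M] [Module.IsTorsionFree O M]
  (φ : B →ₐ[O] Module.End O M)

/-- An element of a reduced algebra acting nilpotently acts as zero. -/
theorem eq_zero_of_isNilpotent_apply [IsReduced B] {k : B} (hk : IsNilpotent (φ k)) :
    φ k = 0 := by
  obtain ⟨n, hn⟩ := hk
  obtain ⟨a₀, s, ha, h⟩ := exists_relation_of_reduced (O := O) k
  have hpow : ∀ m, algebraMap O B a₀ ^ m * k = (-s) ^ m * k ^ (m + 1) := fun m => by
    induction m with
    | zero => simp
    | succ m ih =>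
      have e : algebraMap O B a₀ * k = -(k * s * k) :=
        eq_neg_of_add_eq_zero_left (by rw [← add_mul]; exact h)
      rw [pow_succ, mul_assoc, e, show algebraMap O B a₀ ^ m * -(k * s * k)
        = algebraMap O B a₀ ^ m * k * (-s * k) by ring, ih]
      ring
  refine LinearMap.ext fun v => ?_
  have h1 := congrArg φ (hpow n)
  rw [← map_pow (algebraMap O B), map_mul, AlgHom.commutes, map_mul, pow_succ k, map_mul,
    map_pow φ k, hn, zero_mul, mul_zero] at h1
  have h2 := LinearMap.congr_fun h1 v
  rw [Module.End.mul_apply, Module.algebraMap_end_apply, LinearMap.zero_apply] at h2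
  exact (smul_eq_zero.mp h2).resolve_left (pow_ne_zero _ ha)

end Integral

section Points

variable {O : Type} [CommRing O] [IsDomain O] [IsDiscreteValuationRing O]
  [IsAdicComplete (maximalIdeal O) O] [Finite (ResidueField O)] [CharZero O]
  {B : Type} [CommRing B] [Algebra O B] [Module.Finite O B]
  {M : Type} [AddCommGroup M] [Module O M] [Module.Finite O M] [Module.IsTorsionFree O M]

omit [Module.Finite O M] in
/-- An element vanishing at all points killing the annihilator acts nilpotently. -/
theorem isNilpotent_apply_of_points (φ : B →ₐ[O] Module.End O M) {k : B}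
    (hk : ∀ (O' : Type) [CommRing O'] [IsDomain O'] [IsDiscreteValuationRing O']
      [IsAdicComplete (maximalIdeal O') O'] [Finite (ResidueField O')] [CharZero O']
      [Algebra O O'] [Module.Finite O O'] [IsLocalHom (algebraMap O O')]
      (x : B →ₐ[O] O'), (∀ z, φ z = 0 → x z = 0) → x k = 0) : IsNilpotent (φ k) := by
  have hinj : Function.Injective (Ideal.Quotient.liftₐ (RingHom.ker φ) φ fun _ h => h) :=
    RingHom.kerLift_injective φ.toRingHom
  set ψ := Ideal.Quotient.liftₐ (RingHom.ker φ) φ fun _ h => h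
  have : Module.IsTorsionFree O (B ⧸ RingHom.ker φ) :=
    Function.Injective.moduleIsTorsionFree ψ hinj fun a b => map_smul ψ a b
  have : Module.Free O (B ⧸ RingHom.ker φ) :=
    Module.free_of_finite_type_torsion_free' (R := O) (M := B ⧸ RingHom.ker φ)
  have hnil : Ideal.Quotient.mk (RingHom.ker φ) k ∈ nilradical (B ⧸ RingHom.ker φ) := by
    rw [nilradical, ← Ideal.sInf_minimalPrimes, Ideal.mem_sInf]
    intro P hP
    have : P.IsPrime := hP.1.1
    obtain ⟨O', _, _, _, _, _, _, _, _, _, x, hx⟩ := GalRep.exists_dvr_of_domain (𝒪 := O)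
      ((B ⧸ RingHom.ker φ) ⧸ P) (GalRep.injective_quotient_minimalPrime _ P hP)
    have h1 := hk O' ((x.comp (Ideal.Quotient.mkₐ O P)).comp (Ideal.Quotient.mkₐ O _))
      fun z hz => by
        rw [AlgHom.comp_apply, Ideal.Quotient.mkₐ_eq_mk,
          Ideal.Quotient.eq_zero_iff_mem.mpr (RingHom.mem_ker.mpr hz), map_zero]
    rw [AlgHom.comp_apply, AlgHom.comp_apply, Ideal.Quotient.mkₐ_eq_mk, Ideal.Quotient.mkₐ_eq_mk,
      map_eq_zero_iff x hx, Ideal.Quotient.eq_zero_iff_mem] at h1
    exact h1
  rw [mem_nilradical] at hnil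
  exact hnil.map ψ

end Points

end Fermat.Agent.IharaTW
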