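import Fermat.Agent.Patching.Construct
import Fermat.Agent.IharaTW.Flip

/-!
# Patching the degeneracy maps

Levelwise intertwining matrices between two sequences of levels over the same `A` pass to the
patched modules; hence the component flip for patched modules.
-/

set_option autoImplicit false

noncomputable section

open IsLocalRing Filter Matrix

namespace Fermat.Agent.IharaTW

open Fermat.Agent.Patching

variable {Λ : Type*} [CommRing Λ]

/-- Two copies of a square matrix. -/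
def blk {d : ℕ} (M : Matrix (Fin d) (Fin d) Λ) : Matrix (Fin 2 × Fin d) (Fin 2 × Fin d) Λ :=
  Matrix.of fun x y => if x.1 = y.1 then M x.2 y.2 else 0

/-- The block matrix with blocks `M (δ i j)`. -/
def deltaBlk {A : Type*} {d : ℕ} (M : A → Matrix (Fin d) (Fin d) Λ)
    (δ : Matrix (Fin 2) (Fin 2) A) : Matrix (Fin 2 × Fin d) (Fin 2 × Fin d) Λ :=
  Matrix.of fun x y => M (δ x.1 y.1) x.2 y.2

section Level

variable {A R R' : Type*} [CommRing A] [CommRing R] [CommRing R'] {𝔞 𝔞' : Ideal Λ} {I : Ideal R}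
  {I' : Ideal R'} {d d' : ℕ}

/-- Degeneracy maps between two levels, as matrices modulo both ideals: `f` is split injective,
`g` split surjective, `g ∘ f = δ`, `J` kills `ker g`. -/
structure FlipLevel (L : Level Λ A R 𝔞 I d) (L' : Level Λ A R' 𝔞' I' d') (J : Ideal A)
    (δ : Matrix (Fin 2) (Fin 2) A) where
  /-- the map from two copies of the small level -/
  f : Matrix (Fin d) (Fin 2 × Fin d') Λ
  /-- the map to two copies of the small level -/
  g : Matrix (Fin 2 × Fin d') (Fin d) Λ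
  /-- a left inverse of `f` -/
  C : Matrix (Fin 2 × Fin d') (Fin d) Λ
  /-- a right inverse of `g` -/
  E : Matrix (Fin d) (Fin 2 × Fin d') Λ
  scalar : ∀ l : Λ, ∃ a : A, L.act a = Matrix.scalar (Fin d) (Ideal.Quotient.mk L.c l) ∧
    L'.act a = Matrix.scalar (Fin d') (Ideal.Quotient.mk L'.c l)
  f_comm : ∀ a i j, (Matrix.of (L.mat a) * f - f * blk (Matrix.of (L'.mat a))) i j ∈ L.c ⊔ L'.c
  g_comm : ∀ a i j, (g * Matrix.of (L.mat a) - blk (Matrix.of (L'.mat a)) * g) i j ∈ L.c ⊔ L'.c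
  C_f : ∀ i j, (C * f - (1 : Matrix (Fin 2 × Fin d') (Fin 2 × Fin d') Λ)) i j ∈ L.c ⊔ L'.c
  g_E : ∀ i j, (g * E - (1 : Matrix (Fin 2 × Fin d') (Fin 2 × Fin d') Λ)) i j ∈ L.c ⊔ L'.c
  g_f : ∀ i j, (g * f - deltaBlk (fun a => Matrix.of (L'.mat a)) δ) i j ∈ L.c ⊔ L'.c
  kill : ∀ a ∈ J, ∀ i j,
    (Matrix.of (L.mat a) * ((1 : Matrix (Fin d) (Fin d) Λ) - E * g)) i j ∈ L.c ⊔ L'.c

end Level

section Limit

variable [IsLocalRing Λ] [IsNoetherianRing Λ] [Finite (ResidueField Λ)]
  [IsAdicComplete (maximalIdeal Λ) Λ]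

/-- Entrywise limit of matrices. -/
def MatLim {ι κ : Type*} (X : ℕ → Matrix ι κ Λ) (x : Matrix ι κ Λ) : Prop :=
  ∀ i j, HasULim U₀ (fun n => X n i j) (x i j)

/-- The entrywise limit along the patching ultrafilter. -/
def limMat {ι κ : Type*} (X : ℕ → Matrix ι κ Λ) : Matrix ι κ Λ :=
  Matrix.of fun i j => ulim U₀ fun n => X n i j

theorem matLim_limMat {ι κ : Type*} (X : ℕ → Matrix ι κ Λ) : MatLim X (limMat X) :=
  fun i j => hasULim_ulim U₀ fun n => X n i j

omit [IsNoetherianRing Λ] in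
omit [Finite (ResidueField Λ)] [IsAdicComplete (maximalIdeal Λ) Λ] in
theorem matLim_const {ι κ : Type*} (x : Matrix ι κ Λ) : MatLim (fun _ => x) x :=
  fun _ _ => hasULim_const _

omit [IsNoetherianRing Λ] in
omit [Finite (ResidueField Λ)] [IsAdicComplete (maximalIdeal Λ) Λ] in
theorem MatLim.mul {ι κ μ : Type*} [Fintype κ] {X : ℕ → Matrix ι κ Λ} {x : Matrix ι κ Λ}
    {Y : ℕ → Matrix κ μ Λ} {y : Matrix κ μ Λ} (hX : MatLim X x) (hY : MatLim Y y) :
    MatLim (fun n => X n * Y n) (x * y) := fun i j => by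
  simp only [Matrix.mul_apply]
  exact HasULim.sum Finset.univ fun r _ => (hX i r).mul (hY r j)

omit [IsNoetherianRing Λ] [Finite (ResidueField Λ)] [IsAdicComplete (maximalIdeal Λ) Λ] in
theorem MatLim.sub {ι κ : Type*} {X Y : ℕ → Matrix ι κ Λ} {x y : Matrix ι κ Λ}
    (hX : MatLim X x) (hY : MatLim Y y) : MatLim (fun n => X n - Y n) (x - y) := fun i j k => by
  filter_upwards [hX i j k, hY i j k] with n h1 h2
  have := sub_mem h1 h2
  simp only [Matrix.sub_apply]
  convert this using 1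
  ring

omit [Finite (ResidueField Λ)] [IsAdicComplete (maximalIdeal Λ) Λ] in
theorem MatLim.eq_zero {ι κ : Type*} {X : ℕ → Matrix ι κ Λ} {x : Matrix ι κ Λ} (hX : MatLim X x)
    {c : ℕ → Ideal Λ} (hc : ∀ k, ∀ᶠ n in atTop, c n ≤ maximalIdeal Λ ^ k)
    (h : ∀ n i j, X n i j ∈ c n) : x = 0 := by
  refine Matrix.ext fun i j => (hX i j).unique ?_
  refine (hasULim_const (0 : Λ)).congr fun k => ?_
  filter_upwards [U₀_le_atTop (hc k)] with n hn
  simpa using hn (h n i j)

end Limit

section Matrices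

variable {A : Type*} [CommRing A] {d d' : ℕ}

/-- The flip for actions by matrices. -/
theorem supp_of_flip_mat [IsDomain Λ] [IsNoetherianRing Λ] [IsLocalRing Λ]
    (act : A →+* Matrix (Fin d) (Fin d) Λ) (act' : A →+* Matrix (Fin d') (Fin d') Λ)
    (hdim : ringKrullDim A ≤ ringKrullDim Λ)
    (sc : ∀ l : Λ, ∃ a : A, act a = Matrix.scalar (Fin d) l ∧ act' a = Matrix.scalar (Fin d') l)
    (f : Matrix (Fin d) (Fin 2 × Fin d') Λ) (g C : Matrix (Fin 2 × Fin d') (Fin d) Λ)
    (E : Matrix (Fin d) (Fin 2 × Fin d') Λ) (hf : ∀ a, act a * f = f * blk (act' a))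
    (hg : ∀ a, g * act a = blk (act' a) * g) (hC : C * f = 1) (hE : g * E = 1)
    {δ : Matrix (Fin 2) (Fin 2) A} (hgf : g * f = deltaBlk (fun a => act' a) δ) {J : Ideal A}
    (hkill : ∀ a ∈ J, act a * (1 - E * g) = 0)
    {Q : Ideal A} [Q.IsPrime] (hsupp : RingHom.ker act' ≤ Q) (hdet : δ.det ∈ Q) {P : Ideal A}
    (hcomp : ∀ P' ∈ minimalPrimes A, P' ≤ Q → P' = P ∨ (¬ J ≤ P' ∧ δ.det ∉ P')) :
    RingHom.ker act ≤ P := by
  classical
  let : Module A (Fin d → Λ) :=
    Module.compHom (R := Module.End Λ (Fin d → Λ)) _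
      ((Matrix.toLinAlgEquiv' (R := Λ)).toRingEquiv.toRingHom.comp act)
  let : Module A (Fin d' → Λ) :=
    Module.compHom (R := Module.End Λ (Fin d' → Λ)) _
      ((Matrix.toLinAlgEquiv' (R := Λ)).toRingEquiv.toRingHom.comp act')
  have hsmul : ∀ (a : A) (x : Fin d → Λ), a • x = act a *ᵥ x := fun _ _ => rfl
  have hsmul' : ∀ (a : A) (x : Fin d' → Λ), a • x = act' a *ᵥ x := fun _ _ => rfl
  let u : (Fin 2 → Fin d' → Λ) ≃ₗ[Λ] (Fin 2 × Fin d' → Λ) := (LinearEquiv.curry Λ Λ _ _).symm
  have hu : ∀ y x, u y x = y x.1 x.2 := fun _ _ => rfl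
  have hublk : ∀ (a : A) (y : Fin 2 → Fin d' → Λ), u (a • y) = blk (act' a) *ᵥ u y := fun a y => by
    funext x
    rw [hu, Pi.smul_apply, hsmul', Matrix.mulVec, Matrix.mulVec, dotProduct, dotProduct,
      Fintype.sum_prod_type, Finset.sum_eq_single x.1 (fun j _ hj => ?_) (by simp)]
    · exact Finset.sum_congr rfl fun s _ => by simp [blk, hu]
    · exact Finset.sum_eq_zero fun s _ => by simp [blk, Ne.symm hj]
  have key := annihilator_le_of_flip (Λ := Λ) (A := A) (M := Fin d → Λ) (M' := Fin d' → Λ) hdim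
    (fun l => by
      obtain ⟨a, h1, h2⟩ := sc l
      refine ⟨a, fun v => ?_, fun v => ?_⟩
      · rw [hsmul, h1]; ext i; simp [Matrix.mulVec_diagonal]
      · rw [hsmul', h2]; ext i; simp [Matrix.mulVec_diagonal])
    ((Matrix.mulVecLin f).comp u.toLinearMap) (u.symm.toLinearMap.comp (Matrix.mulVecLin g))
    (fun a y => by
      simp only [LinearMap.comp_apply, LinearEquiv.coe_coe, Matrix.mulVecLin_apply]
      rw [hublk, Matrix.mulVec_mulVec, ← hf, ← Matrix.mulVec_mulVec, hsmul])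
    (fun a x => by
      apply u.injective
      simp only [LinearMap.comp_apply, LinearEquiv.coe_coe, Matrix.mulVecLin_apply,
        LinearEquiv.apply_symm_apply, hublk]
      rw [hsmul, Matrix.mulVec_mulVec, hg, ← Matrix.mulVec_mulVec])
    (u.symm.toLinearMap.comp (Matrix.mulVecLin C))
    (fun y => by simp [Matrix.mulVec_mulVec, hC])
    ((Matrix.mulVecLin E).comp u.toLinearMap)
    (fun y => by simp [Matrix.mulVec_mulVec, hE])
    δ (fun y i => by
      funext r
      simp only [LinearMap.comp_apply, LinearEquiv.coe_coe, Matrix.mulVecLin_apply,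
        Matrix.mulVec_mulVec, hgf, Finset.sum_apply, hsmul']
      simp only [u, LinearEquiv.symm_symm, LinearEquiv.coe_curry, Matrix.mulVec, dotProduct,
        Fintype.sum_prod_type, deltaBlk, Matrix.of_apply, LinearEquiv.coe_curry_symm,
        Function.uncurry_apply_pair, Function.curry_apply])
    (J := J) (fun a ha x hx => by
      simp only [LinearMap.comp_apply, LinearEquiv.coe_coe, Matrix.mulVecLin_apply,
        LinearEquiv.map_eq_zero_iff] at hx
      rw [hsmul]
      have h0 := congrArg (fun X => X *ᵥ x) (hkill a ha)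
      simpa [← Matrix.mulVec_mulVec, Matrix.sub_mulVec, hx] using h0)
    (Q := Q) (fun a ha => hsupp (RingHom.mem_ker.mpr (Matrix.ext_of_mulVec_single fun i => by
      rw [Matrix.zero_mulVec]; exact Module.mem_annihilator.mp ha (Pi.single i 1))))
    hdet hcomp
  intro a ha
  refine key (Module.mem_annihilator.mpr fun x => ?_)
  rw [hsmul, RingHom.mem_ker.mp ha, Matrix.zero_mulVec]

end Matrices

section Patch

variable {A R R' : Type*} [CommRing A] [CommRing R] [CommRing R']
  [IsLocalRing Λ] [IsNoetherianRing Λ] [Finite (ResidueField Λ)]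
  [IsAdicComplete (maximalIdeal Λ) Λ] [IsDomain Λ]
  [IsLocalRing A] [IsNoetherianRing A] [Finite (ResidueField A)]
  [IsAdicComplete (maximalIdeal A) A]
  [IsLocalRing R] [IsNoetherianRing R] [Finite (ResidueField R)]
  [IsAdicComplete (maximalIdeal R) R]
  [IsLocalRing R'] [IsNoetherianRing R'] [Finite (ResidueField R')]
  [IsAdicComplete (maximalIdeal R') R']
  {𝔞 𝔞' : Ideal Λ} {I : Ideal R} {I' : Ideal R'} {d d' : ℕ}
  (L : ℕ → Level Λ A R 𝔞 I d) (L' : ℕ → Level Λ A R' 𝔞' I' d')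
  (hc : ∀ k, ∀ᶠ n in atTop, (L n).c ≤ maximalIdeal Λ ^ k)
  (hc' : ∀ k, ∀ᶠ n in atTop, (L' n).c ≤ maximalIdeal Λ ^ k)

/-- **The component flip for patched modules.** -/
theorem supp_of_flip {J : Ideal A} {δ : Matrix (Fin 2) (Fin 2) A}
    (F : ∀ n, FlipLevel (L n) (L' n) J δ) (hdim : ringKrullDim A ≤ ringKrullDim Λ)
    {Q : Ideal A} (hQ : Q.IsPrime) (hsupp : (patch L' hc').Supp Q) (hdet : δ.det ∈ Q) {P : Ideal A}
    (hcomp : ∀ P' ∈ minimalPrimes A, P' ≤ Q → P' = P ∨ (¬ J ≤ P' ∧ δ.det ∉ P')) :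
    (patch L hc).Supp P := by
  classical
  have := hQ
  have hcc : ∀ k, ∀ᶠ n in atTop, (L n).c ⊔ (L' n).c ≤ maximalIdeal Λ ^ k := fun k => by
    filter_upwards [hc k, hc' k] with n h1 h2 using sup_le h1 h2
  set act := patchAct L hc
  set act' := patchAct L' hc'
  change RingHom.ker act ≤ P
  change RingHom.ker act' ≤ Q at hsupp
  have hL : ∀ a, MatLim (fun n => Matrix.of ((L n).mat a)) (act a) := hasULim_patchAct L hc
  have hL' : ∀ a, MatLim (fun n => Matrix.of ((L' n).mat a)) (act' a) := hasULim_patchAct L' hc'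
  have hblk : ∀ a, MatLim (fun n => blk (Matrix.of ((L' n).mat a)))
      (blk (act' a)) := fun a x y => by
    by_cases h : x.1 = y.1 <;> simp only [blk, Matrix.of_apply, h, if_true, if_false]
    · exact hL' a x.2 y.2
    · exact hasULim_const 0
  set f := limMat fun n => (F n).f
  set g := limMat fun n => (F n).g
  set C := limMat fun n => (F n).C
  set E := limMat fun n => (F n).E
  have hf : ∀ a, act a * f = f * blk (act' a) := fun a => sub_eq_zero.mp
    ((((hL a).mul (matLim_limMat _)).sub ((matLim_limMat _).mul (hblk a))).eq_zero hcc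
      fun n => (F n).f_comm a)
  have hg : ∀ a, g * act a = blk (act' a) * g := fun a => sub_eq_zero.mp
    ((((matLim_limMat _).mul (hL a)).sub ((hblk a).mul (matLim_limMat _))).eq_zero hcc
      fun n => (F n).g_comm a)
  have hlf := matLim_limMat fun n => (F n).f
  have hlg := matLim_limMat fun n => (F n).g
  have hlC := matLim_limMat fun n => (F n).C
  have hlE := matLim_limMat fun n => (F n).E
  have h1 : MatLim (fun n => (F n).C * (F n).f - 1) (C * f - 1) :=
    (hlC.mul hlf).sub (matLim_const 1)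
  have hC : C * f = 1 := sub_eq_zero.mp (h1.eq_zero hcc fun n => (F n).C_f)
  have h2 : MatLim (fun n => (F n).g * (F n).E - 1) (g * E - 1) :=
    (hlg.mul hlE).sub (matLim_const 1)
  have hE : g * E = 1 := sub_eq_zero.mp (h2.eq_zero hcc fun n => (F n).g_E)
  have h3 : MatLim (fun n => deltaBlk (fun a => Matrix.of ((L' n).mat a)) δ)
      (deltaBlk (fun a => act' a) δ) := fun x y => hL' (δ x.1 y.1) x.2 y.2
  have h4 : MatLim (fun n => (F n).g * (F n).f - deltaBlk (fun a => Matrix.of ((L' n).mat a)) δ)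
      (g * f - deltaBlk (fun a => act' a) δ) := (hlg.mul hlf).sub h3
  have hgf : g * f = deltaBlk (fun a => act' a) δ :=
    sub_eq_zero.mp (h4.eq_zero hcc fun n => (F n).g_f)
  have hkill : ∀ a ∈ J, act a * (1 - E * g) = 0 := fun a ha => by
    have h5 : MatLim (fun n => Matrix.of ((L n).mat a) * (1 - (F n).E * (F n).g))
        (act a * (1 - E * g)) := (hL a).mul ((matLim_const 1).sub (hlE.mul hlg))
    exact h5.eq_zero hcc fun n => (F n).kill a ha
  exact supp_of_flip_mat act act' hdim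
    (fun l => by
      choose x hx hx' using fun n => (F n).scalar l
      exact ⟨ulim U₀ x, patchAct_eq_scalar L hc (hasULim_ulim U₀ x) hx,
        patchAct_eq_scalar L' hc' (hasULim_ulim U₀ x) hx'⟩)
    f g C E hf hg hC hE hgf hkill hsupp hdet hcomp

end Patch

end Fermat.Agent.IharaTW
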