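import Fermat.Agent.IharaTW.StageLevel
import Fermat.Agent.TW.EtaFree

/-!
# Change of the structure map of a stage

If `c ↦ ∑ i, c i • b i` for a second structure map is bijective on the coordinates of a basis for
the first, the same vectors are a basis of the stage for the second.
-/

set_option autoImplicit false

noncomputable section

namespace Fermat.Agent.IharaTW

variable {O V A G : Type} [CommRing O] [AddCommGroup V] [Module O V] [CommRing A] [Algebra O A]
  [CommGroup G] {e : Module.End O V} (Φ : A →ₐ[O] Module.End O V) (δ ζ : G →* A)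
  (hΦe : ∀ a, Commute e (Φ a))

/-- The second structure map on the module of the first. -/
def strHom : G →* Module.End (MonoidAlgebra O G) (StageMod Φ δ hΦe) :=
  (stageOp Φ δ hΦe).toMonoidHom.comp ζ

theorem strHom_apply (g : G) : strHom Φ δ ζ hΦe g = stageOp Φ δ hΦe (ζ g) := rfl

/-- The same vector for the second structure map. -/
def toStr : StageMod Φ δ hΦe ≃+ StageMod Φ ζ hΦe :=
  (stageRep (strMap Φ δ) (commute_strMap Φ δ hΦe)).asModuleEquiv.toAddEquiv.trans
    (stageRep (strMap Φ ζ) (commute_strMap Φ ζ hΦe)).asModuleEquiv.symm.toAddEquiv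

theorem opVec_toStr (v : StageMod Φ δ hΦe) :
    opVec Φ ζ hΦe (toStr Φ δ ζ hΦe v) = opVec Φ δ hΦe v := by
  simp [toStr, opVec, stageVec]

theorem toStr_stageOp (s : MonoidAlgebra O G) (v : StageMod Φ δ hΦe) :
    toStr Φ δ ζ hΦe (stageOp Φ δ hΦe (strElem ζ s) v) = s • toStr Φ δ ζ hΦe v := by
  refine stageVec_injective _ _ ?_
  show opVec Φ ζ hΦe _ = opVec Φ ζ hΦe _
  rw [← stageOp_strElem Φ ζ hΦe, opVec_toStr, opVec_stageOp, opVec_stageOp, opVec_toStr]

theorem exists_basis_toStr {d : ℕ} (b : Module.Basis (Fin d) (MonoidAlgebra O G) (StageMod Φ δ hΦe))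
    (h : Function.Bijective fun c : Fin d → MonoidAlgebra O G =>
      ∑ i, stageOp Φ δ hΦe (strElem ζ (c i)) (b i)) :
    ∃ b' : Module.Basis (Fin d) (MonoidAlgebra O G) (StageMod Φ ζ hΦe),
      ∀ i, opVec Φ ζ hΦe (b' i) = opVec Φ δ hΦe (b i) := by
  have key : ∀ c : Fin d → MonoidAlgebra O G,
      toStr Φ δ ζ hΦe (∑ i, stageOp Φ δ hΦe (strElem ζ (c i)) (b i))
        = ∑ i, c i • toStr Φ δ ζ hΦe (b i) := fun c => by
    rw [map_sum]
    exact Finset.sum_congr rfl fun i _ => toStr_stageOp Φ δ ζ hΦe (c i) (b i)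
  refine ⟨Module.Basis.mk (v := fun i => toStr Φ δ ζ hΦe (b i)) ?_ ?_, fun i => ?_⟩
  · rw [Fintype.linearIndependent_iff]
    intro c hc
    rw [← key, AddEquiv.map_eq_zero_iff] at hc
    exact congrFun (h.1 (a₂ := fun _ => 0) (hc.trans (by simp)))
  · intro y _
    obtain ⟨c, hc⟩ := h.2 ((toStr Φ δ ζ hΦe).symm y)
    rw [Submodule.mem_span_range_iff_exists_fun]
    exact ⟨c, by rw [← key]; exact (congrArg _ hc).trans ((toStr Φ δ ζ hΦe).apply_symm_apply y)⟩
  · rw [Module.Basis.mk_apply, opVec_toStr]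

/-- The form in which `TW.EtaFree.bijective_eta` gives the hypothesis. -/
theorem lift_strHom (s : MonoidAlgebra O G) :
    MonoidAlgebra.lift O (Module.End (MonoidAlgebra O G) (StageMod Φ δ hΦe)) G
      (strHom Φ δ ζ hΦe) s = stageOp Φ δ hΦe (strElem ζ s) := by
  induction s using MonoidAlgebra.induction_on with
  | of g =>
    show MonoidAlgebra.lift O (Module.End (MonoidAlgebra O G) (StageMod Φ δ hΦe)) G
      (strHom Φ δ ζ hΦe) (MonoidAlgebra.single g 1)
      = stageOp Φ δ hΦe (strElem ζ (MonoidAlgebra.single g 1))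
    rw [MonoidAlgebra.lift_single, strElem_single, one_smul, one_smul, strHom_apply]
  | add x y hx hy => rw [map_add, map_add, map_add, hx, hy]
  | smul r x hx =>
    refine LinearMap.ext fun v => stageVec_injective _ _ ?_
    rw [map_smul, LinearMap.smul_apply, hx, map_smul]
    show _ = opVec Φ δ hΦe _
    rw [opVec_stageOp, map_smul, LinearMap.smul_apply, ← opVec_stageOp Φ δ hΦe (strElem ζ x) v]
    show opVec Φ δ hΦe _ = _
    rw [opVec, stageVec, map_smul]
    rfl

/-- A basis for the second structure map from bijectivity of the twisted coordinates. -/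
theorem exists_basis_of_lift {d : ℕ}
    (b : Module.Basis (Fin d) (MonoidAlgebra O G) (StageMod Φ δ hΦe))
    (h : Function.Bijective fun c : Fin d → MonoidAlgebra O G =>
      ∑ i, MonoidAlgebra.lift O (Module.End (MonoidAlgebra O G) (StageMod Φ δ hΦe)) G
        (strHom Φ δ ζ hΦe) (c i) (b i)) :
    ∃ b' : Module.Basis (Fin d) (MonoidAlgebra O G) (StageMod Φ ζ hΦe),
      ∀ i, opVec Φ ζ hΦe (b' i) = opVec Φ δ hΦe (b i) :=
  exists_basis_toStr Φ δ ζ hΦe b (by simpa only [lift_strHom] using h)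

/-- An element of the group ring times an operator of the stage vanishes exactly if the
corresponding element of the Hecke ring kills the summand. -/
theorem smul_stageOp_eq_zero_iff (he : IsIdempotentElem e) (s : MonoidAlgebra O G) (a : A) :
    s • stageOp Φ δ hΦe a = 0 ↔ ∀ x, e x = x → Φ (strElem δ s * a) x = 0 := by
  have key : ∀ v, opVec Φ δ hΦe ((s • stageOp Φ δ hΦe a) v) =
      Φ (strElem δ s * a) (opVec Φ δ hΦe v) := fun v => by
    rw [LinearMap.smul_apply, ← stageOp_strElem Φ δ hΦe, ← Module.End.mul_apply, ← map_mul,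
      opVec_stageOp]
  constructor
  · intro h x hx
    have hv := key ((stageRep (strMap Φ δ) (commute_strMap Φ δ hΦe)).asModuleEquiv.symm ⟨x, x, hx⟩)
    rw [h, LinearMap.zero_apply] at hv
    have h0 : opVec Φ δ hΦe (0 : StageMod Φ δ hΦe) = 0 := stageVec_zero _ _
    rw [h0] at hv
    simpa [opVec, stageVec] using hv.symm
  · intro h
    refine LinearMap.ext fun v => stageVec_injective _ _ ?_
    exact ((key v).trans (h _ (apply_stageVec _ _ he v))).trans (stageVec_zero _ _).symm

open IsLocalRing TW.EtaFree TW.GroupRing in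
/-- **A basis for the natural structure map.** -/
theorem exists_basis_eta [Fintype G] [IsLocalRing O] [IsDomain O] [CharZero O] [IsNoetherianRing O]
    [IsLocalRing (MonoidAlgebra O G)] (he : IsIdempotentElem e) {ι : Type} [Fintype ι] (g : ι → G)
    {d : ℕ} (b : Module.Basis (Fin d) (MonoidAlgebra O G) (StageMod Φ δ hΦe)) {p : ℕ}
    (hp : p.Prime) (hpO : (p : O) ∈ maximalIdeal O) {z : O} (hz : IsPrimitiveRoot z p)
    (hpG : IsPGroup p G) (hgen : Subgroup.closure (Set.range g) = ⊤) (χ : ι → G →* O)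
    (hχd : ∀ j, χ j (g j) = z) (hχ : ∀ j j', j ≠ j' → χ j' (g j) = 1)
    (h0 : ∀ j x, e x = x → Φ (strElem δ (normElem O G) * (ζ (g j) - 1)) x = 0)
    (hoff : ∀ j j', j ≠ j' → ∀ x, e x = x →
      Φ (strElem δ (chiNu (χ j')) * (ζ (g j) - 1)) x = 0)
    (hdiag : ∀ j x, e x = x →
      Φ (strElem δ (chiNu (χ j)) * ∑ k ∈ Finset.range p, ζ (g j) ^ k) x = 0) :
    ∃ b' : Module.Basis (Fin d) (MonoidAlgebra O G) (StageMod Φ ζ hΦe),
      ∀ i, opVec Φ ζ hΦe (b' i) = opVec Φ δ hΦe (b i) := by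
  have h1 : ∀ j, strHom Φ δ ζ hΦe (g j) - 1 = stageOp Φ δ hΦe (ζ (g j) - 1) := fun j => by
    rw [map_sub, map_one, strHom_apply]
  refine exists_basis_of_lift Φ δ ζ hΦe b (bijective_eta g b hp hpO hz hpG hgen
    (strHom Φ δ ζ hΦe) χ hχd hχ (fun j => ?_) (fun j j' hj => ?_) fun j => ?_)
  · rw [h1, smul_stageOp_eq_zero_iff Φ δ hΦe he]
    exact h0 j
  · rw [h1, smul_stageOp_eq_zero_iff Φ δ hΦe he]
    exact hoff j j' hj
  · rw [show ∑ k ∈ Finset.range p, strHom Φ δ ζ hΦe (g j) ^ k =
        stageOp Φ δ hΦe (∑ k ∈ Finset.range p, ζ (g j) ^ k) by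
        simp only [map_sum, map_pow, strHom_apply], smul_stageOp_eq_zero_iff Φ δ hΦe he]
    exact hdiag j

end Fermat.Agent.IharaTW
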