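import Fermat.Agent.TW.Level

/-!
# Quotients of group rings along twisted maps of groups

For `π : G → G'` onto and a character `χ` of `G` the map `R[G] → R[G']`, `g ↦ χ(g) π(g)`, has kernel
`J` annihilated by one element `ν`, and kernels for congruent characters are congruent.
-/

set_option autoImplicit false

noncomputable section

namespace Fermat.Agent.IharaTW

open Fermat.Agent.TW.LevelQuot (Quot endQuot endQuot_mk)

variable {R G G' : Type*} [CommRing R] [CommGroup G] [CommGroup G'] (π : G →* G') (χ : G →* Rˣ)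

/-- `g ↦ χ(g) π(g)` on group rings. -/
def twistHom : MonoidAlgebra R G →ₐ[R] MonoidAlgebra R G' :=
  MonoidAlgebra.lift R (MonoidAlgebra R G') G
    { toFun := fun g => MonoidAlgebra.single (π g) (χ g : R)
      map_one' := by rw [map_one, map_one, Units.val_one, MonoidAlgebra.one_def]
      map_mul' := fun g h => by
        rw [map_mul, map_mul, Units.val_mul, MonoidAlgebra.single_mul_single] }

theorem twistHom_single (g : G) (r : R) :
    twistHom π χ (MonoidAlgebra.single g r) = MonoidAlgebra.single (π g) (r * (χ g : R)) := by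
  rw [twistHom, MonoidAlgebra.lift_single]
  exact MonoidAlgebra.smul_single' _ _ _

theorem twistHom_surjective (hπ : Function.Surjective π) :
    Function.Surjective (twistHom π χ) := by
  intro y
  induction y using MonoidAlgebra.induction_on with
  | of g' =>
    obtain ⟨g, rfl⟩ := hπ g'
    exact ⟨MonoidAlgebra.single g ((χ g)⁻¹ : Rˣ), by
      rw [twistHom_single, Units.inv_mul]; rfl⟩
  | add x y hx hy =>
    obtain ⟨u, rfl⟩ := hx
    obtain ⟨v, rfl⟩ := hy
    exact ⟨u + v, map_add _ _ _⟩
  | smul r x hx =>
    obtain ⟨u, rfl⟩ := hx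
    exact ⟨r • u, map_smul _ _ _⟩

/-- The kernel of the twisted map. -/
def twistIdl : Ideal (MonoidAlgebra R G) := RingHom.ker (twistHom π χ).toRingHom

theorem mem_twistIdl {x : MonoidAlgebra R G} : x ∈ twistIdl π χ ↔ twistHom π χ x = 0 := Iff.rfl

theorem twistIdl_ne_top [Nontrivial R] : twistIdl π χ ≠ ⊤ := fun h => by
  have h1 : (1 : MonoidAlgebra R G) ∈ twistIdl π χ := h ▸ Submodule.mem_top
  rw [mem_twistIdl, map_one] at h1
  exact one_ne_zero h1

/-- `Λ` is onto modulo the kernel as soon as it is onto the target. -/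
theorem exists_sub_mem_twistIdl {Λ : Type*} [CommRing Λ] [Algebra Λ (MonoidAlgebra R G)]
    (hΛ : Function.Surjective fun l : Λ => twistHom π χ (algebraMap Λ (MonoidAlgebra R G) l))
    (s : MonoidAlgebra R G) :
    ∃ l : Λ, s - algebraMap Λ (MonoidAlgebra R G) l ∈ twistIdl π χ := by
  obtain ⟨l, hl⟩ := hΛ (twistHom π χ s)
  refine ⟨l, ?_⟩
  rw [mem_twistIdl, map_sub, sub_eq_zero]
  exact hl.symm

/-- Congruent characters have congruent kernels. -/
theorem twistIdl_le_sup (hπ : Function.Surjective π) (χ' : G →* Rˣ) {ϖ : R}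
    (h : ∀ g, ϖ ∣ (χ' g : R) - (χ g : R)) :
    twistIdl π χ ≤ twistIdl π χ' ⊔ Ideal.span {algebraMap R (MonoidAlgebra R G) ϖ} := by
  intro x hx
  have key : ∀ y, ∃ z, twistHom π χ' y - twistHom π χ y = ϖ • z := by
    intro y
    induction y using MonoidAlgebra.induction_on with
    | of g =>
      obtain ⟨c, hc⟩ := h g
      refine ⟨MonoidAlgebra.single (π g) c, ?_⟩
      show twistHom π χ' (MonoidAlgebra.single g 1) - twistHom π χ (MonoidAlgebra.single g 1) = _
      rw [twistHom_single, twistHom_single, one_mul, one_mul, ← MonoidAlgebra.single_sub, hc]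
      exact (MonoidAlgebra.smul_single' _ _ _).symm
    | add a b ha hb =>
      obtain ⟨u, hu⟩ := ha
      obtain ⟨v, hv⟩ := hb
      refine ⟨u + v, ?_⟩
      rw [map_add, map_add, smul_add, ← hu, ← hv]
      abel
    | smul r a ha =>
      obtain ⟨u, hu⟩ := ha
      exact ⟨r • u, by rw [map_smul, map_smul, ← smul_sub, hu, smul_comm]⟩
  obtain ⟨z, hz⟩ := key x
  rw [(mem_twistIdl π χ).mp hx, sub_zero] at hz
  obtain ⟨w, rfl⟩ := twistHom_surjective π χ' hπ z
  rw [← sub_add_cancel x (ϖ • w)]
  refine add_mem (Ideal.mem_sup_left ((mem_twistIdl π χ').mpr ?_)) (Ideal.mem_sup_right ?_)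
  · rw [map_sub, map_smul, hz, sub_self]
  · rw [Algebra.smul_def]
    exact Ideal.mul_mem_right _ _ (Ideal.mem_span_singleton_self _)

variable [Fintype G]

/-- The element with annihilator `twistIdl`. -/
def twistNorm : MonoidAlgebra R G := by
  classical
  exact ∑ h : G, if π h = 1 then MonoidAlgebra.single h ((χ h)⁻¹ : Rˣ) else 0

theorem single_mul_twistNorm {k : G} (hk : π k = 1) :
    MonoidAlgebra.single k (1 : R) * twistNorm π χ = (χ k : R) • twistNorm π χ := by
  classical
  simp only [twistNorm, Finset.mul_sum, Finset.smul_sum]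
  refine Fintype.sum_equiv (Equiv.mulLeft k) _ _ fun h => ?_
  simp only [Equiv.coe_mulLeft, map_mul, hk, one_mul]
  split_ifs
  · rw [MonoidAlgebra.single_mul_single, one_mul, MonoidAlgebra.smul_single', mul_inv_rev,
      Units.val_mul, mul_left_comm, Units.mul_inv, mul_one]
  · simp

theorem twistHom_twistNorm [DecidableEq G'] :
    twistHom π χ (twistNorm π χ) = (Finset.univ.filter fun h : G => π h = 1).card • 1 := by
  classical
  rw [twistNorm, map_sum, ← Finset.sum_const, Finset.sum_filter]
  refine Finset.sum_congr rfl fun h _ => ?_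
  split_ifs with hh
  · rw [twistHom_single, Units.inv_mul, hh, MonoidAlgebra.one_def]
  · exact map_zero _

/-- **`twistIdl` is the annihilator of `twistNorm`.** -/
theorem mul_twistNorm_eq_zero_iff [IsDomain R] [CharZero R] (hπ : Function.Surjective π)
    (x : MonoidAlgebra R G) : x * twistNorm π χ = 0 ↔ x ∈ twistIdl π χ := by
  classical
  constructor
  · intro h
    have h1 := congrArg (twistHom π χ) h
    rw [map_mul, twistHom_twistNorm, map_zero, nsmul_one, mul_comm] at h1
    rw [mem_twistIdl]
    have hne : (((Finset.univ.filter fun h : G => π h = 1).card : ℕ) : R) ≠ 0 :=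
      Nat.cast_ne_zero.mpr (Finset.card_ne_zero.mpr ⟨1, by simp⟩)
    refine MonoidAlgebra.ext (Finsupp.ext fun g => ?_)
    have h2 := congrArg (fun y : MonoidAlgebra R G' => y.coeff g) h1
    rw [← map_natCast (algebraMap R (MonoidAlgebra R G')), ← Algebra.smul_def] at h2
    simp only [MonoidAlgebra.coeff_smul, Finsupp.smul_apply, smul_eq_mul, MonoidAlgebra.coeff_zero,
      Finsupp.coe_zero, Pi.zero_apply] at h2
    simpa using (mul_eq_zero.mp h2).resolve_left hne
  · intro hx
    choose sec hsec using hπ
    let σ : MonoidAlgebra R G' → MonoidAlgebra R G := fun y =>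
      ∑ g ∈ y.coeff.support, MonoidAlgebra.single (sec g) (y.coeff g * ((χ (sec g))⁻¹ : Rˣ))
    suffices ∀ y, y * twistNorm π χ = σ (twistHom π χ y) * twistNorm π χ by
      rw [this, (mem_twistIdl π χ).mp hx]
      simp [σ]
    let σl : MonoidAlgebra R G' →ₗ[R] MonoidAlgebra R G :=
      (Finsupp.linearCombination R fun g' => MonoidAlgebra.single (sec g')
        (((χ (sec g'))⁻¹ : Rˣ) : R))
        ∘ₗ (MonoidAlgebra.coeffLinearEquiv (R := R) (S := R) (M := G')).toLinearMap
    have hσl : ∀ y, σ y = σl y := fun y => by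
      simp only [σ, σl, LinearMap.comp_apply, Finsupp.linearCombination_apply, Finsupp.sum]
      exact Finset.sum_congr rfl fun g _ => (MonoidAlgebra.smul_single' _ _ _).symm
    intro y
    rw [hσl]
    induction y using MonoidAlgebra.induction_on with
    | of g =>
      show MonoidAlgebra.single g 1 * _ = σl (twistHom π χ (MonoidAlgebra.single g 1)) * _
      rw [twistHom_single, one_mul]
      simp only [σl, LinearMap.comp_apply, LinearEquiv.coe_coe,
        MonoidAlgebra.coeffLinearEquiv_apply, MonoidAlgebra.coeff_single,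
        Finsupp.linearCombination_single, MonoidAlgebra.smul_single']
      have hk : π ((sec (π g))⁻¹ * g) = 1 := by rw [map_mul, map_inv, hsec, inv_mul_cancel]
      have e : MonoidAlgebra.single g (1 : R) * twistNorm π χ
          = MonoidAlgebra.single (sec (π g)) 1 *
            (MonoidAlgebra.single ((sec (π g))⁻¹ * g) 1 * twistNorm π χ) := by
        rw [← mul_assoc, MonoidAlgebra.single_mul_single, mul_inv_cancel_left, one_mul]
      rw [e, single_mul_twistNorm π χ hk, mul_smul_comm, ← smul_mul_assoc,
        MonoidAlgebra.smul_single', mul_one, map_mul, map_inv, Units.val_mul, mul_comm (χ g : R)]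
    | add a b ha hb => simp only [add_mul, map_add, ha, hb]
    | smul r a ha => simp only [smul_mul_assoc, map_smul, ha]

end Fermat.Agent.IharaTW
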