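import Fermat.Agent.IharaTW.StageRep
import Fermat.Agent.IharaTW.TwistQuot

/-!
# Congruence and unpatched fibre of a stage

Stage `0` and its twin are quotients of one module by congruent kernels; modulo the augmentation of
the coefficients a stage is its eigenpart for the structure map.
-/

set_option autoImplicit false

noncomputable section

namespace Fermat.Agent.IharaTW

open Fermat.Agent.Patching
open Fermat.Agent.TW.LevelQuot (Quot endQuot endQuot_mk congrMap congrMap_mk congrMap_endQuot)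

section Congr

variable {Λ S A T T' : Type*} [CommRing Λ] [CommRing S] [Algebra Λ S] {P : Type*} [AddCommGroup P]
  [Module S P] [Module Λ P] [IsScalarTower Λ S P] [CommRing A] [CommRing T] [CommRing T']
  {𝔞 : Ideal Λ} {I : Ideal T} {I' : Ideal T'} {d : ℕ} {J J' : Ideal S} {c c' : Ideal Λ}
  {v : Fin d → P}
  (h : IsLevelBasis c fun i => (Submodule.Quotient.mk (v i) : Quot S P J))
  (h' : IsLevelBasis c' fun i => (Submodule.Quotient.mk (v i) : Quot S P J'))
  (act : A →+* Module.End S P) (π : A →+* T) (hπ : Function.Surjective π)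
  (hs : ∀ l : Λ, ∃ a : A, endQuot (Λ := Λ) J (act a) = l • LinearMap.id ∧ (l ∈ 𝔞 → π a = 0))
  (ha : ∀ a : A, π a ∈ I → ∀ x : Quot S P J,
    endQuot (Λ := Λ) J (act a) x ∈ 𝔞 • (⊤ : Submodule Λ (Quot S P J)))
  (π' : A →+* T') (hπ' : Function.Surjective π')
  (hs' : ∀ l : Λ, ∃ a : A, endQuot (Λ := Λ) J' (act a) = l • LinearMap.id ∧ (l ∈ 𝔞 → π' a = 0))
  (ha' : ∀ a : A, π' a ∈ I' → ∀ x : Quot S P J',
    endQuot (Λ := Λ) J' (act a) x ∈ 𝔞 • (⊤ : Submodule Λ (Quot S P J')))

/-- **Congruence of two quotients of one module.** -/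
theorem level_congr_quot {ϖ : Λ} (hle : J ≤ J' ⊔ Ideal.span {algebraMap Λ S ϖ}) (a : A)
    (i j : Fin d) :
    (Level.ofModule h ((endQuot (Λ := Λ) J).comp act) π hπ hs ha).mat a i j
      - (Level.ofModule h' ((endQuot (Λ := Λ) J').comp act) π' hπ' hs' ha').mat a i j ∈
      Ideal.span {ϖ} ⊔ (Level.ofModule h ((endQuot (Λ := Λ) J).comp act) π hπ hs ha).c
        ⊔ (Level.ofModule h' ((endQuot (Λ := Λ) J').comp act) π' hπ' hs' ha').c := by
  -- unify the two operators with the goal before looking at the last argument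
  refine Level.ofModule_congr (congrMap hle) (fun k => congrMap_mk hle (v k)) ?_ i j
  exact fun k => congrMap_endQuot hle (act a) (v k)

end Congr

section Fibre

variable {R G G' G₀ V A : Type*} [CommRing R] [IsDomain R] [CharZero R] [CommGroup G] [Fintype G]
  [CommGroup G'] [CommGroup G₀] [CommRing A] [AddCommGroup V] [Module R V] {e : Module.End R V}
  (σ : G →* Module.End R V) (hσe : ∀ g, Commute e (σ g))
  (Φ : A →+* Module.End R V) (hΦe : ∀ a, Commute e (Φ a)) (hΦσ : ∀ a g, Commute (Φ a) (σ g))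
  [Module.Free (MonoidAlgebra R G) (stageRep σ hσe).asModule]
  {Λ : Type*} [CommRing Λ] [Algebra Λ (MonoidAlgebra R G)] [Module Λ (stageRep σ hσe).asModule]
  [IsScalarTower Λ (MonoidAlgebra R G) (stageRep σ hσe).asModule]

omit [IsDomain R] [CharZero R] [Fintype G] in
/-- Kernels of coefficient augmentation. -/
theorem twistIdl_le_sup_map (π₀ : G →* G₀) (χ : G →* Rˣ) {J : Ideal (MonoidAlgebra R G)}
    {𝔞 : Ideal Λ} (hJ : J ≤ twistIdl π₀ χ)
    (hΛ : ∀ s, ∃ l : Λ, s - algebraMap Λ (MonoidAlgebra R G) l ∈ J)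
    (h𝔞 : ∀ l : Λ, algebraMap Λ (MonoidAlgebra R G) l ∈ twistIdl π₀ χ → l ∈ 𝔞) :
    twistIdl π₀ χ ≤ J ⊔ 𝔞.map (algebraMap Λ (MonoidAlgebra R G)) := fun s hs => by
  obtain ⟨l, hl⟩ := hΛ s
  rw [← sub_add_cancel s (algebraMap Λ (MonoidAlgebra R G) l)]
  refine add_mem (Ideal.mem_sup_left hl) (Ideal.mem_sup_right (Ideal.mem_map_of_mem _ (h𝔞 l ?_)))
  have := sub_mem hs (hJ hl)
  rwa [sub_sub_cancel] at this

/-- **An operator killing the eigenpart is `0` modulo `𝔞`.** -/
theorem endQuot_mem_smul_top (he : IsIdempotentElem e) (π₀ : G →* G₀)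
    (hπ₀ : Function.Surjective π₀) [Subsingleton G₀] (χ : G →* Rˣ)
    {J : Ideal (MonoidAlgebra R G)} {𝔞 : Ideal Λ}
    (hJ : twistIdl π₀ χ ≤ J ⊔ 𝔞.map (algebraMap Λ (MonoidAlgebra R G))) {a : A}
    (hkill : ∀ x, e x = x → (∀ g, σ g x = (χ g : R) • x) → Φ a x = 0)
    (x : Quot (MonoidAlgebra R G) (stageRep σ hσe).asModule J) :
    endQuot (Λ := Λ) J (stageEnd σ hσe Φ hΦe hΦσ a) x
      ∈ 𝔞 • (⊤ : Submodule Λ (Quot (MonoidAlgebra R G) (stageRep σ hσe).asModule J)) := by
  let ρ := stageRep σ hσe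
  obtain ⟨v, rfl⟩ := Submodule.Quotient.mk_surjective _ x
  rw [endQuot_mk]
  set u := stageEnd σ hσe Φ hΦe hΦσ a v
  have hν : twistNorm π₀ χ • u = 0 := by
    rw [← map_smul]
    refine stageVec_injective σ hσe ((stageVec_end σ hσe Φ hΦe hΦσ a _).trans ?_)
    rw [stageVec_zero]
    refine hkill _ (apply_stageVec σ hσe he _) fun g => ?_
    have h1 : MonoidAlgebra.single g (1 : R) • twistNorm π₀ χ • v
        = MonoidAlgebra.single (1 : G) (χ g : R) • twistNorm π₀ χ • v := by
      rw [smul_smul, smul_smul, single_mul_twistNorm π₀ χ (Subsingleton.elim _ _),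
        Algebra.smul_def, MonoidAlgebra.coe_algebraMap]
      rfl
    have h2 := congrArg (fun y => ((ρ.asModuleEquiv y : LinearMap.range e) : V)) h1
    rw [ρ.single_smul, one_smul, ρ.single_smul, map_one, Module.End.one_apply] at h2
    exact h2
  suffices ∀ y ∈ twistIdl π₀ χ • (⊤ : Submodule (MonoidAlgebra R G) ρ.asModule),
      (Submodule.Quotient.mk y : Quot (MonoidAlgebra R G) ρ.asModule J)
        ∈ 𝔞 • (⊤ : Submodule Λ (Quot (MonoidAlgebra R G) ρ.asModule J)) by
    refine this u ?_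
    let b := Module.Free.chooseBasis (MonoidAlgebra R G) ρ.asModule
    rw [← b.linearCombination_repr u, Finsupp.linearCombination_apply, Finsupp.sum]
    refine Submodule.sum_mem _ fun i _ => Submodule.smul_mem_smul ?_ trivial
    refine (mul_twistNorm_eq_zero_iff π₀ χ hπ₀ _).mp ?_
    have h3 := congrArg (fun y => b.repr y i) hν
    simpa [mul_comm] using h3
  have key : ∀ m ∈ 𝔞.map (algebraMap Λ (MonoidAlgebra R G)), ∀ w : ρ.asModule,
      (Submodule.Quotient.mk (m • w) : Quot (MonoidAlgebra R G) ρ.asModule J)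
        ∈ 𝔞 • (⊤ : Submodule Λ (Quot (MonoidAlgebra R G) ρ.asModule J)) := fun m hm => by
    rw [Ideal.map] at hm
    induction hm using Submodule.span_induction with
    | mem m hm =>
      obtain ⟨l, hl, rfl⟩ := hm
      intro w
      rw [algebraMap_smul, Submodule.Quotient.mk_smul]
      exact Submodule.smul_mem_smul hl trivial
    | zero => simp
    | add m n _ _ ihm ihn =>
      intro w
      rw [add_smul, Submodule.Quotient.mk_add]
      exact add_mem (ihm w) (ihn w)
    | smul r m _ ih =>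
      intro w
      rw [smul_eq_mul, mul_comm, mul_smul]
      exact ih _
  intro y hy
  refine Submodule.smul_induction_on (Submodule.smul_mono_left hJ hy) (fun s hs w _ => ?_)
    fun y z hy hz => ?_
  · obtain ⟨j, hj, m, hm, rfl⟩ := Submodule.mem_sup.mp hs
    rw [add_smul, Submodule.Quotient.mk_add,
      (Submodule.Quotient.mk_eq_zero _).mpr (Submodule.smul_mem_smul hj Submodule.mem_top),
      zero_add]
    exact key m hm w
  · rw [Submodule.Quotient.mk_add]
    exact add_mem hy hz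

end Fibre

end Fermat.Agent.IharaTW
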