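import Fermat.Agent.IharaTW.StageTower

/-!
# Facts about stage levels

The coefficient map `O⟦X_i⟧ → O[G]`, `X_i ↦ g_i - 1`: its augmentation, its surjectivity onto the
group ring of a quotient twisted by a character, and structure elements vanishing on a stage.
-/

set_option autoImplicit false

noncomputable section

namespace Fermat.Agent.IharaTW

open IsLocalRing Fermat.Agent.LocalRing Fermat.Agent.Patching
open Fermat.Agent.TW.GroupRing (augR augR_single)

section Coeff

variable {σ : Type} [Finite σ] {O : Type} [CommRing O] [IsDomain O] [IsDiscreteValuationRing O]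
  {G G' : Type} [CommGroup G] [CommGroup G'] (ev : MvPowerSeries σ O →+* MonoidAlgebra O G)
  (g : σ → G) (hC : ∀ c, ev (MvPowerSeries.C c) = algebraMap O (MonoidAlgebra O G) c)
  (hX : ∀ i, ev (MvPowerSeries.X i) = MonoidAlgebra.single (g i) 1 - 1)

include hC hX in
/-- The augmentation is the constant coefficient. -/
theorem augR_ev (l : MvPowerSeries σ O) :
    augR O G (ev l) = MvPowerSeries.constantCoeff l := by
  have h := sub_mem_of_generators ((augR O G).toRingHom.comp ev)
    (MvPowerSeries.constantCoeff (σ := σ) (R := O)) ⊥
    (fun c => by simp [hC, augR_single]) (fun i => by simp [hX, augR_single])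
    (fun c hc => by simpa [hC, augR_single] using hc) (fun i => by simp [hX, augR_single])
    (fun c hc => by simpa using hc) (fun i => by simp) l
  rw [Submodule.mem_bot, sub_eq_zero] at h
  exact h

variable (π : G →* G') (χ : G →* Oˣ) (hχ : ∀ i, χ (g i) = 1)

include hC hX hχ in
/-- The augmentation after a twist is the constant coefficient. -/
theorem augR_twistHom_ev (l : MvPowerSeries σ O) :
    augR O G' (twistHom π χ (ev l)) = MvPowerSeries.constantCoeff l := by
  have h := sub_mem_of_generators (((augR O G').comp (twistHom π χ)).toRingHom.comp ev)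
    (MvPowerSeries.constantCoeff (σ := σ) (R := O)) ⊥
    (fun c => by simp [hC, augR_single, twistHom_single])
    (fun i => by simp [hX, twistHom_single, augR_single, hχ])
    (fun c hc => by simpa [hC, augR_single, twistHom_single] using hc)
    (fun i => by simp [hX, twistHom_single, augR_single, hχ])
    (fun c hc => by simpa using hc) (fun i => by simp) l
  rw [Submodule.mem_bot, sub_eq_zero] at h
  exact h

omit [Finite σ] [IsDomain O] [IsDiscreteValuationRing O] in
include hC hX hχ in
/-- The coefficient ring is onto the twisted group ring. -/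
theorem twistHom_ev_surjective [Finite G']
    (hgen : Subgroup.closure (Set.range fun i => π (g i)) = ⊤) :
    Function.Surjective fun l => twistHom π χ (ev l) := by
  have key : ∀ x : G', ∃ l, twistHom π χ (ev l) = MonoidAlgebra.single x 1 := by
    intro x
    have hx : x ∈ Subgroup.closure (Set.range fun i => π (g i)) := hgen ▸ Subgroup.mem_top x
    induction hx using Subgroup.closure_induction with
    | mem x hx =>
      obtain ⟨i, rfl⟩ := hx
      refine ⟨MvPowerSeries.X i + 1, ?_⟩
      rw [map_add, map_one, hX, sub_add_cancel, twistHom_single, hχ, Units.val_one, one_mul]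
    | one => exact ⟨1, by rw [map_one, map_one, MonoidAlgebra.one_def]⟩
    | mul x y _ _ hx hy =>
      obtain ⟨l, hl⟩ := hx
      obtain ⟨m, hm⟩ := hy
      exact ⟨l * m, by rw [map_mul, map_mul, hl, hm, MonoidAlgebra.single_mul_single, one_mul]⟩
    | inv x _ hx =>
      obtain ⟨l, hl⟩ := hx
      refine ⟨l ^ (orderOf x - 1), ?_⟩
      rw [map_pow, map_pow, hl, MonoidAlgebra.single_pow, one_pow]
      congr 1
      refine eq_inv_of_mul_eq_one_left ?_
      rw [← pow_succ, Nat.sub_add_cancel (orderOf_pos x), pow_orderOf_eq_one]
  intro y
  induction y using MonoidAlgebra.induction_on with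
  | of x => exact key x
  | add x y hx hy =>
    obtain ⟨l, hl⟩ := hx
    obtain ⟨m, hm⟩ := hy
    exact ⟨l + m, by simp only [map_add] at hl hm ⊢; rw [hl, hm]⟩
  | smul r x hx =>
    obtain ⟨l, hl⟩ := hx
    refine ⟨MvPowerSeries.C r * l, ?_⟩
    simp only [map_mul, hC, AlgHom.commutes] at hl ⊢
    rw [hl, Algebra.smul_def]

variable {A T : Type} [CommRing A] [Algebra O A] [CommRing T] (ζ : G →* A) (πA : A →+* T)

include hC hX in
/-- Series without constant term die in the unpatched ring. -/
theorem strElem_ev_eq_zero (hζ : ∀ g, πA (ζ g) = 1) {l : MvPowerSeries σ O}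
    (hl : MvPowerSeries.constantCoeff l = 0) : πA (strElem ζ (ev l)) = 0 := by
  have key : ∀ s, πA (strElem ζ s) = πA (algebraMap O A (augR O G s)) := fun s => by
    induction s using MonoidAlgebra.induction_on with
    | of g =>
      show πA (strElem ζ (MonoidAlgebra.single g 1))
        = πA (algebraMap O A (augR O G (MonoidAlgebra.single g 1)))
      rw [strElem_single, one_smul, hζ, augR_single, map_one, map_one]
    | add x y hx hy => simp only [map_add, hx, hy]
    | smul r x hx => simp only [Algebra.smul_def, map_mul, AlgHom.commutes, hx]; rfl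
  rw [key, augR_ev ev g hC hX, hl, map_zero, map_zero]

end Coeff

end Fermat.Agent.IharaTW
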