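import Fermat.Agent.IharaTW.StageCongr
import Fermat.Agent.IharaTW.LevelDesc
import Fermat.Agent.IharaTW.LevelSmall

/-!
# Levels of stages

A stage is an idempotent `e`, an action `Φ` of the Hecke ring and `ζ : G → A` giving the structure
over `O[G]`.  Along `Λ → O[G] → O[G']` it gives a `Level` on the free module modulo `twistIdl`.
-/

set_option autoImplicit false

noncomputable section

namespace Fermat.Agent.IharaTW

open Fermat.Agent.Patching
open Fermat.Agent.TW.LevelQuot (Quot endQuot endQuot_mk isLevelBasis)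

variable {O V A G : Type} [CommRing O] [AddCommGroup V] [Module O V] [CommRing A] [Algebra O A]
  [CommGroup G] {e : Module.End O V} (Φ : A →ₐ[O] Module.End O V) (ζ : G →* A)
  (hΦe : ∀ a, Commute e (Φ a))

/-- The structure map of a stage. -/
def strMap : G →* Module.End O V := (Φ : A →+* Module.End O V).toMonoidHom.comp ζ

include hΦe in
theorem commute_strMap (g : G) : Commute e (strMap Φ ζ g) := hΦe (ζ g)

/-- The module of a stage over the group ring. -/
abbrev StageMod : Type := (stageRep (strMap Φ ζ) (commute_strMap Φ ζ hΦe)).asModule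

/-- The Hecke ring on the module of a stage. -/
def stageOp : A →+* Module.End (MonoidAlgebra O G) (StageMod Φ ζ hΦe) :=
  stageEnd (strMap Φ ζ) (commute_strMap Φ ζ hΦe) (Φ : A →+* Module.End O V) hΦe
    fun a g => (Commute.all a (ζ g)).map Φ

/-- The vector of an element of the module of a stage. -/
abbrev opVec (v : StageMod Φ ζ hΦe) : V := stageVec (strMap Φ ζ) (commute_strMap Φ ζ hΦe) v

theorem opVec_stageOp (a : A) (v : StageMod Φ ζ hΦe) :
    opVec Φ ζ hΦe (stageOp Φ ζ hΦe a v) = Φ a (opVec Φ ζ hΦe v) := rfl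

/-- The element of the Hecke ring of an element of the group ring. -/
def strElem : MonoidAlgebra O G →ₐ[O] A := MonoidAlgebra.lift O A G ζ

theorem strElem_single (g : G) (r : O) :
    strElem ζ (MonoidAlgebra.single g r) = r • ζ g := by
  rw [strElem, MonoidAlgebra.lift_single]

/-- The group ring acts through the Hecke ring. -/
theorem stageOp_strElem (s : MonoidAlgebra O G) (v : StageMod Φ ζ hΦe) :
    stageOp Φ ζ hΦe (strElem ζ s) v = s • v := by
  induction s using MonoidAlgebra.induction_on with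
  | of g =>
    refine stageVec_injective _ _ ?_
    show opVec Φ ζ hΦe (stageOp Φ ζ hΦe (strElem ζ (MonoidAlgebra.single g 1)) v) = _
    rw [strElem_single, one_smul, opVec_stageOp]
    show _ = (((stageRep (strMap Φ ζ) (commute_strMap Φ ζ hΦe)).asModuleEquiv
      (MonoidAlgebra.single g (1 : O) • v) : LinearMap.range e) : V)
    rw [Representation.single_smul, one_smul]
    rfl
  | add x y hx hy => rw [map_add, map_add, LinearMap.add_apply, hx, hy, add_smul]
  | smul r x hx =>
    refine stageVec_injective _ _ ?_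
    show opVec Φ ζ hΦe (stageOp Φ ζ hΦe (strElem ζ (r • x)) v) = _
    rw [map_smul, opVec_stageOp, map_smul, LinearMap.smul_apply, ← opVec_stageOp, hx, smul_assoc]
    show _ = (((stageRep (strMap Φ ζ) (commute_strMap Φ ζ hΦe)).asModuleEquiv (r • (x • v)) :
      LinearMap.range e) : V)
    rw [map_smul]
    rfl

variable [Fintype G] [IsDomain O] [CharZero O] {G' : Type} [CommGroup G'] (π : G →* G')
  (χ : G →* Oˣ)

/-- The element cutting out the eigenpart of a character. -/
def eigElem : A := strElem ζ (twistNorm π χ)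

/-- An operator is `0` modulo `twistIdl` exactly if it kills the image of `eigElem`. -/
theorem stageOp_mem_iff (he : IsIdempotentElem e) (hπ : Function.Surjective π)
    [Module.Free (MonoidAlgebra O G) (StageMod Φ ζ hΦe)] (a : A) :
    (∀ v, stageOp Φ ζ hΦe a v ∈
        twistIdl π χ • (⊤ : Submodule (MonoidAlgebra O G) (StageMod Φ ζ hΦe))) ↔
      ∀ x, e x = x → Φ a (Φ (eigElem ζ π χ) x) = 0 := by
  let b := Module.Free.chooseBasis (MonoidAlgebra O G) (StageMod Φ ζ hΦe)
  have crit : ∀ u : StageMod Φ ζ hΦe,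
      u ∈ twistIdl π χ • (⊤ : Submodule (MonoidAlgebra O G) (StageMod Φ ζ hΦe)) ↔
        twistNorm π χ • u = 0 := fun u => by
    constructor
    · intro h
      refine Submodule.smul_induction_on h (fun s hs w _ => ?_) fun x y hx hy => by
        rw [smul_add, hx, hy, add_zero]
      rw [smul_smul, mul_comm, (mul_twistNorm_eq_zero_iff π χ hπ s).mpr hs, zero_smul]
    · intro h
      rw [← b.linearCombination_repr u, Finsupp.linearCombination_apply, Finsupp.sum]
      refine Submodule.sum_mem _ fun i _ => Submodule.smul_mem_smul ?_ trivial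
      refine (mul_twistNorm_eq_zero_iff π χ hπ _).mp ?_
      have := congrArg (fun u => b.repr u i) h
      simpa [mul_comm] using this
  have key : ∀ v, twistNorm π χ • stageOp Φ ζ hΦe a v = 0 ↔
      Φ a (Φ (eigElem ζ π χ) (opVec Φ ζ hΦe v)) = 0 := fun v => by
    rw [← map_smul, ← stageOp_strElem Φ ζ hΦe, ← opVec_stageOp, ← opVec_stageOp]
    refine ⟨fun h => by rw [eigElem, h]; exact stageVec_zero _ _, fun h => ?_⟩
    exact stageVec_injective _ _ (h.trans (stageVec_zero _ _).symm)
  simp only [crit, key]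
  refine ⟨fun h x hx => ?_, fun h v => h _ (apply_stageVec _ _ he v)⟩
  have hv := h ((stageRep (strMap Φ ζ) (commute_strMap Φ ζ hΦe)).asModuleEquiv.symm ⟨x, x, hx⟩)
  simpa [opVec, stageVec] using hv

omit [Fintype G] [IsDomain O] [CharZero O] in
/-- The twist along the trivial quotient is augmentation after any other. -/
theorem twistHom_one_eq (t : MonoidAlgebra O G) :
    twistHom (1 : G →* PUnit.{1}) χ t
      = algebraMap O (MonoidAlgebra O PUnit.{1}) (TW.GroupRing.augR O G' (twistHom π χ t)) := by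
  induction t using MonoidAlgebra.induction_on with
  | of g =>
    show twistHom (1 : G →* PUnit.{1}) χ (MonoidAlgebra.single g 1) = algebraMap O _
      (TW.GroupRing.augR O G' (twistHom π χ (MonoidAlgebra.single g 1)))
    rw [twistHom_single, twistHom_single, TW.GroupRing.augR_single O G',
      MonoidAlgebra.coe_algebraMap]
    rfl
  | add t t' ht ht' => simp only [map_add, ht, ht']
  | smul r t ht => simp only [ht, Algebra.smul_def, map_mul, AlgHom.commutes]; rfl

/-! ## The level -/

variable {Λ T : Type} [CommRing Λ] [CommRing T] (ev : Λ →+* MonoidAlgebra O G)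
  (hsurj : Function.Surjective fun l => twistHom π χ (ev l)) {𝔞 : Ideal Λ}

section Level

variable (he : IsIdempotentElem e) (hπ : Function.Surjective π)
  {d : ℕ} (b : Module.Basis (Fin d) (MonoidAlgebra O G) (StageMod Φ ζ hΦe))
  (h𝔞 : ∀ l, TW.GroupRing.augR O G' (twistHom π χ (ev l)) = 0 → l ∈ 𝔞) (πA : A →+* T)
  (hπA : Function.Surjective πA) (hπA𝔞 : ∀ l ∈ 𝔞, πA (strElem ζ (ev l)) = 0) {I : Ideal T}
  (hI : ∀ a, πA a ∈ I → ∀ x, e x = x → (∀ g, Φ (ζ g) x = (χ g : O) • x) → Φ a x = 0)

/-- The level of a stage. -/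
def stageLevel : Level Λ A T 𝔞 I d :=
  letI : Algebra Λ (MonoidAlgebra O G) := ev.toAlgebra
  letI : Module Λ (StageMod Φ ζ hΦe) := Module.compHom _ ev
  haveI : IsScalarTower Λ (MonoidAlgebra O G) (StageMod Φ ζ hΦe) :=
    ⟨fun l s v => by
      show (ev l * s) • v = ev l • s • v
      rw [mul_smul]⟩
  haveI : Module.Free (MonoidAlgebra O G) (StageMod Φ ζ hΦe) := Module.Free.of_basis b
  Level.ofModule
    (isLevelBasis b (twistIdl π χ) (fun s => exists_sub_mem_twistIdl π χ hsurj s))
    ((endQuot (Λ := Λ) (twistIdl π χ)).comp (stageOp Φ ζ hΦe)) πA hπA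
    (fun l => ⟨strElem ζ (ev l), LinearMap.ext fun y => by
      obtain ⟨v, rfl⟩ := Submodule.Quotient.mk_surjective _ y
      rw [RingHom.comp_apply, endQuot_mk, stageOp_strElem, LinearMap.smul_apply, LinearMap.id_apply,
        ← Submodule.Quotient.mk_smul]
      rfl, fun hl => hπA𝔞 l hl⟩)
    fun a ha x => by
      have h0 : twistIdl π χ ≤ twistIdl (1 : G →* PUnit.{1}) χ := fun s hs => by
        rw [mem_twistIdl, twistHom_one_eq π χ, (mem_twistIdl π χ).mp hs, map_zero, map_zero]
      refine endQuot_mem_smul_top (strMap Φ ζ) (commute_strMap Φ ζ hΦe)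
        (Φ : A →+* Module.End O V) hΦe (fun a g => (Commute.all a (ζ g)).map Φ) he
        (1 : G →* PUnit.{1}) (fun u => ⟨1, Subsingleton.elim _ _⟩) χ
        (twistIdl_le_sup_map _ χ h0 (fun s => exists_sub_mem_twistIdl π χ hsurj s) fun l hl => ?_)
        (fun x hx hg => hI a ha x hx hg) x
      refine h𝔞 l ?_
      rw [show algebraMap Λ (MonoidAlgebra O G) l = ev l from rfl, mem_twistIdl,
        twistHom_one_eq π χ] at hl
      have h3 := congrArg (fun y : MonoidAlgebra O PUnit.{1} => y.coeff 1) hl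
      simpa using h3

theorem mem_stageLevel_c (l : Λ) :
    l ∈ (stageLevel Φ ζ hΦe π χ ev hsurj he b h𝔞 πA hπA hπA𝔞 hI).c
      ↔ twistHom π χ (ev l) = 0 := Iff.rfl

include hπ in
/-- The kernel of the action. -/
theorem stageLevel_act_eq_zero_iff (a : A) :
    (stageLevel Φ ζ hΦe π χ ev hsurj he b h𝔞 πA hπA hπA𝔞 hI).act a = 0 ↔
      ∀ x, e x = x → Φ a (Φ (eigElem ζ π χ) x) = 0 := by
  let : Algebra Λ (MonoidAlgebra O G) := ev.toAlgebra
  let : Module Λ (StageMod Φ ζ hΦe) := Module.compHom _ ev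
  have : IsScalarTower Λ (MonoidAlgebra O G) (StageMod Φ ζ hΦe) :=
    ⟨fun l s v => by
      show (ev l * s) • v = ev l • s • v
      rw [mul_smul]⟩
  have : Module.Free (MonoidAlgebra O G) (StageMod Φ ζ hΦe) := Module.Free.of_basis b
  refine Iff.trans ?_ (stageOp_mem_iff Φ ζ hΦe π χ he hπ a)
  refine (endMatrixHom_eq_zero_iff (N := Quot (MonoidAlgebra O G) (StageMod Φ ζ hΦe) (twistIdl π χ))
    (isLevelBasis b (twistIdl π χ) (fun s => exists_sub_mem_twistIdl π χ hsurj s))).trans ?_
  constructor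
  · intro h v
    have h1 := LinearMap.congr_fun h (Submodule.Quotient.mk v)
    rwa [RingHom.comp_apply, endQuot_mk, LinearMap.zero_apply, Submodule.Quotient.mk_eq_zero] at h1
  · intro h
    refine LinearMap.ext fun y => ?_
    obtain ⟨v, rfl⟩ := Submodule.Quotient.mk_surjective _ y
    rw [RingHom.comp_apply, endQuot_mk, LinearMap.zero_apply, Submodule.Quotient.mk_eq_zero]
    exact h v

/-- Constants act by scalars. -/
theorem stageLevel_act_scalar (l : Λ) (r : O) (hl : ev l = algebraMap O _ r) :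
    (stageLevel Φ ζ hΦe π χ ev hsurj he b h𝔞 πA hπA hπA𝔞 hI).act (algebraMap O A r)
      = Matrix.scalar (Fin d)
          (Ideal.Quotient.mk (stageLevel Φ ζ hΦe π χ ev hsurj he b h𝔞 πA hπA hπA𝔞 hI).c l) := by
  let : Algebra Λ (MonoidAlgebra O G) := ev.toAlgebra
  let : Module Λ (StageMod Φ ζ hΦe) := Module.compHom _ ev
  have : IsScalarTower Λ (MonoidAlgebra O G) (StageMod Φ ζ hΦe) :=
    ⟨fun l s v => by
      show (ev l * s) • v = ev l • s • v
      rw [mul_smul]⟩
  show (isLevelBasis b (twistIdl π χ) (fun s => exists_sub_mem_twistIdl π χ hsurj s)).endMatrixHom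
    ((endQuot (Λ := Λ) (twistIdl π χ)).comp (stageOp Φ ζ hΦe) (algebraMap O A r)) = _
  rw [show (algebraMap O A r) = strElem ζ (ev l) by rw [hl, AlgHom.commutes]]
  refine Eq.trans (congrArg _ ?_) ((isLevelBasis b (twistIdl π χ)
    (fun s => exists_sub_mem_twistIdl π χ hsurj s)).endMatrixHom_smul_id l)
  refine LinearMap.ext fun y => ?_
  obtain ⟨v, rfl⟩ := Submodule.Quotient.mk_surjective _ y
  rw [RingHom.comp_apply, endQuot_mk, stageOp_strElem, LinearMap.smul_apply, LinearMap.id_apply,
    ← Submodule.Quotient.mk_smul]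
  rfl

/-- **Congruence of two characters.** -/
theorem stageLevel_congr {χ' : G →* Oˣ} (hsurj' : Function.Surjective fun l => twistHom π χ' (ev l))
    (h𝔞' : ∀ l, TW.GroupRing.augR O G' (twistHom π χ' (ev l)) = 0 → l ∈ 𝔞) {T' : Type}
    [CommRing T'] (πA' : A →+* T') (hπA' : Function.Surjective πA')
    (hπA𝔞' : ∀ l ∈ 𝔞, πA' (strElem ζ (ev l)) = 0) {I' : Ideal T'}
    (hI' : ∀ a, πA' a ∈ I' → ∀ x, e x = x → (∀ g, Φ (ζ g) x = (χ' g : O) • x) → Φ a x = 0)
    (hπ : Function.Surjective π) {ϖ : O} (l : Λ) (hl : ev l = algebraMap O _ ϖ)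
    (hχ : ∀ g, ϖ ∣ (χ' g : O) - (χ g : O)) (a : A) (i j : Fin d) :
    (stageLevel Φ ζ hΦe π χ ev hsurj he b h𝔞 πA hπA hπA𝔞 hI).mat a i j
      - (stageLevel Φ ζ hΦe π χ' ev hsurj' he b h𝔞' πA' hπA' hπA𝔞' hI').mat a i j ∈
      Ideal.span {l} ⊔ (stageLevel Φ ζ hΦe π χ ev hsurj he b h𝔞 πA hπA hπA𝔞 hI).c
        ⊔ (stageLevel Φ ζ hΦe π χ' ev hsurj' he b h𝔞' πA' hπA' hπA𝔞' hI').c := by
  let : Algebra Λ (MonoidAlgebra O G) := ev.toAlgebra
  let : Module Λ (StageMod Φ ζ hΦe) := Module.compHom _ ev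
  have : IsScalarTower Λ (MonoidAlgebra O G) (StageMod Φ ζ hΦe) :=
    ⟨fun l s v => by
      show (ev l * s) • v = ev l • s • v
      rw [mul_smul]⟩
  refine level_congr_quot (Λ := Λ) (v := b) _ _ (stageOp Φ ζ hΦe) πA hπA _ _ πA' hπA' _ _ ?_ a i j
  rw [show algebraMap Λ (MonoidAlgebra O G) l = algebraMap O _ ϖ from hl]
  exact twistIdl_le_sup π χ hπ χ' hχ

end Level

end Fermat.Agent.IharaTW
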