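import Fermat.Agent.TW.EtaFree
import Fermat.Agent.IharaTW.StageTower

/-!
# Points of an algebra acting freely over a group ring

At a point where the group acts through a character with values in the powers of `ζ`, an element
killed by the norm is divisible by `ζ - 1` up to an integral element.
-/

set_option autoImplicit false

noncomputable section

namespace Fermat.Agent.IharaTW

open Polynomial Fermat.Agent.TW Fermat.Agent.TW.EtaFree

variable {O A V G : Type} [CommRing O] [IsDomain O] [CharZero O] [CommRing A] [Algebra O A]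
  [AddCommGroup V] [Module O V] [CommGroup G] [Fintype G] (Φ : A →ₐ[O] Module.End O V) (δ : G →* A)
  (hΦ : Function.Injective Φ)

omit [IsDomain O] [CharZero O] [Fintype G] in
include hΦ in
theorem latOp_injective {c : A}
    (h : stageOp Φ δ (e := (1 : Module.End O V)) (fun a => Commute.one_left (Φ a)) c = 0) :
    c = 0 := by
  refine hΦ ((map_zero Φ).symm ▸ LinearMap.ext fun v => ?_)
  have h1 := LinearMap.congr_fun h
    ((stageRep (strMap Φ δ) (commute_strMap Φ δ (e := (1 : Module.End O V))
      fun a => Commute.one_left (Φ a))).asModuleEquiv.symm (oneRange.symm v))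
  have h2 := congrArg (opVec Φ δ _) h1
  rw [opVec_stageOp, LinearMap.zero_apply] at h2
  replace h2 := h2.trans (stageVec_zero _ _)
  simpa [opVec, stageVec, coe_oneRange_symm] using h2

variable {ι κ : Type} [Fintype ι] [Fintype κ] {K : Type} [Field K] [Algebra O K]

omit [IsDomain O] in
include hΦ in
/-- **Divisibility at a point.** -/
theorem exists_integral_quot (g : ι → G) (hgen : Subgroup.closure (Set.range g) = ⊤)
    (b : Module.Basis κ (MonoidAlgebra O G) (LatMod Φ δ)) {t : A}
    (ht : strElem δ (TW.GroupRing.normElem O G) * t = 0)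
    (hK : Function.Injective (algebraMap O K)) (y : A →ₐ[O] K) {ζ : O} (hζ : ζ ≠ 1)
    {χ : G →* O} (hχ : ∀ x, ∃ k : ℕ, χ x = ζ ^ k)
    (hy : ∀ x, y (δ x) = algebraMap O K (χ x)) (h : y (strElem δ (chiNu χ)) ≠ 0) :
    ∃ w : K, IsIntegral O w ∧ y t = (algebraMap O K ζ - 1) * w := by
  classical
  have : Nontrivial (MonoidAlgebra O G) :=
    RingHom.domain_nontrivial (TW.GroupRing.augR O G).toRingHom
  have : Module.Free (MonoidAlgebra O G) (LatMod Φ δ) := Module.Free.of_basis b
  have : Module.Finite (MonoidAlgebra O G) (LatMod Φ δ) := Module.Finite.of_basis b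
  set op := stageOp Φ δ (e := (1 : Module.End O V)) (fun a => Commute.one_left (Φ a))
  have hop : ∀ s, op (strElem δ s) = algebraMap (MonoidAlgebra O G) _ s := fun s =>
    LinearMap.ext fun v => by
      rw [Module.algebraMap_end_apply]
      exact stageOp_strElem Φ δ _ s v
  have hnorm : TW.GroupRing.normElem O G • op t = 0 := by
    rw [Algebra.smul_def, ← hop, ← map_mul, ht, map_zero]
  obtain ⟨Y, hY⟩ := exists_decomp g hgen b (op t) hnorm
  choose e he using fun i => hχ (g i)
  let u : ι → O := fun i => ∑ k ∈ Finset.range (e i), ζ ^ k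
  let Y₀ : Module.End (MonoidAlgebra O G) (LatMod Φ δ) :=
    ∑ i, algebraMap O (MonoidAlgebra O G) (u i) • Y i
  set c := algebraMap O (MonoidAlgebra O G) (ζ - 1) with hc
  have hz : chiNu χ • op t = c • (chiNu χ • Y₀) := by
    rw [hY, Finset.smul_sum, Finset.smul_sum, Finset.smul_sum]
    refine Finset.sum_congr rfl fun i _ => ?_
    rw [smul_smul, smul_smul, smul_smul]
    congr 1
    have h1 : chiNu χ * aug (O := O) g i =
        algebraMap O (MonoidAlgebra O G) (χ (g i) - 1) * chiNu χ := by
      rw [aug, mul_sub, mul_one, mul_comm, single_mul_chiNu, Algebra.smul_def, map_sub, map_one,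
        sub_mul, one_mul]
    rw [h1, he i, ← geom_sum_mul, map_mul, ← hc]
    ring
  have hpow : ∀ k : ℕ, chiNu χ • op t ^ k = c ^ k • (chiNu χ • Y₀ ^ k) := by
    intro k
    induction k with
    | zero => simp
    | succ k ih =>
      rw [pow_succ (op t), ← mul_smul_comm, hz, mul_smul_comm, mul_smul_comm, ← smul_mul_assoc,
        ih, smul_mul_assoc, smul_mul_assoc, smul_smul, ← pow_succ, ← pow_succ']
  set f := LinearMap.charpoly Y₀ with hf
  have hf0 : aeval Y₀ f = 0 := LinearMap.aeval_self_charpoly Y₀
  set n := f.natDegree with hn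
  let Ω : A := strElem δ (chiNu χ) *
    ∑ k ∈ Finset.range (n + 1), strElem δ (f.coeff k * c ^ (n - k)) * t ^ k
  have hΩ : Ω = 0 := by
    refine latOp_injective Φ δ hΦ ?_
    show op Ω = 0
    simp only [Ω, map_mul, map_sum, map_pow, hop]
    have h1 : ∀ k ∈ Finset.range (n + 1),
        algebraMap (MonoidAlgebra O G) (Module.End (MonoidAlgebra O G) (LatMod Φ δ)) (chiNu χ) *
          (algebraMap _ _ (f.coeff k * c ^ (n - k)) * op t ^ k) =
        (c ^ n * chiNu χ) • (algebraMap _ _ (f.coeff k) * Y₀ ^ k) := fun k hk => by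
      rw [← Algebra.smul_def, ← Algebra.smul_def, smul_comm, hpow, smul_smul, smul_smul,
        ← Algebra.smul_def, smul_smul]
      congr 1
      have hkn : k ≤ n := Nat.le_of_lt_succ (Finset.mem_range.1 hk)
      rw [mul_assoc (f.coeff k), ← pow_add, Nat.sub_add_cancel hkn]
      ring
    simp only [map_mul, map_pow] at h1
    rw [Finset.mul_sum, Finset.sum_congr rfl h1, ← Finset.smul_sum]
    rw [show (∑ k ∈ Finset.range (n + 1),
        algebraMap (MonoidAlgebra O G) (Module.End (MonoidAlgebra O G) (LatMod Φ δ))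
          (f.coeff k) * Y₀ ^ k) = aeval Y₀ f from by
      rw [aeval_eq_sum_range]
      exact Finset.sum_congr rfl fun k _ => (Algebra.smul_def _ _).symm, hf0, smul_zero]
  let F : O[X] := f.map (chiHom χ).toRingHom
  have hFm : F.Monic := (LinearMap.charpoly_monic Y₀).map _
  have hζ0 : algebraMap O K ζ - 1 ≠ 0 := by
    rw [← map_one (algebraMap O K), ← map_sub]
    exact fun h0 => hζ (sub_eq_zero.1 (hK (h0.trans (map_zero _).symm)))
  have hyd : ∀ s, y (strElem δ s) = algebraMap O K (chiHom χ s) := by
    intro s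
    induction s using MonoidAlgebra.induction_on with
    | of x =>
      show y (strElem δ (MonoidAlgebra.single x (1 : O))) =
        algebraMap O K (chiHom χ (MonoidAlgebra.single x (1 : O)))
      rw [strElem_single, one_smul, hy, chiHom_single, one_mul]
    | add a b ha hb => rw [map_add, map_add, map_add, map_add, ha, hb]
    | smul r a ha => rw [map_smul, map_smul, map_smul, ha, smul_eq_mul, map_mul, Algebra.smul_def]
  refine ⟨y t / (algebraMap O K ζ - 1), ⟨F, hFm, ?_⟩, by field_simp⟩
  have h2 := congrArg y hΩ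
  simp only [Ω, map_mul, map_sum, map_pow, map_zero] at h2
  have h3 := (mul_eq_zero.1 h2).resolve_left h
  simp only [hyd, hc, chiHom, AlgHom.commutes, map_sub, map_one] at h3
  rw [eval₂_map, eval₂_eq_sum_range]
  refine (mul_eq_zero.1 (?_ : (algebraMap O K ζ - 1) ^ n * _ = 0)).resolve_left (pow_ne_zero _ hζ0)
  rw [Finset.mul_sum]
  refine Eq.trans (Finset.sum_congr rfl fun k hk => ?_) h3
  have hkn : k ≤ n := Nat.le_of_lt_succ (Finset.mem_range.1 hk)
  rw [show (algebraMap O K ζ - 1) ^ n =
      (algebraMap O K ζ - 1) ^ (n - k) * (algebraMap O K ζ - 1) ^ k by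
    rw [← pow_add, Nat.sub_add_cancel hkn], div_pow]
  field_simp
  simp [chiHom, RingHom.comp_apply]
  ring

end Fermat.Agent.IharaTW
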