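import Fermat.Agent.IharaTW.GroupRingMaps

/-!
# Summands as modules over a group ring through an arbitrary structure map

`σ : G → End V` commuting with an endomorphism `e` makes `range e` a module over `R[G]`; operators
commuting with `e` and `σ` act linearly.
-/

set_option autoImplicit false

noncomputable section

namespace Fermat.Agent.IharaTW

variable {R G A V : Type*} [CommRing R] [CommGroup G] [Ring A] [AddCommGroup V] [Module R V]
  {e : Module.End R V}

/-- Operators commuting with `e`, on `range e`. -/
def onRange (F : A →+* Module.End R V) (hF : ∀ a, Commute e (F a)) :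
    A →+* Module.End R (LinearMap.range e) where
  toFun a := (F a).restrict fun x hx => by
    obtain ⟨w, rfl⟩ := hx
    exact ⟨F a w, LinearMap.congr_fun (hF a).eq w⟩
  map_one' := LinearMap.ext fun v => Subtype.ext (by simp)
  map_mul' := fun s t => LinearMap.ext fun v => Subtype.ext (by simp)
  map_zero' := LinearMap.ext fun v => Subtype.ext (by simp)
  map_add' := fun s t => LinearMap.ext fun v => Subtype.ext (by simp)

variable (σ : G →* Module.End R V) (hσ : ∀ g, Commute e (σ g))

/-- `range e` as a representation. -/
def stageRep : Representation R G (LinearMap.range e) where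
  toFun g := (σ g).restrict fun x hx => by
    obtain ⟨w, rfl⟩ := hx
    exact ⟨σ g w, LinearMap.congr_fun (hσ g).eq w⟩
  map_one' := LinearMap.ext fun v => Subtype.ext (by simp)
  map_mul' := fun s t => LinearMap.ext fun v => Subtype.ext (by simp)

/-- The module of a stage has negatives. -/
instance addCommGroupStage : AddCommGroup (stageRep σ hσ).asModule :=
  Module.addCommMonoidToAddCommGroup (MonoidAlgebra R G)

variable (F : A →+* Module.End R V) (hF : ∀ a, Commute e (F a))
  (hFσ : ∀ a g, Commute (F a) (σ g))

/-- Operators commuting with `e` and `σ`, over the group ring. -/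
def stageEnd : A →+* Module.End (MonoidAlgebra R G) (stageRep σ hσ).asModule :=
  TW.GroupRing.endAsModule (stageRep σ hσ) (onRange F hF)
    fun a g v => Subtype.ext (LinearMap.congr_fun (hFσ a g).eq v.1)

/-- The vector in `V` of an element of the module of a stage. -/
def stageVec (v : (stageRep σ hσ).asModule) : V :=
  ((stageRep σ hσ).asModuleEquiv v : LinearMap.range e)

theorem stageVec_end (a : A) (v : (stageRep σ hσ).asModule) :
    stageVec σ hσ (stageEnd σ hσ F hF hFσ a v) = F a (stageVec σ hσ v) := rfl

theorem stageVec_zero : stageVec σ hσ 0 = 0 := by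
  simp only [stageVec, map_zero]
  rfl

theorem stageVec_injective : Function.Injective (stageVec σ hσ) := fun _ _ h =>
  (stageRep σ hσ).asModuleEquiv.injective (Subtype.ext h)

theorem apply_stageVec (he : IsIdempotentElem e) (v : (stageRep σ hσ).asModule) :
    e (stageVec σ hσ v) = stageVec σ hσ v := by
  obtain ⟨w, hw⟩ := ((stageRep σ hσ).asModuleEquiv v : LinearMap.range e).2
  show e (stageVec σ hσ v) = _
  rw [stageVec, ← hw, ← Module.End.mul_apply, he.eq]

end Fermat.Agent.IharaTW
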