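import Fermat.Agent.IharaTW.GfInjective

/-!
# The determinant of a flip acts injectively

`(q + 1)² - t²` with `t = w T_q`, `w² ⟨q⟩ = 1`, is injective on the summand cut out by a stage.
-/

set_option autoImplicit false

noncomputable section

namespace Fermat.Agent.IharaTW

open Fermat.Agent.GammaH CongruenceSubgroup Fermat.Agent.TW
open scoped MatrixGroups

variable {N q : ℕ} [NeZero N] {H : Subgroup (ZMod N)ˣ} (hH : (-1 : (ZMod N)ˣ) ∈ H) (hq : q.Prime)
  (hqN : ¬q ∣ N) {R : Type} [CommRing R] [IsDomain R] [CharZero R] {A : Type*} [CommRing A]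
  {e : Module.End R (H1 N H R R)} (Φ : A →+* Module.End R (H1 N H R R))
  (hΦe : ∀ a, Commute e (Φ a)) {w v t : A} (hwv : w * v = 1)
  (hTw : ∀ x, e x = x → heckeTH R R hq hqN (Φ w x) = Φ t x)
  (hwT : ∀ x, e x = x → Φ w (heckeTH R R hq hqN x) = Φ t x)
  (hD : ∀ x, e x = x → Φ w (diamondH R R (primeUnit hq hqN) (Φ w x)) = x)

include hH hΦe hwv hTw hwT hD in
/-- `(q + 1)² - t²` has no kernel on `range e`. -/
theorem eq_zero_of_det_eq_zero {x : H1 N H R R} (hx : e x = x)
    (h : Φ (((q : A) + 1) ^ 2 - t ^ 2) x = 0) : x = 0 := by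
  set T := heckeTH (H := H) R R hq hqN
  set D := diamondH (H := H) R R (primeUnit hq hqN)
  have hfix : ∀ a, e (Φ a x) = Φ a x := fun a => by
    rw [← Module.End.mul_apply, (hΦe a).eq, Module.End.mul_apply, hx]
  have h1 : T (Φ w x) = Φ t x := hTw x hx
  have h2 : Φ w (T (Φ t x)) = Φ t (Φ t x) := hwT _ (hfix t)
  have h3 : Φ w (D (Φ w x)) = x := hD x hx
  rw [show ((q : A) + 1) ^ 2 = (((q + 1) ^ 2 : ℕ) : A) by push_cast; ring, sq t, map_sub, map_mul,
    map_natCast, LinearMap.sub_apply, Module.End.mul_apply, Module.End.natCast_apply, ← h2,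
    ← h1] at h
  rw [show (q + 1) ^ 2 • x = Φ w ((q + 1) ^ 2 • D (Φ w x)) by rw [map_nsmul, h3],
    ← map_sub] at h
  have h4 := congrArg (Φ v) h
  rw [map_zero, ← Module.End.mul_apply, ← map_mul, mul_comm, hwv, map_one,
    Module.End.one_apply] at h4
  have h5 : homAction hH R R (deltaR (H := H) hq hqN) (Φ w x) = 0 := by
    rw [deltaR, map_sub, map_mul, map_natCast, map_pow, homAction_diamond, homAction_heckeT, sq T,
      LinearMap.sub_apply, Module.End.mul_apply, Module.End.mul_apply, Module.End.natCast_apply]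
    exact h4
  have h6 := homAction_deltaR_injective hH hq hqN R (h5.trans (map_zero _).symm)
  rw [← h3, h6, map_zero, map_zero]

end Fermat.Agent.IharaTW
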