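import Fermat.Agent.TW.Module
import Fermat.Agent.TW.Idem
import Fermat.Agent.TW.Character
import Fermat.Agent.TW.UnitPart
import Fermat.Agent.GammaH.Compat

/-!
# A stage and a larger subgroup of the same level

For `H ≤ H'` at one level: the anemic Hecke ring of `H` maps onto that of `H'` compatibly with
restriction and the residual idempotents; a summand at `H'` compatible with a free one at `H` is
the invariants, and by the norm the coinvariants, of the latter.
-/

set_option autoImplicit false

noncomputable section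

namespace Fermat.Agent.IharaTW

open IsLocalRing CongruenceSubgroup Fermat.Agent.GammaH Fermat.Agent.TW
open Fermat.Agent.TW.GroupRing (normElem fixedPts fixed_iff_of_free single_mul_normElem)
open scoped MatrixGroups TensorProduct

/-! ## Idempotents along maps compatible with the residual eigensystems -/

section MapIdem

variable {L L' : ℕ} [NeZero L] [NeZero L'] {H : Subgroup (ZMod L)ˣ} {H' : Subgroup (ZMod L')ˣ}
  {S S' : Set ℕ} (hH : (-1 : (ZMod L)ˣ) ∈ H) (hH' : (-1 : (ZMod L')ˣ) ∈ H')
  (O : Type) [CommRing O] [IsDomain O] [IsDiscreteValuationRing O]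
  [IsAdicComplete (maximalIdeal O) O]
  (θ : heckeRing L H S →+* ResidueField O) (θ' : heckeRing L' H' S' →+* ResidueField O)

/-- A surjection respecting the residual eigensystems maps idempotent to idempotent. -/
theorem map_twIdem (r : HeckeO L H S O →ₐ[O] HeckeO L' H' S' O) (hr : Function.Surjective r)
    (hres : ∀ x, residO O θ' (r x) = residO O θ x) :
    r (twIdem hH O θ) = twIdem hH' O θ' := by
  set f := r (twIdem hH O θ)
  set e := twIdem hH' O θ'
  have hf : f * f = f := by rw [← map_mul, (isIdempotentElem_twIdem hH O θ).eq]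
  have he : e * e = e := (isIdempotentElem_twIdem hH' O θ').eq
  have hrf : residO O θ' f = 1 := by rw [hres, residO_twIdem]
  obtain ⟨y, hy⟩ := exists_mul_eq_twIdem hH' O θ' (x := f) (by rw [hrf]; exact one_ne_zero)
  have h1 : f * e = e := by rw [show e = y * f from hy.symm, mul_left_comm, hf]
  obtain ⟨z, hz⟩ := hr (1 - e)
  set u := twIdem hH O θ * z
  have hu : r u = f * (1 - e) := by rw [map_mul, hz]
  have hru : residO O θ u = 0 := by
    rw [← hres, hu, map_mul, map_sub, map_one, residO_twIdem, sub_self, mul_zero]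
  obtain ⟨y', hy'⟩ := exists_mul_eq_twIdem hH O θ (x := 1 - u)
    (by rw [map_sub, map_one, hru, sub_zero]; exact one_ne_zero)
  have h2 := congrArg r hy'
  rw [map_mul, map_sub, map_one, hu] at h2
  set w := f * (1 - e)
  have hw : w * w = w := by
    show f * (1 - e) * (f * (1 - e)) = _
    rw [mul_mul_mul_comm, hf, show (1 - e) * (1 - e) = 1 - e - e + e * e by ring, he,
      sub_add_cancel]
  have hfw : f * w = w := by rw [← mul_assoc, hf]
  have h3 := congrArg (· * w) h2
  simp only [mul_assoc, sub_mul, one_mul, hw, sub_self, mul_zero] at h3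
  rw [show r (twIdem hH O θ) * w = w from hfw] at h3
  calc f = f * e + w := by rw [← mul_add, add_sub_cancel, mul_one]
    _ = e := by rw [h1, ← h3, add_zero]

/-! ## `η` on a summand below the residual idempotent -/

variable {l : ℕ} (hl : l.Prime) (hlL : ¬ l ∣ L) (hlS : l ∉ S)

omit [IsDomain O] [IsDiscreteValuationRing O] [IsAdicComplete (maximalIdeal O) O] in
theorem actO_heckeT_sub :
    actO hH O (HeckeO.ofT O (heckeTR hl hlL hlS) - ((l + 1 : ℕ) : HeckeO L H S O))
      = TW.etaH O O hl hlL := by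
  rw [map_sub, map_natCast, HeckeO.ofT_apply, actO_tmul, homAction_heckeT, one_smul]
  refine LinearMap.ext fun v => ?_
  rw [LinearMap.sub_apply, Module.End.natCast_apply]
  rfl

variable {E : Module.End O (H1 L H O O)}

include hlS in
/-- `η` has no kernel below the residual idempotent. -/
theorem eq_zero_of_etaH_eq_zero (hθ : θ (heckeTR hl hlL hlS) ≠ ((l + 1 : ℕ) : ResidueField O))
    (hbelow : actO hH O (twIdem hH O θ) * E = E) {v : H1 L H O O} (hv : E v = v)
    (h : TW.etaH O O hl hlL v = 0) : v = 0 := by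
  obtain ⟨y, hy⟩ := exists_mul_eq_twIdem hH O θ
    (x := HeckeO.ofT O (heckeTR hl hlL hlS) - ((l + 1 : ℕ) : HeckeO L H S O))
    (by rw [map_sub, map_natCast, residO_ofT, sub_ne_zero]; exact hθ)
  rw [← hv, ← hbelow, Module.End.mul_apply, hv, ← hy, map_mul, Module.End.mul_apply,
    actO_heckeT_sub hH O hl hlL hlS, h, map_zero]

include hlS in
/-- `η` is bijective below the residual idempotent. -/
theorem bijective_etaE_below (hθ : θ (heckeTR hl hlL hlS) ≠ ((l + 1 : ℕ) : ResidueField O))
    (hE : ∀ z : HeckeO L H S O, Commute E (actO hH O z))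
    (hbelow : actO hH O (twIdem hH O θ) * E = E) (hidem : IsIdempotentElem E)
    (heη : Commute E (TW.etaH O O hl hlL)) : Function.Bijective (TW.etaE hl hlL heη) := by
  have hfix : ∀ v ∈ LinearMap.range E, E v = v := fun v hv => by
    obtain ⟨w, rfl⟩ := hv
    exact LinearMap.congr_fun hidem.eq w
  refine ⟨(injective_iff_map_eq_zero _).mpr fun v hv => Subtype.ext ?_, fun v => ?_⟩
  · exact eq_zero_of_etaH_eq_zero hH O θ hl hlL hlS hθ hbelow (hfix _ v.2) (congrArg Subtype.val hv)
  · obtain ⟨y, hy⟩ := exists_mul_eq_twIdem hH O θ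
      (x := HeckeO.ofT O (heckeTR hl hlL hlS) - ((l + 1 : ℕ) : HeckeO L H S O))
      (by rw [map_sub, map_natCast, residO_ofT, sub_ne_zero]; exact hθ)
    obtain ⟨w, hw⟩ := v.2
    refine ⟨⟨actO hH O y v.1, actO hH O y w, ?_⟩, Subtype.ext ?_⟩
    · rw [← hw, ← Module.End.mul_apply, (hE y).eq]
      rfl
    · show TW.etaH O O hl hlL (actO hH O y v.1) = v.1
      rw [← actO_heckeT_sub hH O hl hlL hlS, ← Module.End.mul_apply, ← map_mul, mul_comm, hy,
        ← hfix _ v.2, ← Module.End.mul_apply, hbelow]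

end MapIdem

/-! ## Restriction -/

variable {L : ℕ} [NeZero L] {H H' : Subgroup (ZMod L)ˣ} {S : Set ℕ}

section Restrict

variable (hH : (-1 : (ZMod L)ˣ) ∈ H) (hle : H ≤ H')

/-- Restriction commutes with the Hecke rings. -/
theorem resH1_homAction (R : Type) [CommRing R] (t : heckeRing L H S) (ψ : H1 L H' R R) :
    resH1 R R hle (homAction (hle hH) R R (heckeRes hle t) ψ)
      = homAction hH R R t (resH1 R R hle ψ) := by
  revert ψ
  suffices ∀ x ∈ Algebra.adjoin ℤ (heckeGens L H S), ∀ t : heckeRing L H S, t.1 = x →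
      ∀ ψ, resH1 R R hle (homAction (hle hH) R R (heckeRes hle t) ψ)
        = homAction hH R R t (resH1 R R hle ψ) from this t.1 t.2 t rfl
  intro x hx
  induction hx using Algebra.adjoin_induction with
  | mem x hx =>
    intro t ht ψ
    rcases hx with (⟨a, rfl⟩ | ⟨l, hl, hlN, hlS, rfl⟩) | ⟨q, hqN, hq, hqS, rfl⟩
    · obtain rfl : t = diamondR a := Subtype.ext (ht.trans (coe_diamondR a).symm)
      rw [heckeRes_diamond, homAction_diamond, homAction_diamond, resH1_diamondH]
    · obtain rfl : t = heckeTR hl hlN hlS := Subtype.ext (ht.trans (coe_heckeTR hl hlN hlS).symm)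
      rw [heckeRes_heckeT, homAction_heckeT, homAction_heckeT, resH1_heckeTH]
    · obtain rfl : t = heckeUR hq hqN hqS := Subtype.ext (ht.trans (coe_heckeUR hq hqN hqS).symm)
      rw [heckeRes_heckeU, homAction_heckeU, homAction_heckeU, resH1_heckeUH]
  | algebraMap n =>
    intro t ht ψ
    obtain rfl : t = (n : heckeRing L H S) := Subtype.ext <| ht.trans <| by
      rw [← eq_intCast (algebraMap ℤ (heckeRing L H S)) n, Subalgebra.coe_algebraMap]
    rw [map_intCast, map_intCast, map_intCast, Module.End.intCast_apply, Module.End.intCast_apply,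
      map_zsmul]
  | add x y hx hy ihx ihy =>
    intro t ht ψ
    obtain ⟨u, hu⟩ : ∃ u : heckeRing L H S, u.1 = x := ⟨⟨x, hx⟩, rfl⟩
    obtain ⟨v, hv⟩ : ∃ v : heckeRing L H S, v.1 = y := ⟨⟨y, hy⟩, rfl⟩
    obtain rfl : t = u + v := Subtype.ext (by rw [ht, AddMemClass.coe_add, hu, hv])
    simp only [map_add, LinearMap.add_apply, ihx u hu, ihy v hv]
  | mul x y hx hy ihx ihy =>
    intro t ht ψ
    obtain ⟨u, hu⟩ : ∃ u : heckeRing L H S, u.1 = x := ⟨⟨x, hx⟩, rfl⟩
    obtain ⟨v, hv⟩ : ∃ v : heckeRing L H S, v.1 = y := ⟨⟨y, hy⟩, rfl⟩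
    obtain rfl : t = u * v := Subtype.ext (by rw [ht, MulMemClass.coe_mul, hu, hv])
    simp only [map_mul, Module.End.mul_apply, ihx u hu, ihy v hv]

variable (O : Type) [CommRing O]

/-- Restriction of anemic Hecke rings, with coefficients. -/
def resO : HeckeO L H S O →ₐ[O] HeckeO L H' S O :=
  liftO O ((HeckeO.ofT O).comp (heckeRes hle))

theorem resO_mk (a : O) (t : heckeRing L H S) :
    resO hle O (HeckeO.mk O a t) = a • HeckeO.ofT O (heckeRes hle t) :=
  liftO_tmul O _ a t

theorem resO_ofT (t : heckeRing L H S) :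
    resO hle O (HeckeO.ofT O t) = HeckeO.ofT O (heckeRes hle t) := by
  rw [HeckeO.ofT_apply, resO_mk, one_smul]

theorem resO_diamondR (a : (ZMod L)ˣ) :
    resO (S := S) hle O (HeckeO.ofT O (diamondR a)) = HeckeO.ofT O (diamondR a) := by
  rw [resO_ofT, heckeRes_diamond]

theorem resO_heckeTR {l : ℕ} (hl : l.Prime) (hlL : ¬ l ∣ L) (hlS : l ∉ S) :
    resO hle O (HeckeO.ofT O (heckeTR hl hlL hlS)) = HeckeO.ofT O (heckeTR hl hlL hlS) := by
  rw [resO_ofT, heckeRes_heckeT]

theorem resO_twistedT (h : ℕ) {l : ℕ} (hl : l.Prime) (hlL : ¬ l ∣ L) (hlS : l ∉ S) :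
    resO hle O (HeckeO.ofT O (twistedT h hl hlL hlS))
      = HeckeO.ofT O (twistedT h hl hlL hlS) := by
  rw [resO_ofT, twistedT, map_mul, map_pow, heckeRes_diamond, heckeRes_heckeT]
  rfl

theorem resO_surjective : Function.Surjective (resO (S := S) hle O) := by
  intro x
  induction x using HeckeO.induction with
  | zero => exact ⟨0, map_zero _⟩
  | add x y hx hy =>
    obtain ⟨u, rfl⟩ := hx
    obtain ⟨v, rfl⟩ := hy
    exact ⟨u + v, map_add _ _ _⟩
  | mk a t =>
    obtain ⟨s, rfl⟩ := heckeRes_surjective hle t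
    refine ⟨HeckeO.mk O a s, ?_⟩
    rw [resO_mk, HeckeO.ofT_apply]
    show a • ((1 : O) ⊗ₜ[ℤ] _ : O ⊗[ℤ] heckeRing L H' S) = a ⊗ₜ[ℤ] _
    rw [TensorProduct.smul_tmul', smul_eq_mul, mul_one]

/-- **Restriction intertwines the two actions.** -/
theorem resH1_actO (x : HeckeO L H S O) (ψ : H1 L H' O O) :
    resH1 O O hle (actO (hle hH) O (resO hle O x) ψ) = actO hH O x (resH1 O O hle ψ) := by
  induction x using HeckeO.induction with
  | zero => simp
  | add x y hx hy => simp only [map_add, LinearMap.add_apply, hx, hy]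
  | mk a t =>
    rw [resO_mk, map_smul, HeckeO.ofT_apply, actO_tmul, actO_tmul, one_smul, LinearMap.smul_apply,
      map_smul, resH1_homAction, LinearMap.smul_apply]

variable [IsDomain O] [IsDiscreteValuationRing O] (θ' : heckeRing L H' S →+* ResidueField O)

theorem residO_resO (x : HeckeO L H S O) :
    residO O θ' (resO hle O x) = residO O (θ'.comp (heckeRes hle)) x := by
  induction x using HeckeO.induction with
  | zero => simp
  | add x y hx hy => simp only [map_add, hx, hy]
  | mk a t =>
    rw [resO_mk, Algebra.smul_def, map_mul, residO_algebraMap, HeckeO.ofT_apply, residO_tmul,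
      residO_tmul, map_one, one_mul, RingHom.comp_apply]

variable [IsAdicComplete (maximalIdeal O) O]

/-- **The residual idempotents correspond.** -/
theorem resO_twIdem :
    resO hle O (twIdem hH O (θ'.comp (heckeRes hle))) = twIdem (hle hH) O θ' :=
  map_twIdem hH (hle hH) O _ θ' (resO hle O) (resO_surjective hle O) (residO_resO hle O θ')

theorem resH1_twIdem (ψ : H1 L H' O O) :
    resH1 O O hle (actO (hle hH) O (twIdem (hle hH) O θ') ψ)
      = actO hH O (twIdem hH O (θ'.comp (heckeRes hle))) (resH1 O O hle ψ) := by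
  rw [← resH1_actO, resO_twIdem]

end Restrict

omit [NeZero L] in
/-- The unit parts of compatible operators are compatible. -/
theorem resH1_unitPart {R : Type} [CommRing R] [IsLocalRing R] [IsNoetherianRing R]
    [IsAdicComplete (maximalIdeal R) R] [Module.Finite R (H1 L H R R)]
    [Module.Finite R (H1 L H' R R)] (hle : H ≤ H') {t : Module.End R (H1 L H R R)}
    {t' : Module.End R (H1 L H' R R)}
    (h : ∀ ψ, resH1 R R hle (t' ψ) = t (resH1 R R hle ψ)) (ψ : H1 L H' R R) :
    resH1 R R hle (unitPart t' ψ) = unitPart t (resH1 R R hle ψ) :=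
  unitPart_natural (resH1 R R hle) h ψ

omit [NeZero L] in
/-- Products of compatible operators are compatible. -/
theorem resH1_mul {R : Type} [CommRing R] (hle : H ≤ H') {s t : Module.End R (H1 L H R R)}
    {s' t' : Module.End R (H1 L H' R R)}
    (hs : ∀ ψ, resH1 R R hle (s' ψ) = s (resH1 R R hle ψ))
    (ht : ∀ ψ, resH1 R R hle (t' ψ) = t (resH1 R R hle ψ)) (ψ : H1 L H' R R) :
    resH1 R R hle ((s' * t') ψ) = (s * t) (resH1 R R hle ψ) := by
  rw [Module.End.mul_apply, hs, ht, Module.End.mul_apply]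

/-! ## Invariants and coinvariants -/

section Coinv

variable {R : Type} [CommRing R] {e : Module.End R (H1 L H R R)}
  (hec : ∀ b : Dl H H', Commute e (actH1 H H' R R b)) (he : IsIdempotentElem e) {l : ℕ} [NeZero l]
  (hl : l.Prime) (hlM : ¬ l ∣ L) (heη : Commute e (etaH R R hl hlM))
  (hl1 : (l : ZMod L) = 1) (hH : (-1 : (ZMod L)ˣ) ∈ H) (hle : H ≤ H')
  (hfree : ∀ g ∈ GammaH.GammaH L H', g ^ 12 = 1 → g ∈ GammaH.GammaH L H)
  (hbij : Function.Bijective (etaE hl hlM heη))
  {e' : Module.End R (H1 L H' R R)} (he' : IsIdempotentElem e')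
  (hres : ∀ ψ, resH1 R R hle (e' ψ) = e (resH1 R R hle ψ))
  (hinj : ∀ ψ, e' ψ = ψ → etaH R R hl hlM ψ = 0 → ψ = 0)

include hinj in
/-- Restriction is injective on the larger summand. -/
theorem eq_of_resH1_eq {x y : H1 L H' R R} (hx : e' x = x) (hy : e' y = y)
    (h : resH1 R R hle x = resH1 R R hle y) : x = y := by
  refine sub_eq_zero.mp (hinj _ (by rw [map_sub, hx, hy])
    (etaH_eq_zero_of_resH1_eq_zero hl hlM hle _ ?_))
  rw [map_sub, h, sub_self]

include hinj he' in
theorem eq_zero_iff_resH1 (u : LinearMap.range e') :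
    u = 0 ↔ resH1 R R hle (u : H1 L H' R R) = 0 := by
  refine ⟨fun h => ?_, fun h => Subtype.ext ?_⟩
  · rw [h, ZeroMemClass.coe_zero, map_zero]
  · obtain ⟨w, hw⟩ := u.2
    refine eq_of_resH1_eq hl hlM hle hinj ?_ (map_zero e') (h.trans (map_zero _).symm)
    rw [← hw, ← Module.End.mul_apply, he'.eq]

include hec in
theorem coe_normElem_smul [Fintype (Dl H H')] (v : (eRep hec).asModule) :
    (((eRep hec).asModuleEquiv (normElem R (Dl H H') • v) : LinearMap.range e) : H1 L H R R)
      = ∑ b, actH1 H H' R R b ((eRep hec).asModuleEquiv v : H1 L H R R) := by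
  rw [normElem, Finset.sum_smul, map_sum, Submodule.coe_sum]
  refine Finset.sum_congr rfl fun b _ => ?_
  rw [single_smul_eRep, LinearEquiv.apply_symm_apply, coe_eRep]

include hec he hl1 hH hfree hbij he' hres hinj in
/-- **Coinvariants.** The norm onto the larger summand. -/
theorem exists_coinvMap [IsLocalRing R] [Fintype (Dl H H')] {p : ℕ} [Fact p.Prime]
    (hpG : IsPGroup p (Dl H H')) (hp : (p : R) ∈ maximalIdeal R) :
    ∃ ψ : LinearMap.range e →ₗ[R] LinearMap.range e', Function.Surjective ψ ∧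
      (∀ v, resH1 R R hle (ψ v : H1 L H' R R) = ∑ b, actH1 H H' R R b (v : H1 L H R R)) ∧
      ∀ v, ψ v = 0 ↔ ∑ b, actH1 H H' R R b (v : H1 L H R R) = 0 := by
  obtain ⟨hfr, -⟩ := free_range hec he hl hlM heη hl1 hH hle hfree hbij hpG hp
  obtain ⟨E, hE⟩ := exists_fixedEquiv hec he hl hlM heη hl1 hH hle hfree hbij he' hres hinj
  let mulN : (eRep hec).asModule →ₗ[R] (eRep hec).asModule :=
    (LinearMap.lsmul (MonoidAlgebra R (Dl H H')) (eRep hec).asModule
      (normElem R (Dl H H'))).restrictScalars R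
  let nrm : LinearMap.range e →ₗ[R] fixedPts R (Dl H H') (eRep hec).asModule :=
    (mulN ∘ₗ (eRep hec).asModuleEquiv.symm.toLinearMap).codRestrict _ fun v g => by
      show MonoidAlgebra.single g (1 : R) • normElem R (Dl H H') • (eRep hec).asModuleEquiv.symm v
        = normElem R (Dl H H') • (eRep hec).asModuleEquiv.symm v
      exact (smul_smul _ _ _).trans
        (congrArg (· • (eRep hec).asModuleEquiv.symm v) (single_mul_normElem g))
  have hn : ∀ v, (nrm v).1 = normElem R (Dl H H') • (eRep hec).asModuleEquiv.symm v := fun v => rfl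
  have hval : ∀ v : LinearMap.range e, resH1 R R hle (E.symm (nrm v) : H1 L H' R R)
      = ∑ b, actH1 H H' R R b (v : H1 L H R R) := fun v => by
    rw [← hE, E.apply_symm_apply]
    exact coe_normElem_smul hec _
  refine ⟨E.symm.toLinearMap ∘ₗ nrm, fun y => ?_, hval, fun v => ?_⟩
  · obtain ⟨w, hw⟩ := (fixed_iff_of_free (R := R) (E y).1).mp (E y).2
    refine ⟨(eRep hec).asModuleEquiv w, ?_⟩
    show E.symm (nrm _) = y
    rw [E.symm_apply_eq]
    exact Subtype.ext ((hn _).trans ((congrArg (normElem R (Dl H H') • ·)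
      ((eRep hec).asModuleEquiv.symm_apply_apply w)).trans hw.symm))
  · have h0 := eq_zero_iff_resH1 hl hlM hle he' hinj (E.symm (nrm v))
    exact h0.trans ⟨fun h => (hval v).symm.trans h, fun h => (hval v).trans h⟩

include hinj he' in
/-- The norm map commutes with compatible operators. -/
theorem coinvMap_comm [Fintype (Dl H H')] {ψ : LinearMap.range e →ₗ[R] LinearMap.range e'}
    (hψ : ∀ v, resH1 R R hle (ψ v : H1 L H' R R) = ∑ b, actH1 H H' R R b (v : H1 L H R R))
    {t : Module.End R (H1 L H R R)} {t' : Module.End R (H1 L H' R R)}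
    (ht : ∀ φ, resH1 R R hle (t' φ) = t (resH1 R R hle φ)) (ht' : Commute e' t')
    (htd : ∀ b : Dl H H', Commute t (actH1 H H' R R b)) (v w : LinearMap.range e)
    (hw : (w : H1 L H R R) = t v) : (ψ w : H1 L H' R R) = t' (ψ v : H1 L H' R R) := by
  have hfix : ∀ u : LinearMap.range e', e' (u : H1 L H' R R) = u := fun u => by
    obtain ⟨x, hx⟩ := u.2
    rw [← hx, ← Module.End.mul_apply, he'.eq]
  refine eq_of_resH1_eq hl hlM hle hinj (hfix _) ?_ ?_
  · rw [← Module.End.mul_apply, ht'.eq, Module.End.mul_apply, hfix]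
  · rw [ht, hψ, hψ, map_sum, hw]
    exact Finset.sum_congr rfl fun b _ => (LinearMap.congr_fun (htd b).eq _).symm

include hec he hl1 hH hfree hbij hres hinj he' in
/-- **Ranks.** -/
theorem exists_basis_and_finrank [IsLocalRing R] [Fintype (Dl H H')] {p : ℕ} [Fact p.Prime]
    (hpG : IsPGroup p (Dl H H')) (hp : (p : R) ∈ maximalIdeal R) :
    ∃ d : ℕ, Nonempty (Module.Basis (Fin d) (MonoidAlgebra R (Dl H H')) (eRep hec).asModule) ∧
      Module.finrank R (LinearMap.range e') = d ∧
      Module.finrank R (LinearMap.range e) = Fintype.card (Dl H H') * d := by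
  obtain ⟨d, ⟨b⟩, ⟨f⟩⟩ :=
    exists_basis_range hec he hl hlM heη hl1 hH hle hfree hbij hpG hp he' hres hinj
  refine ⟨d, ⟨b⟩, ?_, ?_⟩
  · rw [← f.finrank_eq, Module.finrank_fin_fun]
  · have : Module.Free (MonoidAlgebra R (Dl H H')) (eRep hec).asModule := Module.Free.of_basis b
    rw [← (eRep hec).asModuleEquiv.finrank_eq,
      ← Module.finrank_mul_finrank R (MonoidAlgebra R (Dl H H')) (eRep hec).asModule,
      Module.finrank_eq_card_basis b, Fintype.card_fin,
      Module.finrank_eq_card_basis (MonoidAlgebra.basis (Dl H H') R)]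

end Coinv

end Fermat.Agent.IharaTW
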